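import Fermat.Agent.S24.AnDefs

/-! # S24-B3a : basic properties of the analytic `j`-function -/

set_option autoImplicit false

namespace Fermat.Agent.S24

open UpperHalfPlane ModularForm Filter Function ModularGroup
open scoped MatrixGroups Manifold Topology
attribute [local instance] algQbarComplex
local notation "𝕢" => Periodic.qParam

theorem discriminant_mdiff : MDiff discriminant := CuspForm.discriminant.holo'

theorem E4_smul (γ : SL(2, ℤ)) (τ : ℍ) : E₄ (γ • τ) = denom γ τ ^ (4 : ℤ) * E₄ τ :=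
  SlashInvariantForm.slash_action_eqn'' (Γ := 𝒮ℒ) E₄ (γ := (γ : GL (Fin 2) ℝ)) ⟨γ, rfl⟩ τ

theorem E6_smul (γ : SL(2, ℤ)) (τ : ℍ) : E₆ (γ • τ) = denom γ τ ^ (6 : ℤ) * E₆ τ :=
  SlashInvariantForm.slash_action_eqn'' (Γ := 𝒮ℒ) E₆ (γ := (γ : GL (Fin 2) ℝ)) ⟨γ, rfl⟩ τ

theorem discriminant_smul (γ : SL(2, ℤ)) (τ : ℍ) :
    discriminant (γ • τ) = denom γ τ ^ (12 : ℤ) * discriminant τ :=
  SlashInvariantForm.slash_action_eqn'' (Γ := 𝒮ℒ) CuspForm.discriminant
    (γ := (γ : GL (Fin 2) ℝ)) ⟨γ, rfl⟩ τ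

theorem jFun_mdiff : MDiff jFun :=
  (E₄.holo'.pow 3).div discriminant_mdiff discriminant_ne_zero

theorem jFun_smul (γ : SL(2, ℤ)) (τ : ℍ) : jFun (γ • τ) = jFun τ := by
  unfold jFun
  rw [E4_smul, discriminant_smul]
  have h := denom_ne_zero γ τ
  have h2 := discriminant_ne_zero τ
  field_simp

theorem jFun_sub_eq (τ : ℍ) : jFun τ - 1728 = (E₆ τ) ^ 2 / discriminant τ := by
  unfold jFun
  have h2 := discriminant_ne_zero τ
  have h := discriminant_eq_E₄_cube_sub_E₆_sq τ
  field_simp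
  rw [h]
  ring

theorem S_smul_I : (S : SL(2, ℤ)) • UpperHalfPlane.I = UpperHalfPlane.I := by
  rw [UpperHalfPlane.modular_S_smul]
  ext
  simp

theorem rho_coe : (rho : ℂ) = -1 / 2 + (Real.sqrt 3 / 2 : ℝ) * Complex.I := rfl

theorem rho_sq : (rho : ℂ) ^ 2 + rho + 1 = 0 := by
  have h3 : ((Real.sqrt 3 : ℝ) : ℂ) ^ 2 = 3 := by
    rw [← Complex.ofReal_pow, Real.sq_sqrt (by norm_num)]; norm_num
  rw [rho_coe]
  push_cast
  ring_nf
  rw [Complex.I_sq, h3]
  ring

theorem ST_smul_rho : (S * T : SL(2, ℤ)) • rho = rho := by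
  rw [mul_smul, UpperHalfPlane.modular_T_smul, UpperHalfPlane.modular_S_smul]
  ext
  simp only [coe_vadd]
  have h := rho_sq
  have hne : ((1 : ℝ) : ℂ) + (rho : ℂ) ≠ 0 := by
    intro h0
    have : (rho : ℂ) = -1 := by push_cast at h0; linear_combination h0
    rw [this] at h
    norm_num at h
  rw [inv_eq_iff_eq_inv, eq_comm, inv_eq_of_mul_eq_one_left]
  push_cast
  linear_combination (-1 : ℂ) * h

theorem tendsto_levelOne {k : ℤ} (f : ModularForm 𝒮ℒ k) :
    Tendsto f atImInfty (𝓝 ((qExpansion 1 f).coeff 0)) := by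
  have hper := SlashInvariantFormClass.periodic_comp_ofComplex f one_mem_strictPeriods_SL
  have han := ModularFormClass.analyticAt_cuspFunction_zero f one_pos one_mem_strictPeriods_SL
  have h0 : (qExpansion 1 f).coeff 0 = cuspFunction 1 f 0 := by
    simp [qExpansion_coeff]
  rw [h0]
  have : (cuspFunction 1 f ∘ fun τ ↦ 𝕢 1 τ : ℍ → ℂ) = f := by
    funext τ
    simpa using eq_cuspFunction τ one_ne_zero hper
  simpa [this] using han.continuousAt.tendsto.comp (qParam_tendsto_atImInfty one_pos)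

theorem tendsto_E4 : Tendsto E₄ atImInfty (𝓝 1) := by
  simpa [EisensteinSeries.E_qExpansion_coeff_zero _ ⟨2, rfl⟩] using tendsto_levelOne E₄

theorem tendsto_E6 : Tendsto E₆ atImInfty (𝓝 1) := by
  simpa [EisensteinSeries.E_qExpansion_coeff_zero _ ⟨3, rfl⟩] using tendsto_levelOne E₆

theorem tendsto_jFun_mul_q : Tendsto (fun τ : ℍ => jFun τ * 𝕢 1 τ) atImInfty (𝓝 1) := by
  have h1 : Tendsto (fun τ : ℍ => (E₄ τ) ^ 3 / ∏' (n : ℕ), (1 - eta_q n τ) ^ 24) atImInfty
      (𝓝 (1 ^ 3 / 1)) :=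
    (tendsto_E4.pow 3).div tendsto_atImInfty_tprod_one_sub_eta_q_pow one_ne_zero
  simp only [one_pow, div_one] at h1
  refine h1.congr fun τ => ?_
  unfold jFun
  have h2 := discriminant_ne_zero τ
  rw [discriminant_eq_q_prod] at h2 ⊢
  have h3 := left_ne_zero_of_mul h2
  have h4 := right_ne_zero_of_mul h2
  field_simp

theorem E6_I : E₆ UpperHalfPlane.I = 0 := by
  have h := E6_smul S UpperHalfPlane.I
  rw [S_smul_I] at h
  have hd : denom (S : SL(2, ℤ)) UpperHalfPlane.I = Complex.I := by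
    rw [ModularGroup.denom_S]; rfl
  rw [hd] at h
  have h6 : (Complex.I : ℂ) ^ (6 : ℤ) = -1 := by
    have : (Complex.I : ℂ) ^ (6 : ℕ) = -1 := by
      rw [show (6 : ℕ) = 2 * 3 by norm_num, pow_mul, Complex.I_sq]; norm_num
    exact_mod_cast this
  rw [h6] at h
  have h2 : (2 : ℂ) * E₆ UpperHalfPlane.I = 0 := by linear_combination h
  simpa using h2

theorem jFun_I : jFun UpperHalfPlane.I = 1728 := by
  have h := jFun_sub_eq UpperHalfPlane.I
  rw [E6_I] at h
  simp at h
  linear_combination h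

theorem E4_rho : E₄ rho = 0 := by
  have h := E4_smul (S * T) rho
  rw [ST_smul_rho] at h
  have hd : denom ((S * T : SL(2, ℤ))) rho = (rho : ℂ) + 1 := by
    rw [ModularGroup.denom_apply]
    simp [ModularGroup.coe_S, ModularGroup.coe_T, Matrix.mul_apply, Fin.sum_univ_two]
  rw [hd] at h
  have hr := rho_sq
  have h4 : ((rho : ℂ) + 1) ^ (4 : ℤ) = (rho : ℂ) ^ 2 := by
    have : ((rho : ℂ) + 1) ^ (4 : ℕ) = (rho : ℂ) ^ 2 := by
      linear_combination ((rho : ℂ) ^ 2 + 3 * rho + 1) * hr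
    exact_mod_cast this
  rw [h4] at h
  have hne : (1 : ℂ) - (rho : ℂ) ^ 2 ≠ 0 := by
    intro h0
    have h1 : (rho : ℂ) = -2 := by linear_combination hr + h0
    rw [h1] at hr
    norm_num at hr
  have h2 : ((1 : ℂ) - (rho : ℂ) ^ 2) * E₄ rho = 0 := by linear_combination h
  exact (mul_eq_zero.mp h2).resolve_left hne

theorem jFun_rho : jFun rho = 0 := by
  simp [jFun, E4_rho]

/-- Bundle a holomorphic, `SL(2,ℤ)`-invariant function, bounded at `i∞`. -/
noncomputable def mkWeightZero (g : ℍ → ℂ) (hol : MDiff g)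
    (inv : ∀ γ : SL(2, ℤ), g ∣[(0 : ℤ)] γ = g) (bdd : IsBoundedAtImInfty g) :
    ModularForm 𝒮ℒ 0 where
  toFun := g
  slash_action_eq' := by
    rintro _ ⟨γ, rfl⟩
    exact inv γ
  holo' := hol
  bdd_at_cusps' {c} hc := by
    rw [Subgroup.IsArithmetic.isCusp_iff_isCusp_SL2Z] at hc
    rw [OnePoint.isBoundedAt_iff_forall_SL2Z hc]
    exact fun γ _ => by rw [inv γ]; exact bdd

theorem jFun_surjective : Function.Surjective jFun := by
  intro c
  by_contra hc
  push Not at hc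
  have hne : ∀ τ : ℍ, (E₄ τ) ^ 3 - c * discriminant τ ≠ 0 := by
    intro τ h0
    apply hc τ
    unfold jFun
    rw [div_eq_iff (discriminant_ne_zero τ)]
    linear_combination h0
  set g : ℍ → ℂ := discriminant / (fun τ : ℍ => (E₄ τ) ^ 3 - c * discriminant τ) with hg
  have hol : MDiff g :=
    discriminant_mdiff.div ((E₄.holo'.pow 3).sub (mdifferentiable_const.mul discriminant_mdiff)) hne
  have hsm : ∀ (γ : SL(2, ℤ)) (τ : ℍ), g (γ • τ) = g τ := by
    intro γ τ
    have h1 := hne τ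
    have h2 := denom_ne_zero γ τ
    simp only [hg, Pi.div_apply]
    rw [E4_smul, discriminant_smul]
    have h3 : (denom γ τ ^ (4 : ℤ) * E₄ τ) ^ 3 - c * (denom γ τ ^ (12 : ℤ) * discriminant τ)
        = denom γ τ ^ (12 : ℤ) * ((E₄ τ) ^ 3 - c * discriminant τ) := by
      have : (denom γ τ ^ (4 : ℤ)) ^ 3 = denom γ τ ^ (12 : ℤ) := by
        rw [← zpow_natCast, ← zpow_mul]; norm_num
      rw [mul_pow, this]; ring
    rw [h3, mul_div_mul_left _ _ (zpow_ne_zero _ h2)]
  have inv : ∀ γ : SL(2, ℤ), g ∣[(0 : ℤ)] γ = g := by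
    intro γ
    ext τ
    rw [SL_slash_apply, hsm]
    simp
  have hlim : Tendsto g atImInfty (𝓝 0) := by
    have h1 : Tendsto (fun τ : ℍ => (E₄ τ) ^ 3 - c * discriminant τ) atImInfty
        (𝓝 (1 ^ 3 - c * 0)) :=
      (tendsto_E4.pow 3).sub (discriminant_isZeroAtImInfty.const_mul c)
    have := Tendsto.div discriminant_isZeroAtImInfty h1 (by norm_num)
    simpa using this
  have bdd : IsBoundedAtImInfty g := IsZeroAtImInfty.isBoundedAtImInfty hlim
  obtain ⟨a, ha⟩ := ModularFormClass.levelOne_weight_zero_const (mkWeightZero g hol inv bdd)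
  have ha' : g = Function.const _ a := ha
  have ha0 : a = 0 := by
    rw [ha'] at hlim
    exact tendsto_nhds_unique tendsto_const_nhds hlim
  have := congrFun ha' UpperHalfPlane.I
  rw [ha0] at this
  simp only [hg, Pi.div_apply, Function.const_apply, div_eq_zero_iff] at this
  rcases this with h | h
  · exact discriminant_ne_zero _ h
  · exact hne _ h

end Fermat.Agent.S24
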