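import Fermat.Agent.S24.Hermite
import Fermat.Agent.S24.JBasic

/-!
# S24 / B6b, arithmetic half : `Γ₀(N)`-invariance of `funAlg N`, stabiliser of `j(Nτ)`
-/

set_option autoImplicit false

namespace Fermat.Agent.S24

open UpperHalfPlane ModularForm Filter Function ModularGroup
open scoped MatrixGroups Manifold Topology
attribute [local instance] algQbarComplex
local notation "𝕢" => Periodic.qParam

/-- `j` is invariant under integer translations (in `ofComplex` form). -/
theorem jFun_ofComplex_add_int (z : ℂ) (hz : 0 < z.im) (b : ℤ) :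
    jFun (ofComplex (z + b)) = jFun (ofComplex z) := by
  have h : ofComplex (z + b) = (T ^ b : SL(2, ℤ)) • ofComplex z := by
    apply UpperHalfPlane.ext
    rw [ModularGroup.coe_T_zpow_smul_eq, ofComplex_apply_of_im_pos hz,
      ofComplex_apply_of_im_pos (by simpa using hz)]
  rw [h, jFun_smul]

theorem jFunD_invariant {N d : ℕ} [NeZero N] (hd : d ∣ N) (γ : SL(2, ℤ))
    (hγ : γ ∈ CongruenceSubgroup.Gamma0 N) (τ : ℍ) : jFunD d (γ • τ) = jFunD d τ := by
  have hd0 : 0 < d := Nat.pos_of_dvd_of_pos hd (NeZero.pos N)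
  obtain ⟨a, b, e, ha, he, hae, hgcd, h⟩ := jFunD_smul_eq d hd0 γ
  have hN : (N : ℤ) ∣ γ 1 0 := by
    rw [CongruenceSubgroup.Gamma0_mem] at hγ
    exact (ZMod.intCast_zmod_eq_zero_iff_dvd _ _).1 hγ
  have hdr : (d : ℤ) ∣ γ 1 0 := (Int.natCast_dvd_natCast.2 hd).trans hN
  have ha' : a = d := by
    rw [hgcd, Int.gcd_eq_left (by positivity) hdr] 
  have he' : e = 1 := by
    rw [ha'] at hae
    have hd' : (d : ℤ) ≠ 0 := by exact_mod_cast hd0.ne'
    exact mul_left_cancel₀ hd' (by rw [hae, mul_one])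
  rw [h τ, ha', he']
  have : (((d : ℤ) : ℂ) * (τ : ℂ) + (b : ℂ)) / ((1 : ℤ) : ℂ) = (d : ℂ) * τ + b := by simp
  rw [this, jFun_ofComplex_add_int _ _ b]
  · rfl
  · have := τ.im_pos
    have hd'' : (0 : ℝ) < d := by exact_mod_cast hd0
    simpa using mul_pos hd'' this

theorem funAlg_invariant {N : ℕ} [NeZero N] {θ : ℍ → ℂ} (hθ : θ ∈ funAlg N) (γ : SL(2, ℤ))
    (hγ : γ ∈ CongruenceSubgroup.Gamma0 N) (τ : ℍ) : θ (γ • τ) = θ τ := by
  induction hθ using Algebra.adjoin_induction with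
  | mem x hx =>
    obtain ⟨d, hd, rfl⟩ := hx
    exact jFunD_invariant hd γ hγ τ
  | algebraMap r => rfl
  | add x y _ _ hx hy => rw [Pi.add_apply, Pi.add_apply, hx, hy]
  | mul x y _ _ hx hy => rw [Pi.mul_apply, Pi.mul_apply, hx, hy]

namespace Hermite

theorem line_im (a b e : ℤ) (t : ℝ) :
    (((a : ℂ) * (t * Complex.I) + b) / e).im = a * t / e := by
  have h : (((a : ℂ) * (t * Complex.I) + b) / e)
      = (((a : ℝ) : ℂ) * (t * Complex.I) + ((b : ℝ) : ℂ)) / ((e : ℝ) : ℂ) := by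
    push_cast; ring
  rw [h, Complex.div_ofReal_im]
  simp

/-- Growth of `j` along the line `t ↦ (a i t + b) / e`. -/
theorem tendsto_norm_jFun_line (a b e : ℤ) (ha : 0 < a) (he : 0 < e) :
    Tendsto (fun t : ℝ => ‖jFun (ofComplex (((a : ℂ) * (t * Complex.I) + b) / e))‖ *
      Real.exp (-2 * Real.pi * (a * t / e))) atTop (𝓝 1) := by
  have haR : (0 : ℝ) < a := by exact_mod_cast ha
  have heR : (0 : ℝ) < e := by exact_mod_cast he
  have him : ∀ t : ℝ, 0 < t → 0 < (((a : ℂ) * (t * Complex.I) + b) / e).im := by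
    intro t ht
    rw [line_im]
    positivity
  have h1 : Tendsto (fun t : ℝ => ofComplex (((a : ℂ) * (t * Complex.I) + b) / e)) atTop
      atImInfty := by
    rw [atImInfty, tendsto_comap_iff]
    have h2 : Tendsto (fun t : ℝ => a * t / e) atTop atTop := by
      have : (fun t : ℝ => a * t / e) = fun t : ℝ => (a / e : ℝ) * t := by
        funext t; ring
      rw [this]
      exact Tendsto.const_mul_atTop (by positivity) tendsto_id
    refine h2.congr' ?_
    filter_upwards [eventually_gt_atTop 0] with t ht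
    rw [Function.comp_apply, ofComplex_apply_of_im_pos (him t ht)]
    exact (line_im a b e t).symm
  have h3 := (tendsto_jFun_mul_q.comp h1).norm
  rw [norm_one] at h3
  refine h3.congr' ?_
  filter_upwards [eventually_gt_atTop 0] with t ht
  rw [Function.comp_apply, norm_mul, Periodic.norm_qParam]
  congr 2
  rw [ofComplex_apply_of_im_pos (him t ht)]
  change -2 * Real.pi * (((a : ℂ) * (t * Complex.I) + b) / e).im / 1 = _
  rw [line_im, div_one]

theorem eq_zero_of_tendsto_exp {c : ℝ} (h : Tendsto (fun t : ℝ => Real.exp (c * t)) atTop (𝓝 1)) :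
    c = 0 := by
  have h1 : Tendsto (fun t : ℝ => c * t) atTop (𝓝 0) := by
    have := (Real.continuousAt_log one_ne_zero).tendsto.comp h
    simpa [Function.comp_def] using this
  have h2 : Tendsto (fun t : ℝ => (c * t) * t⁻¹) atTop (𝓝 (0 * 0)) := h1.mul tendsto_inv_atTop_zero
  rw [mul_zero] at h2
  have h3 : Tendsto (fun _ : ℝ => c) atTop (𝓝 0) := by
    refine h2.congr' ?_
    filter_upwards [eventually_gt_atTop 0] with t ht
    field_simp
  exact tendsto_nhds_unique tendsto_const_nhds h3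

end Hermite

theorem mem_Gamma0_of_jFunD_smul {N : ℕ} [NeZero N] (g : SL(2, ℤ))
    (h : ∀ τ : ℍ, jFunD N (g • τ) = jFunD N τ) : g ∈ CongruenceSubgroup.Gamma0 N := by
  have hN0 : 0 < N := NeZero.pos N
  obtain ⟨a, b, e, ha, he, hae, hgcd, hj⟩ := jFunD_smul_eq N hN0 g
  have haR : (0 : ℝ) < a := by exact_mod_cast ha
  have heR : (0 : ℝ) < e := by exact_mod_cast he
  have hNZ : (0 : ℤ) < (N : ℤ) := by exact_mod_cast hN0
  have h1 := Hermite.tendsto_norm_jFun_line a b e ha he
  have h2 := Hermite.tendsto_norm_jFun_line N 0 1 hNZ one_pos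
  have hJ : ∀ t : ℝ, 0 < t → jFun (ofComplex (((a : ℂ) * (t * Complex.I) + b) / e))
      = jFun (ofComplex ((((N : ℤ) : ℂ) * (t * Complex.I) + (0 : ℤ)) / (1 : ℤ))) := by
    intro t ht
    have him : 0 < ((t : ℂ) * Complex.I).im := by simpa using ht
    have := (hj ⟨(t : ℂ) * Complex.I, him⟩).symm.trans (h ⟨(t : ℂ) * Complex.I, him⟩)
    rw [UpperHalfPlane.coe_mk] at this
    rw [this]
    unfold jFunD
    rw [UpperHalfPlane.coe_mk]
    congr 2
    simp
  have h3 := h1.div h2 one_ne_zero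
  rw [div_one] at h3
  have hc : 2 * Real.pi * ((N : ℤ) * 1 / (1 : ℤ) - a / e : ℝ) = 0 := by
    apply Hermite.eq_zero_of_tendsto_exp
    refine h3.congr' ?_
    have hne : ∀ᶠ t : ℝ in atTop, ‖jFun (ofComplex ((((N : ℤ) : ℂ) * (t * Complex.I) + (0 : ℤ)) /
        (1 : ℤ)))‖ * Real.exp (-2 * Real.pi * ((N : ℤ) * t / (1 : ℤ))) ≠ 0 :=
      h2.eventually_ne one_ne_zero
    filter_upwards [eventually_gt_atTop 0, hne] with t ht hne
    rw [Pi.div_apply, hJ t ht]
    have hn : ‖jFun (ofComplex ((((N : ℤ) : ℂ) * (t * Complex.I) + (0 : ℤ)) / (1 : ℤ)))‖ ≠ 0 :=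
      left_ne_zero_of_mul hne
    rw [mul_div_mul_left _ _ hn, ← Real.exp_sub]
    congr 1
    ring
  have hc' : ((N : ℝ) - a / e) = 0 := by
    have hpi : (2 * Real.pi) ≠ 0 := by positivity
    have := (mul_eq_zero.1 hc).resolve_left hpi
    simpa using this
  have hNe : (N : ℝ) * e = a := by
    field_simp at hc'
    linarith
  have hNe' : (N : ℤ) * e = a := by exact_mod_cast hNe
  have he1 : e = 1 := by
    have h4 : a * (e * e) = a * 1 := by
      calc a * (e * e) = (a * e) * e := by ring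
        _ = a * 1 := by rw [hae, hNe', mul_one]
    have h5 : e * e = 1 := mul_left_cancel₀ ha.ne' h4
    nlinarith
  have haN : a = N := by rw [← hNe', he1, mul_one]
  rw [CongruenceSubgroup.Gamma0_mem, ZMod.intCast_zmod_eq_zero_iff_dvd]
  have : (a : ℤ) ∣ g 1 0 := by
    rw [hgcd]; exact Int.gcd_dvd_right _ _
  rwa [haN] at this

end Fermat.Agent.S24
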