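import Fermat.Agent.S24.Hermite
import Fermat.Agent.S24.JBasic

/-!
# S24 / B6b (analytic half) : growth and meromorphy at the cusps of the functions in `funAlg N`
-/

set_option autoImplicit false

namespace Fermat.Agent.S24

open UpperHalfPlane ModularForm Filter Function ModularGroup
open scoped MatrixGroups Manifold Topology
attribute [local instance] algQbarComplex
local notation "𝕢" => Periodic.qParam

/-- `j` as a function of `q = e^{2πiτ}`. -/
noncomputable def jCusp (q : ℂ) : ℂ := jFun (ofComplex (Periodic.invQParam 1 q))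

theorem jFun_periodic : Periodic (jFun ∘ ofComplex) 1 := by
  intro z
  simp only [comp_apply]
  by_cases hz : 0 < z.im
  · have hz' : 0 < (z + 1).im := by simpa using hz
    rw [ofComplex_apply_of_im_pos hz, ofComplex_apply_of_im_pos hz', ← jFun_smul T ⟨z, hz⟩]
    congr 1
    ext
    rw [modular_T_smul]
    simp [add_comm]
  · have hz' : ¬ 0 < (z + 1).im := by simpa using hz
    rw [ofComplex_apply_of_im_nonpos (not_lt.1 hz), ofComplex_apply_of_im_nonpos (not_lt.1 hz')]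

theorem jFun_eq_jCusp (τ : ℍ) : jFun τ = jCusp (𝕢 1 τ) := by
  have h1 := Periodic.eq_cuspFunction (h := 1) one_ne_zero jFun_periodic (τ : ℂ)
  rw [Periodic.cuspFunction_eq_of_nonzero _ _ (Periodic.qParam_ne_zero _)] at h1
  simp only [comp_apply, ofComplex_apply] at h1
  exact h1.symm

/-- The regularised function `q ↦ q j`. -/
noncomputable def jReg : ℂ → ℂ := cuspFunction 1 (fun τ : ℍ => jFun τ * 𝕢 1 τ)

theorem qParam_one_add_one (z : ℂ) : 𝕢 1 (z + 1) = 𝕢 1 z := by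
  simp only [Periodic.qParam, Complex.ofReal_one, div_one]
  rw [mul_add, mul_one, Complex.exp_add, Complex.exp_two_pi_mul_I, mul_one]

theorem jReg_aux_periodic : Periodic ((fun τ : ℍ => jFun τ * 𝕢 1 τ) ∘ ofComplex) 1 := by
  intro z
  have h1 := jFun_periodic z
  simp only [comp_apply] at h1 ⊢
  rw [h1]
  congr 1
  by_cases hz : 0 < z.im
  · have hz' : 0 < (z + 1).im := by simpa using hz
    rw [ofComplex_apply_of_im_pos hz, ofComplex_apply_of_im_pos hz']
    exact qParam_one_add_one z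
  · have hz' : ¬ 0 < (z + 1).im := by simpa using hz
    rw [ofComplex_apply_of_im_nonpos (not_lt.1 hz), ofComplex_apply_of_im_nonpos (not_lt.1 hz')]

theorem jReg_aux_mdiff : MDiff (fun τ : ℍ => jFun τ * 𝕢 1 τ) := by
  refine jFun_mdiff.mul ?_
  rw [UpperHalfPlane.mdifferentiable_iff]
  have : DifferentiableOn ℂ (𝕢 1) upperHalfPlaneSet :=
    (Periodic.differentiable_qParam (h := 1)).differentiableOn
  refine this.congr fun z hz => ?_
  simp [ofComplex_apply_of_im_pos hz]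

theorem jReg_aux_bdd : IsBoundedAtImInfty (fun τ : ℍ => jFun τ * 𝕢 1 τ) :=
  tendsto_jFun_mul_q.isBigO_one ℝ

theorem jReg_analyticAt : AnalyticAt ℂ jReg 0 :=
  analyticAt_cuspFunction_zero one_pos jReg_aux_periodic jReg_aux_mdiff jReg_aux_bdd

theorem jReg_zero : jReg 0 = 1 := by
  rw [jReg, cuspFunction_apply_zero one_pos jReg_analyticAt jReg_aux_periodic]
  exact tendsto_jFun_mul_q.limUnder_eq

theorem jReg_eq {q : ℂ} (hq0 : q ≠ 0) (hq1 : ‖q‖ < 1) : jReg q = jCusp q * q := by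
  have him := Periodic.im_invQParam_pos_of_norm_lt_one one_pos hq1 hq0
  rw [jReg, cuspFunction, Periodic.cuspFunction_eq_of_nonzero _ _ hq0]
  simp only [comp_apply, jCusp]
  congr 1
  rw [ofComplex_apply_of_im_pos him]
  exact Periodic.qParam_right_inv one_ne_zero hq0

theorem jCusp_eq {q : ℂ} (hq0 : q ≠ 0) (hq1 : ‖q‖ < 1) : jCusp q = q⁻¹ * jReg q := by
  rw [jReg_eq hq0 hq1]
  field_simp

theorem eventually_punctured_ball : ∀ᶠ u : ℂ in 𝓝[≠] 0, u ≠ 0 ∧ ‖u‖ < 1 := by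
  have h1 : ∀ᶠ u : ℂ in 𝓝[≠] 0, u ≠ 0 := eventually_mem_nhdsWithin
  have h2 : ∀ᶠ u : ℂ in 𝓝[≠] 0, ‖u‖ < 1 := by
    refine Filter.Eventually.filter_mono nhdsWithin_le_nhds ?_
    filter_upwards [Metric.ball_mem_nhds (0 : ℂ) one_pos] with u hu
    simpa using hu
  exact h1.and h2

theorem jCusp_meromorphicAt : MeromorphicAt jCusp 0 := by
  have h : MeromorphicAt (fun q : ℂ => q⁻¹ * jReg q) 0 :=
    (MeromorphicAt.id 0).inv.mul jReg_analyticAt.meromorphicAt
  refine h.congr ?_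
  filter_upwards [eventually_punctured_ball] with u hu
  exact (jCusp_eq hu.1 hu.2).symm

/-- Key formula: `j((aτ+b)/e)` in terms of the local parameter `u = e^{2πiτ/N}`. -/
theorem jFun_affine_eq {N : ℕ} [NeZero N] (a b e : ℤ) (ha : 0 < a) (he : 0 < e) (k : ℕ)
    (hk : (k : ℤ) * e = a * N) {u : ℂ} (hu0 : u ≠ 0) (hu1 : ‖u‖ < 1) :
    jFun (ofComplex (((a : ℂ) * (ofComplex (Periodic.invQParam N u) : ℍ) + b) / e)) =
      jCusp (Complex.exp (2 * Real.pi * Complex.I * b / e) * u ^ k) := by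
  have hN : (0 : ℝ) < N := by exact_mod_cast Nat.pos_of_ne_zero (NeZero.ne N)
  have him := Periodic.im_invQParam_pos_of_norm_lt_one hN hu1 hu0
  set τ : ℂ := Periodic.invQParam N u with hτ
  rw [ofComplex_apply_of_im_pos him]
  have hqu : 𝕢 N τ = u := Periodic.qParam_right_inv hN.ne' hu0
  have heC : (e : ℂ) ≠ 0 := by exact_mod_cast he.ne'
  have hNC : (N : ℂ) ≠ 0 := by exact_mod_cast (NeZero.ne N)
  have hσ : 0 < ((((a : ℂ) * τ + b) / e)).im := by
    have : ((((a : ℂ) * τ + b) / e)).im = (a : ℝ) * τ.im / e := by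
      have h1 : (((a : ℂ) * τ + b) / e) = (((a : ℝ) : ℂ) * τ + ((b : ℝ) : ℂ)) / ((e : ℝ) : ℂ) := by
        push_cast; ring
      rw [h1, Complex.div_ofReal_im]
      simp
    rw [this]
    have ha' : (0 : ℝ) < a := by exact_mod_cast ha
    have he' : (0 : ℝ) < e := by exact_mod_cast he
    positivity
  rw [ofComplex_apply_of_im_pos hσ, jFun_eq_jCusp]
  congr 1
  rw [← hqu]
  simp only [Periodic.qParam, Complex.ofReal_one, div_one, Complex.ofReal_natCast]
  rw [← Complex.exp_nat_mul, ← Complex.exp_add]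
  congr 1
  have hk' : (k : ℂ) * e = a * N := by exact_mod_cast hk
  have hk'' : (k : ℂ) = a * N / e := by
    rw [eq_div_iff heC, hk']
  rw [hk'']
  field_simp
  ring

theorem jFunD_meromorphicAt_cusp {N d : ℕ} [NeZero N] (hd : d ∣ N) (g : SL(2, ℤ)) :
    MeromorphicAt (fun u : ℂ => jFunD d (g • ofComplex (Periodic.invQParam N u))) 0 := by
  have hd0 : 0 < d := Nat.pos_of_dvd_of_pos hd (Nat.pos_of_ne_zero (NeZero.ne N))
  obtain ⟨a, b, e, ha, he, hae, -, h⟩ := jFunD_smul_eq d hd0 g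
  -- `e ∣ d ∣ N`
  obtain ⟨c, hc⟩ := hd
  have hc0 : 0 < c := by
    rcases Nat.eq_zero_or_pos c with rfl | h0
    · exact absurd (by simpa using hc) (NeZero.ne N)
    · exact h0
  set k : ℕ := (a * a * c).toNat with hk
  have hkpos : 0 < a * a * c := by positivity
  have hkZ : (k : ℤ) = a * a * c := Int.toNat_of_nonneg hkpos.le
  have hke : (k : ℤ) * e = a * N := by
    rw [hkZ, hc]
    push_cast
    rw [← hae]
    ring
  have hk0 : k ≠ 0 := by
    intro h0
    rw [h0] at hkZ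
    simp at hkZ
    omega
  set ζ : ℂ := Complex.exp (2 * Real.pi * Complex.I * b / e) with hζ
  have hcomp : MeromorphicAt (jCusp ∘ fun u : ℂ => ζ * u ^ k) 0 := by
    refine MeromorphicAt.comp_analyticAt ?_ (by fun_prop)
    simpa [hk0] using jCusp_meromorphicAt
  refine hcomp.congr ?_
  filter_upwards [eventually_punctured_ball] with u hu
  rw [h, comp_apply]
  exact (jFun_affine_eq a b e ha he k hke hu.1 hu.2).symm

theorem funAlg_meromorphicAt_cusp {N : ℕ} [NeZero N] {θ : ℍ → ℂ} (hθ : θ ∈ funAlg N)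
    (g : SL(2, ℤ)) :
    MeromorphicAt (fun u : ℂ => θ (g • ofComplex (Periodic.invQParam N u))) 0 := by
  induction hθ using Algebra.adjoin_induction with
  | mem x hx =>
    obtain ⟨d, hd, rfl⟩ := hx
    exact jFunD_meromorphicAt_cusp hd g
  | algebraMap r => exact MeromorphicAt.const _ 0
  | add x y _ _ hx hy => exact hx.add hy
  | mul x y _ _ hx hy => exact hx.mul hy

theorem jFun_cusp_eq {N : ℕ} [NeZero N] {u : ℂ} (hu0 : u ≠ 0) (hu1 : ‖u‖ < 1) :
    jFun (ofComplex (Periodic.invQParam N u)) = jCusp (u ^ N) := by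
  have h := jFun_affine_eq (N := N) 1 0 1 one_pos one_pos N (by ring) hu0 hu1
  simpa using h

theorem meromorphicOrderAt_jFun_cusp (N : ℕ) [NeZero N] :
    meromorphicOrderAt (fun u : ℂ => jFun (ofComplex (Periodic.invQParam N u))) 0 = -(N : ℤ) := by
  have hN0 : N ≠ 0 := NeZero.ne N
  have hcomp : MeromorphicAt (jCusp ∘ fun u : ℂ => u ^ N) 0 := by
    refine MeromorphicAt.comp_analyticAt ?_ (by fun_prop)
    simpa [hN0] using jCusp_meromorphicAt
  have hmer : MeromorphicAt (fun u : ℂ => jFun (ofComplex (Periodic.invQParam N u))) 0 := by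
    refine hcomp.congr ?_
    filter_upwards [eventually_punctured_ball] with u hu
    rw [comp_apply]
    exact (jFun_cusp_eq hu.1 hu.2).symm
  have hcoe : (-((N : ℤ) : WithTop ℤ)) = ((-(N : ℤ) : ℤ) : WithTop ℤ) := rfl
  rw [hcoe, meromorphicOrderAt_eq_int_iff hmer]
  refine ⟨fun u => jReg (u ^ N), ?_, ?_, ?_⟩
  · have h1 : AnalyticAt ℂ jReg ((fun u : ℂ => u ^ N) 0) := by
      simpa [hN0] using jReg_analyticAt
    have h2 : AnalyticAt ℂ (fun u : ℂ => u ^ N) 0 := by fun_prop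
    exact AnalyticAt.comp (g := jReg) (f := fun u : ℂ => u ^ N) h1 h2
  · simp [hN0, jReg_zero]
  · filter_upwards [eventually_punctured_ball] with u hu
    have hu' : ‖u ^ N‖ < 1 := by
      rw [norm_pow]
      exact pow_lt_one₀ (norm_nonneg _) hu.2 hN0
    rw [jFun_cusp_eq hu.1 hu.2, jCusp_eq (pow_ne_zero _ hu.1) hu', sub_zero, zpow_neg,
      zpow_natCast, smul_eq_mul]

/-! ### Growth -/

theorem jFun_norm_le : ∃ C A : ℝ, 0 ≤ C ∧ ∀ σ : ℍ, A ≤ σ.im →
    ‖jFun σ‖ ≤ C * Real.exp (2 * Real.pi * σ.im) := by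
  obtain ⟨M, A, h⟩ := isBoundedAtImInfty_iff.1 jReg_aux_bdd
  refine ⟨|M|, A, abs_nonneg _, fun σ hσ => ?_⟩
  have h1 := h σ hσ
  rw [norm_mul, Periodic.norm_qParam] at h1
  have h2 : Real.exp (-2 * Real.pi * (σ : ℂ).im / 1) * Real.exp (2 * Real.pi * σ.im) = 1 := by
    rw [← Real.exp_add]
    simp
  calc ‖jFun σ‖ = ‖jFun σ‖ * (Real.exp (-2 * Real.pi * (σ : ℂ).im / 1) *
        Real.exp (2 * Real.pi * σ.im)) := by rw [h2, mul_one]
    _ = (‖jFun σ‖ * Real.exp (-2 * Real.pi * (σ : ℂ).im / 1)) * Real.exp (2 * Real.pi * σ.im) := by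
        ring
    _ ≤ |M| * Real.exp (2 * Real.pi * σ.im) :=
        mul_le_mul_of_nonneg_right (h1.trans (le_abs_self M)) (Real.exp_pos _).le

theorem discriminant_norm_le : ∃ C A : ℝ, 0 ≤ C ∧ ∀ τ : ℍ, A ≤ τ.im →
    ‖discriminant τ‖ ≤ C * Real.exp (-(2 * Real.pi * τ.im)) := by
  have hb : IsBoundedAtImInfty (fun x : ℍ => ∏' (n : ℕ), (1 - eta_q n x) ^ 24) :=
    tendsto_atImInfty_tprod_one_sub_eta_q_pow.isBigO_one ℝ
  obtain ⟨M, A, h⟩ := isBoundedAtImInfty_iff.1 hb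
  refine ⟨|M|, A, abs_nonneg _, fun τ hτ => ?_⟩
  rw [discriminant_eq_q_prod, norm_mul, Periodic.norm_qParam, mul_comm]
  have h3 : Real.exp (-2 * Real.pi * (τ : ℂ).im / 1) = Real.exp (-(2 * Real.pi * τ.im)) := by
    congr 1
    simp
  rw [h3]
  exact mul_le_mul_of_nonneg_right ((h τ hτ).trans (le_abs_self M)) (Real.exp_pos _).le

theorem discriminant_pow_bdd (m : ℕ) : IsBoundedAtImInfty (fun τ : ℍ => discriminant τ ^ m) := by
  have h : IsBoundedAtImInfty discriminant := discriminant_isZeroAtImInfty.boundedAtFilter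
  induction m with
  | zero =>
    simp only [pow_zero]
    exact Filter.const_boundedAtFilter atImInfty (1 : ℂ)
  | succ n ih =>
    simp only [pow_succ]
    exact ih.mul h

theorem jFunD_growth {d : ℕ} (hd : 0 < d) (g : SL(2, ℤ)) :
    IsBoundedAtImInfty (fun τ : ℍ => jFunD d (g • τ) * discriminant τ ^ d) := by
  obtain ⟨a, b, e, ha, he, hae, -, h⟩ := jFunD_smul_eq d hd g
  obtain ⟨C₁, A₁, hC₁, h₁⟩ := jFun_norm_le
  obtain ⟨C₂, A₂, hC₂, h₂⟩ := discriminant_norm_le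
  have ha' : (1 : ℝ) ≤ a := by exact_mod_cast ha
  have he' : (1 : ℝ) ≤ e := by exact_mod_cast he
  have hae' : (a : ℝ) * e = d := by exact_mod_cast hae
  rw [isBoundedAtImInfty_iff]
  refine ⟨C₁ * C₂ ^ d, max A₂ (|A₁| * e), fun τ hτ => ?_⟩
  have hy : 0 < τ.im := τ.im_pos
  have hτ₂ : A₂ ≤ τ.im := (le_max_left _ _).trans hτ
  have hτ₁ : |A₁| * e ≤ τ.im := (le_max_right _ _).trans hτ
  have him : ((((a : ℂ) * τ + b) / e)).im = (a : ℝ) * τ.im / e := by
    have h1 : (((a : ℂ) * τ + b) / e) = (((a : ℝ) : ℂ) * τ + ((b : ℝ) : ℂ)) / ((e : ℝ) : ℂ) := by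
      push_cast; ring
    rw [h1, Complex.div_ofReal_im]
    simp
  have hσ : 0 < ((((a : ℂ) * τ + b) / e)).im := by
    rw [him]; positivity
  rw [h, ofComplex_apply_of_im_pos hσ, norm_mul, norm_pow]
  set σ : ℍ := ⟨((a : ℂ) * τ + b) / e, hσ⟩ with hσdef
  have hσim : σ.im = (a : ℝ) * τ.im / e := him
  have hA₁ : A₁ ≤ σ.im := by
    rw [hσim, le_div_iff₀ (by linarith)]
    calc A₁ * e ≤ |A₁| * e := mul_le_mul_of_nonneg_right (le_abs_self _) (by linarith)
      _ ≤ τ.im := hτ₁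
      _ ≤ a * τ.im := by nlinarith
  have hb₁ := h₁ σ hA₁
  have hb₂ : ‖discriminant τ‖ ^ d ≤ (C₂ * Real.exp (-(2 * Real.pi * τ.im))) ^ d :=
    pow_le_pow_left₀ (norm_nonneg _) (h₂ τ hτ₂) d
  have hexp : Real.exp (2 * Real.pi * σ.im) * Real.exp (-(2 * Real.pi * τ.im)) ^ d ≤ 1 := by
    rw [← Real.exp_nat_mul, ← Real.exp_add, Real.exp_le_one_iff, hσim]
    have h5 : (a : ℝ) * τ.im / e ≤ d * τ.im := by
      rw [div_le_iff₀ (by linarith), ← hae']
      have h6 : 0 < (a : ℝ) * τ.im := mul_pos (lt_of_lt_of_le one_pos ha') hy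
      have h7 : (1 : ℝ) ≤ e * e := by nlinarith
      calc (a : ℝ) * τ.im = (a * τ.im) * 1 := (mul_one _).symm
        _ ≤ (a * τ.im) * (e * e) := mul_le_mul_of_nonneg_left h7 h6.le
        _ = a * e * τ.im * e := by ring
    have hpi := Real.pi_pos
    nlinarith
  calc ‖jFun σ‖ * ‖discriminant τ‖ ^ d
      ≤ (C₁ * Real.exp (2 * Real.pi * σ.im)) * (C₂ * Real.exp (-(2 * Real.pi * τ.im))) ^ d :=
        mul_le_mul hb₁ hb₂ (by positivity) (by positivity)
    _ = (C₁ * C₂ ^ d) * (Real.exp (2 * Real.pi * σ.im) * Real.exp (-(2 * Real.pi * τ.im)) ^ d) := by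
        rw [mul_pow]; ring
    _ ≤ (C₁ * C₂ ^ d) * 1 := mul_le_mul_of_nonneg_left hexp (by positivity)
    _ = C₁ * C₂ ^ d := mul_one _

theorem funAlg_growth {N : ℕ} [NeZero N] {θ : ℍ → ℂ} (hθ : θ ∈ funAlg N) (g : SL(2, ℤ)) :
    ∃ m : ℕ, IsBoundedAtImInfty (fun τ => θ (g • τ) * discriminant τ ^ m) := by
  induction hθ using Algebra.adjoin_induction with
  | mem x hx =>
    obtain ⟨d, hd, rfl⟩ := hx
    exact ⟨d, jFunD_growth (Nat.pos_of_dvd_of_pos hd (Nat.pos_of_ne_zero (NeZero.ne N))) g⟩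
  | algebraMap r =>
    refine ⟨0, ?_⟩
    simp only [pow_zero, mul_one]
    exact Filter.const_boundedAtFilter atImInfty (algebraMap Qbar ℂ r)
  | add x y _ _ hx hy =>
    obtain ⟨m₁, h₁⟩ := hx
    obtain ⟨m₂, h₂⟩ := hy
    refine ⟨m₁ + m₂, ?_⟩
    have := (h₁.mul (discriminant_pow_bdd m₂)).add (h₂.mul (discriminant_pow_bdd m₁))
    refine this.congr' ?_ EventuallyEq.rfl
    filter_upwards with τ
    simp only [Pi.add_apply, Pi.mul_apply, pow_add]
    ring
  | mul x y _ _ hx hy =>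
    obtain ⟨m₁, h₁⟩ := hx
    obtain ⟨m₂, h₂⟩ := hy
    refine ⟨m₁ + m₂, ?_⟩
    have := h₁.mul h₂
    refine this.congr' ?_ EventuallyEq.rfl
    filter_upwards with τ
    simp only [Pi.mul_apply, pow_add]
    ring

end Fermat.Agent.S24
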