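import Fermat.Agent.S24.JBasic
/-! # S24-B6b (part): functions in `funAlg N` are holomorphic -/

set_option autoImplicit false

namespace Fermat.Agent.S24

open UpperHalfPlane ModularForm Filter Function ModularGroup
open scoped MatrixGroups Manifold Topology
attribute [local instance] algQbarComplex
local notation "𝕢" => Periodic.qParam

theorem jFunD_mdiff {d : ℕ} (hd : 0 < d) : MDiff (jFunD d) := by
  rw [UpperHalfPlane.mdifferentiable_iff]
  have hj := UpperHalfPlane.mdifferentiable_iff.mp jFun_mdiff
  have hmaps : Set.MapsTo (fun z : ℂ => (d : ℂ) * z) {z | 0 < z.im} {z | 0 < z.im} := by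
    intro z hz
    simp only [Set.mem_ofPred_eq] at hz ⊢
    have : ((d : ℂ) * z).im = d * z.im := by simp
    rw [this]
    positivity
  have h1 : DifferentiableOn ℂ ((jFun ∘ ofComplex) ∘ fun z : ℂ => (d : ℂ) * z) {z | 0 < z.im} :=
    hj.comp (by fun_prop) hmaps
  refine h1.congr fun z hz => ?_
  simp only [Function.comp_apply, jFunD]
  rw [ofComplex_apply_of_im_pos hz]

theorem funAlg_mdiff {N : ℕ} [NeZero N] {θ : ℍ → ℂ} (hθ : θ ∈ funAlg N) : MDiff θ := by
  induction hθ using Algebra.adjoin_induction with
  | mem x hx =>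
    obtain ⟨d, hd, rfl⟩ := hx
    exact jFunD_mdiff (Nat.pos_of_dvd_of_pos hd (NeZero.pos N))
  | algebraMap r => exact mdifferentiable_const
  | add x y _ _ hx hy => exact hx.add hy
  | mul x y _ _ hx hy => exact hx.mul hy

end Fermat.Agent.S24
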