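import Fermat.Agent.S24.Defs

/-!
# S24, task A3b (core): the number of zeros of `x` is the number of orbits

Everything here is independent of the tasks A0, A1, A3a: their outputs enter as hypotheses of
`ncard_zeroPlaces_core`.
-/

set_option autoImplicit false

namespace Fermat.Agent.S24

open AlgebraicCurve KaehlerDifferential IntermediateField

section Comb

/-- Pigeonhole: if the forward orbit of `i` stays in the finite set `S`, some positive power
`h ≤ #S` of `π` fixes `i`. -/
theorem exists_pow_fix_le {I : Type*} (π : Equiv.Perm I) (i : I) (S : Finset I)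
    (hS : ∀ k : ℕ, (π ^ k) i ∈ S) :
    ∃ h : ℕ, 0 < h ∧ h ≤ S.card ∧ (π ^ h) i = i := by
  classical
  have key : ∃ a ∈ Finset.range (S.card + 1), ∃ b ∈ Finset.range (S.card + 1),
      a ≠ b ∧ (π ^ a) i = (π ^ b) i :=
    Finset.exists_ne_map_eq_of_card_lt_of_maps_to (by simp) (fun a _ => hS a)
  obtain ⟨a, ha, b, hb, hab, h⟩ := key
  wlog hlt : a < b generalizing a b
  · exact this b hb a ha hab.symm h.symm (by omega)
  refine ⟨b - a, by omega, by simp at hb; omega, ?_⟩
  have h2 : (π ^ a) ((π ^ (b - a)) i) = (π ^ a) i := by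
    rw [← Equiv.Perm.mul_apply, ← pow_add, Nat.add_sub_cancel' hlt.le, h]
  exact (π ^ a).injective h2

/-- Abstract counting: an injection `g : s → Q` with `e v ≤ size (g v)` and
`∑ size ≤ ∑ e` is onto as soon as all sizes are positive. -/
theorem card_eq_of_sum_le {Z Q : Type*} [Fintype Q] (s : Finset Z) (g : Z → Q)
    (hg : Set.InjOn g s) (e : Z → ℕ) (size : Q → ℕ) (hsize : ∀ q, 0 < size q)
    (he : ∀ v ∈ s, e v ≤ size (g v)) (hsum : ∑ q, size q ≤ ∑ v ∈ s, e v) :
    s.card = Fintype.card Q := by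
  classical
  have h1 : ∑ v ∈ s, e v ≤ ∑ v ∈ s, size (g v) := Finset.sum_le_sum he
  have h2 : ∑ v ∈ s, size (g v) = ∑ q ∈ s.image g, size q := (Finset.sum_image hg).symm
  have h3 : s.image g = Finset.univ := by
    by_contra hne
    obtain ⟨q, hq⟩ : ∃ q, q ∉ s.image g := by
      by_contra hcon
      push Not at hcon
      exact hne (Finset.eq_univ_iff_forall.2 hcon)
    have h4 : ∑ q ∈ s.image g, size q < ∑ q, size q :=
      Finset.sum_lt_sum_of_subset (Finset.subset_univ _) (Finset.mem_univ q) hq (hsize q)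
        (fun _ _ _ => Nat.zero_le _)
    omega
  rw [← Finset.card_univ, ← h3, Finset.card_image_of_injOn hg]

end Comb

section PlaceAux

variable {K F : Type*} [Field K] [Field F] [Algebra K F]

private theorem ord_nonneg_of_mem' (v : Place K F) {f : F} (hf : f ∈ v.toValuationSubring) :
    0 ≤ v.ord f := by
  rcases eq_or_ne f 0 with rfl | hf0
  · simp
  obtain ⟨π, hπ⟩ := IsDiscreteValuationRing.exists_irreducible v.toValuationSubring
  obtain ⟨n, u, hu⟩ :=
    IsDiscreteValuationRing.eq_unit_mul_pow_irreducible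
      (x := (⟨f, hf⟩ : v.toValuationSubring)) (by simpa [Subtype.ext_iff] using hf0) hπ
  have hcoe : f = ((u : v.toValuationSubring) : F) * ((π : F) ^ (n : ℤ)) := by
    have h := congrArg (Subtype.val) hu
    push_cast at h
    rw [zpow_natCast]
    exact h
  rw [hcoe, v.ord_unit_smul_zpow u hπ (n : ℤ)]
  exact Int.natCast_nonneg n

private theorem mem_of_ord_nonneg' (v : Place K F) {f : F} (hf : f ≠ 0) (h : 0 ≤ v.ord f) :
    f ∈ v.toValuationSubring := by
  obtain ⟨π, hπ⟩ := IsDiscreteValuationRing.exists_irreducible v.toValuationSubring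
  obtain ⟨u, hu⟩ := v.exists_unit_mul_zpow hf hπ
  rw [hu, show v.ord f = (((v.ord f).toNat : ℕ) : ℤ) from (Int.toNat_of_nonneg h).symm,
    zpow_natCast]
  exact mul_mem (u : v.toValuationSubring).2 (pow_mem (π : v.toValuationSubring).2 _)

/-- Two places whose order functions are positively proportional coincide. -/
theorem place_eq_of_ord_proportional (v v' : Place K F) (m m' : ℕ) (hm : 0 < m) (hm' : 0 < m')
    (h : ∀ f : F, f ≠ 0 → (m : ℤ) * v.ord f = m' * v'.ord f) : v = v' := by
  apply Place.ext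
  ext f
  rcases eq_or_ne f 0 with rfl | hf
  · simp [zero_mem]
  have hmZ : (0 : ℤ) < m := by exact_mod_cast hm
  have hmZ' : (0 : ℤ) < m' := by exact_mod_cast hm'
  constructor
  · intro hf'
    have h0 := ord_nonneg_of_mem' v hf'
    apply mem_of_ord_nonneg' v' hf
    have h1 : 0 ≤ (m' : ℤ) * v'.ord f := by rw [← h f hf]; positivity
    exact nonneg_of_mul_nonneg_right h1 hmZ'
  · intro hf'
    have h0 := ord_nonneg_of_mem' v' hf'
    apply mem_of_ord_nonneg' v hf
    have h1 : 0 ≤ (m : ℤ) * v.ord f := by rw [h f hf]; positivity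
    exact nonneg_of_mul_nonneg_right h1 hmZ

private theorem exists_ord_eq_one' (v : Place K F) : ∃ t : F, t ≠ 0 ∧ v.ord t = 1 := by
  obtain ⟨π, hπ⟩ := IsDiscreteValuationRing.exists_irreducible v.toValuationSubring
  refine ⟨(π : F), ?_, v.ord_coe_irreducible hπ⟩
  simpa [ne_eq, ZeroMemClass.coe_eq_zero] using hπ.ne_zero

end PlaceAux

section Unif

variable {K F M : Type*} [Field K] [Field F] [Algebra K F] [Field M] [Algebra K M]

/-- `w ∘ φ` is constant along the cycles of `π`. -/
theorem LocalUnif.w_zpow {w : M → ℤ} {x : F} {I : Type*} {π : Equiv.Perm I}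
    (U : LocalUnif K w x I π) (k : ℤ) (i : I) (f : F) :
    w (U.φ ((π ^ k) i) f) = w (U.φ i f) := by
  have hnat : ∀ (n : ℕ) (i : I), w (U.φ ((π ^ n) i) f) = w (U.φ i f) := by
    intro n
    induction n with
    | zero => intro i; simp
    | succ n ih =>
      intro i
      rw [pow_succ', Equiv.Perm.mul_apply, U.w_perm, ih]
  obtain ⟨n, rfl | rfl⟩ := k.eq_nat_or_neg
  · rw [zpow_natCast]; exact hnat n i
  · have h := hnat n ((π ^ (-(n : ℤ))) i)
    rw [← zpow_natCast, ← Equiv.Perm.mul_apply, ← zpow_add] at h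
    simpa using h.symm

theorem LocalUnif.w_sameCycle {w : M → ℤ} {x : F} {I : Type*} {π : Equiv.Perm I}
    (U : LocalUnif K w x I π) {i i' : I} (h : π.SameCycle i i') (f : F) :
    w (U.φ i' f) = w (U.φ i f) := by
  obtain ⟨k, rfl⟩ := h
  exact U.w_zpow k i f

/-- The embeddings `φ i` are distinct `K⟮x⟯`-embeddings, so there are at most `[F : K(x)]`
of them. -/
theorem LocalUnif.card_le_finrank {w : M → ℤ} {x : F} [FiniteDimensional K⟮x⟯ F]
    {I : Type*} [Fintype I] {π : Equiv.Perm I} (U : LocalUnif K w x I π) :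
    Fintype.card I ≤ Module.finrank K⟮x⟯ F := by
  classical
  rcases isEmpty_or_nonempty I with hI | ⟨⟨i₀⟩⟩
  · simp
  let _ : Algebra K⟮x⟯ M := ((U.φ i₀).comp (K⟮x⟯).val).toRingHom.toAlgebra
  have hcomp : ∀ i, (U.φ i).comp (K⟮x⟯).val = (U.φ i₀).comp (K⟮x⟯).val := by
    intro i
    apply IntermediateField.adjoin_algHom_ext
    intro y hy
    rw [Set.mem_singleton_iff] at hy
    subst hy
    exact U.φ_x i i₀
  let ψ : I → (F →ₐ[K⟮x⟯] M) := fun i =>
    { (U.φ i).toRingHom with
      commutes' := fun e => by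
        have := DFunLike.congr_fun (hcomp i) e
        exact this }
  have hψ : Function.Injective ψ := by
    intro i i' h
    apply U.φ_injective
    ext f
    exact DFunLike.congr_fun h f
  calc Fintype.card I = Nat.card I := (Nat.card_eq_fintype_card).symm
    _ ≤ Nat.card (F →ₐ[K⟮x⟯] M) := Nat.card_le_card_of_injective ψ hψ
    _ ≤ Module.finrank K⟮x⟯ F := card_algHom_le_finrank _ _ _

theorem exists_algebraMap_eq_of_isAlgebraic [IsAlgClosed K] {x : F} (h : IsAlgebraic K x) :
    ∃ a : K, algebraMap K F a = x := by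
  have hi := h.isIntegral
  refine ⟨-(minpoly K x).coeff 0, ?_⟩
  have hq : (minpoly K x).leadingCoeff = 1 := minpoly.monic hi
  have hd : (minpoly K x).degree = 1 :=
    IsAlgClosed.degree_eq_one_of_irreducible K (minpoly.irreducible hi)
  have h0 := minpoly.aeval K x
  rw [Polynomial.eq_X_add_C_of_degree_eq_one hd, hq, Polynomial.C_1, one_mul, Polynomial.aeval_add,
    Polynomial.aeval_X, Polynomial.aeval_C, add_eq_zero_iff_eq_neg] at h0
  exact (map_neg (algebraMap K F) ((minpoly K x).coeff 0)).symm ▸ h0.symm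

/-- `x` is transcendental over the algebraically closed field `K`. -/
theorem LocalUnif.transcendental [IsAlgClosed K] {w : M → ℤ} {δ : Derivation K M M}
    (hw : IsDiffVal w δ) {x : F} (hx0 : x ≠ 0) {I : Type*} [Nonempty I] {π : Equiv.Perm I}
    (U : LocalUnif K w x I π) : Transcendental K x := by
  intro halg
  obtain ⟨i⟩ := ‹Nonempty I›
  obtain ⟨a, rfl⟩ := exists_algebraMap_eq_of_isAlgebraic halg
  have ha : a ≠ 0 := by
    rintro rfl
    exact hx0 (map_zero _)
  have h1 := U.w_x i
  rw [AlgHom.commutes, hw.map_const a ha] at h1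
  have h2 := U.s_pos
  omega

/-- Core of task A3b: the outputs of A1 (`hfin`, `hsum`) and A3a (`hex`) are hypotheses. -/
theorem ncard_zeroPlaces_core {w : M → ℤ} {x : F} (hx0 : x ≠ 0) {I : Type*} [Fintype I]
    [Nonempty I] {π : Equiv.Perm I} (U : LocalUnif K w x I π)
    (hfin : (zeroPlaces (K := K) x).Finite)
    (hsum : (Fintype.card I : ℤ) ≤ ∑ v ∈ hfin.toFinset, v.ord x)
    (hex : ∀ v : Place K F, v ∈ zeroPlaces (K := K) x →
      ∃ i : I, ∃ m : ℕ, 0 < m ∧ ∀ f : F, f ≠ 0 → w (U.φ i f) = m * v.ord f) :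
    (zeroPlaces (K := K) x).ncard = numOrbits π := by
  classical
  choose! iv mv hm hwv using hex
  let Q := Quotient (Equiv.Perm.SameCycle.setoid π)
  let _ : Fintype Q := Fintype.ofFinite Q
  let mk : I → Q := Quotient.mk (Equiv.Perm.SameCycle.setoid π)
  let size : Q → ℕ := fun q => (Finset.univ.filter (fun i => mk i = q)).card
  have hsize : ∀ q, 0 < size q := by
    intro q
    obtain ⟨i, rfl⟩ := Quotient.exists_rep q
    exact Finset.card_pos.2 ⟨i, by simp [mk]⟩
  have hsizesum : ∑ q, size q = Fintype.card I := by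
    rw [← Finset.card_univ]
    exact (Finset.card_eq_sum_card_fiberwise (fun i _ => Finset.mem_univ (mk i))).symm
  have hmem : ∀ v, v ∈ hfin.toFinset ↔ v ∈ zeroPlaces (K := K) x := fun v => hfin.mem_toFinset
  have hinj : Set.InjOn (fun v => mk (iv v)) (hfin.toFinset : Set (Place K F)) := by
    intro v hv v' hv' h
    have hv1 : v ∈ zeroPlaces (K := K) x := (hmem v).1 hv
    have hv2 : v' ∈ zeroPlaces (K := K) x := (hmem v').1 hv'
    have hsc : π.SameCycle (iv v) (iv v') := Quotient.exact h
    apply place_eq_of_ord_proportional v v' (mv v) (mv v') (hm v hv1) (hm v' hv2)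
    intro f hf
    rw [← hwv v hv1 f hf, ← hwv v' hv2 f hf, U.w_sameCycle hsc]
  have hle : ∀ v ∈ hfin.toFinset, (v.ord x).toNat ≤ size (mk (iv v)) := by
    intro v hv
    have hv1 : v ∈ zeroPlaces (K := K) x := (hmem v).1 hv
    have hpos : 0 < v.ord x := hv1
    obtain ⟨h, h0, hle, hfix⟩ := exists_pow_fix_le π (iv v)
      (Finset.univ.filter (fun i => mk i = mk (iv v))) (by
        intro k
        simp only [Finset.mem_filter, Finset.mem_univ, true_and]
        apply Quotient.sound
        exact (Equiv.Perm.sameCycle_pow_left).2 (Equiv.Perm.SameCycle.refl _ _))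
    obtain ⟨t, ht0, ht⟩ := exists_ord_eq_one' v
    have hd := U.dvd (iv v) h hfix t ht0
    rw [hwv v hv1 t ht0, ht, mul_one] at hd
    have hs : (U.s : ℤ) = mv v * v.ord x := by rw [← U.w_x (iv v), hwv v hv1 x hx0]
    rw [hs, mul_comm (h : ℤ)] at hd
    have hmZ : (mv v : ℤ) ≠ 0 := by exact_mod_cast (hm v hv1).ne'
    have hd2 : v.ord x ∣ (h : ℤ) := (mul_dvd_mul_iff_left hmZ).1 hd
    have hle2 : v.ord x ≤ h := Int.le_of_dvd (by exact_mod_cast h0) hd2
    have : (v.ord x).toNat ≤ h := by omega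
    exact this.trans hle
  have hsum' : ∑ q, size q ≤ ∑ v ∈ hfin.toFinset, (v.ord x).toNat := by
    rw [hsizesum]
    have : (∑ v ∈ hfin.toFinset, v.ord x) = ((∑ v ∈ hfin.toFinset, (v.ord x).toNat : ℕ) : ℤ) := by
      rw [Nat.cast_sum]
      apply Finset.sum_congr rfl
      intro v hv
      have hpos : 0 < v.ord x := (hmem v).1 hv
      rw [Int.toNat_of_nonneg hpos.le]
    rw [this] at hsum
    exact_mod_cast hsum
  have hcard := card_eq_of_sum_le hfin.toFinset (fun v => mk (iv v)) hinj
    (fun v => (v.ord x).toNat) size hsize hle hsum'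
  rw [Set.ncard_eq_toFinset_card _ hfin, hcard, numOrbits, Nat.card_eq_fintype_card]

end Unif

end Fermat.Agent.S24
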