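import Fermat.Agent.S24.AnDefs

/-!
# S24 / B5a : level one weakly holomorphic modular functions are polynomials in `j`
-/

set_option autoImplicit false

namespace Fermat.Agent.S24

open UpperHalfPlane ModularForm Filter Function ModularGroup
open scoped MatrixGroups Manifold Topology
attribute [local instance] algQbarComplex
local notation "𝕢" => Periodic.qParam

/-- Every level one modular form of weight `12 m` is `P(j) Δ^m` with `deg P ≤ m`. -/
theorem exists_polynomial_of_modularForm (m : ℕ) (G : ModularForm 𝒮ℒ ((m : ℤ) * 12)) :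
    ∃ P : Polynomial ℂ, P.natDegree ≤ m ∧ ∀ τ, G τ = P.eval (jFun τ) * discriminant τ ^ m := by
  induction m with
  | zero =>
    obtain ⟨c, hc⟩ := ModularFormClass.levelOne_weight_zero_const
      (ModularForm.mcast (by simp) G : ModularForm 𝒮ℒ 0)
    refine ⟨Polynomial.C c, by simp, fun τ => ?_⟩
    have := congrFun hc τ
    simpa using this
  | succ m ih =>
    -- the form `E₄ ^ (3 (m+1))`
    let F : ModularForm 𝒮ℒ (((m + 1 : ℕ) : ℤ) * 12) :=
      ModularForm.mcast (by push_cast; ring) (E₄.pow (3 * (m + 1)))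
    have hF0 : (qExpansion 1 F).coeff 0 = 1 := by
      have h1 : qExpansion 1 F = (qExpansion 1 E₄) ^ (3 * (m + 1)) := by
        rw [← ModularForm.qExpansion_pow one_pos one_mem_strictPeriods_SL]
        rfl
      have h2 : (qExpansion 1 E₄).coeff 0 = 1 :=
        EisensteinSeries.E_qExpansion_coeff_zero _ ⟨2, rfl⟩
      rw [h1]
      simp only [PowerSeries.coeff_zero_eq_constantCoeff, map_pow] at h2 ⊢
      rw [h2, one_pow]
    obtain ⟨g, hg⟩ := ModularForm.sub_smul_isCuspForm G F hF0
    set a := (qExpansion 1 G).coeff 0 with ha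
    obtain ⟨P, hPdeg, hP⟩ := ih (ModularForm.mcast (by push_cast; ring)
      (CuspForm.discriminantEquiv g))
    refine ⟨Polynomial.C a * Polynomial.X ^ (m + 1) + P, ?_, fun τ => ?_⟩
    · refine (Polynomial.natDegree_add_le _ _).trans (max_le ?_ (hPdeg.trans (Nat.le_succ m)))
      exact Polynomial.natDegree_C_mul_X_pow_le a (m + 1)
    · have h1 : g τ = G τ - a * F τ := by
        have := DFunLike.congr_fun hg τ
        simpa using this
      have h2 : g τ / discriminant τ = P.eval (jFun τ) * discriminant τ ^ m := by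
        have := hP τ
        simpa [CuspForm.discriminantEquiv_apply] using this
      have hΔ := discriminant_ne_zero τ
      have h3 : F τ = (E₄ τ) ^ (3 * (m + 1)) := by
        change (E₄.pow (3 * (m + 1))) τ = _
        rw [ModularForm.coe_pow]; rfl
      have h4 : jFun τ * discriminant τ = (E₄ τ) ^ 3 := by
        unfold jFun; field_simp
      rw [div_eq_iff hΔ] at h2
      have h5 : G τ = a * F τ + g τ := by rw [h1]; ring
      rw [h5, h2, h3, pow_mul, ← h4]
      simp only [Polynomial.eval_add, Polynomial.eval_mul, Polynomial.eval_C, Polynomial.eval_pow,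
        Polynomial.eval_X]
      ring

theorem exists_polynomial_of_invariant (h : ℍ → ℂ) (hh : MDiff h)
    (hinv : ∀ (γ : SL(2, ℤ)) (τ : ℍ), h (γ • τ) = h τ) (m : ℕ)
    (hb : IsBoundedAtImInfty (fun τ => h τ * discriminant τ ^ m)) :
    ∃ P : Polynomial ℂ, P.natDegree ≤ m ∧ ∀ τ, h τ = P.eval (jFun τ) := by
  -- `Δ ^ m` as a modular form
  let D : ModularForm 𝒮ℒ ((m : ℤ) * 12) := (CuspForm.discriminant : ModularForm 𝒮ℒ 12).pow m
  have hD : ∀ τ, D τ = discriminant τ ^ m := fun τ => by
    change ((CuspForm.discriminant : ModularForm 𝒮ℒ 12).pow m) τ = _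
    rw [ModularForm.coe_pow]; rfl
  have hslash : ∀ γ : SL(2, ℤ), (fun τ => h τ * discriminant τ ^ m) ∣[(m : ℤ) * 12] γ
      = fun τ => h τ * discriminant τ ^ m := by
    intro γ
    have hDγ : (⇑D) ∣[(m : ℤ) * 12] γ = ⇑D := D.slash_action_eq' _ ⟨γ, rfl⟩
    ext τ
    have h1 := congrFun hDγ τ
    rw [SL_slash_apply] at h1 ⊢
    rw [hD, hD] at h1
    rw [hinv, mul_assoc, h1]
  let G : ModularForm 𝒮ℒ ((m : ℤ) * 12) :=
    { toFun := fun τ => h τ * discriminant τ ^ m
      slash_action_eq' := fun _ ⟨γ, hγ⟩ ↦ hγ ▸ hslash γ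
      holo' := hh.mul (CuspForm.discriminant.holo'.pow m)
      bdd_at_cusps' := fun {c} hc => by
        rw [Subgroup.IsArithmetic.isCusp_iff_isCusp_SL2Z] at hc
        rw [OnePoint.isBoundedAt_iff_forall_SL2Z hc]
        intro γ _
        rw [hslash γ]
        exact hb }
  obtain ⟨P, hPdeg, hP⟩ := exists_polynomial_of_modularForm m G
  refine ⟨P, hPdeg, fun τ => ?_⟩
  have h1 : h τ * discriminant τ ^ m = P.eval (jFun τ) * discriminant τ ^ m := hP τ
  exact mul_right_cancel₀ (pow_ne_zero m (discriminant_ne_zero τ)) h1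

end Fermat.Agent.S24
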