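import Fermat.Agent.S24.AnDefs

/-!
# S24, package B4, part 1: Laurent `q`-expansions of meromorphic-at-infinity functions

`Nice g` : holomorphic on `ℍ`, `1`-periodic, bounded at `i∞`.
`Rep x f` : the Laurent series `x` is the `q`-expansion of `f` (a quotient of `Nice` functions with
nowhere vanishing denominator).
-/

set_option autoImplicit false

namespace Fermat.Agent.S24.QX

open UpperHalfPlane ModularForm Filter Function ModularGroup
open scoped MatrixGroups Manifold Topology

local notation "𝕢" => Periodic.qParam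

/-- holomorphic on `ℍ`, `1`-periodic and bounded at `i∞`. -/
structure Nice (g : ℍ → ℂ) : Prop where
  mdiff : MDiff g
  per : Function.Periodic (g ∘ ofComplex) 1
  bdd : IsBoundedAtImInfty g

namespace Nice

variable {f g : ℍ → ℂ}

theorem analyticAt (hf : Nice f) : AnalyticAt ℂ (cuspFunction 1 f) 0 :=
  analyticAt_cuspFunction_zero one_pos hf.per hf.mdiff hf.bdd

theorem add (hf : Nice f) (hg : Nice g) : Nice (f + g) where
  mdiff := hf.mdiff.add hg.mdiff
  per := fun z => by
    have h1 := hf.per z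
    have h2 := hg.per z
    simp only [comp_apply, Pi.add_apply] at h1 h2 ⊢
    rw [h1, h2]
  bdd := hf.bdd.add hg.bdd

theorem mul (hf : Nice f) (hg : Nice g) : Nice (f * g) where
  mdiff := hf.mdiff.mul hg.mdiff
  per := fun z => by
    have h1 := hf.per z
    have h2 := hg.per z
    simp only [comp_apply, Pi.mul_apply] at h1 h2 ⊢
    rw [h1, h2]
  bdd := hf.bdd.mul hg.bdd

theorem const (c : ℂ) : Nice (fun _ => c) where
  mdiff := mdifferentiable_const
  per := fun _ => rfl
  bdd := const_boundedAtFilter _ c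

theorem one : Nice (1 : ℍ → ℂ) := const 1

theorem zero : Nice (0 : ℍ → ℂ) := const 0

theorem pow (hf : Nice f) (n : ℕ) : Nice (f ^ n) := by
  induction n with
  | zero => simpa using one
  | succ n ih => rw [pow_succ]; exact ih.mul hf

theorem of_modularForm {k : ℤ} (F : ModularForm 𝒮ℒ k) : Nice (F : ℍ → ℂ) where
  mdiff := ModularFormClass.holo F
  per := SlashInvariantFormClass.periodic_comp_ofComplex F one_mem_strictPeriods_SL
  bdd := ModularFormClass.bdd_at_infty F

theorem discriminant : Nice ModularForm.discriminant where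
  mdiff := CuspFormClass.holo CuspForm.discriminant
  per := SlashInvariantFormClass.periodic_comp_ofComplex CuspForm.discriminant
    one_mem_strictPeriods_SL
  bdd := discriminant_isZeroAtImInfty.isBoundedAtImInfty

end Nice

/-! ### Scaling `τ ↦ dτ` -/

/-- `F(dτ)`. -/
noncomputable def scale (d : ℕ) (F : ℍ → ℂ) : ℍ → ℂ := fun τ => F (ofComplex ((d : ℂ) * (τ : ℂ)))

theorem scale_apply (d : ℕ) (F : ℍ → ℂ) (τ : ℍ) :
    scale d F τ = F (ofComplex ((d : ℂ) * (τ : ℂ))) := rfl

theorem scale_mul (d : ℕ) (F G : ℍ → ℂ) : scale d (F * G) = scale d F * scale d G := rfl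

theorem scale_pow (d : ℕ) (F : ℍ → ℂ) (n : ℕ) : scale d (F ^ n) = scale d F ^ n := rfl

theorem im_natCast_mul_pos {d : ℕ} (hd : 0 < d) {z : ℂ} (hz : 0 < z.im) :
    0 < ((d : ℂ) * z).im := by
  have : ((d : ℂ) * z).im = d * z.im := by simp
  rw [this]
  positivity

theorem coe_ofComplex_natCast_mul {d : ℕ} (hd : 0 < d) (τ : ℍ) :
    ((ofComplex ((d : ℂ) * (τ : ℂ)) : ℍ) : ℂ) = (d : ℂ) * (τ : ℂ) := by
  rw [ofComplex_apply_of_im_pos (im_natCast_mul_pos hd τ.im_pos)]

theorem tendsto_scale_atImInfty {d : ℕ} (hd : 0 < d) :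
    Tendsto (fun τ : ℍ => ofComplex ((d : ℂ) * (τ : ℂ))) atImInfty atImInfty := by
  rw [atImInfty, tendsto_comap_iff]
  have : (UpperHalfPlane.im ∘ fun τ : ℍ => ofComplex ((d : ℂ) * (τ : ℂ))) =
      fun τ : ℍ => (d : ℝ) * τ.im := by
    funext τ
    have h := coe_ofComplex_natCast_mul hd τ
    have h2 := congrArg Complex.im h
    simpa using h2
  rw [this]
  have h0 : Tendsto UpperHalfPlane.im (comap UpperHalfPlane.im atTop) atTop := tendsto_comap
  exact h0.const_mul_atTop (by positivity)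

theorem Nice.scale {F : ℍ → ℂ} (hF : Nice F) {d : ℕ} (hd : 0 < d) : Nice (scale d F) where
  mdiff := by
    rw [UpperHalfPlane.mdifferentiable_iff]
    have h1 := UpperHalfPlane.mdifferentiable_iff.mp hF.mdiff
    have h2 : DifferentiableOn ℂ ((F ∘ ofComplex) ∘ fun z : ℂ => (d : ℂ) * z) {z | 0 < z.im} := by
      refine h1.comp (by fun_prop) ?_
      intro z hz
      exact im_natCast_mul_pos hd hz
    refine h2.congr ?_
    intro z hz
    simp only [comp_apply, Fermat.Agent.S24.QX.scale]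
    rw [ofComplex_apply_of_im_pos hz]
  per := by
    intro z
    by_cases hz : 0 < z.im
    · have hz' : 0 < (z + 1).im := by simpa using hz
      simp only [comp_apply, Fermat.Agent.S24.QX.scale]
      rw [ofComplex_apply_of_im_pos hz, ofComplex_apply_of_im_pos hz']
      have h := (hF.per.nat_mul d) ((d : ℂ) * z)
      simp only [comp_apply] at h
      show F (ofComplex ((d : ℂ) * (z + 1))) = F (ofComplex ((d : ℂ) * z))
      rw [← h]
      congr 2
      ring
    · have hz0 : z.im ≤ 0 := not_lt.mp hz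
      have hz' : (z + 1).im ≤ 0 := by simpa using hz0
      simp only [comp_apply]
      rw [ofComplex_apply_of_im_nonpos hz0, ofComplex_apply_of_im_nonpos hz']
  bdd := hF.bdd.comp_tendsto (tendsto_scale_atImInfty hd)

theorem qParam_scale {d : ℕ} (hd : 0 < d) (τ : ℍ) :
    𝕢 1 ((ofComplex ((d : ℂ) * (τ : ℂ)) : ℍ) : ℂ) = 𝕢 1 (τ : ℂ) ^ d := by
  rw [coe_ofComplex_natCast_mul hd]
  unfold Periodic.qParam
  rw [← Complex.exp_nat_mul]
  congr 1
  ring

/-- `qExpansion_coeff_unique` for plain functions. -/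
theorem qExpansion_coeff_unique' {f : ℍ → ℂ} {c : ℕ → ℂ}
    (hfanalytic : AnalyticAt ℂ (cuspFunction 1 f) 0)
    (hf : ∀ τ : ℍ, HasSum (fun m ↦ c m • 𝕢 1 τ ^ m) (f τ)) (m : ℕ) :
    c m = (qExpansion 1 f).coeff m :=
  @qExpansion_coeff_unique (ℍ → ℂ) ⟨fun f => f, fun _ _ h => h⟩ 1 f c one_pos hfanalytic hf m

/-- The `q`-expansion of `F(dτ)`. -/
theorem qExpansion_scale_coeff {F : ℍ → ℂ} (hF : Nice F) {d : ℕ} (hd : 0 < d) (n : ℕ) :
    (qExpansion 1 (scale d F)).coeff n = if d ∣ n then (qExpansion 1 F).coeff (n / d) else 0 := by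
  symm
  refine qExpansion_coeff_unique' (f := scale d F) (c := fun n => if d ∣ n then
    (qExpansion 1 F).coeff (n / d) else 0) (hF.scale hd).analyticAt (fun τ => ?_) n
  have h := hasSum_qExpansion one_pos hF.per hF.mdiff hF.bdd (ofComplex ((d : ℂ) * (τ : ℂ)))
  rw [qParam_scale hd] at h
  have hinj : Function.Injective (fun m : ℕ => d * m) := fun a b hab =>
    Nat.eq_of_mul_eq_mul_left hd hab
  rw [← hinj.hasSum_iff]
  · rw [scale_apply]
    convert h using 2 with m
    simp only [comp_apply, dvd_mul_right, if_true, Nat.mul_div_cancel_left _ hd, pow_mul]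
  · intro x hx
    have : ¬ d ∣ x := fun ⟨m, hm⟩ => hx ⟨m, hm.symm⟩
    simp [this]

/-! ### Laurent series -/

/-- The `q`-expansion as a Laurent series. -/
noncomputable def qL (g : ℍ → ℂ) : LaurentSeries ℂ :=
  HahnSeries.ofPowerSeries ℤ ℂ (qExpansion 1 g)

section qL

variable {f g : ℍ → ℂ}

theorem qL_mul (hf : Nice f) (hg : Nice g) : qL (f * g) = qL f * qL g := by
  rw [qL, qExpansion_mul hf.analyticAt hg.analyticAt, map_mul]; rfl

theorem qL_add (hf : Nice f) (hg : Nice g) : qL (f + g) = qL f + qL g := by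
  rw [qL, qExpansion_add hf.analyticAt hg.analyticAt, map_add]; rfl

theorem qL_pow (hf : Nice f) (n : ℕ) : qL (f ^ n) = qL f ^ n := by
  induction n with
  | zero => simp [qL, qExpansion_one]
  | succ n ih => rw [pow_succ, pow_succ, qL_mul (hf.pow n) hf, ih]

theorem qL_const (c : ℂ) : qL (fun _ => c) = HahnSeries.C c := by
  have h : (fun _ : ℍ => c) = c • (1 : ℍ → ℂ) := by
    funext τ; simp
  rw [qL, h, qExpansion_smul Nice.one.analyticAt, qExpansion_one, ← HahnSeries.ofPowerSeries_C]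
  congr 1
  ext n
  simp [PowerSeries.coeff_C, PowerSeries.coeff_one]

theorem qL_eq_zero_iff (hf : Nice f) : qL f = 0 ↔ f = 0 := by
  rw [qL, map_eq_zero_iff _ HahnSeries.ofPowerSeries_injective,
    qExpansion_eq_zero_iff one_pos hf.per hf.mdiff hf.bdd]

theorem qL_scale {F : ℍ → ℂ} (hF : Nice F) (d : ℕ) [NeZero d] :
    qL (scale d F) = ModularCurve.qExpand ℂ d (qL F) := by
  have hd : 0 < d := Nat.pos_of_ne_zero (NeZero.ne d)
  ext k
  by_cases hk : (d : ℤ) ∣ k
  · obtain ⟨m, rfl⟩ := hk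
    rw [ModularCurve.qExpand_coeff_mul]
    rcases lt_or_ge m 0 with hm | hm
    · rw [qL, qL, ModularCurve.ofPowerSeries_coeff_of_neg _ hm,
        ModularCurve.ofPowerSeries_coeff_of_neg _ (by
          have : (0 : ℤ) < d := by exact_mod_cast hd
          exact mul_neg_of_pos_of_neg this hm)]
    · obtain ⟨m', rfl⟩ := Int.eq_ofNat_of_zero_le hm
      have e : (d : ℤ) * (m' : ℤ) = ((d * m' : ℕ) : ℤ) := by push_cast; ring
      rw [e, qL, qL, HahnSeries.ofPowerSeries_apply_coeff, HahnSeries.ofPowerSeries_apply_coeff,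
        qExpansion_scale_coeff hF hd, if_pos (dvd_mul_right _ _), Nat.mul_div_cancel_left _ hd]
  · rw [ModularCurve.qExpand_coeff_of_not_dvd _ _ hk]
    rcases lt_or_ge k 0 with hk0 | hk0
    · rw [qL, ModularCurve.ofPowerSeries_coeff_of_neg _ hk0]
    · obtain ⟨n, rfl⟩ := Int.eq_ofNat_of_zero_le hk0
      rw [qL, HahnSeries.ofPowerSeries_apply_coeff, qExpansion_scale_coeff hF hd, if_neg]
      intro h
      exact hk (by exact_mod_cast h)

end qL

/-! ### The relation `Rep` -/

/-- The Laurent series `x` is the `q`-expansion of `f`. -/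
def Rep (x : LaurentSeries ℂ) (f : ℍ → ℂ) : Prop :=
  ∃ g : ℍ → ℂ, Nice g ∧ (∀ τ, g τ ≠ 0) ∧ Nice (f * g) ∧ x * qL g = qL (f * g)

namespace Rep

variable {x y : LaurentSeries ℂ} {f f' : ℍ → ℂ}

theorem of_nice (hf : Nice f) : Rep (qL f) f :=
  ⟨1, Nice.one, fun _ => one_ne_zero, by simpa using hf, by
    rw [qL_mul hf Nice.one]⟩

theorem const (c : ℂ) : Rep (HahnSeries.C c) (fun _ => c) := by
  rw [← qL_const]
  exact of_nice (Nice.const c)

theorem add (h : Rep x f) (h' : Rep y f') : Rep (x + y) (f + f') := by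
  obtain ⟨g, hg, hg0, hfg, e⟩ := h
  obtain ⟨g', hg', hg0', hfg', e'⟩ := h'
  have e1 : (f + f') * (g * g') = (f * g) * g' + (f' * g') * g := by ring
  refine ⟨g * g', hg.mul hg', fun τ => mul_ne_zero (hg0 τ) (hg0' τ), ?_, ?_⟩
  · rw [e1]
    exact (hfg.mul hg').add (hfg'.mul hg)
  · rw [e1, qL_add (hfg.mul hg') (hfg'.mul hg), qL_mul hfg hg', qL_mul hfg' hg, qL_mul hg hg',
      ← e, ← e']
    ring

theorem mul (h : Rep x f) (h' : Rep y f') : Rep (x * y) (f * f') := by
  obtain ⟨g, hg, hg0, hfg, e⟩ := h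
  obtain ⟨g', hg', hg0', hfg', e'⟩ := h'
  have e1 : (f * f') * (g * g') = (f * g) * (f' * g') := by ring
  refine ⟨g * g', hg.mul hg', fun τ => mul_ne_zero (hg0 τ) (hg0' τ), ?_, ?_⟩
  · rw [e1]
    exact hfg.mul hfg'
  · rw [e1, qL_mul hfg hfg', qL_mul hg hg', ← e, ← e']
    ring

theorem eq_zero_iff (h : Rep x f) : x = 0 ↔ f = 0 := by
  obtain ⟨g, hg, hg0, hfg, e⟩ := h
  have hg1 : qL g ≠ 0 := by
    rw [Ne, qL_eq_zero_iff hg]
    intro h0
    exact hg0 UpperHalfPlane.I (by rw [h0]; rfl)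
  constructor
  · rintro rfl
    rw [zero_mul] at e
    have := (qL_eq_zero_iff hfg).mp e.symm
    funext τ
    have h1 := congrFun this τ
    simp only [Pi.mul_apply, Pi.zero_apply, mul_eq_zero] at h1
    exact h1.resolve_right (hg0 τ)
  · rintro rfl
    rw [zero_mul, (qL_eq_zero_iff Nice.zero).mpr rfl] at e
    exact (mul_eq_zero.mp e).resolve_right hg1

theorem neg (h : Rep x f) : Rep (-x) (-f) := by
  have := (const (-1)).mul h
  have e1 : (HahnSeries.C (-1 : ℂ) : LaurentSeries ℂ) * x = -x := by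
    rw [map_neg, map_one]; ring
  have e2 : (fun _ : ℍ => (-1 : ℂ)) * f = -f := by
    funext τ; simp
  rwa [e1, e2] at this

theorem unique (h : Rep x f) (h' : Rep y f) : x = y := by
  have := h.add h'.neg
  rw [add_neg_cancel] at this
  have h0 := this.eq_zero_iff.mpr rfl
  exact add_neg_eq_zero.mp h0

theorem sum {ι : Type*} (s : Finset ι) {X : ι → LaurentSeries ℂ} {G : ι → ℍ → ℂ}
    (h : ∀ i ∈ s, Rep (X i) (G i)) : Rep (∑ i ∈ s, X i) (∑ i ∈ s, G i) := by
  classical
  induction s using Finset.induction_on with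
  | empty =>
    simp only [Finset.sum_empty]
    have := const 0
    rwa [map_zero] at this
  | insert a s ha ih =>
    rw [Finset.sum_insert ha, Finset.sum_insert ha]
    exact (h a (Finset.mem_insert_self a s)).add
      (ih fun i hi => h i (Finset.mem_insert_of_mem hi))

/-- quotient of two nice functions -/
theorem of_mul_eq {g F : ℍ → ℂ} (hg : Nice g) (hg0 : ∀ τ, g τ ≠ 0) (hF : Nice F)
    (hfg : f * g = F) (hx : x * qL g = qL F) : Rep x f :=
  ⟨g, hg, hg0, hfg ▸ hF, hfg ▸ hx⟩

end Rep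

end Fermat.Agent.S24.QX
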