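import Fermat.Agent.S24.AnDefs
import Fermat.Agent.S24.QExpNice
import Fermat.Agent.Common.QExpDelta
import Fermat.Prelude.Thm_ModularCurve_coeffMap_qExpand

/-!
# S24, package B4: the `q`-expansion isomorphism `funAlg N → FF N` and `ℂ/ℚ̄`-descent
-/

set_option autoImplicit false

namespace Fermat.Agent.S24.QX

open UpperHalfPlane ModularForm Filter Function ModularGroup
open scoped MatrixGroups Manifold Topology
attribute [local instance] algQbarComplex
local notation "𝕢" => Periodic.qParam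

/-! ### formal identities -/

theorem coeffMap_ofPowerSeries {R S : Type*} [CommRing R] [CommRing S] (φ : R →+* S)
    (p : PowerSeries R) :
    ModularCurve.coeffMap φ (HahnSeries.ofPowerSeries ℤ R p) =
      HahnSeries.ofPowerSeries ℤ S (p.map φ) := by
  ext k
  rw [ModularCurve.coeffMap_coeff]
  rcases lt_or_ge k 0 with hk | hk
  · rw [ModularCurve.ofPowerSeries_coeff_of_neg _ hk, ModularCurve.ofPowerSeries_coeff_of_neg _ hk,
      map_zero]
  · obtain ⟨n, rfl⟩ := Int.eq_ofNat_of_zero_le hk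
    rw [HahnSeries.ofPowerSeries_apply_coeff, HahnSeries.ofPowerSeries_apply_coeff,
      PowerSeries.coeff_map]

theorem coeffMap_injective {R S : Type*} [CommRing R] [CommRing S] (φ : R →+* S)
    (hφ : Function.Injective φ) : Function.Injective (ModularCurve.coeffMap φ) := by
  intro x y h
  ext k
  apply hφ
  rw [← ModularCurve.coeffMap_coeff, ← ModularCurve.coeffMap_coeff, h]

/-- the formal identity `j * Δ = E₄ ^ 3` with complex coefficients. -/
theorem coeffMap_jq_mul (φ : ℚ →+* ℂ) :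
    ModularCurve.coeffMap φ ModularCurve.jq * qL ModularForm.discriminant
      = qL ((E₄ : ℍ → ℂ) ^ 3) := by
  have hφ : ∀ p : PowerSeries ℤ, PowerSeries.map φ (PowerSeries.map (Int.castRingHom ℚ) p) =
      PowerSeries.map (Int.castRingHom ℂ) p := by
    intro p
    ext n
    simp
  rw [qL_pow (Nice.of_modularForm E₄), qL, qL, Common.qExpansion_discriminant,
    Common.qExpansion_E4, ModularCurve.jq, map_mul, ModularCurve.coeffMap_single,
    coeffMap_ofPowerSeries, ModularCurve.jNumQ, hφ, map_one, map_mul,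
    map_mul, PowerSeries.map_X, HahnSeries.ofPowerSeries_X, ModularCurve.jNum, map_mul, map_mul,
    map_pow, map_pow]
  have h1 : (HahnSeries.single (-1 : ℤ) (1 : ℂ)) * HahnSeries.single (1 : ℤ) (1 : ℂ) = 1 := by
    rw [HahnSeries.single_mul_single]; simp
  have h2 : HahnSeries.ofPowerSeries ℤ ℂ
        (PowerSeries.map (Int.castRingHom ℂ) ModularCurve.dedekindEtaUnitInv) *
      HahnSeries.ofPowerSeries ℤ ℂ
        (PowerSeries.map (Int.castRingHom ℂ) ModularCurve.dedekindEtaUnit) = 1 := by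
    rw [← map_mul, ← map_mul, mul_comm, ModularCurve.dedekindEtaUnit_mul_inv, map_one, map_one]
  linear_combination
    (HahnSeries.ofPowerSeries ℤ ℂ (PowerSeries.map (Int.castRingHom ℂ) ModularCurve.eisenstein4)) ^ 3
      * (HahnSeries.ofPowerSeries ℤ ℂ
        (PowerSeries.map (Int.castRingHom ℂ) ModularCurve.dedekindEtaUnitInv) *
      HahnSeries.ofPowerSeries ℤ ℂ
        (PowerSeries.map (Int.castRingHom ℂ) ModularCurve.dedekindEtaUnit)) * h1 +
    (HahnSeries.ofPowerSeries ℤ ℂ (PowerSeries.map (Int.castRingHom ℂ) ModularCurve.eisenstein4)) ^ 3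
      * h2

/-- base change of coefficients `ℚ̄ → ℂ`. -/
noncomputable abbrev cmI : LaurentSeries Qbar →+* LaurentSeries ℂ :=
  ModularCurve.coeffMap (iota : Qbar →+* ℂ)

theorem cmI_injective : Function.Injective cmI :=
  coeffMap_injective _ (iota : Qbar →+* ℂ).injective

theorem jFunD_eq_scale (d : ℕ) : jFunD d = scale d jFun := rfl

/-- The `q`-expansion of `j(dτ)`. -/
theorem rep_jFunD (d : ℕ) [NeZero d] : Rep (cmI (jBarSeries d)) (jFunD d) := by
  have hd : 0 < d := Nat.pos_of_ne_zero (NeZero.ne d)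
  have hE : Nice ((E₄ : ℍ → ℂ) ^ 3) := (Nice.of_modularForm E₄).pow 3
  refine Rep.of_mul_eq (g := scale d ModularForm.discriminant) (F := scale d ((E₄ : ℍ → ℂ) ^ 3))
    (Nice.discriminant.scale hd) (fun τ => discriminant_ne_zero _) (hE.scale hd) ?_ ?_
  · funext τ
    simp only [Pi.mul_apply, jFunD, scale_apply, jFun, Pi.pow_apply]
    exact div_mul_cancel₀ _ (discriminant_ne_zero _)
  · rw [qL_scale Nice.discriminant, qL_scale hE, jBarSeries, ModularCurve.coeffEmb,
      ModularCurve.coeffMap_coeffMap, ModularCurve.coeffMap_qExpand, ← map_mul, coeffMap_jq_mul]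

theorem Rep.unique_right {x : LaurentSeries ℂ} {f f' : ℍ → ℂ} (h : Rep x f) (h' : Rep x f') :
    f = f' := by
  have := h.add h'.neg
  rw [add_neg_cancel] at this
  have h0 := this.eq_zero_iff.mp rfl
  exact add_neg_eq_zero.mp h0

/-! ### the algebra of `q`-expansions -/

/-- The series `j(q^d)`, `d ∣ N`. -/
def serGens (N : ℕ) : Set (LaurentSeries Qbar) :=
  {x | ∃ (d : ℕ) (_ : NeZero d), d ∣ N ∧ x = jBarSeries d}

/-- The `ℚ̄`-algebra generated by the series `j(q^d)`, `d ∣ N`. -/
noncomputable def serAlg (N : ℕ) : Subalgebra Qbar (LaurentSeries Qbar) :=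
  Algebra.adjoin Qbar (serGens N)

theorem serAlg_le (N : ℕ) : serAlg N ≤ (ModularCurve.modularFunctionFieldBar N).toSubalgebra := by
  refine Algebra.adjoin_le ?_
  rintro x ⟨d, hd0, hd, rfl⟩
  exact jBarSeries_mem hd

theorem cmI_algebraMap (c : Qbar) :
    cmI (algebraMap Qbar (LaurentSeries Qbar) c) = HahnSeries.C (iota c) := by
  rw [ModularCurve.algebraMap_laurentSeries_eq_single, ModularCurve.coeffMap_single]
  rfl

theorem rep_algebraMap (c : Qbar) :
    Rep (cmI (algebraMap Qbar (LaurentSeries Qbar) c)) (algebraMap Qbar (ℍ → ℂ) c) := by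
  rw [cmI_algebraMap]
  exact Rep.const (iota c)

theorem exists_rep (N : ℕ) [NeZero N] {θ : ℍ → ℂ} (hθ : θ ∈ funAlg N) :
    ∃ x ∈ serAlg N, Rep (cmI x) θ := by
  unfold funAlg at hθ
  induction hθ using Algebra.adjoin_induction with
  | mem θ hθ =>
    obtain ⟨d, hd, rfl⟩ := hθ
    have : NeZero d := ⟨fun h0 => NeZero.ne N (by rw [h0] at hd; exact Nat.eq_zero_of_zero_dvd hd)⟩
    exact ⟨jBarSeries d, Algebra.subset_adjoin ⟨d, inferInstance, hd, rfl⟩, rep_jFunD d⟩
  | algebraMap c => exact ⟨_, Subalgebra.algebraMap_mem _ c, rep_algebraMap c⟩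
  | add θ θ' _ _ h h' =>
    obtain ⟨x, hx, hr⟩ := h
    obtain ⟨x', hx', hr'⟩ := h'
    exact ⟨x + x', Subalgebra.add_mem _ hx hx', by rw [map_add]; exact hr.add hr'⟩
  | mul θ θ' _ _ h h' =>
    obtain ⟨x, hx, hr⟩ := h
    obtain ⟨x', hx', hr'⟩ := h'
    exact ⟨x * x', Subalgebra.mul_mem _ hx hx', by rw [map_mul]; exact hr.mul hr'⟩

/-- The `q`-expansion of an element of `funAlg N`. -/
noncomputable def qExpFun (N : ℕ) [NeZero N] (θ : funAlg N) : LaurentSeries Qbar :=
  Classical.choose (exists_rep N θ.2)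

theorem qExpFun_mem (N : ℕ) [NeZero N] (θ : funAlg N) : qExpFun N θ ∈ serAlg N :=
  (Classical.choose_spec (exists_rep N θ.2)).1

theorem qExpFun_rep (N : ℕ) [NeZero N] (θ : funAlg N) : Rep (cmI (qExpFun N θ)) (θ : ℍ → ℂ) :=
  (Classical.choose_spec (exists_rep N θ.2)).2

theorem qExpFun_eq {N : ℕ} [NeZero N] {θ : funAlg N} {x : LaurentSeries Qbar}
    (h : Rep (cmI x) (θ : ℍ → ℂ)) : qExpFun N θ = x :=
  cmI_injective ((qExpFun_rep N θ).unique h)

/-- The `q`-expansion homomorphism. -/
noncomputable def qExpHom (N : ℕ) [NeZero N] : funAlg N →ₐ[Qbar] FF N where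
  toFun θ := ⟨qExpFun N θ, serAlg_le N (qExpFun_mem N θ)⟩
  map_one' := Subtype.ext <| qExpFun_eq <| by
    have := rep_algebraMap 1
    simp only [map_one] at this
    show Rep (cmI 1) (1 : ℍ → ℂ)
    rw [map_one]
    exact this
  map_mul' θ θ' := Subtype.ext <| qExpFun_eq <| by
    show Rep (cmI (qExpFun N θ * qExpFun N θ')) ((θ : ℍ → ℂ) * (θ' : ℍ → ℂ))
    rw [map_mul]
    exact (qExpFun_rep N θ).mul (qExpFun_rep N θ')
  map_zero' := Subtype.ext <| qExpFun_eq <| by
    have := rep_algebraMap 0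
    simp only [map_zero] at this
    show Rep (cmI 0) (0 : ℍ → ℂ)
    rw [map_zero]
    exact this
  map_add' θ θ' := Subtype.ext <| qExpFun_eq <| by
    show Rep (cmI (qExpFun N θ + qExpFun N θ')) ((θ : ℍ → ℂ) + (θ' : ℍ → ℂ))
    rw [map_add]
    exact (qExpFun_rep N θ).add (qExpFun_rep N θ')
  commutes' c := Subtype.ext <| qExpFun_eq <| rep_algebraMap c

theorem coe_qExpHom (N : ℕ) [NeZero N] (θ : funAlg N) :
    ((qExpHom N θ : FF N) : LaurentSeries Qbar) = qExpFun N θ := rfl

theorem qExpHom_injective (N : ℕ) [NeZero N] : Function.Injective (qExpHom N) := by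
  intro θ θ' h
  have h1 : qExpFun N θ = qExpFun N θ' := congrArg Subtype.val h
  have h2 := qExpFun_rep N θ
  rw [h1] at h2
  exact Subtype.ext (h2.unique_right (qExpFun_rep N θ'))

theorem qExpHom_jAlg (N : ℕ) [NeZero N] (d : ℕ) [NeZero d] (hd : d ∣ N) :
    qExpHom N (jAlg N d hd) = jBar N d hd :=
  Subtype.ext <| qExpFun_eq <| rep_jFunD d

/-- every element of `serAlg N` is a `q`-expansion. -/
theorem exists_qExpFun_eq (N : ℕ) [NeZero N] {x : LaurentSeries Qbar} (hx : x ∈ serAlg N) :
    ∃ θ : funAlg N, qExpFun N θ = x := by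
  unfold serAlg at hx
  induction hx using Algebra.adjoin_induction with
  | mem x hx =>
    obtain ⟨d, hd0, hd, rfl⟩ := hx
    exact ⟨jAlg N d hd, qExpFun_eq (rep_jFunD d)⟩
  | algebraMap c => exact ⟨algebraMap Qbar (funAlg N) c, qExpFun_eq (rep_algebraMap c)⟩
  | add x y _ _ h h' =>
    obtain ⟨θ, rfl⟩ := h
    obtain ⟨θ', rfl⟩ := h'
    exact ⟨θ + θ', congrArg Subtype.val (map_add (qExpHom N) θ θ')⟩
  | mul x y _ _ h h' =>
    obtain ⟨θ, rfl⟩ := h
    obtain ⟨θ', rfl⟩ := h'
    exact ⟨θ * θ', congrArg Subtype.val (map_mul (qExpHom N) θ θ')⟩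

/-- The function field is generated over `ℚ̄` by the `j(q^d)`. -/
theorem modularFunctionFieldBar_le (N : ℕ) :
    ModularCurve.modularFunctionFieldBar N ≤ IntermediateField.adjoin Qbar (serGens N) := by
  rw [ModularCurve.modularFunctionFieldBar, ModularCurve.laurentBaseChange,
    IntermediateField.adjoin_le_iff]
  rintro _ ⟨x, hx, rfl⟩
  have hx' : x ∈ IntermediateField.adjoin ℚ (ModularCurve.divisorExpansions N) := hx
  show ModularCurve.coeffEmb Qbar x ∈ IntermediateField.adjoin Qbar (serGens N)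
  clear hx
  induction hx' using IntermediateField.adjoin_induction with
  | mem x hx =>
    obtain ⟨d, hd0, hd, rfl⟩ := hx
    exact IntermediateField.subset_adjoin _ _ ⟨d, hd0, hd, rfl⟩
  | algebraMap c =>
    have : ModularCurve.coeffEmb Qbar (algebraMap ℚ (LaurentSeries ℚ) c) =
        algebraMap Qbar (LaurentSeries Qbar) (algebraMap ℚ Qbar c) := by
      rw [ModularCurve.algebraMap_laurentSeries_eq_single,
        ModularCurve.algebraMap_laurentSeries_eq_single, ModularCurve.coeffEmb,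
        ModularCurve.coeffMap_single]
    rw [this]
    exact IntermediateField.algebraMap_mem _ _
  | add x y _ _ hx hy => rw [map_add]; exact add_mem hx hy
  | inv x _ hx => rw [map_inv₀]; exact inv_mem hx
  | mul x y _ _ hx hy => rw [map_mul]; exact mul_mem hx hy

end Fermat.Agent.S24.QX

namespace Fermat.Agent.S24

open UpperHalfPlane ModularForm Filter Function ModularGroup
open scoped MatrixGroups Manifold Topology
attribute [local instance] algQbarComplex

open QX

theorem exists_qExpHom (N : ℕ) [NeZero N] :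
    ∃ ρ : funAlg N →ₐ[Qbar] FF N, Function.Injective ρ ∧
      (∀ (d : ℕ) [NeZero d] (hd : d ∣ N), ρ (jAlg N d hd) = jBar N d hd) ∧
      (∀ f : FF N, ∃ a b : funAlg N, b ≠ 0 ∧ f * ρ b = ρ a) := by
  refine ⟨qExpHom N, qExpHom_injective N, fun d _ hd => qExpHom_jAlg N d hd, fun f => ?_⟩
  obtain ⟨r, hr, s, hs, hf⟩ :=
    IntermediateField.mem_adjoin_iff_div.mp (modularFunctionFieldBar_le N f.2)
  obtain ⟨a, ha⟩ := exists_qExpFun_eq N hr
  obtain ⟨b, hb⟩ := exists_qExpFun_eq N hs
  by_cases hs0 : s = 0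
  · refine ⟨0, 1, one_ne_zero, ?_⟩
    have hf0 : f = 0 := Subtype.ext (by rw [hf, hs0, div_zero]; rfl)
    rw [hf0, zero_mul, map_zero]
  · refine ⟨a, b, ?_, ?_⟩
    · rintro rfl
      apply hs0
      rw [← hb]
      exact congrArg Subtype.val (map_zero (qExpHom N))
    · apply Subtype.ext
      show (f : LaurentSeries Qbar) * qExpFun N b = qExpFun N a
      rw [ha, hb, hf, div_mul_cancel₀ _ hs0]

/-! ### descent -/

theorem linearIndependent_complex_of_funAlg (N : ℕ) [NeZero N] {κ : Type*} (θ : κ → funAlg N)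
    (h : LinearIndependent Qbar θ) : LinearIndependent ℂ (fun i => ((θ i : funAlg N) : ℍ → ℂ)) := by
  rw [linearIndependent_iff'] at h ⊢
  intro s g hg i hi
  -- the relation between `q`-expansions
  have hrep : Rep (∑ i ∈ s, HahnSeries.C (g i) * cmI (qExpFun N (θ i)))
      (∑ i ∈ s, (fun _ : ℍ => g i) * ((θ i : funAlg N) : ℍ → ℂ)) :=
    Rep.sum s fun i _ => (Rep.const (g i)).mul (qExpFun_rep N (θ i))
  have hzero : (∑ i ∈ s, (fun _ : ℍ => g i) * ((θ i : funAlg N) : ℍ → ℂ)) = 0 := by
    rw [← hg]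
    refine Finset.sum_congr rfl fun i _ => ?_
    funext τ
    simp
  have hS := hrep.eq_zero_iff.mpr hzero
  have hcoeff : ∀ m : ℤ, ∑ i ∈ s, g i * iota ((qExpFun N (θ i)).coeff m) = 0 := by
    intro m
    have := congrArg (fun x : LaurentSeries ℂ => x.coeff m) hS
    simp only [HahnSeries.coeff_sum, HahnSeries.C_mul_eq_smul, HahnSeries.coeff_smul,
      HahnSeries.coeff_zero, smul_eq_mul] at this
    exact this
  -- coordinates with respect to a basis of `ℂ` over `ℚ̄`
  let b := Module.Basis.ofVectorSpace Qbar ℂ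
  have hα : ∀ α, b.coord α (g i) = 0 := by
    intro α
    refine h s (fun i => b.coord α (g i)) ?_ i hi
    have hrep2 : Rep (cmI (∑ i ∈ s, algebraMap Qbar (LaurentSeries Qbar) (b.coord α (g i)) *
          qExpFun N (θ i)))
        (∑ i ∈ s, algebraMap Qbar (ℍ → ℂ) (b.coord α (g i)) * ((θ i : funAlg N) : ℍ → ℂ)) := by
      rw [map_sum]
      refine Rep.sum s fun i _ => ?_
      rw [map_mul]
      exact (rep_algebraMap _).mul (qExpFun_rep N (θ i))
    have hx0 : ∑ i ∈ s, algebraMap Qbar (LaurentSeries Qbar) (b.coord α (g i)) *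
          qExpFun N (θ i) = 0 := by
      ext m
      have h1 := congrArg (b.coord α) (hcoeff m)
      rw [map_sum, map_zero] at h1
      have h2 : ∀ i, b.coord α (g i * iota ((qExpFun N (θ i)).coeff m)) =
          (qExpFun N (θ i)).coeff m * b.coord α (g i) := by
        intro i
        have : g i * iota ((qExpFun N (θ i)).coeff m) = (qExpFun N (θ i)).coeff m • g i := by
          rw [Algebra.smul_def, mul_comm]
          rfl
        rw [this, map_smul, smul_eq_mul]
      simp only [h2] at h1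
      simp only [ModularCurve.algebraMap_laurentSeries_eq_single, HahnSeries.coeff_sum,
        HahnSeries.coeff_single_mul, sub_zero, HahnSeries.coeff_zero]
      rw [← h1]
      exact Finset.sum_congr rfl fun i _ => mul_comm _ _
    have hf0 := hrep2.eq_zero_iff.mp (by rw [hx0, map_zero])
    apply Subtype.ext
    rw [AddSubmonoidClass.coe_finsetSum]
    show _ = (0 : ℍ → ℂ)
    rw [← hf0]
    refine Finset.sum_congr rfl fun i _ => ?_
    rw [← Algebra.smul_def]
    rfl
  exact (b.forall_coord_eq_zero_iff).mp hα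

end Fermat.Agent.S24
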