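import Fermat.Agent.S24.DegBdCore
import Fermat.Agent.S24.QExpHom
import Fermat.Agent.S24.KeyLemma
import Fermat.Agent.S24.FunAlgProps
import Fermat.Agent.S24.FunAlgInv
import Fermat.Agent.S24.FunAlgCusp

/-!
# S24 / B5b : the degree bound `[FF N : ℚ̄(j)] ≤ card (SL₂(ℤ)/Γ₀(N))`
-/

set_option autoImplicit false

namespace Fermat.Agent.S24

open UpperHalfPlane ModularForm Filter Function ModularGroup
open scoped MatrixGroups Manifold Topology
attribute [local instance] algQbarComplex

open IntermediateField in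
theorem finrank_FF_le (N : ℕ) [NeZero N] :
    FiniteDimensional Qbar⟮jF N⟯ (FF N) ∧
      Module.finrank Qbar⟮jF N⟯ (FF N) ≤ Nat.card (Cosets N) :=
  DegBd.finrank_FF_le_of N (exists_qExpHom N)
    (fun _ θ h => linearIndependent_complex_of_funAlg N θ h)
    (fun _ hθ => funAlg_mdiff hθ)
    (fun _ hθ γ hγ τ => funAlg_invariant hθ γ hγ τ)
    (fun _ hθ g => funAlg_growth hθ g)
    exists_polynomial_of_invariant

end Fermat.Agent.S24
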