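import Fermat.Agent.S24.AnDefs

/-!
# S24, B4.4 : descent. `ℚ̄`-independent Laurent series stay `ℂ`-independent.
-/

set_option autoImplicit false

namespace Fermat.Agent.S24

open UpperHalfPlane ModularForm Filter Function ModularGroup
open scoped MatrixGroups Manifold Topology
attribute [local instance] algQbarComplex

theorem linearIndependent_coeffMap {κ : Type*} (x : κ → LaurentSeries Qbar)
    (h : LinearIndependent Qbar x) :
    LinearIndependent ℂ (fun i => ModularCurve.coeffMap (iota : Qbar →+* ℂ) (x i)) := by
  classical
  rw [linearIndependent_iff'] at h ⊢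
  intro s g hg i hi
  set b := Module.Basis.ofVectorSpace Qbar ℂ with hb
  -- coefficientwise relation
  have hcoef : ∀ m : ℤ, ∑ i ∈ s, g i * iota ((x i).coeff m) = 0 := by
    intro m
    have := congrArg (fun y : LaurentSeries ℂ => y.coeff m) hg
    simpa [HahnSeries.coeff_sum] using this
  have hrel : ∀ α, ∑ i ∈ s, (b.repr (g i) α) • x i = 0 := by
    intro α
    ext m
    have h1 := congrArg (fun c : ℂ => b.repr c α) (hcoef m)
    have h2 : ∀ i, b.repr (g i * iota ((x i).coeff m)) α = (x i).coeff m * b.repr (g i) α := by
      intro i
      have : g i * iota ((x i).coeff m) = ((x i).coeff m) • g i := by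
        rw [Algebra.smul_def, mul_comm]
        rfl
      rw [this, map_smul]
      simp
    simp only [map_sum, Finsupp.coe_finsetSum, Finset.sum_apply, h2, map_zero,
      Finsupp.coe_zero, Pi.zero_apply] at h1
    simp only [HahnSeries.coeff_sum, HahnSeries.coeff_smul, smul_eq_mul, HahnSeries.coeff_zero]
    rw [← h1]
    exact Finset.sum_congr rfl fun i _ => mul_comm _ _
  have hz : b.repr (g i) = 0 := by
    ext α
    exact h s (fun i => b.repr (g i) α) (hrel α) i hi
  simpa using hz

end Fermat.Agent.S24
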