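import Fermat.Agent.S24.AnDefs

/-!
# S24 B3b : derivative of `j` and the local orders of `j - j(τ₀)`
-/

set_option autoImplicit false

namespace Fermat.Agent.S24

open UpperHalfPlane ModularForm Filter Function ModularGroup
open scoped MatrixGroups Manifold Topology
attribute [local instance] algQbarComplex
local notation "𝕢" => Periodic.qParam

namespace JOrder

local notation "D" => Derivative.normalizedDerivOfComplex
local notation "Δ" => ModularForm.discriminant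

/-- Cauchy estimate: the normalised derivative of a holomorphic function bounded at `i∞` is
bounded at `i∞`. -/
theorem isBoundedAtImInfty_D {F : ℍ → ℂ} (hF : MDiff F) (hb : IsBoundedAtImInfty F) :
    IsBoundedAtImInfty (D F) := by
  rw [UpperHalfPlane.isBoundedAtImInfty_iff] at hb ⊢
  obtain ⟨M, A, h⟩ := hb
  have hd : DifferentiableOn ℂ (F ∘ ofComplex) upperHalfPlaneSet :=
    UpperHalfPlane.mdifferentiable_iff.mp hF
  refine ⟨‖(2 * Real.pi * Complex.I : ℂ)⁻¹‖ * (M / 1), max A 0 + 2, fun z hz => ?_⟩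
  have hA : A + 2 ≤ z.im := le_trans (by gcongr; exact le_max_left _ _) hz
  have h0 : 2 ≤ z.im := le_trans (by simp) hz
  have him : ∀ w ∈ Metric.closedBall (z : ℂ) 1 , A ≤ w.im ∧ 0 < w.im := by
    intro w hw
    have h1 : |(w - z).im| ≤ ‖w - z‖ := Complex.abs_im_le_norm _
    have h2 : ‖w - z‖ ≤ 1 := by simpa [dist_eq_norm] using hw
    have h3 := abs_le.mp (h1.trans h2)
    simp only [Complex.sub_im, coe_im] at h3
    exact ⟨by linarith [h3.1], by linarith [h3.1]⟩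
  have hsub : Metric.closedBall (z : ℂ) 1 ⊆ upperHalfPlaneSet := fun w hw => (him w hw).2
  have key : ‖deriv (F ∘ ofComplex) (z : ℂ)‖ ≤ M / 1 := by
    refine Complex.norm_deriv_le_of_forall_mem_sphere_norm_le one_pos
      (hd.diffContOnCl_ball hsub) fun w hw => ?_
    have hw' := him w (Metric.sphere_subset_closedBall hw)
    have := h ⟨w, hw'.2⟩ hw'.1
    simpa [Function.comp_apply, ofComplex_apply_of_im_pos hw'.2] using this
  unfold Derivative.normalizedDerivOfComplex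
  rw [norm_mul]
  gcongr

/-- For an `MDiff` function, `F ∘ ofComplex` has derivative `2πi * D F z` at `z`. -/
theorem hasDerivAt_comp_ofComplex {F : ℍ → ℂ} (hF : MDiff F) (z : ℍ) :
    HasDerivAt (F ∘ ofComplex) (2 * Real.pi * Complex.I * D F z) z := by
  have h := (UpperHalfPlane.mdifferentiableAt_iff.mp (hF z)).hasDerivAt
  have h2 : (2 * Real.pi * Complex.I * D F z) = deriv (F ∘ ofComplex) z := by
    have : (2 * (Real.pi : ℂ) * Complex.I) ≠ 0 := by simp [Real.pi_ne_zero]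
    simp only [Derivative.normalizedDerivOfComplex]
    field_simp
  rw [h2]; exact h

/-- `D Δ = E₂ Δ`. -/
theorem D_discriminant (z : ℍ) : D Δ z = EisensteinSeries.E2 z * Δ z := by
  have hη : DifferentiableAt ℂ ModularForm.eta (z : ℂ) :=
    ModularForm.differentiableAt_eta_of_mem_upperHalfPlaneSet z.2
  have hne : ModularForm.eta (z : ℂ) ≠ 0 := ModularForm.eta_ne_zero z.2
  have hlog := ModularForm.logDeriv_eta_eq_E2 z
  rw [logDeriv_apply, div_eq_iff hne] at hlog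
  have hev : (Δ ∘ ofComplex) =ᶠ[𝓝 (z : ℂ)] fun w => ModularForm.eta w ^ 24 := by
    filter_upwards [isOpen_upperHalfPlaneSet.mem_nhds z.im_pos] with w hw
    simp [ModularForm.discriminant, ofComplex_apply_of_im_pos hw]
  have hπ : (2 * Real.pi * Complex.I : ℂ) ≠ 0 := by
    simp [Real.pi_ne_zero]
  simp only [Derivative.normalizedDerivOfComplex]
  rw [hev.deriv_eq, deriv_fun_pow hη, hlog, ModularForm.discriminant]
  field_simp
  ring

theorem mdiff_E4 : MDiff (E₄ : ℍ → ℂ) := E₄.holo'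
theorem mdiff_E6 : MDiff (E₆ : ℍ → ℂ) := E₆.holo'
theorem mdiff_discriminant : MDiff (Δ : ℍ → ℂ) := CuspForm.discriminant.holo'

/-- The Serre derivative of `E₄` as a level one modular form of weight `6`. -/
noncomputable def serreE4 : ModularForm 𝒮ℒ 6 where
  toFun := Derivative.serreDerivative 4 E₄
  slash_action_eq' := by
    rintro _ ⟨γ, rfl⟩
    have h := Derivative.serreDerivative_slash_invariant (k := 4) (γ := γ) mdiff_E4
      (E₄.slash_action_eq' _ ⟨γ, rfl⟩)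
    exact_mod_cast h
  holo' := Derivative.serreDerivative_mdifferentiable _ mdiff_E4
  bdd_at_cusps' {c} hc := by
    rw [Subgroup.IsArithmetic.isCusp_iff_isCusp_SL2Z] at hc
    rw [OnePoint.isBoundedAt_iff_forall_SL2Z hc]
    intro γ _
    have h := Derivative.serreDerivative_slash_invariant (k := 4) (γ := γ) mdiff_E4
      (E₄.slash_action_eq' _ ⟨γ, rfl⟩)
    have h' : (Derivative.serreDerivative 4 E₄ : ℍ → ℂ) ∣[(6 : ℤ)] γ
        = Derivative.serreDerivative 4 E₄ := by exact_mod_cast h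
    rw [h']
    have hb : IsBoundedAtImInfty (E₄ : ℍ → ℂ) := ModularFormClass.bdd_at_infty E₄
    have h1 := isBoundedAtImInfty_D mdiff_E4 hb
    have h2 : IsBoundedAtImInfty
        (fun z : ℍ => (4 : ℂ) * 12⁻¹ * EisensteinSeries.E2 z * E₄ z) :=
      ((Filter.const_boundedAtFilter _ ((4 : ℂ) * 12⁻¹)).mul
        EisensteinSeries.isBoundedAtImInfty_E2).mul hb
    exact h1.sub h2

theorem exists_serreE4_eq : ∃ c : ℂ, ∀ z : ℍ,
    D E₄ z = c * E₆ z + 4 * 12⁻¹ * EisensteinSeries.E2 z * E₄ z := by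
  obtain ⟨c, hc⟩ := (finrank_eq_one_iff_of_nonzero' E₆ (EisensteinSeries.E_ne_zero _ ⟨3, rfl⟩)).mp
    (Module.rank_eq_one_iff_finrank_eq_one.mp levelOne_weight_six_rank_one) serreE4
  refine ⟨c, fun z => ?_⟩
  have h := congrArg (fun f : ModularForm 𝒮ℒ 6 => f z) hc
  have h2 : c * E₆ z = D E₄ z - 4 * 12⁻¹ * EisensteinSeries.E2 z * E₄ z := h
  rw [h2]; ring

theorem tendsto_E4 : Tendsto (E₄ : ℍ → ℂ) atImInfty (𝓝 1) := by
  have hper : Function.Periodic ((E₄ : ℍ → ℂ) ∘ ofComplex) 1 := by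
    simpa using SlashInvariantFormClass.periodic_comp_ofComplex E₄ one_mem_strictPeriods_SL
  have hb : IsBoundedAtImInfty (E₄ : ℍ → ℂ) := ModularFormClass.bdd_at_infty E₄
  have han := analyticAt_cuspFunction_zero one_pos hper mdiff_E4 hb
  have hcomp : (cuspFunction 1 E₄ ∘ fun τ : ℍ ↦ Function.Periodic.qParam 1 τ) = E₄ := by
    funext τ
    simpa using eq_cuspFunction τ one_ne_zero hper
  have h := han.continuousAt.tendsto.comp (qParam_tendsto_atImInfty one_pos)
  have h0 : cuspFunction 1 E₄ 0 = 1 := by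
    have := EisensteinSeries.E_qExpansion_coeff_zero (k := 4) (by norm_num) (by decide)
    simpa [qExpansion_coeff] using this
  rwa [hcomp, h0] at h

/-- The derivative of `j`, given the constant `c` with `∂₄E₄ = c E₆`. -/
theorem hasDerivAt_jFun {c : ℂ}
    (hc : ∀ z : ℍ, D E₄ z = c * E₆ z + 4 * 12⁻¹ * EisensteinSeries.E2 z * E₄ z) (z : ℍ) :
    HasDerivAt (fun w : ℂ => jFun (ofComplex w))
      (2 * Real.pi * Complex.I * (3 * c) * (E₄ z ^ 2 * E₆ z * (Δ z)⁻¹)) z := by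
  have h4 := hasDerivAt_comp_ofComplex mdiff_E4 z
  have hd := hasDerivAt_comp_ofComplex mdiff_discriminant z
  have hne : (Δ ∘ ofComplex) (z : ℂ) ≠ 0 := discriminant_ne_zero _
  have h := (h4.pow 3).div hd hne
  have hfun : (fun w : ℂ => jFun (ofComplex w)) = ((E₄ : ℍ → ℂ) ∘ ofComplex) ^ 3 / (Δ ∘ ofComplex) := by
    funext w
    simp [jFun]
  rw [hfun]
  refine h.congr_deriv ?_
  have hne' : Δ z ≠ 0 := discriminant_ne_zero _
  simp only [Pi.pow_apply, Function.comp_apply, ofComplex_apply, hc z, D_discriminant z]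
  field_simp
  ring

theorem isPreconnected_upperHalfPlaneSet : IsPreconnected upperHalfPlaneSet :=
  (convex_halfSpace_im_gt 0).isPreconnected

theorem serre_const_ne_zero {c : ℂ}
    (hc : ∀ z : ℍ, D E₄ z = c * E₆ z + 4 * 12⁻¹ * EisensteinSeries.E2 z * E₄ z) : c ≠ 0 := by
  rintro rfl
  have hder : ∀ z : ℍ, HasDerivAt (fun w : ℂ => jFun (ofComplex w)) 0 z := by
    intro z
    simpa using hasDerivAt_jFun hc z
  have hconst : ∀ z : ℍ, jFun z = jFun I := by
    intro z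
    have := isOpen_upperHalfPlaneSet.is_const_of_deriv_eq_zero isPreconnected_upperHalfPlaneSet
      (f := fun w : ℂ => jFun (ofComplex w))
      (fun w hw => (hder ⟨w, hw⟩).differentiableAt.differentiableWithinAt)
      (fun w hw => (hder ⟨w, hw⟩).deriv) z.2 (I : ℍ).2
    simpa only [ofComplex_apply] using this
  have h1 : Tendsto (fun z : ℍ => (E₄ z) ^ 3) atImInfty (𝓝 (1 ^ 3)) := tendsto_E4.pow 3
  have h2 : Tendsto (fun z : ℍ => jFun I * Δ z) atImInfty (𝓝 (jFun I * 0)) :=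
    (discriminant_isZeroAtImInfty).const_mul _
  have h3 : (fun z : ℍ => (E₄ z) ^ 3) = fun z : ℍ => jFun I * Δ z := by
    funext z
    rw [← hconst z, jFun, div_mul_cancel₀ _ (discriminant_ne_zero z)]
  rw [h3] at h1
  have := tendsto_nhds_unique h1 h2
  simp at this

theorem analyticAt_comp_ofComplex {F : ℍ → ℂ} (hF : MDiff F) (z : ℍ) :
    AnalyticAt ℂ (F ∘ ofComplex) z :=
  (UpperHalfPlane.mdifferentiable_iff.mp hF).analyticAt (isOpen_upperHalfPlaneSet.mem_nhds z.2)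

theorem analyticOrderAt_comp_ofComplex_ne_top {F : ℍ → ℂ} (hF : MDiff F) (hne : ∃ w, F w ≠ 0)
    (z : ℍ) : analyticOrderAt (F ∘ ofComplex) (z : ℂ) ≠ ⊤ := by
  obtain ⟨w, hw⟩ := hne
  have han : AnalyticOnNhd ℂ (F ∘ ofComplex) upperHalfPlaneSet :=
    fun x hx => analyticAt_comp_ofComplex hF ⟨x, hx⟩
  refine han.analyticOrderAt_ne_top_of_isPreconnected isPreconnected_upperHalfPlaneSet w.2 z.2 ?_
  have : analyticOrderAt (F ∘ ofComplex) (w : ℂ) = 0 :=
    (analyticAt_comp_ofComplex hF w).analyticOrderAt_eq_zero.mpr (by simpa using hw)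
  rw [this]
  simp

/-- The analytic order of `j - j(τ₀)` at `τ₀` in terms of the orders of `E₄`, `E₆`. -/
theorem analyticOrderAt_jFun_sub_eq (τ₀ : ℍ) :
    analyticOrderAt (fun z : ℂ => jFun (ofComplex z) - jFun τ₀) (τ₀ : ℂ) =
      2 * analyticOrderAt ((E₄ : ℍ → ℂ) ∘ ofComplex) (τ₀ : ℂ)
        + analyticOrderAt ((E₆ : ℍ → ℂ) ∘ ofComplex) (τ₀ : ℂ) + 1 := by
  obtain ⟨c, hc⟩ := exists_serreE4_eq
  have hc0 := serre_const_ne_zero hc
  have h4 := analyticAt_comp_ofComplex mdiff_E4 τ₀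
  have h6 := analyticAt_comp_ofComplex mdiff_E6 τ₀
  have hd := analyticAt_comp_ofComplex mdiff_discriminant τ₀
  have hdne : (Δ ∘ ofComplex) (τ₀ : ℂ) ≠ 0 := discriminant_ne_zero _
  have hJ : AnalyticAt ℂ (fun w : ℂ => jFun (ofComplex w)) (τ₀ : ℂ) := by
    have := (h4.pow 3).div hd hdne
    refine this.congr (Eventually.of_forall fun w => ?_)
    simp [jFun]
  have h1 := hJ.analyticOrderAt_deriv_add_one
  simp only [ofComplex_apply] at h1
  rw [← h1]
  congr 1
  have hev : deriv (fun w : ℂ => jFun (ofComplex w)) =ᶠ[𝓝 (τ₀ : ℂ)]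
      (fun _ : ℂ => 2 * Real.pi * Complex.I * (3 * c)) *
        ((((E₄ : ℍ → ℂ) ∘ ofComplex) ^ 2 * ((E₆ : ℍ → ℂ) ∘ ofComplex)) * (Δ ∘ ofComplex)⁻¹) := by
    filter_upwards [isOpen_upperHalfPlaneSet.mem_nhds τ₀.2] with w hw
    rw [(hasDerivAt_jFun hc ⟨w, hw⟩).deriv]
    simp [ofComplex_apply_of_im_pos hw]
  rw [analyticOrderAt_congr hev, analyticOrderAt_mul analyticAt_const
    (((h4.pow 2).mul h6).mul (hd.inv hdne)), analyticOrderAt_mul ((h4.pow 2).mul h6) (hd.inv hdne),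
    analyticOrderAt_mul (h4.pow 2) h6, analyticOrderAt_pow h4]
  have e1 : analyticOrderAt (fun _ : ℂ => 2 * Real.pi * Complex.I * (3 * c)) (τ₀ : ℂ) = 0 :=
    analyticAt_const.analyticOrderAt_eq_zero.mpr (by simp [Real.pi_ne_zero, hc0])
  have e2 : analyticOrderAt (Δ ∘ ofComplex)⁻¹ (τ₀ : ℂ) = 0 :=
    (hd.inv hdne).analyticOrderAt_eq_zero.mpr (by simpa using hdne)
  rw [e1, e2]
  simp

theorem enat_aux3 {a : ℕ∞} (ha : a ≠ ⊤) (h : 3 * a = 2 * a + 0 + 1) : 3 * a = 3 := by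
  lift a to ℕ using ha
  have h' : 3 * a = 2 * a + 0 + 1 := by exact_mod_cast h
  have : a = 1 := by omega
  subst this
  norm_num

theorem enat_aux2 {b : ℕ∞} (hb : b ≠ ⊤) (h : 2 * b = 2 * 0 + b + 1) : 2 * b = 2 := by
  lift b to ℕ using hb
  have h' : 2 * b = 2 * 0 + b + 1 := by exact_mod_cast h
  have : b = 1 := by omega
  subst this
  norm_num

open Classical in
theorem analyticOrderAt_jFun_sub (τ₀ : ℍ) :
    analyticOrderAt (fun z : ℂ => jFun (ofComplex z) - jFun τ₀) (τ₀ : ℂ) =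
      if jFun τ₀ = 0 then 3 else if jFun τ₀ = 1728 then 2 else 1 := by
  have key := analyticOrderAt_jFun_sub_eq τ₀
  have h4 := analyticAt_comp_ofComplex mdiff_E4 τ₀
  have h6 := analyticAt_comp_ofComplex mdiff_E6 τ₀
  have hd := analyticAt_comp_ofComplex mdiff_discriminant τ₀
  have hdne : (Δ ∘ ofComplex) (τ₀ : ℂ) ≠ 0 := discriminant_ne_zero _
  have hΔ : Δ τ₀ ≠ 0 := discriminant_ne_zero _
  have hrel := discriminant_eq_E₄_cube_sub_E₆_sq τ₀
  have e2 : analyticOrderAt (Δ ∘ ofComplex)⁻¹ (τ₀ : ℂ) = 0 :=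
    (hd.inv hdne).analyticOrderAt_eq_zero.mpr (by simpa using hdne)
  have ha : analyticOrderAt ((E₄ : ℍ → ℂ) ∘ ofComplex) (τ₀ : ℂ) ≠ ⊤ :=
    analyticOrderAt_comp_ofComplex_ne_top mdiff_E4
      (DFunLike.ne_iff.mp (EisensteinSeries.E_ne_zero _ ⟨2, rfl⟩)) τ₀
  have hb : analyticOrderAt ((E₆ : ℍ → ℂ) ∘ ofComplex) (τ₀ : ℂ) ≠ ⊤ :=
    analyticOrderAt_comp_ofComplex_ne_top mdiff_E6
      (DFunLike.ne_iff.mp (EisensteinSeries.E_ne_zero _ ⟨3, rfl⟩)) τ₀
  have hj0 : jFun τ₀ = 0 ↔ E₄ τ₀ = 0 := by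
    simp [jFun, hΔ]
  have hj1 : jFun τ₀ = 1728 ↔ E₆ τ₀ = 0 := by
    rw [jFun, div_eq_iff hΔ, hrel]
    constructor
    · intro h
      have : E₆ τ₀ ^ 2 = 0 := by linear_combination h
      simpa using this
    · intro h
      rw [h]; ring
  have ord4 : E₄ τ₀ ≠ 0 → analyticOrderAt ((E₄ : ℍ → ℂ) ∘ ofComplex) (τ₀ : ℂ) = 0 :=
    fun h => h4.analyticOrderAt_eq_zero.mpr (by simpa using h)
  have ord6 : E₆ τ₀ ≠ 0 → analyticOrderAt ((E₆ : ℍ → ℂ) ∘ ofComplex) (τ₀ : ℂ) = 0 :=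
    fun h => h6.analyticOrderAt_eq_zero.mpr (by simpa using h)
  by_cases c0 : jFun τ₀ = 0
  · rw [if_pos c0]
    have hE4 := hj0.mp c0
    have hE6 : E₆ τ₀ ≠ 0 := by
      intro h
      apply hΔ
      rw [hrel, hE4, h]; norm_num
    have hfun : (fun z : ℂ => jFun (ofComplex z) - jFun τ₀)
        = ((E₄ : ℍ → ℂ) ∘ ofComplex) ^ 3 * (Δ ∘ ofComplex)⁻¹ := by
      funext z
      rw [c0]
      simp [jFun, div_eq_mul_inv]
    rw [hfun, analyticOrderAt_mul (h4.pow 3) (hd.inv hdne), analyticOrderAt_pow h4, e2, add_zero,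
      ord6 hE6] at key
    rw [hfun, analyticOrderAt_mul (h4.pow 3) (hd.inv hdne), analyticOrderAt_pow h4, e2, add_zero]
    rw [nsmul_eq_mul] at key ⊢
    exact enat_aux3 ha (by simpa using key)
  · rw [if_neg c0]
    have hE4 : E₄ τ₀ ≠ 0 := fun h => c0 (hj0.mpr h)
    by_cases c1 : jFun τ₀ = 1728
    · rw [if_pos c1]
      have hfun : (fun z : ℂ => jFun (ofComplex z) - jFun τ₀)
          = ((E₆ : ℍ → ℂ) ∘ ofComplex) ^ 2 * (Δ ∘ ofComplex)⁻¹ := by
        funext z
        have hz : Δ (ofComplex z) ≠ 0 := discriminant_ne_zero _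
        have hr := discriminant_eq_E₄_cube_sub_E₆_sq (ofComplex z)
        rw [c1]
        simp only [jFun, Pi.mul_apply, Pi.pow_apply, Function.comp_apply, Pi.inv_apply]
        field_simp
        rw [hr]; ring
      rw [hfun, analyticOrderAt_mul (h6.pow 2) (hd.inv hdne), analyticOrderAt_pow h6, e2, add_zero,
        ord4 hE4] at key
      rw [hfun, analyticOrderAt_mul (h6.pow 2) (hd.inv hdne), analyticOrderAt_pow h6, e2, add_zero]
      rw [nsmul_eq_mul] at key ⊢
      exact enat_aux2 hb (by simpa using key)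
    · rw [if_neg c1]
      have hE6 : E₆ τ₀ ≠ 0 := fun h => c1 (hj1.mpr h)
      rw [key, ord4 hE4, ord6 hE6]
      simp

end JOrder

open Classical in
theorem meromorphicOrderAt_jFun_sub (τ₀ : ℍ) :
    meromorphicOrderAt (fun z : ℂ => jFun (ofComplex z) - jFun τ₀) (τ₀ : ℂ) = if jFun τ₀ = 0 then 3 else if jFun τ₀ = 1728 then 2 else 1 := by
  have h4 := JOrder.analyticAt_comp_ofComplex JOrder.mdiff_E4 τ₀
  have hd := JOrder.analyticAt_comp_ofComplex JOrder.mdiff_discriminant τ₀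
  have hdne : (ModularForm.discriminant ∘ ofComplex) (τ₀ : ℂ) ≠ 0 := discriminant_ne_zero _
  have hJ : AnalyticAt ℂ (fun w : ℂ => jFun (ofComplex w) - jFun τ₀) (τ₀ : ℂ) := by
    have := ((h4.pow 3).div hd hdne).sub (analyticAt_const (v := jFun τ₀))
    refine this.congr (Eventually.of_forall fun w => ?_)
    simp [jFun]
  rw [hJ.meromorphicOrderAt_eq, JOrder.analyticOrderAt_jFun_sub τ₀]
  split_ifs <;> rfl

end Fermat.Agent.S24
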