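import Fermat.Agent.S24.Defs

/-!
# S24 : extending an embedding of a ring to its field of fractions

`A` is a `K`-algebra, `ρ : A →ₐ[K] F` an injective homomorphism to a field such that every element
of `F` is a fraction of elements of the image.  Every injective `ε : A →ₐ[K] M` (`M` a field)
extends uniquely to `F`, and statements on "valuations" of elements of `F` reduce to the image of
`ρ`.  (Shared by the two local uniformisation packages.)
-/

set_option autoImplicit false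

namespace Fermat.Agent.S24

open Function

section LiftHom

variable {K A F M : Type*} [Field K] [CommRing A] [Algebra K A] [Field F] [Algebra K F]
  [Field M] [Algebra K M]

/-- The extension of `ε` to the field of fractions. -/
noncomputable def liftHom (ρ : A →ₐ[K] F) (hρ : Injective ρ)
    (hfrac : ∀ f : F, ∃ a b : A, b ≠ 0 ∧ f * ρ b = ρ a)
    (ε : A →ₐ[K] M) (hε : Injective ε) : F →ₐ[K] M :=
  letI : Algebra A F := ρ.toRingHom.toAlgebra
  haveI : IsScalarTower K A F := IsScalarTower.of_algebraMap_eq fun x => (ρ.commutes x).symm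
  haveI : FaithfulSMul A F := (faithfulSMul_iff_algebraMap_injective A F).mpr hρ
  haveI : IsFractionRing A F := IsFractionRing.of_field A F fun z => by
    obtain ⟨a, b, hb, h⟩ := hfrac z
    refine ⟨a, b, ?_⟩
    have hb' : ρ b ≠ 0 := fun h0 => hb (hρ (by rw [h0, map_zero]))
    exact (eq_div_iff hb').mpr h
  IsFractionRing.liftAlgHom (K := F) hε

theorem liftHom_apply (ρ : A →ₐ[K] F) (hρ : Injective ρ)
    (hfrac : ∀ f : F, ∃ a b : A, b ≠ 0 ∧ f * ρ b = ρ a)
    (ε : A →ₐ[K] M) (hε : Injective ε) (a : A) : liftHom ρ hρ hfrac ε hε (ρ a) = ε a := by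
  letI : Algebra A F := ρ.toRingHom.toAlgebra
  haveI : IsScalarTower K A F := IsScalarTower.of_algebraMap_eq fun x => (ρ.commutes x).symm
  haveI : FaithfulSMul A F := (faithfulSMul_iff_algebraMap_injective A F).mpr hρ
  haveI : IsFractionRing A F := IsFractionRing.of_field A F fun z => by
    obtain ⟨a, b, hb, h⟩ := hfrac z
    refine ⟨a, b, ?_⟩
    have hb' : ρ b ≠ 0 := fun h0 => hb (hρ (by rw [h0, map_zero]))
    exact (eq_div_iff hb').mpr h
  exact IsFractionRing.lift_algebraMap (K := F) (g := (ε : A →+* M)) hε a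

/-- Two homomorphisms out of the field of fractions agreeing on the ring are equal. -/
theorem algHom_ext_of_frac (ρ : A →ₐ[K] F) (hρ : Injective ρ)
    (hfrac : ∀ f : F, ∃ a b : A, b ≠ 0 ∧ f * ρ b = ρ a)
    (φ φ' : F →ₐ[K] M) (h : ∀ a, φ (ρ a) = φ' (ρ a)) : φ = φ' := by
  ext f
  obtain ⟨a, b, hb, hf⟩ := hfrac f
  have hb' : ρ b ≠ 0 := fun h0 => hb (hρ (by rw [h0, map_zero]))
  have h1 : φ f * φ (ρ b) = φ (ρ a) := by rw [← map_mul, hf]
  have h2 : φ' f * φ' (ρ b) = φ' (ρ a) := by rw [← map_mul, hf]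
  have h3 : φ (ρ b) ≠ 0 := (map_ne_zero φ).mpr hb'
  rw [← h a, ← h b] at h2
  exact mul_right_cancel₀ h3 (h1.trans h2.symm)

/-- Equality of two "valuations" on the field of fractions follows from equality on the ring. -/
theorem w_eq_of_frac (ρ : A →ₐ[K] F) (hρ : Injective ρ)
    (hfrac : ∀ f : F, ∃ a b : A, b ≠ 0 ∧ f * ρ b = ρ a)
    (w : M → ℤ) (hw : ∀ a b : M, a ≠ 0 → b ≠ 0 → w (a * b) = w a + w b)
    (φ φ' : F →ₐ[K] M) (h : ∀ a, w (φ (ρ a)) = w (φ' (ρ a))) (f : F) :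
    w (φ f) = w (φ' f) := by
  rcases eq_or_ne f 0 with rfl | hf0
  · rw [map_zero, map_zero]
  obtain ⟨a, b, hb, hf⟩ := hfrac f
  have hb' : ρ b ≠ 0 := fun h0 => hb (hρ (by rw [h0, map_zero]))
  have h1 : w (φ f) + w (φ (ρ b)) = w (φ (ρ a)) := by
    rw [← hw _ _ ((map_ne_zero φ).mpr hf0) ((map_ne_zero φ).mpr hb'), ← map_mul, hf]
  have h2 : w (φ' f) + w (φ' (ρ b)) = w (φ' (ρ a)) := by
    rw [← hw _ _ ((map_ne_zero φ').mpr hf0) ((map_ne_zero φ').mpr hb'), ← map_mul, hf]
  have := h a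
  have := h b
  omega

/-- Divisibility of the values of a "valuation" on the field of fractions follows from
divisibility on the ring. -/
theorem dvd_of_frac (ρ : A →ₐ[K] F) (hρ : Injective ρ)
    (hfrac : ∀ f : F, ∃ a b : A, b ≠ 0 ∧ f * ρ b = ρ a)
    (w : M → ℤ) (hw : ∀ a b : M, a ≠ 0 → b ≠ 0 → w (a * b) = w a + w b)
    (φ : F →ₐ[K] M) (s h : ℤ) (H : ∀ a, a ≠ 0 → s ∣ h * w (φ (ρ a))) (f : F) (hf0 : f ≠ 0) :
    s ∣ h * w (φ f) := by
  obtain ⟨a, b, hb, hf⟩ := hfrac f
  have hb' : ρ b ≠ 0 := fun h0 => hb (hρ (by rw [h0, map_zero]))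
  have ha : a ≠ 0 := by
    rintro rfl
    rw [map_zero] at hf
    exact (mul_ne_zero hf0 hb') hf
  have h1 : w (φ f) + w (φ (ρ b)) = w (φ (ρ a)) := by
    rw [← hw _ _ ((map_ne_zero φ).mpr hf0) ((map_ne_zero φ).mpr hb'), ← map_mul, hf]
  have h2 : w (φ f) = w (φ (ρ a)) - w (φ (ρ b)) := by omega
  rw [h2, mul_sub]
  exact dvd_sub (H a ha) (H b hb)

end LiftHom

end Fermat.Agent.S24
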