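import Fermat.Agent.S24.AnDefs

/-!
# S24 / B6a : invariance under a local automorphism forces `λ ^ order = 1`
-/

set_option autoImplicit false

namespace Fermat.Agent.S24

open UpperHalfPlane ModularForm Filter Function ModularGroup
open scoped MatrixGroups Manifold Topology

theorem deriv_zpow_order_eq_one {H φ : ℂ → ℂ} {z₀ : ℂ} (hH : MeromorphicAt H z₀) (k : ℤ)
    (hk : meromorphicOrderAt H z₀ = k) (hφ : AnalyticAt ℂ φ z₀) (hz : φ z₀ = z₀)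
    (hd : deriv φ z₀ ≠ 0) (hinv : ∀ᶠ z in 𝓝[≠] z₀, H (φ z) = H z) : (deriv φ z₀) ^ k = 1 := by
  obtain ⟨g, hg, hg0, hHg⟩ := (meromorphicOrderAt_eq_int_iff hH).1 hk
  have hφd : HasDerivAt φ (deriv φ z₀) z₀ := hφ.differentiableAt.hasDerivAt
  have hφt : Tendsto φ (𝓝[≠] z₀) (𝓝[≠] z₀) := by
    have := hφd.tendsto_nhdsNE hd
    rwa [hz] at this
  have hHg' : ∀ᶠ z in 𝓝[≠] z₀, H (φ z) = (φ z - z₀) ^ k • g (φ z) := hφt.eventually hHg
  have hslope : Tendsto (fun z => (φ z - z₀) / (z - z₀)) (𝓝[≠] z₀) (𝓝 (deriv φ z₀)) := by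
    have := hasDerivAt_iff_tendsto_slope.1 hφd
    refine this.congr fun z => ?_
    rw [slope_def_field, hz]
  have h1 : Tendsto (fun z => ((φ z - z₀) / (z - z₀)) ^ k * g (φ z)) (𝓝[≠] z₀)
      (𝓝 ((deriv φ z₀) ^ k * g z₀)) := by
    apply Tendsto.mul
    · exact hslope.zpow₀ k (Or.inl hd)
    · exact hg.continuousAt.tendsto.comp (hφt.mono_right nhdsWithin_le_nhds)
  have h2 : Tendsto (fun z => ((φ z - z₀) / (z - z₀)) ^ k * g (φ z)) (𝓝[≠] z₀) (𝓝 (g z₀)) := by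
    have h3 : Tendsto g (𝓝[≠] z₀) (𝓝 (g z₀)) :=
      hg.continuousAt.tendsto.mono_left nhdsWithin_le_nhds
    refine h3.congr' ?_
    filter_upwards [hHg, hHg', hinv, self_mem_nhdsWithin] with z e1 e2 e3 e4
    have hne : z - z₀ ≠ 0 := sub_ne_zero.2 e4
    rw [e1, e2] at e3
    simp only [smul_eq_mul] at e3
    rw [div_zpow, div_mul_eq_mul_div, e3, mul_div_cancel_left₀ _ (zpow_ne_zero _ hne)]
  have h3 := tendsto_nhds_unique h1 h2
  exact mul_right_cancel₀ hg0 (by rw [h3, one_mul])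

/-! ### (i) Möbius transformations near a fixed point -/

/-- The Möbius transformation `γ` in the local coordinate `u = τ - τ₀`. -/
noncomputable def locMoeb (γ : SL(2, ℤ)) (τ₀ : ℍ) (u : ℂ) : ℂ :=
  ((γ • ofComplex ((τ₀ : ℂ) + u) : ℍ) : ℂ) - τ₀

theorem ofComplex_add_locMoeb (γ : SL(2, ℤ)) (τ₀ : ℍ) (u : ℂ) :
    ofComplex ((τ₀ : ℂ) + locMoeb γ τ₀ u) = γ • ofComplex ((τ₀ : ℂ) + u) := by
  simp [locMoeb]

theorem locMoeb_zero {γ : SL(2, ℤ)} {τ₀ : ℍ} (h : γ • τ₀ = τ₀) : locMoeb γ τ₀ 0 = 0 := by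
  simp [locMoeb, h]

theorem det_coe_SL_GL (γ : SL(2, ℤ)) : ((γ : GL (Fin 2) ℝ) : Matrix (Fin 2) (Fin 2) ℝ).det = 1 :=
  (Matrix.SpecialLinearGroup.map (Int.castRingHom ℝ) γ).det_coe

theorem hasDerivAt_locMoeb (γ : SL(2, ℤ)) (τ₀ : ℍ) :
    HasDerivAt (locMoeb γ τ₀) (1 / (denom γ τ₀) ^ 2) 0 := by
  have h1 : HasDerivAt (fun z ↦ ↑((γ : GL (Fin 2) ℝ) • ofComplex z) : ℂ → ℂ)
      (1 / denom (γ : GL (Fin 2) ℝ) τ₀ ^ 2) τ₀ := by
    have := (hasStrictDerivAt_smul (g := (γ : GL (Fin 2) ℝ))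
      (by rw [det_coe_SL_GL]; exact one_pos) τ₀).hasDerivAt
    rw [det_coe_SL_GL] at this
    exact_mod_cast this
  have h2 : HasDerivAt (fun u : ℂ => (τ₀ : ℂ) + u) 1 0 := by
    simpa using (hasDerivAt_id (0 : ℂ)).const_add (τ₀ : ℂ)
  have h1' : HasDerivAt (fun z ↦ ↑((γ : GL (Fin 2) ℝ) • ofComplex z) : ℂ → ℂ)
      (1 / denom (γ : GL (Fin 2) ℝ) τ₀ ^ 2) ((τ₀ : ℂ) + 0) := by simpa using h1
  have h3 := (h1'.comp (0 : ℂ) h2).sub_const (τ₀ : ℂ)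
  rw [mul_one] at h3
  exact h3

theorem deriv_locMoeb (γ : SL(2, ℤ)) (τ₀ : ℍ) :
    deriv (locMoeb γ τ₀) 0 = 1 / (denom γ τ₀) ^ 2 := (hasDerivAt_locMoeb γ τ₀).deriv

theorem deriv_locMoeb_ne_zero (γ : SL(2, ℤ)) (τ₀ : ℍ) : deriv (locMoeb γ τ₀) 0 ≠ 0 := by
  rw [deriv_locMoeb]
  exact one_div_ne_zero (pow_ne_zero _ (denom_ne_zero _ _))

theorem analyticAt_locMoeb (γ : SL(2, ℤ)) (τ₀ : ℍ) : AnalyticAt ℂ (locMoeb γ τ₀) 0 := by
  have h1 : AnalyticAt ℂ (fun z ↦ ↑((γ : GL (Fin 2) ℝ) • ofComplex z) : ℂ → ℂ) ((τ₀ : ℂ) + 0) := by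
    simpa using analyticAt_smul (g := (γ : GL (Fin 2) ℝ))
      (by rw [det_coe_SL_GL]; exact one_pos) τ₀
  have h2 : AnalyticAt ℂ (fun u : ℂ => (τ₀ : ℂ) + u) 0 := by fun_prop
  exact (h1.fun_comp h2).sub analyticAt_const

theorem denom_inv_of_fixed {γ : SL(2, ℤ)} {τ₀ : ℍ} (h : γ • τ₀ = τ₀) :
    denom (γ⁻¹ : SL(2, ℤ)) τ₀ = (denom γ τ₀)⁻¹ := by
  have h1 := denom_cocycle' ((γ⁻¹ : SL(2, ℤ)) : GL (Fin 2) ℝ) (γ : GL (Fin 2) ℝ) τ₀
  have h2 : smulAux (γ : GL (Fin 2) ℝ) τ₀ = τ₀ := h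
  have h3 : ((γ⁻¹ : SL(2, ℤ)) : GL (Fin 2) ℝ) * (γ : GL (Fin 2) ℝ) = 1 := by
    rw [← map_mul]; simp
  have h4 : σ (γ : GL (Fin 2) ℝ) = .refl ℝ ℂ := by
    simp [σ]
  rw [h2, h3, h4] at h1
  have h5 : denom (1 : GL (Fin 2) ℝ) (τ₀ : ℂ) = 1 := by simp [denom]
  rw [h5] at h1
  exact eq_inv_of_mul_eq_one_left h1.symm

theorem deriv_locMoeb_inv {γ : SL(2, ℤ)} {τ₀ : ℍ} (h : γ • τ₀ = τ₀) :
    deriv (locMoeb γ⁻¹ τ₀) 0 = (deriv (locMoeb γ τ₀) 0)⁻¹ := by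
  rw [deriv_locMoeb, deriv_locMoeb, denom_inv_of_fixed h]
  simp

theorem locInv_S_smul_I : (S : SL(2, ℤ)) • (I : ℍ) = I := by
  rw [UpperHalfPlane.ext_iff, modular_S_smul]
  simp

theorem deriv_locMoeb_S_I : deriv (locMoeb S I) 0 = -1 := by
  rw [deriv_locMoeb, ModularGroup.denom_S]
  simp

theorem deriv_locMoeb_S_inv_I : deriv (locMoeb S⁻¹ I) 0 = -1 := by
  rw [deriv_locMoeb_inv locInv_S_smul_I, deriv_locMoeb_S_I]
  norm_num

theorem rho_sq_add : (rho : ℂ) ^ 2 + (rho : ℂ) + 1 = 0 := by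
  have h3 : ((Real.sqrt 3 : ℝ) : ℂ) ^ 2 = 3 := by
    rw [← Complex.ofReal_pow, Real.sq_sqrt (by norm_num)]
    norm_num
  have : (rho : ℂ) = -1 / 2 + ((Real.sqrt 3 : ℝ) : ℂ) / 2 * Complex.I := by
    simp [rho]
  rw [this]
  ring_nf
  rw [h3, Complex.I_sq]
  ring

theorem rho_pow_three : (rho : ℂ) ^ 3 = 1 := by
  linear_combination ((rho : ℂ) - 1) * rho_sq_add

theorem rho_ne_one : (rho : ℂ) ≠ 1 := by
  intro h
  have := rho_sq_add
  rw [h] at this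
  norm_num at this

theorem coe_ST : ((S * T : SL(2, ℤ)) : Matrix (Fin 2) (Fin 2) ℤ) = !![0, -1; 1, 1] := by
  rw [Matrix.SpecialLinearGroup.coe_mul, coe_S, coe_T]
  ext i j
  fin_cases i <;> fin_cases j <;> simp [Matrix.mul_apply, Fin.sum_univ_two]

theorem denom_ST (z : ℍ) : denom ((S * T : SL(2, ℤ))) z = (z : ℂ) + 1 := by
  simp [denom, Matrix.mul_apply, Fin.sum_univ_two]

theorem locInv_ST_smul_rho : (S * T : SL(2, ℤ)) • rho = rho := by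
  rw [UpperHalfPlane.ext_iff, coe_specialLinearGroup_apply]
  have hne : (rho : ℂ) + 1 ≠ 0 := by
    rw [← denom_ST]; exact denom_ne_zero _ _
  rw [coe_ST]
  simp
  field_simp
  linear_combination -rho_sq_add

theorem deriv_locMoeb_ST_rho : deriv (locMoeb (S * T) rho) 0 = (rho : ℂ) ^ 2 := by
  rw [deriv_locMoeb, denom_ST]
  have hne : (rho : ℂ) + 1 ≠ 0 := by
    rw [← denom_ST]; exact denom_ne_zero _ _
  field_simp
  linear_combination (-(rho : ℂ) ^ 2 - rho + 1) * rho_sq_add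

theorem deriv_locMoeb_ST_rho_pow_three : (deriv (locMoeb (S * T) rho) 0) ^ 3 = 1 := by
  rw [deriv_locMoeb_ST_rho, ← pow_mul, mul_comm, pow_mul, rho_pow_three, one_pow]

theorem deriv_locMoeb_ST_rho_ne_one : deriv (locMoeb (S * T) rho) 0 ≠ 1 := by
  rw [deriv_locMoeb_ST_rho]
  intro h
  apply rho_ne_one
  linear_combination (-(rho : ℂ)) * h + rho_pow_three

theorem deriv_locMoeb_ST_inv_rho_pow_three : (deriv (locMoeb (S * T)⁻¹ rho) 0) ^ 3 = 1 := by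
  rw [deriv_locMoeb_inv locInv_ST_smul_rho, inv_pow, deriv_locMoeb_ST_rho_pow_three, inv_one]

theorem deriv_locMoeb_ST_inv_rho_ne_one : deriv (locMoeb (S * T)⁻¹ rho) 0 ≠ 1 := by
  rw [deriv_locMoeb_inv locInv_ST_smul_rho]
  intro h
  exact deriv_locMoeb_ST_rho_ne_one (by rw [← inv_inv (deriv _ _), h, inv_one])

/-! ### (ii) roots of unity of order 2 and 3 -/

theorem two_dvd {k : ℤ} (h : (-1 : ℂ) ^ k = 1) : (2 : ℤ) ∣ k := by
  rcases Int.even_or_odd k with hk | hk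
  · exact hk.two_dvd
  · rw [hk.neg_one_zpow] at h
    norm_num at h

theorem three_dvd {l : ℂ} (h3 : l ^ 3 = 1) (h1 : l ≠ 1) {k : ℤ} (hk : l ^ k = 1) :
    (3 : ℤ) ∣ k := by
  have h0 : l ≠ 0 := by
    rintro rfl
    norm_num at h3
  have hdiv := Int.emod_add_mul_ediv k 3
  have hr0 := Int.emod_nonneg k (by norm_num : (3 : ℤ) ≠ 0)
  have hr3 := Int.emod_lt_of_pos k (by norm_num : (0 : ℤ) < 3)
  have h3' : l ^ (3 : ℤ) = 1 := by exact_mod_cast h3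
  have hkr : l ^ (k % 3) = 1 := by
    rw [← hdiv, zpow_add₀ h0, zpow_mul, h3', one_zpow, mul_one] at hk
    exact hk
  have hcases : k % 3 = 0 ∨ k % 3 = 1 ∨ k % 3 = 2 := by omega
  rcases hcases with h | h | h
  · exact Int.dvd_of_emod_eq_zero h
  · rw [h, zpow_one] at hkr
    exact absurd hkr h1
  · rw [h] at hkr
    have h2 : l ^ 2 = 1 := by exact_mod_cast hkr
    exact absurd (by linear_combination (-l) * h2 + h3) h1

/-! ### (iii) rotations -/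

theorem dvd_of_exp_zpow (N : ℕ) [NeZero N] (h k : ℤ)
    (hζ : (Complex.exp (2 * Real.pi * Complex.I * h / N)) ^ k = 1) : (N : ℤ) ∣ h * k := by
  rw [← Complex.exp_int_mul, Complex.exp_eq_one_iff] at hζ
  obtain ⟨n, hn⟩ := hζ
  have hN : (N : ℂ) ≠ 0 := Nat.cast_ne_zero.2 (NeZero.ne N)
  have hpi : (2 * Real.pi * Complex.I : ℂ) ≠ 0 := Complex.two_pi_I_ne_zero
  have h1 : ((h * k : ℤ) : ℂ) = ((N * n : ℤ) : ℂ) := by
    push_cast
    field_simp at hn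
    linear_combination hn
  exact ⟨n, by exact_mod_cast h1⟩

/-! ### Ready-to-use corollaries -/

theorem two_dvd_order_of_invariant_S {H : ℂ → ℂ} (hH : MeromorphicAt H 0) (k : ℤ)
    (hk : meromorphicOrderAt H 0 = k) (hinv : ∀ᶠ u in 𝓝[≠] 0, H (locMoeb S I u) = H u) :
    (2 : ℤ) ∣ k := by
  have := deriv_zpow_order_eq_one hH k hk (analyticAt_locMoeb S I) (locMoeb_zero locInv_S_smul_I)
    (deriv_locMoeb_ne_zero S I) hinv
  rw [deriv_locMoeb_S_I] at this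
  exact two_dvd this

theorem two_dvd_order_of_invariant_S_inv {H : ℂ → ℂ} (hH : MeromorphicAt H 0) (k : ℤ)
    (hk : meromorphicOrderAt H 0 = k) (hinv : ∀ᶠ u in 𝓝[≠] 0, H (locMoeb S⁻¹ I u) = H u) :
    (2 : ℤ) ∣ k := by
  have := deriv_zpow_order_eq_one hH k hk (analyticAt_locMoeb S⁻¹ I)
    (locMoeb_zero (by rw [inv_smul_eq_iff, locInv_S_smul_I])) (deriv_locMoeb_ne_zero S⁻¹ I) hinv
  rw [deriv_locMoeb_S_inv_I] at this
  exact two_dvd this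

theorem three_dvd_order_of_invariant_ST {H : ℂ → ℂ} (hH : MeromorphicAt H 0) (k : ℤ)
    (hk : meromorphicOrderAt H 0 = k)
    (hinv : ∀ᶠ u in 𝓝[≠] 0, H (locMoeb (S * T) rho u) = H u) : (3 : ℤ) ∣ k :=
  three_dvd deriv_locMoeb_ST_rho_pow_three deriv_locMoeb_ST_rho_ne_one
    (deriv_zpow_order_eq_one hH k hk (analyticAt_locMoeb _ _) (locMoeb_zero locInv_ST_smul_rho)
      (deriv_locMoeb_ne_zero _ _) hinv)

theorem three_dvd_order_of_invariant_ST_inv {H : ℂ → ℂ} (hH : MeromorphicAt H 0) (k : ℤ)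
    (hk : meromorphicOrderAt H 0 = k)
    (hinv : ∀ᶠ u in 𝓝[≠] 0, H (locMoeb (S * T)⁻¹ rho u) = H u) : (3 : ℤ) ∣ k :=
  three_dvd deriv_locMoeb_ST_inv_rho_pow_three deriv_locMoeb_ST_inv_rho_ne_one
    (deriv_zpow_order_eq_one hH k hk (analyticAt_locMoeb _ _)
      (locMoeb_zero (by rw [inv_smul_eq_iff, locInv_ST_smul_rho])) (deriv_locMoeb_ne_zero _ _) hinv)

theorem dvd_order_of_invariant_rotation {H : ℂ → ℂ} (hH : MeromorphicAt H 0) (k : ℤ)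
    (hk : meromorphicOrderAt H 0 = k) (N : ℕ) [NeZero N] (h : ℤ)
    (hinv : ∀ᶠ u in 𝓝[≠] 0, H (Complex.exp (2 * Real.pi * Complex.I * h / N) * u) = H u) :
    (N : ℤ) ∣ h * k := by
  set ζ := Complex.exp (2 * Real.pi * Complex.I * h / N) with hζ
  have hd : deriv (fun u : ℂ => ζ * u) 0 = ζ := by
    simp
  have := deriv_zpow_order_eq_one (φ := fun u => ζ * u) hH k hk (by fun_prop) (by simp)
    (by rw [hd]; exact Complex.exp_ne_zero _) hinv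
  rw [hd] at this
  exact dvd_of_exp_zpow N h k this

/-- The order of a meromorphic function is invariant under composition with a local
automorphism fixing the point. -/
theorem meromorphicOrderAt_comp_locMoeb {H : ℂ → ℂ} {γ : SL(2, ℤ)} {τ₀ : ℍ}
    (h : γ • τ₀ = τ₀) :
    meromorphicOrderAt (fun u => H (locMoeb γ τ₀ u)) 0 = meromorphicOrderAt H 0 := by
  have := meromorphicOrderAt_comp_of_deriv_ne_zero (f := H) (analyticAt_locMoeb γ τ₀)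
    (deriv_locMoeb_ne_zero γ τ₀)
  rw [locMoeb_zero h] at this
  exact this

end Fermat.Agent.S24
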