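import Fermat.Agent.S24.MerGerm
import Fermat.Agent.S24.JBasic
import Fermat.Agent.S24.JOrder
import Fermat.Agent.S24.LiftHom
import Fermat.Agent.S24.LocalInv
import Fermat.Agent.S24.FunAlgProps
import Fermat.Agent.S24.FunAlgInv
import Fermat.Agent.S24.QExpHom

/-!
# S24-B7a : local uniformisation at the finite values of `j`
-/

set_option autoImplicit false

namespace Fermat.Agent.S24

namespace B7a

open UpperHalfPlane ModularForm Filter Function ModularGroup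
open scoped MatrixGroups Manifold Topology
attribute [local instance] algQbarComplex

/-- The function `u ↦ F (u + τ₀)` (near `0`). -/
noncomputable def locFun (τ₀ : ℍ) (F : ℍ → ℂ) : ℂ → ℂ :=
  (fun z => F (ofComplex z)) ∘ (· + (τ₀ : ℂ))

theorem analyticAt_comp_ofComplex {F : ℍ → ℂ} (hF : MDiff F) (τ₀ : ℍ) :
    AnalyticAt ℂ (fun z => F (ofComplex z)) τ₀ :=
  (UpperHalfPlane.mdifferentiable_iff.mp hF).analyticAt (isOpen_upperHalfPlaneSet.mem_nhds τ₀.im_pos)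

theorem locFun_analyticAt {F : ℍ → ℂ} (hF : MDiff F) (τ₀ : ℍ) :
    AnalyticAt ℂ (locFun τ₀ F) 0 := by
  unfold locFun
  refine AnalyticAt.comp ?_ (by fun_prop)
  simpa using analyticAt_comp_ofComplex hF τ₀

theorem meromorphicOrderAt_locFun (τ₀ : ℍ) (F : ℍ → ℂ) :
    meromorphicOrderAt (locFun τ₀ F) 0 = meromorphicOrderAt (fun z => F (ofComplex z)) τ₀ := by
  unfold locFun
  rw [meromorphicOrderAt_comp_add_const_eq_meromorphicOrderAt, zero_add]

theorem eq_of_locFun_eventuallyEq {F G : ℍ → ℂ} (hF : MDiff F) (hG : MDiff G) (τ₀ : ℍ)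
    (h : locFun τ₀ F =ᶠ[𝓝[≠] 0] locFun τ₀ G) : F = G := by
  have ht : Tendsto (fun τ : ℍ => (τ : ℂ) - τ₀) (𝓝[≠] τ₀) (𝓝[≠] 0) := by
    refine tendsto_nhdsWithin_of_tendsto_nhds_of_eventually_within _ ?_ ?_
    · exact ((continuous_coe.sub continuous_const).tendsto' τ₀ 0 (by simp)).mono_left
        nhdsWithin_le_nhds
    · filter_upwards [self_mem_nhdsWithin] with τ hτ
      intro h0
      exact hτ (UpperHalfPlane.ext (sub_eq_zero.mp h0))
  have h0 : F - G = 0 := by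
    refine UpperHalfPlane.eq_zero_of_frequently (hF.sub hG) (τ := τ₀) (Eventually.frequently ?_)
    filter_upwards [ht.eventually h] with τ hτ
    simpa [locFun, sub_eq_zero] using hτ
  exact sub_eq_zero.mp h0

theorem mdiff_comp_smul {F : ℍ → ℂ} (hF : MDiff F) (g : SL(2, ℤ)) :
    MDiff (fun τ : ℍ => F (g • τ)) :=
  hF.comp (mdifferentiable_smul (g := (g : GL (Fin 2) ℝ)) (by simp))

theorem merGerm_mk_congr {f g : ℂ → ℂ} (hf : MeromorphicAt f 0) (hg : MeromorphicAt g 0)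
    (h : f = g) : MerGerm.mk f hf = MerGerm.mk g hg := by
  subst h
  rfl

theorem locFun_mul (τ₀ : ℍ) (F G : ℍ → ℂ) :
    locFun τ₀ (fun τ => F τ * G τ) = locFun τ₀ F * locFun τ₀ G := rfl

theorem locFun_add (τ₀ : ℍ) (F G : ℍ → ℂ) :
    locFun τ₀ (fun τ => F τ + G τ) = locFun τ₀ F + locFun τ₀ G := rfl

theorem locFun_const (τ₀ : ℍ) (c : ℂ) :
    locFun τ₀ (fun _ => c) = fun _ => c := rfl

/-- The germ at `τ₀` of `θ ∘ g⁻¹`. -/
noncomputable def epsHom (N : ℕ) [NeZero N] (τ₀ : ℍ) (g : SL(2, ℤ)) :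
    funAlg N →ₐ[Qbar] MerGerm where
  toFun θ := MerGerm.mk (locFun τ₀ (fun τ => (θ : ℍ → ℂ) (g⁻¹ • τ)))
    (locFun_analyticAt (mdiff_comp_smul (funAlg_mdiff θ.2) g⁻¹) τ₀).meromorphicAt
  map_one' := by
    rw [← map_one (algebraMap ℂ MerGerm), ← MerGerm.mk_const]
    refine merGerm_mk_congr _ _ ?_
    rw [← locFun_const τ₀]
    congr 1
  map_mul' θ θ' := by
    rw [← MerGerm.mk_mul]
    refine merGerm_mk_congr _ _ ?_
    rw [← locFun_mul]
    congr 1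
  map_zero' := by
    rw [← map_zero (algebraMap ℂ MerGerm), ← MerGerm.mk_const]
    refine merGerm_mk_congr _ _ ?_
    rw [← locFun_const τ₀]
    congr 1
  map_add' θ θ' := by
    rw [← MerGerm.mk_add]
    refine merGerm_mk_congr _ _ ?_
    rw [← locFun_add]
    congr 1
  commutes' a := by
    rw [MerGerm.algebraMap_Qbar, ← MerGerm.mk_const]
    refine merGerm_mk_congr _ _ ?_
    rw [← locFun_const τ₀]
    congr 1

theorem epsHom_apply (N : ℕ) [NeZero N] (τ₀ : ℍ) (g : SL(2, ℤ)) (θ : funAlg N) :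
    epsHom N τ₀ g θ = MerGerm.mk (locFun τ₀ (fun τ => (θ : ℍ → ℂ) (g⁻¹ • τ)))
      (locFun_analyticAt (mdiff_comp_smul (funAlg_mdiff θ.2) g⁻¹) τ₀).meromorphicAt := rfl

theorem epsHom_mk (N : ℕ) [NeZero N] (τ₀ : ℍ) (g : SL(2, ℤ)) (θ : ℍ → ℂ) (hθ : θ ∈ funAlg N) :
    epsHom N τ₀ g ⟨θ, hθ⟩ = MerGerm.mk (locFun τ₀ (fun τ => θ (g⁻¹ • τ)))
      (locFun_analyticAt (mdiff_comp_smul (funAlg_mdiff hθ) g⁻¹) τ₀).meromorphicAt := rfl

theorem epsHom_injective (N : ℕ) [NeZero N] (τ₀ : ℍ) (g : SL(2, ℤ)) :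
    Injective (epsHom N τ₀ g) := by
  intro θ θ' h
  rw [epsHom_apply, epsHom_apply, MerGerm.mk_eq_mk_iff] at h
  have h1 := eq_of_locFun_eventuallyEq (mdiff_comp_smul (funAlg_mdiff θ.2) g⁻¹)
    (mdiff_comp_smul (funAlg_mdiff θ'.2) g⁻¹) τ₀ h
  ext τ
  simpa using congrFun h1 (g • τ)

theorem epsHom_mul_right (N : ℕ) [NeZero N] (τ₀ : ℍ) (g γ : SL(2, ℤ))
    (hγ : γ ∈ CongruenceSubgroup.Gamma0 N) : epsHom N τ₀ (g * γ) = epsHom N τ₀ g := by
  ext θ
  rw [epsHom_apply, epsHom_apply]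
  congr 2
  ext τ
  rw [mul_inv_rev, mul_smul]
  exact funAlg_invariant θ.2 γ⁻¹ (inv_mem hγ) _

theorem epsHom_eq_iff (N : ℕ) [NeZero N] (τ₀ : ℍ) (g g' : SL(2, ℤ)) :
    epsHom N τ₀ g = epsHom N τ₀ g' ↔ g⁻¹ * g' ∈ CongruenceSubgroup.Gamma0 N := by
  constructor
  · intro h
    have h1 := DFunLike.congr_fun h ⟨jFunD N, jFunD_mem_funAlg dvd_rfl⟩
    rw [epsHom_mk, epsHom_mk, MerGerm.mk_eq_mk_iff] at h1
    have hm : MDiff (jFunD N) := funAlg_mdiff (N := N) (jFunD_mem_funAlg dvd_rfl)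
    have h2 : (fun τ => jFunD N (g⁻¹ • τ)) = (fun τ => jFunD N (g'⁻¹ • τ)) :=
      eq_of_locFun_eventuallyEq (mdiff_comp_smul hm g⁻¹) (mdiff_comp_smul hm g'⁻¹) τ₀ h1
    refine mem_Gamma0_of_jFunD_smul _ fun τ => ?_
    have h3 : jFunD N (g⁻¹ • g' • τ) = jFunD N (g'⁻¹ • g' • τ) := congrFun h2 (g' • τ)
    rw [inv_smul_smul] at h3
    rw [mul_smul]
    exact h3
  · intro h
    have := epsHom_mul_right N τ₀ g _ h
    rw [mul_inv_cancel_left] at this
    exact this.symm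

theorem jFunD_one : jFunD 1 = jFun := by
  ext τ
  simp [jFunD]

theorem denom_mul_of_smul_eq (γ γ' : SL(2, ℤ)) (τ₀ : ℍ) (h : γ' • τ₀ = τ₀) :
    denom ((γ * γ' : SL(2, ℤ)) : GL (Fin 2) ℝ) τ₀ = denom γ τ₀ * denom γ' τ₀ := by
  have h1 := denom_cocycle (γ : GL (Fin 2) ℝ) (γ' : GL (Fin 2) ℝ) τ₀.im_ne_zero
  rw [← coe_smul_of_det_pos (by simp), ← sl_moeb, h] at h1
  rw [← h1, map_mul, map_mul]

theorem denom_pow_of_smul_eq (γ : SL(2, ℤ)) (τ₀ : ℍ) (h : γ • τ₀ = τ₀) (n : ℕ) :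
    denom ((γ ^ n : SL(2, ℤ)) : GL (Fin 2) ℝ) τ₀ = denom γ τ₀ ^ n := by
  induction n with
  | zero => simp [denom]
  | succ n ih => rw [pow_succ, denom_mul_of_smul_eq _ _ _ h, ih, pow_succ]

theorem merGerm_mk_ne_zero_iff {f : ℂ → ℂ} (hf : MeromorphicAt f 0) :
    MerGerm.mk f hf ≠ 0 ↔ meromorphicOrderAt f 0 ≠ ⊤ := by
  rw [← map_zero (algebraMap ℂ MerGerm), ← MerGerm.mk_const, Ne, MerGerm.mk_eq_mk_iff, Ne,
    meromorphicOrderAt_eq_top_iff]
  rfl

theorem det_coe_SL (γ : SL(2, ℤ)) : ((γ : SL(2, ℤ)) : GL (Fin 2) ℝ).val.det = 1 := by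
  rw [← Matrix.GeneralLinearGroup.val_det_apply]
  simp

/-- The order at `τ₀` of `θ ∘ g⁻¹`. -/
theorem ord_epsHom (N : ℕ) [NeZero N] (τ₀ : ℍ) (g : SL(2, ℤ)) (θ : funAlg N) :
    (epsHom N τ₀ g θ).ord =
      (meromorphicOrderAt (fun z => (θ : ℍ → ℂ) (g⁻¹ • ofComplex z)) τ₀).untop₀ := by
  rw [epsHom_apply, MerGerm.ord_mk, meromorphicOrderAt_locFun]

theorem order_ne_top_of_ne_zero (N : ℕ) [NeZero N] (τ₀ : ℍ) (g : SL(2, ℤ)) (θ : funAlg N)
    (hθ : θ ≠ 0) : meromorphicOrderAt (fun z => (θ : ℍ → ℂ) (g⁻¹ • ofComplex z)) τ₀ ≠ ⊤ := by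
  have h1 : epsHom N τ₀ g θ ≠ 0 := (map_ne_zero_iff _ (epsHom_injective N τ₀ g)).mpr hθ
  rw [epsHom_apply, merGerm_mk_ne_zero_iff, meromorphicOrderAt_locFun] at h1
  exact h1

theorem ord_epsHom_mul_left (N : ℕ) [NeZero N] (τ₀ : ℍ) (g₀ g : SL(2, ℤ)) (hg₀ : g₀ • τ₀ = τ₀)
    (θ : funAlg N) : (epsHom N τ₀ (g₀ * g) θ).ord = (epsHom N τ₀ g θ).ord := by
  rw [ord_epsHom, ord_epsHom]
  have h1 : g₀⁻¹ • τ₀ = τ₀ := by rw [inv_smul_eq_iff, hg₀]
  have h2 := meromorphicOrderAt_comp_smul (f := fun τ => (θ : ℍ → ℂ) (g⁻¹ • τ)) (τ := τ₀)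
    (g := ((g₀⁻¹ : SL(2, ℤ)) : GL (Fin 2) ℝ)) (by rw [det_coe_SL]; exact one_pos)
  rw [← sl_moeb, h1] at h2
  rw [← h2]
  congr 2
  ext z
  rw [mul_inv_rev, mul_smul]
  rfl

/-- Invariance under an element of the stabiliser forces divisibility of the order. -/
theorem zpow_ord_epsHom_eq_one (N : ℕ) [NeZero N] (τ₀ : ℍ) (γ g : SL(2, ℤ)) (hγ : γ • τ₀ = τ₀)
    (hmem : g⁻¹ * γ * g ∈ CongruenceSubgroup.Gamma0 N) (θ : funAlg N) (hθ : θ ≠ 0) :
    (1 / denom γ τ₀ ^ 2) ^ (epsHom N τ₀ g θ).ord = 1 := by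
  have hdet : 0 < ((γ : SL(2, ℤ)) : GL (Fin 2) ℝ).val.det := by rw [det_coe_SL]; exact one_pos
  have hH : AnalyticAt ℂ (fun z => (θ : ℍ → ℂ) (g⁻¹ • ofComplex z)) τ₀ :=
    analyticAt_comp_ofComplex (mdiff_comp_smul (funAlg_mdiff θ.2) g⁻¹) τ₀
  have hk := (WithTop.coe_untop₀_of_ne_top (order_ne_top_of_ne_zero N τ₀ g θ hθ)).symm
  have h1 := deriv_zpow_order_eq_one hH.meromorphicAt _ hk (τ₀.analyticAt_smul hdet)
    (by rw [ofComplex_apply, ← sl_moeb, hγ]) (τ₀.deriv_smul_ne_zero hdet)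
    (Eventually.of_forall fun z => by
      rw [ofComplex_apply, ← sl_moeb]
      have : g⁻¹ • γ • ofComplex z = (g⁻¹ * γ * g) • g⁻¹ • ofComplex z := by
        rw [← mul_smul, ← mul_smul, mul_assoc, mul_assoc, mul_inv_cancel, mul_one]
      rw [this]
      exact funAlg_invariant θ.2 _ hmem _)
  rw [deriv_smul hdet, det_coe_SL, Complex.ofReal_one] at h1
  rw [ord_epsHom]
  exact h1

/-- The germ of `j - c` at `τ₀`. -/
theorem epsHom_jAlg_one (N : ℕ) [NeZero N] (τ₀ : ℍ) (g : SL(2, ℤ)) (c : Qbar) :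
    epsHom N τ₀ g (jAlg N 1 (one_dvd N)) - algebraMap Qbar MerGerm c =
      MerGerm.mk (locFun τ₀ (fun τ => jFun τ - iota c))
        (locFun_analyticAt (jFun_mdiff.sub mdifferentiable_const) τ₀).meromorphicAt := by
  rw [sub_eq_iff_eq_add, MerGerm.algebraMap_Qbar, ← MerGerm.mk_const, ← MerGerm.mk_add]
  unfold jAlg
  rw [epsHom_mk]
  refine merGerm_mk_congr _ _ ?_
  rw [← locFun_const τ₀, ← locFun_add]
  congr 1
  ext τ
  rw [jFunD_one, jFun_smul, sub_add_cancel]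

theorem localUnif_of_stab (N : ℕ) [NeZero N] (c : Qbar) (τ₀ : ℍ) (hτ₀ : jFun τ₀ = iota c)
    (g₀ : SL(2, ℤ)) (hg₀ : g₀ • τ₀ = τ₀) (s : ℕ) (hs : 0 < s)
    (hord : meromorphicOrderAt (fun z : ℂ => jFun (ofComplex z) - jFun τ₀) (τ₀ : ℂ) = (s : ℤ))
    (hprim : IsPrimitiveRoot (1 / denom g₀ τ₀ ^ 2) s) :
    Nonempty (LocalUnif Qbar MerGerm.ord (jF N - algebraMap Qbar (FF N) c) (Cosets N)
      (MulAction.toPerm g₀)) := by
  obtain ⟨ρ, hρ, hρj, hfrac⟩ := exists_qExpHom N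
  let φ : Cosets N → (FF N →ₐ[Qbar] MerGerm) := fun x =>
    liftHom ρ hρ hfrac (epsHom N τ₀ x.out) (epsHom_injective N τ₀ x.out)
  have hφ : ∀ (g : SL(2, ℤ)) (θ : funAlg N), φ (g : Cosets N) (ρ θ) = epsHom N τ₀ g θ := by
    intro g θ
    have h1 : epsHom N τ₀ (g : Cosets N).out = epsHom N τ₀ g := by
      rw [epsHom_eq_iff]
      exact QuotientGroup.eq.mp (QuotientGroup.out_eq' _)
    rw [← h1]
    exact liftHom_apply ρ hρ hfrac _ _ θ
  have hx : ∀ g : SL(2, ℤ), φ (g : Cosets N) (jF N - algebraMap Qbar (FF N) c) =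
      MerGerm.mk (locFun τ₀ (fun τ => jFun τ - iota c))
        (locFun_analyticAt (jFun_mdiff.sub mdifferentiable_const) τ₀).meromorphicAt := by
    intro g
    rw [map_sub, AlgHom.commutes, ← epsHom_jAlg_one N τ₀ g c, ← hφ, hρj 1 (one_dvd N)]
    rfl
  have hmul := MerGerm.isDiffVal.map_mul
  refine ⟨{
    φ := φ
    φ_injective := ?_
    φ_x := ?_
    s := s
    s_pos := hs
    w_x := ?_
    w_perm := ?_
    dvd := ?_ }⟩
  · intro x x' h
    induction x using QuotientGroup.induction_on with | _ g => ?_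
    induction x' using QuotientGroup.induction_on with | _ g' => ?_
    refine QuotientGroup.eq.mpr ((epsHom_eq_iff N τ₀ g g').mp ?_)
    ext θ
    rw [← hφ, ← hφ, h]
  · intro x x'
    induction x using QuotientGroup.induction_on with | _ g => ?_
    induction x' using QuotientGroup.induction_on with | _ g' => ?_
    rw [hx, hx]
  · intro x
    induction x using QuotientGroup.induction_on with | _ g => ?_
    rw [hx, MerGerm.ord_mk, meromorphicOrderAt_locFun, ← hτ₀, hord]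
    rfl
  · intro x f
    induction x using QuotientGroup.induction_on with | _ g => ?_
    refine w_eq_of_frac ρ hρ hfrac _ hmul _ _ (fun θ => ?_) f
    rw [MulAction.toPerm_apply, MulAction.Quotient.smul_coe, smul_eq_mul, hφ, hφ,
      ord_epsHom_mul_left N τ₀ g₀ g hg₀]
  · intro x h hx' f hf
    induction x using QuotientGroup.induction_on with | _ g => ?_
    refine dvd_of_frac ρ hρ hfrac _ hmul _ _ _ (fun θ hθ => ?_) f hf
    rw [hφ]
    have h1 : (MulAction.toPerm g₀ : Equiv.Perm (Cosets N)) ^ h = MulAction.toPerm (g₀ ^ h) :=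
      (map_pow (MulAction.toPermHom SL(2, ℤ) (Cosets N)) g₀ h).symm
    rw [h1, MulAction.toPerm_apply, MulAction.Quotient.smul_coe, smul_eq_mul] at hx'
    have h2 : g⁻¹ * g₀ ^ h * g ∈ CongruenceSubgroup.Gamma0 N := by
      have := QuotientGroup.eq.mp hx'.symm
      rwa [← mul_assoc] at this
    have h3 : g₀ ^ h • τ₀ = τ₀ := by
      clear h1 h2 hx'
      induction h with
      | zero => simp
      | succ n ih => rw [pow_succ, mul_smul, hg₀, ih]
    have h4 := zpow_ord_epsHom_eq_one N τ₀ (g₀ ^ h) g h3 h2 θ hθ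
    rw [denom_pow_of_smul_eq g₀ τ₀ hg₀, ← pow_mul, mul_comm h 2, pow_mul, ← one_div_pow,
      ← zpow_natCast, ← zpow_mul] at h4
    exact (hprim.zpow_eq_one_iff_dvd _).mp h4

theorem isPrimitiveRoot_of_prime {x : ℂ} {p : ℕ} [Fact p.Prime] (h1 : x ^ p = 1) (h2 : x ≠ 1) :
    IsPrimitiveRoot x p :=
  orderOf_eq_prime h1 h2 ▸ IsPrimitiveRoot.orderOf x

theorem denom_ST_rho : denom ((S * T : SL(2, ℤ)) : GL (Fin 2) ℝ) rho = (rho : ℂ) + 1 := by
  rw [ModularGroup.denom_apply]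
  have h10 : (S * T : SL(2, ℤ)) 1 0 = 1 := by
    rw [Matrix.SpecialLinearGroup.coe_mul, coe_S, coe_T]
    simp [Matrix.mul_apply, Fin.sum_univ_two]
  have h11 : (S * T : SL(2, ℤ)) 1 1 = 1 := by
    rw [Matrix.SpecialLinearGroup.coe_mul, coe_S, coe_T]
    simp [Matrix.mul_apply, Fin.sum_univ_two]
  rw [h10, h11]
  simp

theorem isPrimitiveRoot_rho :
    IsPrimitiveRoot (1 / denom ((S * T : SL(2, ℤ)) : GL (Fin 2) ℝ) rho ^ 2) 3 := by
  have h := rho_sq
  have h0 : (rho : ℂ) ≠ 0 := ne_zero rho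
  have h3 : (rho : ℂ) ^ 3 = 1 := by linear_combination ((rho : ℂ) - 1) * h
  have h1 : ((rho : ℂ) + 1) ^ 2 = rho := by linear_combination h
  rw [denom_ST_rho, h1]
  have : Fact (Nat.Prime 3) := ⟨Nat.prime_three⟩
  refine isPrimitiveRoot_of_prime ?_ ?_
  · rw [one_div, inv_pow, h3, inv_one]
  · intro h4
    rw [one_div, inv_eq_one] at h4
    rw [h4] at h
    norm_num at h

theorem isPrimitiveRoot_I :
    IsPrimitiveRoot (1 / denom ((S : SL(2, ℤ)) : GL (Fin 2) ℝ) UpperHalfPlane.I ^ 2) 2 := by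
  rw [ModularGroup.denom_S, UpperHalfPlane.coe_I, Complex.I_sq]
  have : Fact (Nat.Prime 2) := ⟨Nat.prime_two⟩
  refine isPrimitiveRoot_of_prime ?_ ?_ <;> norm_num

end B7a

open UpperHalfPlane ModularForm Filter Function ModularGroup
open scoped MatrixGroups Manifold Topology
attribute [local instance] algQbarComplex

open B7a in
theorem localUnif_finite (N : ℕ) [NeZero N] (c : Qbar) :
    Nonempty (LocalUnif Qbar MerGerm.ord (jF N - algebraMap Qbar (FF N) c) (Cosets N)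
      (permAt N c)) := by
  by_cases h0 : c = 0
  · have hp : permAt N c = MulAction.toPerm (S * T : SL(2, ℤ)) := by
      unfold permAt
      rw [if_pos h0]
    rw [hp]
    refine localUnif_of_stab N c rho (by rw [jFun_rho, h0, map_zero]) _ ST_smul_rho 3
      (by norm_num) ?_ isPrimitiveRoot_rho
    rw [meromorphicOrderAt_jFun_sub, if_pos jFun_rho]
    rfl
  by_cases h1 : c = 1728
  · have hp : permAt N c = MulAction.toPerm (S : SL(2, ℤ)) := by
      unfold permAt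
      rw [if_neg h0, if_pos h1]
    rw [hp]
    refine localUnif_of_stab N c UpperHalfPlane.I (by rw [jFun_I, h1, map_ofNat]) _ S_smul_I 2
      (by norm_num) ?_ isPrimitiveRoot_I
    rw [meromorphicOrderAt_jFun_sub, if_neg (by rw [jFun_I]; norm_num), if_pos jFun_I]
    rfl
  · have hp : permAt N c = MulAction.toPerm (1 : SL(2, ℤ)) := by
      unfold permAt
      rw [if_neg h0, if_neg h1, MulAction.toPerm_one]
    rw [hp]
    obtain ⟨τ₀, hτ₀⟩ := jFun_surjective (iota c)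
    refine localUnif_of_stab N c τ₀ hτ₀ _ (one_smul _ _) 1 one_pos ?_ ?_
    · rw [meromorphicOrderAt_jFun_sub, if_neg, if_neg]
      · rfl
      · rw [hτ₀, ← map_ofNat iota 1728]
        exact fun h => h1 (iota.toRingHom.injective h)
      · rw [hτ₀]
        exact (map_ne_zero iota).mpr h0
    · have : denom ((1 : SL(2, ℤ)) : GL (Fin 2) ℝ) τ₀ = 1 := by
        rw [ModularGroup.denom_apply]
        simp
      rw [this]
      simp

end Fermat.Agent.S24
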