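import Fermat.Agent.S24.Defs

/-!
# S24, task A2 (first part): basic API for `Place.ord`
-/

set_option autoImplicit false

namespace Fermat.Agent.S24

open AlgebraicCurve KaehlerDifferential

variable {K F : Type*} [Field K] [Field F] [Algebra K F]

theorem ord_nonneg_of_mem (v : Place K F) {f : F} (hf : f ∈ v.toValuationSubring) :
    0 ≤ v.ord f := by
  rcases eq_or_ne f 0 with rfl | hf0
  · simp
  obtain ⟨π, hπ⟩ := IsDiscreteValuationRing.exists_irreducible v.toValuationSubring
  obtain ⟨n, u, hu⟩ :=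
    IsDiscreteValuationRing.eq_unit_mul_pow_irreducible
      (x := (⟨f, hf⟩ : v.toValuationSubring)) (by simpa [Subtype.ext_iff] using hf0) hπ
  have hcoe : f = ((u : v.toValuationSubring) : F) * ((π : F) ^ (n : ℤ)) := by
    have h := congrArg (Subtype.val) hu
    push_cast at h
    rw [zpow_natCast]
    exact h
  rw [hcoe, v.ord_unit_smul_zpow u hπ (n : ℤ)]
  exact Int.natCast_nonneg n

theorem mem_of_ord_nonneg (v : Place K F) {f : F} (hf : f ≠ 0) (h : 0 ≤ v.ord f) :
    f ∈ v.toValuationSubring := by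
  obtain ⟨π, hπ⟩ := IsDiscreteValuationRing.exists_irreducible v.toValuationSubring
  obtain ⟨u, hu⟩ := v.exists_unit_mul_zpow hf hπ
  rw [hu, show v.ord f = (((v.ord f).toNat : ℕ) : ℤ) from (Int.toNat_of_nonneg h).symm,
    zpow_natCast]
  exact mul_mem (u : v.toValuationSubring).2 (pow_mem (π : v.toValuationSubring).2 _)

theorem mem_iff_ord_nonneg (v : Place K F) {f : F} (hf : f ≠ 0) :
    f ∈ v.toValuationSubring ↔ 0 ≤ v.ord f :=
  ⟨ord_nonneg_of_mem v, mem_of_ord_nonneg v hf⟩

theorem ord_le_ord_iff (v : Place K F) {f g : F} (hf : f ≠ 0) (hg : g ≠ 0) :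
    v.ord f ≤ v.ord g ↔ v.adicValuation g ≤ v.adicValuation f := by
  unfold Place.ord
  rw [neg_le_neg_iff, WithZero.log_le_log (v.adicValuation_ne_zero hg) (v.adicValuation_ne_zero hf)]

theorem ord_lt_ord_iff (v : Place K F) {f g : F} (hf : f ≠ 0) (hg : g ≠ 0) :
    v.ord f < v.ord g ↔ v.adicValuation g < v.adicValuation f := by
  rw [← not_le, ← not_le, ord_le_ord_iff v hg hf]

theorem ord_add_ge (v : Place K F) {f g : F} (hf : f ≠ 0) (hg : g ≠ 0) (hfg : f + g ≠ 0) :
    min (v.ord f) (v.ord g) ≤ v.ord (f + g) := by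
  have h := v.adicValuation.map_add f g
  rcases le_max_iff.mp h with h | h
  · exact (min_le_left _ _).trans ((ord_le_ord_iff v hf hfg).mpr h)
  · exact (min_le_right _ _).trans ((ord_le_ord_iff v hg hfg).mpr h)

theorem ord_add_eq_of_lt (v : Place K F) {f g : F} (hf : f ≠ 0) (hg : g ≠ 0)
    (h : v.ord f < v.ord g) : v.ord (f + g) = v.ord f := by
  have h' := (ord_lt_ord_iff v hf hg).mp h
  unfold Place.ord
  rw [Valuation.map_add_eq_of_lt_left _ h']

theorem ord_algebraMap (v : Place K F) (a : K) : v.ord (algebraMap K F a) = 0 := by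
  rcases eq_or_ne a 0 with rfl | ha
  · simp
  have h1 : 0 ≤ v.ord (algebraMap K F a) := ord_nonneg_of_mem v (v.algebraMap_mem' a)
  have h2 : 0 ≤ v.ord (algebraMap K F a⁻¹) := ord_nonneg_of_mem v (v.algebraMap_mem' a⁻¹)
  rw [map_inv₀, v.ord_inv] at h2
  omega

theorem exists_ord_eq_one (v : Place K F) : ∃ t : F, v.ord t = 1 := by
  obtain ⟨π, hπ⟩ := IsDiscreteValuationRing.exists_irreducible v.toValuationSubring
  exact ⟨(π : F), v.ord_coe_irreducible hπ⟩

theorem dCoord_eq (v : Place K F) :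
    ∃ t : F, v.ord t = 1 ∧ v.dCoord = KaehlerDifferential.D K F t := by
  refine ⟨_, ?_, rfl⟩
  exact v.ord_coe_irreducible (Classical.choose_spec _)

/-- membership in the maximal ideal -/
theorem mem_maximalIdeal_iff_ord_pos (v : Place K F) (a : v.toValuationSubring) (ha : a ≠ 0) :
    a ∈ IsLocalRing.maximalIdeal v.toValuationSubring ↔ 0 < v.ord (a : F) := by
  have haF : (a : F) ≠ 0 := fun h => ha (Subtype.ext h)
  have h0 : 0 ≤ v.ord (a : F) := ord_nonneg_of_mem v a.2
  rw [IsLocalRing.mem_maximalIdeal, mem_nonunits_iff]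
  constructor
  · intro hnu
    rcases h0.lt_or_eq with h | h
    · exact h
    · exfalso
      apply hnu
      have hinv : (a : F)⁻¹ ∈ v.toValuationSubring :=
        mem_of_ord_nonneg v (inv_ne_zero haF) (by rw [v.ord_inv, ← h]; simp)
      refine IsUnit.of_mul_eq_one ⟨(a : F)⁻¹, hinv⟩ ?_
      ext
      simp [haF]
  · intro hpos hu
    obtain ⟨u, rfl⟩ := hu
    rw [v.ord_coe_unit u] at hpos
    exact lt_irrefl _ hpos

end Fermat.Agent.S24
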