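import Mathlib

/-!
# Scott's lemma (Ree's theorem) for three permutations, and parity

For permutations `a b` of a finite nonempty set `X` generating a transitive group,
`orb a + orb (a*b) + orb b ≤ card X + 2` and the difference is even.
-/

set_option linter.unusedSectionVars false

namespace Fermat.Agent.S24

open Equiv MulAction Subgroup Module

variable {X : Type*} [Fintype X] [DecidableEq X]

/-- number of orbits of the cyclic group generated by `s`. -/
noncomputable def orb (s : Perm X) : ℕ := Nat.card (orbitRel.Quotient (zpowers s) X)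

/-- permutation operator on functions: `(permOp s v) x = v (s⁻¹ x)`. -/
def permOp (s : Perm X) : (X → ℚ) →ₗ[ℚ] (X → ℚ) := LinearMap.funLeft ℚ ℚ (s⁻¹ : Perm X)

@[simp] lemma permOp_apply (s : Perm X) (v : X → ℚ) (x : X) : permOp s v x = v (s⁻¹ x) := rfl

lemma permOp_mul (s t : Perm X) (v : X → ℚ) : permOp (s * t) v = permOp s (permOp t v) := by
  ext x; simp [mul_inv_rev]

lemma permOp_one (v : X → ℚ) : permOp (1 : Perm X) v = v := by
  ext x; simp

/-- `1 - s` as an operator. -/
def oneSub (s : Perm X) : (X → ℚ) →ₗ[ℚ] (X → ℚ) := LinearMap.id - permOp s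

@[simp] lemma oneSub_apply (s : Perm X) (v : X → ℚ) : oneSub s v = v - permOp s v := rfl

lemma mem_ker_oneSub {s : Perm X} {v : X → ℚ} :
    v ∈ LinearMap.ker (oneSub s) ↔ ∀ x, v (s x) = v x := by
  rw [LinearMap.mem_ker, oneSub_apply, sub_eq_zero]
  constructor
  · intro h x
    have := congrFun h (s x)
    simpa using this
  · intro h
    ext x
    have := h (s⁻¹ x)
    simpa using this

/-- the subgroup of permutations leaving a function invariant -/
def fixer (v : X → ℚ) : Subgroup (Perm X) where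
  carrier := {g | ∀ x, v (g x) = v x}
  mul_mem' := by
    intro a b ha hb x
    rw [Perm.mul_apply, ha, hb]
  one_mem' := fun x => rfl
  inv_mem' := by
    intro a ha x
    have := ha (a⁻¹ x)
    simpa using this.symm

lemma apply_eq_of_orbitRel {s : Perm X} {v : X → ℚ} (hv : ∀ x, v (s x) = v x) {x y : X}
    (h : orbitRel (zpowers s) X x y) : v x = v y := by
  rw [orbitRel_apply] at h
  obtain ⟨⟨g, hg⟩, rfl⟩ := h
  have : zpowers s ≤ fixer v := by
    rw [zpowers_le]; exact hv
  exact this hg y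

/-- invariant functions are functions on the orbit space -/
noncomputable def invEquiv (s : Perm X) :
    (orbitRel.Quotient (zpowers s) X → ℚ) ≃ₗ[ℚ] LinearMap.ker (oneSub s) where
  toFun f := ⟨fun x => f (Quotient.mk'' x), by
    rw [mem_ker_oneSub]
    intro x
    congr 1
    apply Quotient.sound'
    show orbitRel (zpowers s) X (s x) x
    rw [orbitRel_apply]
    exact ⟨⟨s, mem_zpowers s⟩, rfl⟩⟩
  map_add' f g := rfl
  map_smul' c f := rfl
  invFun v := fun q => Quotient.liftOn' q v.1
    (fun x y h => apply_eq_of_orbitRel (mem_ker_oneSub.mp v.2) h)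
  left_inv f := by
    ext q
    induction q using Quotient.inductionOn'
    rfl
  right_inv v := by
    ext x
    rfl

lemma finrank_ker_oneSub (s : Perm X) : finrank ℚ (LinearMap.ker (oneSub s)) = orb s := by
  classical
  rw [← (invEquiv s).finrank_eq, orb]
  have : Fintype (orbitRel.Quotient (zpowers s) X) := Fintype.ofFinite _
  rw [Module.finrank_fintype_fun_eq_card, Nat.card_eq_fintype_card]

lemma finrank_range_oneSub (s : Perm X) :
    finrank ℚ (LinearMap.range (oneSub s)) + orb s = Fintype.card X := by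
  have := LinearMap.finrank_range_add_finrank_ker (oneSub s)
  rw [finrank_ker_oneSub, Module.finrank_fintype_fun_eq_card] at this
  exact this


/-- basis vector -/
def ev (x : X) : X → ℚ := Pi.single x 1

lemma permOp_ev (s : Perm X) (x : X) : permOp s (ev x) = ev (s x) := by
  ext y
  simp only [permOp_apply, ev, Pi.single_apply]
  congr 1
  rw [Perm.inv_eq_iff_eq, eq_iff_iff]

/-- permutations `g` with `e_x - e_{g x} ∈ A` for all `x`. -/
def mover (A : Submodule ℚ (X → ℚ)) : Subgroup (Perm X) where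
  carrier := {g | ∀ x, ev x - ev (g x) ∈ A}
  mul_mem' := by
    intro a b ha hb x
    have := A.add_mem (hb x) (ha (b x))
    simpa using this
  one_mem' := fun x => by simp
  inv_mem' := by
    intro a ha x
    have := A.neg_mem (ha (a⁻¹ x))
    simpa using this

section scott

variable (s₁ s₂ s₃ : Perm X)

/-- the map `β` of Scott's lemma -/
def scottBeta : (X → ℚ) →ₗ[ℚ]
    (LinearMap.range (oneSub s₁) × LinearMap.range (oneSub s₂) × LinearMap.range (oneSub s₃)) :=
  (oneSub s₁).rangeRestrict.prod ((oneSub s₂).rangeRestrict.prod (oneSub s₃).rangeRestrict)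

/-- the map `δ` of Scott's lemma -/
def scottDelta :
    (LinearMap.range (oneSub s₁) × LinearMap.range (oneSub s₂) × LinearMap.range (oneSub s₃))
      →ₗ[ℚ] (X → ℚ) :=
  (LinearMap.range (oneSub s₁)).subtype ∘ₗ LinearMap.fst _ _ _ +
  permOp s₁ ∘ₗ (LinearMap.range (oneSub s₂)).subtype ∘ₗ LinearMap.fst _ _ _ ∘ₗ LinearMap.snd _ _ _ +
  permOp s₁ ∘ₗ permOp s₂ ∘ₗ (LinearMap.range (oneSub s₃)).subtype ∘ₗ
    LinearMap.snd _ _ _ ∘ₗ LinearMap.snd _ _ _

lemma scottDelta_apply (u) : scottDelta s₁ s₂ s₃ u =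
    (u.1 : X → ℚ) + permOp s₁ (u.2.1 : X → ℚ) + permOp s₁ (permOp s₂ (u.2.2 : X → ℚ)) := rfl

variable {s₁ s₂ s₃}

lemma scottDelta_beta (h : s₁ * s₂ * s₃ = 1) (v : X → ℚ) :
    scottDelta s₁ s₂ s₃ (scottBeta s₁ s₂ s₃ v) = 0 := by
  rw [scottDelta_apply]
  show (v - permOp s₁ v) + permOp s₁ (v - permOp s₂ v) + permOp s₁ (permOp s₂ (v - permOp s₃ v)) = 0
  have h3 : permOp s₁ (permOp s₂ (permOp s₃ v)) = v := by
    rw [← permOp_mul, ← permOp_mul, h, permOp_one]
  simp only [map_sub, h3]
  abel

lemma range_beta_le_ker_delta (h : s₁ * s₂ * s₃ = 1) :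
    LinearMap.range (scottBeta s₁ s₂ s₃) ≤ LinearMap.ker (scottDelta s₁ s₂ s₃) := by
  rintro _ ⟨v, rfl⟩
  exact scottDelta_beta h v

lemma finrank_ker_beta_le
    (htr : ∀ x y : X, ∃ g ∈ closure ({s₁, s₂, s₃} : Set (Perm X)), g x = y) :
    finrank ℚ (LinearMap.ker (scottBeta s₁ s₂ s₃)) ≤ 1 := by
  have hle : LinearMap.ker (scottBeta s₁ s₂ s₃) ≤ Submodule.span ℚ {(fun _ => 1 : X → ℚ)} := by
    intro v hv
    rw [LinearMap.mem_ker] at hv
    have h1 : v ∈ LinearMap.ker (oneSub s₁) := by
      have := congrArg (fun u => (u.1 : X → ℚ)) hv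
      exact this
    have h2 : v ∈ LinearMap.ker (oneSub s₂) := by
      have := congrArg (fun u => (u.2.1 : X → ℚ)) hv
      exact this
    have h3 : v ∈ LinearMap.ker (oneSub s₃) := by
      have := congrArg (fun u => (u.2.2 : X → ℚ)) hv
      exact this
    rw [mem_ker_oneSub] at h1 h2 h3
    have hcl : closure ({s₁, s₂, s₃} : Set (Perm X)) ≤ fixer v := by
      rw [closure_le]
      rintro g (rfl | rfl | rfl)
      · exact h1
      · exact h2
      · exact h3
    rcases isEmpty_or_nonempty X with hX | ⟨⟨x₀⟩⟩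
    · have : v = 0 := Subsingleton.elim _ _
      rw [this]; exact Submodule.zero_mem _
    · rw [Submodule.mem_span_singleton]
      refine ⟨v x₀, ?_⟩
      ext y
      obtain ⟨g, hg, rfl⟩ := htr x₀ y
      simp [hcl hg x₀]
  calc finrank ℚ (LinearMap.ker (scottBeta s₁ s₂ s₃))
      ≤ finrank ℚ (Submodule.span ℚ {(fun _ => 1 : X → ℚ)}) := Submodule.finrank_mono hle
    _ ≤ 1 := by
        have := finrank_span_le_card (R := ℚ) ({(fun _ => 1 : X → ℚ)} : Set (X → ℚ))
        simpa using this

lemma mover_range_delta_eq_top (h : s₁ * s₂ * s₃ = 1) :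
    closure ({s₁, s₂, s₃} : Set (Perm X)) ≤ mover (LinearMap.range (scottDelta s₁ s₂ s₃)) := by
  set A := LinearMap.range (scottDelta s₁ s₂ s₃) with hA
  have m1 : s₁ ∈ mover A := by
    intro x
    refine ⟨(⟨oneSub s₁ (ev x), LinearMap.mem_range_self _ _⟩, 0, 0), ?_⟩
    rw [scottDelta_apply]
    simp [permOp_ev]
  have m2 : s₂ ∈ mover A := by
    intro x
    have hx : ev (s₁ x) - ev (s₁ (s₂ x)) ∈ A := by
      refine ⟨(0, ⟨oneSub s₂ (ev x), LinearMap.mem_range_self _ _⟩, 0), ?_⟩
      rw [scottDelta_apply]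
      simp [permOp_ev]
    have := A.sub_mem (A.add_mem (m1 x) hx) (m1 (s₂ x))
    have e : ev x - ev (s₁ x) + (ev (s₁ x) - ev (s₁ (s₂ x))) - (ev (s₂ x) - ev (s₁ (s₂ x)))
        = ev x - ev (s₂ x) := by abel
    rwa [e] at this
  have m3 : s₃ ∈ mover A := by
    have : s₃ = (s₁ * s₂)⁻¹ := eq_inv_of_mul_eq_one_right h
    rw [this]
    exact (mover A).inv_mem ((mover A).mul_mem m1 m2)
  rw [closure_le]
  rintro g (rfl | rfl | rfl)
  · exact m1
  · exact m2
  · exact m3

/-- the sum functional -/
def sumFun : (X → ℚ) →ₗ[ℚ] ℚ := ∑ x, LinearMap.proj x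

lemma sumFun_apply (v : X → ℚ) : sumFun v = ∑ x, v x := by
  simp [sumFun]

lemma ker_sumFun_le_range_delta (h : s₁ * s₂ * s₃ = 1)
    (htr : ∀ x y : X, ∃ g ∈ closure ({s₁, s₂, s₃} : Set (Perm X)), g x = y) :
    LinearMap.ker (sumFun (X := X)) ≤ LinearMap.range (scottDelta s₁ s₂ s₃) := by
  intro v hv
  rw [LinearMap.mem_ker, sumFun_apply] at hv
  rcases isEmpty_or_nonempty X with hX | ⟨⟨x₀⟩⟩
  · have : v = 0 := Subsingleton.elim _ _
    rw [this]; exact Submodule.zero_mem _
  · have key : v = ∑ x, v x • (ev x - ev x₀) := by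
      simp only [smul_sub, Finset.sum_sub_distrib, ← Finset.sum_smul, hv, zero_smul, sub_zero]
      ext y
      simp [ev, Finset.sum_apply, Pi.single_apply]
    rw [key]
    refine Submodule.sum_mem _ fun x _ => Submodule.smul_mem _ _ ?_
    obtain ⟨g, hg, hgx⟩ := htr x x₀
    have := mover_range_delta_eq_top h hg x
    rwa [hgx] at this

lemma card_le_finrank_range_delta_add_one (h : s₁ * s₂ * s₃ = 1)
    (htr : ∀ x y : X, ∃ g ∈ closure ({s₁, s₂, s₃} : Set (Perm X)), g x = y) :
    Fintype.card X ≤ finrank ℚ (LinearMap.range (scottDelta s₁ s₂ s₃)) + 1 := by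
  have h1 := LinearMap.finrank_range_add_finrank_ker (sumFun (X := X))
  rw [Module.finrank_fintype_fun_eq_card] at h1
  have h2 : finrank ℚ (LinearMap.range (sumFun (X := X))) ≤ 1 := by
    have := Submodule.finrank_le (LinearMap.range (sumFun (X := X)))
    simpa using this
  have h3 := Submodule.finrank_mono (ker_sumFun_le_range_delta h htr)
  omega

/-- **Scott's lemma / Ree's theorem** for three permutations. -/
theorem orb_add_orb_add_orb_le (h : s₁ * s₂ * s₃ = 1)
    (htr : ∀ x y : X, ∃ g ∈ closure ({s₁, s₂, s₃} : Set (Perm X)), g x = y) :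
    orb s₁ + orb s₂ + orb s₃ ≤ Fintype.card X + 2 := by
  have r1 := finrank_range_oneSub s₁
  have r2 := finrank_range_oneSub s₂
  have r3 := finrank_range_oneSub s₃
  have hd := LinearMap.finrank_range_add_finrank_ker (scottDelta s₁ s₂ s₃)
  have hb := LinearMap.finrank_range_add_finrank_ker (scottBeta s₁ s₂ s₃)
  rw [Module.finrank_fintype_fun_eq_card] at hb
  rw [Module.finrank_prod, Module.finrank_prod] at hd
  have h1 := finrank_ker_beta_le htr
  have h2 := card_le_finrank_range_delta_add_one h htr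
  have h3 := Submodule.finrank_mono (range_beta_le_ker_delta h)
  omega

end scott

section parity

lemma orbitRel_zpowers_iff (s : Perm X) (x y : X) :
    orbitRel (zpowers s) X x y ↔ s.SameCycle y x := by
  rw [orbitRel_apply]
  constructor
  · rintro ⟨⟨g, hg⟩, rfl⟩
    obtain ⟨k, rfl⟩ := mem_zpowers_iff.mp hg
    exact ⟨k, rfl⟩
  · rintro ⟨k, rfl⟩
    exact ⟨⟨s ^ k, zpow_mem_zpowers s k⟩, rfl⟩

/-- a complete invariant of the cycle of `x` -/
def cycKey (s : Perm X) (x : X) : X ⊕ Perm X :=
  if s x = x then Sum.inl x else Sum.inr (s.cycleOf x)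

lemma cycKey_eq_iff (s : Perm X) (x y : X) : cycKey s x = cycKey s y ↔ s.SameCycle x y := by
  unfold cycKey
  constructor
  · intro h
    by_cases hx : s x = x <;> by_cases hy : s y = y
    · simp only [hx, hy, if_true, Sum.inl.injEq] at h
      rw [h]
    · simp [hx, hy] at h
    · simp [hx, hy] at h
    · simp only [hx, hy, if_false, Sum.inr.injEq] at h
      have hy' : y ∈ (s.cycleOf y).support :=
        Perm.mem_support_cycleOf_iff.mpr ⟨Perm.SameCycle.refl _ _, Perm.mem_support.mpr hy⟩
      rw [← h] at hy'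
      exact (Perm.mem_support_cycleOf_iff.mp hy').1
  · intro h
    by_cases hx : s x = x
    · have : x = y := h.eq_of_left hx
      rw [this]
    · have hy : ¬ s y = y := fun hy => hx (h.apply_eq_self_iff.mpr hy)
      simp only [hx, hy, if_false]
      rw [h.cycleOf_eq]

lemma range_cycKey (s : Perm X) : Set.range (cycKey s) =
    Sum.inl '' (Function.fixedPoints s) ∪ Sum.inr '' (s.cycleFactorsFinset : Set (Perm X)) := by
  ext z
  constructor
  · rintro ⟨x, rfl⟩
    unfold cycKey
    by_cases hx : s x = x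
    · left; exact ⟨x, hx, by simp [hx]⟩
    · right
      refine ⟨s.cycleOf x, ?_, by simp [hx]⟩
      exact Perm.cycleOf_mem_cycleFactorsFinset_iff.mpr (Perm.mem_support.mpr hx)
  · rintro (⟨x, hx, rfl⟩ | ⟨c, hc, rfl⟩)
    · exact ⟨x, by
        have : s x = x := hx
        simp [cycKey, this]⟩
    · have hc' : c ∈ s.cycleFactorsFinset := hc
      obtain ⟨hcyc, hcs⟩ := Perm.mem_cycleFactorsFinset_iff.mp hc'
      obtain ⟨a, ha, -⟩ := hcyc
      have ha' : a ∈ c.support := Perm.mem_support.mpr ha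
      refine ⟨a, ?_⟩
      have hsa : ¬ s a = a := by
        rw [← hcs a ha']; exact ha
      simp only [cycKey, hsa, if_false]
      rw [← Perm.cycle_is_cycleOf ha' hc']

lemma orb_eq (s : Perm X) :
    orb s = Fintype.card (Function.fixedPoints s) + s.cycleType.card := by
  classical
  have e1 : orbitRel.Quotient (zpowers s) X ≃ Set.range (cycKey s) := by
    refine Equiv.trans (Quotient.congr (Equiv.refl X) ?_) (Setoid.quotientKerEquivRange (cycKey s))
    intro x y
    show orbitRel (zpowers s) X x y ↔ cycKey s x = cycKey s y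
    rw [orbitRel_zpowers_iff, cycKey_eq_iff]
    exact ⟨fun h => h.symm, fun h => h.symm⟩
  rw [orb, Nat.card_congr e1, range_cycKey, Nat.card_coe_set_eq, Set.ncard_union_eq]
  · rw [Set.ncard_image_of_injective _ Sum.inl_injective,
      Set.ncard_image_of_injective _ Sum.inr_injective, Set.ncard_coe_finset,
      Perm.cycleType_def, Multiset.card_map, ← Nat.card_coe_set_eq, Nat.card_eq_fintype_card]
    rfl
  · rw [Set.disjoint_left]
    rintro _ ⟨x, -, rfl⟩ ⟨c, -, h⟩
    exact absurd h (by simp)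

lemma orb_add_sum_cycleType (s : Perm X) :
    orb s + s.cycleType.sum = Fintype.card X + s.cycleType.card := by
  rw [orb_eq, Perm.card_fixedPoints]
  have : s.cycleType.sum ≤ Fintype.card X := by
    rw [Perm.sum_cycleType]; exact Finset.card_le_univ _
  omega

lemma sign_eq_neg_one_pow (s : Perm X) :
    Perm.sign s = (-1) ^ (Fintype.card X + orb s) := by
  rw [Perm.sign_of_cycleType]
  have h := orb_add_sum_cycleType s
  have : Fintype.card X + orb s + 2 * s.cycleType.sum
      = 2 * Fintype.card X + (s.cycleType.sum + s.cycleType.card) := by omega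
  have h2 : ((-1 : ℤˣ)) ^ (Fintype.card X + orb s + 2 * s.cycleType.sum)
      = (-1) ^ (2 * Fintype.card X + (s.cycleType.sum + s.cycleType.card)) := by rw [this]
  rw [pow_add, pow_add (-1 : ℤˣ) (2 * _), pow_mul, pow_mul] at h2
  simpa using h2.symm

/-- parity: `card X + orb s₁ + orb s₂ + orb s₃` is even when `s₁ s₂ s₃ = 1`. -/
theorem even_card_add_orb {s₁ s₂ s₃ : Perm X} (h : s₁ * s₂ * s₃ = 1) :
    Even (Fintype.card X + (orb s₁ + orb s₂ + orb s₃)) := by
  have hs : Perm.sign s₁ * Perm.sign s₂ * Perm.sign s₃ = 1 := by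
    rw [← map_mul, ← map_mul, h, map_one]
  rw [sign_eq_neg_one_pow, sign_eq_neg_one_pow, sign_eq_neg_one_pow, ← pow_add, ← pow_add] at hs
  have hs' : ((-1 : ℤ)) ^ (Fintype.card X + orb s₁ + (Fintype.card X + orb s₂)
      + (Fintype.card X + orb s₃)) = 1 := by
    have := congrArg (fun u : ℤˣ => (u : ℤ)) hs
    simpa using this
  rw [neg_one_pow_eq_one_iff_even (by norm_num)] at hs'
  rcases hs' with ⟨k, hk⟩
  exact ⟨k - Fintype.card X, by omega⟩

lemma orb_inv (s : Perm X) : orb s⁻¹ = orb s := by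
  unfold orb
  rw [zpowers_inv]

end parity

/-- Final form: for `a b` generating a transitive group, with `n = card X`,
`orb a + orb (a*b) + orb b ≤ n + 2` and `n + 2 - (orb a + orb (a*b) + orb b)` is even. -/
theorem scott_pair (a b : Perm X)
    (htr : ∀ x y : X, ∃ g ∈ closure ({a, b} : Set (Perm X)), g x = y) :
    orb a + orb (a * b) + orb b ≤ Fintype.card X + 2 ∧
      Even (Fintype.card X + (orb a + orb (a * b) + orb b)) := by
  have h : a⁻¹ * (a * b) * b⁻¹ = 1 := by group
  have hcl : closure ({a, b} : Set (Perm X)) ≤ closure ({a⁻¹, a * b, b⁻¹} : Set (Perm X)) := by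
    rw [closure_le]
    rintro g (rfl | rfl)
    · have : g⁻¹ ∈ closure ({g⁻¹, g * b, b⁻¹} : Set (Perm X)) := subset_closure (by simp)
      simpa using inv_mem this
    · have : g⁻¹ ∈ closure ({a⁻¹, a * g, g⁻¹} : Set (Perm X)) := subset_closure (by simp)
      simpa using inv_mem this
  have htr' : ∀ x y : X, ∃ g ∈ closure ({a⁻¹, a * b, b⁻¹} : Set (Perm X)), g x = y := by
    intro x y
    obtain ⟨g, hg, hgx⟩ := htr x y
    exact ⟨g, hcl hg, hgx⟩
  have h1 := orb_add_orb_add_orb_le h htr'
  have h2 := even_card_add_orb h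
  rw [orb_inv, orb_inv] at h1 h2
  exact ⟨h1, h2⟩

/-- Burnside count for a permutation of prime order `p` (or trivial). -/
theorem prime_mul_orb {p : ℕ} (hp : p.Prime) (s : Perm X) (h : s ^ p = 1) :
    p * orb s = Fintype.card X + (p - 1) * Fintype.card (Function.fixedPoints s) := by
  have hp1 : 1 ≤ p := hp.one_lt.le
  have hsum : s.cycleType.sum ≤ Fintype.card X := by
    rw [Perm.sum_cycleType]; exact Finset.card_le_univ _
  by_cases hs : s = 1
  · subst hs
    rw [orb_eq, Perm.card_fixedPoints]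
    simp only [Perm.cycleType_one, Multiset.sum_zero, Multiset.card_zero, tsub_zero, add_zero]
    obtain ⟨q, rfl⟩ : ∃ q, p = q + 1 := ⟨p - 1, by omega⟩
    simp only [add_tsub_cancel_right]
    ring
  · haveI : Fact p.Prime := ⟨hp⟩
    have ho : orderOf s = p := orderOf_eq_prime h hs
    obtain ⟨k, hk⟩ := Perm.cycleType_prime_order (σ := s) (by rw [ho]; exact hp)
    rw [ho] at hk
    rw [orb_eq, Perm.card_fixedPoints]
    rw [hk] at hsum ⊢
    simp only [Multiset.sum_replicate, Multiset.card_replicate, smul_eq_mul] at hsum ⊢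
    obtain ⟨q, rfl⟩ : ∃ q, p = q + 1 := ⟨p - 1, by omega⟩
    obtain ⟨f, hf⟩ : ∃ f, Fintype.card X = f + (k + 1) * (q + 1) := ⟨_, (Nat.sub_add_cancel hsum).symm⟩
    rw [hf]
    simp only [add_tsub_cancel_right]
    ring

section action

variable {G : Type*} [Group G] [MulAction G X]

/-- number of orbits of `⟨g⟩` on `X`. -/
noncomputable def orbG (X : Type*) [MulAction G X] (g : G) : ℕ :=
  Nat.card (orbitRel.Quotient (zpowers g) X)

lemma orbG_eq_orb (g : G) : orbG X g = orb (MulAction.toPerm g : Perm X) := by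
  unfold orbG orb
  refine Nat.card_congr (Quotient.congr (Equiv.refl X) ?_)
  intro x y
  show orbitRel (zpowers g) X x y ↔ orbitRel (zpowers (MulAction.toPerm g : Perm X)) X x y
  rw [orbitRel_apply, orbitRel_apply]
  constructor
  · rintro ⟨⟨h, hh⟩, rfl⟩
    obtain ⟨k, rfl⟩ := mem_zpowers_iff.mp hh
    refine ⟨⟨(MulAction.toPerm g : Perm X) ^ k, zpow_mem_zpowers _ k⟩, ?_⟩
    show ((MulAction.toPerm g : Perm X) ^ k) y = g ^ k • y
    have : (MulAction.toPerm g : Perm X) ^ k = MulAction.toPerm (g ^ k) :=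
      (map_zpow (MulAction.toPermHom G X) g k).symm
    rw [this]; rfl
  · rintro ⟨⟨h, hh⟩, rfl⟩
    obtain ⟨k, rfl⟩ := mem_zpowers_iff.mp hh
    refine ⟨⟨g ^ k, zpow_mem_zpowers _ k⟩, ?_⟩
    show g ^ k • y = ((MulAction.toPerm g : Perm X) ^ k) y
    have : (MulAction.toPerm g : Perm X) ^ k = MulAction.toPerm (g ^ k) :=
      (map_zpow (MulAction.toPermHom G X) g k).symm
    rw [this]; rfl

/-- Scott's lemma + parity for a transitive action of a group generated by `a, b`. -/
theorem scott_action [IsPretransitive G X] (a b : G) (hgen : closure ({a, b} : Set G) = ⊤) :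
    orbG X a + orbG X (a * b) + orbG X b ≤ Fintype.card X + 2 ∧
      Even (Fintype.card X + (orbG X a + orbG X (a * b) + orbG X b)) := by
  rw [orbG_eq_orb, orbG_eq_orb, orbG_eq_orb]
  have hmul : (MulAction.toPerm (a * b) : Perm X) = MulAction.toPerm a * MulAction.toPerm b :=
    map_mul (MulAction.toPermHom G X) a b
  rw [hmul]
  apply scott_pair
  intro x y
  obtain ⟨g, rfl⟩ := MulAction.exists_smul_eq G x y
  refine ⟨MulAction.toPerm g, ?_, rfl⟩
  have hg : g ∈ closure ({a, b} : Set G) := by rw [hgen]; exact mem_top g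
  have := Subgroup.mem_map_of_mem (MulAction.toPermHom G X) hg
  rw [MonoidHom.map_closure] at this
  have himg : (MulAction.toPermHom G X) '' ({a, b} : Set G)
      = {(MulAction.toPerm a : Perm X), MulAction.toPerm b} := by
    rw [Set.image_pair]; rfl
  rw [himg] at this
  exact this

/-- Burnside count for an element acting with prime order `p` (or trivially). -/
theorem prime_mul_orbG {p : ℕ} (hp : p.Prime) (g : G) (h : ∀ x : X, g ^ p • x = x) :
    p * orbG X g = Fintype.card X + (p - 1) * Nat.card {x : X // g • x = x} := by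
  rw [orbG_eq_orb]
  have hs : (MulAction.toPerm g : Perm X) ^ p = 1 := by
    have : (MulAction.toPerm g : Perm X) ^ p = MulAction.toPerm (g ^ p) :=
      (map_pow (MulAction.toPermHom G X) g p).symm
    rw [this]
    ext x
    exact h x
  rw [prime_mul_orb hp _ hs, ← Nat.card_eq_fintype_card (α := Function.fixedPoints _)]
  rfl

end action

end Fermat.Agent.S24
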