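import Fermat.Agent.S24.Defs
import Fermat.Agent.S24.Scott

/-!
# S24, task C5 (+C4): orbit counts for permutations, in terms of `numOrbits`
-/

set_option autoImplicit false

namespace Fermat.Agent.S24

open Equiv MulAction Subgroup

theorem numOrbits_eq_card_orbitRel {I : Type*} (π : Equiv.Perm I) :
    numOrbits π = Nat.card (orbitRel.Quotient (zpowers π) I) := by
  unfold numOrbits
  refine Nat.card_congr (Quotient.congr (Equiv.refl I) ?_)
  intro x y
  show π.SameCycle x y ↔ orbitRel (zpowers π) I x y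
  rw [orbitRel_apply]
  constructor
  · intro h
    obtain ⟨k, rfl⟩ := h.symm
    exact ⟨⟨π ^ k, zpow_mem_zpowers π k⟩, rfl⟩
  · rintro ⟨⟨g, hg⟩, rfl⟩
    obtain ⟨k, rfl⟩ := mem_zpowers_iff.mp hg
    exact Perm.SameCycle.symm ⟨k, rfl⟩

theorem numOrbits_eq_orb {I : Type*} [Fintype I] [DecidableEq I] (π : Equiv.Perm I) :
    numOrbits π = orb π := numOrbits_eq_card_orbitRel π

theorem prime_mul_numOrbits {I : Type*} [Finite I] {p : ℕ} (hp : p.Prime) (π : Equiv.Perm I)
    (h : π ^ p = 1) :
    p * numOrbits π = Nat.card I + (p - 1) * Nat.card {x : I // π x = x} := by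
  classical
  have : Fintype I := Fintype.ofFinite I
  rw [numOrbits_eq_orb, prime_mul_orb hp π h, Nat.card_eq_fintype_card,
    ← Nat.card_eq_fintype_card (α := Function.fixedPoints _)]
  rfl

theorem two_mul_numOrbits {I : Type*} [Finite I] (π : Equiv.Perm I) (h : π ^ 2 = 1) :
    2 * numOrbits π = Nat.card I + Nat.card {x : I // π x = x} := by
  have := prime_mul_numOrbits Nat.prime_two π h
  simpa using this

theorem three_mul_numOrbits {I : Type*} [Finite I] (π : Equiv.Perm I) (h : π ^ 3 = 1) :
    3 * numOrbits π = Nat.card I + 2 * Nat.card {x : I // π x = x} := by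
  have := prime_mul_numOrbits Nat.prime_three π h
  simpa using this

theorem numOrbits_one {I : Type*} [Finite I] : numOrbits (1 : Equiv.Perm I) = Nat.card I := by
  have h := two_mul_numOrbits (1 : Equiv.Perm I) (one_pow 2)
  have h2 : Nat.card {x : I // (1 : Equiv.Perm I) x = x} = Nat.card I :=
    Nat.card_congr (Equiv.subtypeUnivEquiv fun x => rfl)
  omega

theorem sum_orbit_sizes {I : Type*} [Fintype I] (π : Equiv.Perm I)
    [Fintype (Quotient (Equiv.Perm.SameCycle.setoid π))] :
    ∑ o : Quotient (Equiv.Perm.SameCycle.setoid π), Function.minimalPeriod π o.out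
      = Fintype.card I := by
  classical
  have e := (Equiv.sigmaFiberEquiv
    (fun x : I => (Quotient.mk (Equiv.Perm.SameCycle.setoid π) x))).symm
  rw [Fintype.card_congr e, Fintype.card_sigma]
  refine Finset.sum_congr rfl fun o _ => ?_
  have hper : Function.minimalPeriod π o.out
      = Function.minimalPeriod (fun x : I => π • x) o.out := rfl
  rw [hper, MulAction.minimalPeriod_eq_card]
  refine Fintype.card_congr (Equiv.subtypeEquivRight fun x => ?_)
  constructor
  · rintro ⟨⟨g, hg⟩, rfl⟩
    obtain ⟨k, rfl⟩ := mem_zpowers_iff.mp hg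
    have : Quotient.mk (Equiv.Perm.SameCycle.setoid π) ((π ^ k) o.out)
        = Quotient.mk (Equiv.Perm.SameCycle.setoid π) o.out :=
      Quotient.sound (Perm.SameCycle.symm ⟨k, rfl⟩)
    show Quotient.mk (Equiv.Perm.SameCycle.setoid π) ((π ^ k) o.out) = o
    rw [this, Quotient.out_eq]
  · intro hx
    have : π.SameCycle o.out x := by
      have h2 : Quotient.mk (Equiv.Perm.SameCycle.setoid π) o.out
          = Quotient.mk (Equiv.Perm.SameCycle.setoid π) x := by rw [Quotient.out_eq, hx]
      exact Quotient.exact h2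
    obtain ⟨k, rfl⟩ := this
    exact ⟨⟨π ^ k, zpow_mem_zpowers π k⟩, rfl⟩

theorem numOrbits_toPerm_eq {G I : Type*} [Group G] [MulAction G I] (g : G) :
    numOrbits (MulAction.toPerm g : Equiv.Perm I)
      = Nat.card (MulAction.orbitRel.Quotient (Subgroup.zpowers g) I) := by
  rw [numOrbits_eq_card_orbitRel]
  refine Nat.card_congr (Quotient.congr (Equiv.refl I) ?_)
  intro x y
  show orbitRel (zpowers (MulAction.toPerm g : Perm I)) I x y ↔ orbitRel (zpowers g) I x y
  have hz : ∀ k : ℤ, (MulAction.toPerm g : Perm I) ^ k = MulAction.toPerm (g ^ k) := fun k =>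
    (map_zpow (MulAction.toPermHom G I) g k).symm
  rw [orbitRel_apply, orbitRel_apply]
  constructor
  · rintro ⟨⟨h, hh⟩, rfl⟩
    obtain ⟨k, rfl⟩ := mem_zpowers_iff.mp hh
    refine ⟨⟨g ^ k, zpow_mem_zpowers _ k⟩, ?_⟩
    show g ^ k • y = ((MulAction.toPerm g : Perm I) ^ k) y
    rw [hz]; rfl
  · rintro ⟨⟨h, hh⟩, rfl⟩
    obtain ⟨k, rfl⟩ := mem_zpowers_iff.mp hh
    refine ⟨⟨(MulAction.toPerm g : Perm I) ^ k, zpow_mem_zpowers _ k⟩, ?_⟩
    show ((MulAction.toPerm g : Perm I) ^ k) y = g ^ k • y
    rw [hz]; rfl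

/-- **C4** Scott's lemma (Ree's theorem) and parity, for a transitive action on a finite set of a
group generated by two elements `a`, `b`. -/
theorem numOrbits_scott {G I : Type*} [Group G] [MulAction G I] [Finite I]
    [MulAction.IsPretransitive G I] (a b : G) (hgen : Subgroup.closure ({a, b} : Set G) = ⊤) :
    numOrbits (MulAction.toPerm a : Equiv.Perm I) + numOrbits (MulAction.toPerm (a * b) : Equiv.Perm I)
        + numOrbits (MulAction.toPerm b : Equiv.Perm I) ≤ Nat.card I + 2 ∧
      Even (Nat.card I + (numOrbits (MulAction.toPerm a : Equiv.Perm I)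
        + numOrbits (MulAction.toPerm (a * b) : Equiv.Perm I)
        + numOrbits (MulAction.toPerm b : Equiv.Perm I))) := by
  classical
  have : Fintype I := Fintype.ofFinite I
  rw [numOrbits_toPerm_eq, numOrbits_toPerm_eq, numOrbits_toPerm_eq,
    Nat.card_eq_fintype_card (α := I)]
  exact scott_action (X := I) a b hgen

end Fermat.Agent.S24
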