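import Fermat.Agent.S24.AnDefs
import Fermat.Agent.S24.OrbitCount
import Fermat.Agent.S20.CombCusps

/-!
# S24 : the combinatorial input in its final form, and the final arithmetic
-/

set_option autoImplicit false

namespace Fermat.Agent.S24

open ModularCurve ModularGroup
open scoped MatrixGroups

instance finite_cosets (N : ℕ) [NeZero N] : Finite (Cosets N) := by
  have h : (CongruenceSubgroup.Gamma0 N).index ≠ 0 := by
    rw [Fermat.Agent.S20.index_Gamma0 N (NeZero.ne N)]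
    have hpos : 0 < dedekindPsi N := by
      unfold dedekindPsi
      refine Finset.sum_pos' (fun _ _ => Nat.zero_le _) ⟨1, ?_, ?_⟩
      · simp [NeZero.ne N]
      · simpa using Nat.pos_of_ne_zero (NeZero.ne N)
    exact hpos.ne'
  have := Subgroup.finiteIndex_iff.mpr h
  infer_instance

theorem card_cosets (N : ℕ) [NeZero N] : Nat.card (Cosets N) = dedekindPsi N :=
  Fermat.Agent.S20.index_Gamma0 N (NeZero.ne N)

theorem neg_one_smul_cosets (N : ℕ) (x : Cosets N) : (-1 : SL(2, ℤ)) • x = x := by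
  induction x using QuotientGroup.induction_on with
  | H g =>
    rw [MulAction.Quotient.smul_mk, QuotientGroup.eq]
    have h2 : ((-1 : SL(2, ℤ)) • g)⁻¹ * g = -1 := by
      simp
    rw [h2, CongruenceSubgroup.Gamma0_mem]
    simp

theorem S_sq : (S : SL(2, ℤ)) ^ 2 = -1 := by
  apply Subtype.ext
  simp only [Matrix.SpecialLinearGroup.coe_pow, Matrix.SpecialLinearGroup.coe_neg,
    Matrix.SpecialLinearGroup.coe_one, coe_S]
  ext i j
  fin_cases i <;> fin_cases j <;> simp [pow_two, Matrix.mul_apply, Fin.sum_univ_two]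

theorem ST_cube : (S * T : SL(2, ℤ)) ^ 3 = -1 := by
  apply Subtype.ext
  simp only [Matrix.SpecialLinearGroup.coe_pow, Matrix.SpecialLinearGroup.coe_mul,
    Matrix.SpecialLinearGroup.coe_neg, Matrix.SpecialLinearGroup.coe_one, coe_S, coe_T]
  ext i j
  fin_cases i <;> fin_cases j <;> simp [pow_succ, Matrix.mul_apply, Fin.sum_univ_two]

theorem toPerm_S_sq (N : ℕ) : (MulAction.toPerm (S : SL(2, ℤ)) : Equiv.Perm (Cosets N)) ^ 2 = 1 := by
  ext x
  have h : ((MulAction.toPerm (S : SL(2, ℤ)) : Equiv.Perm (Cosets N)) ^ 2) x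
      = ((S : SL(2, ℤ)) ^ 2) • x := by
    simp [pow_two, mul_smul]
  rw [h, S_sq, neg_one_smul_cosets]
  rfl

theorem toPerm_ST_cube (N : ℕ) :
    (MulAction.toPerm (S * T : SL(2, ℤ)) : Equiv.Perm (Cosets N)) ^ 3 = 1 := by
  ext x
  have h : ((MulAction.toPerm (S * T : SL(2, ℤ)) : Equiv.Perm (Cosets N)) ^ 3) x
      = ((S * T : SL(2, ℤ)) ^ 3) • x := by
    simp only [pow_succ, pow_zero, one_mul, Equiv.Perm.coe_mul, Function.comp_apply,
      MulAction.toPerm_apply, mul_smul]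
  rw [h, ST_cube, neg_one_smul_cosets]
  rfl

theorem two_mul_numOrbits_S (N : ℕ) [NeZero N] :
    2 * numOrbits (MulAction.toPerm (S : SL(2, ℤ)) : Equiv.Perm (Cosets N))
      = dedekindPsi N + nuTwo N := by
  rw [two_mul_numOrbits _ (toPerm_S_sq N), card_cosets, ← Fermat.Agent.S20.card_fixedBy_S N]
  rfl

theorem three_mul_numOrbits_ST (N : ℕ) [NeZero N] :
    3 * numOrbits (MulAction.toPerm (S * T : SL(2, ℤ)) : Equiv.Perm (Cosets N))
      = dedekindPsi N + 2 * nuThree N := by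
  rw [three_mul_numOrbits _ (toPerm_ST_cube N), card_cosets, ← Fermat.Agent.S20.card_fixedBy_ST N]
  rfl

theorem numOrbits_T (N : ℕ) [NeZero N] :
    numOrbits (MulAction.toPerm (T : SL(2, ℤ)) : Equiv.Perm (Cosets N)) = cuspCount N := by
  rw [numOrbits_toPerm_eq]
  exact Fermat.Agent.S20.card_T_orbits N (NeZero.ne N)

theorem scott_cosets (N : ℕ) [NeZero N] :
    numOrbits (MulAction.toPerm (S : SL(2, ℤ)) : Equiv.Perm (Cosets N))
        + numOrbits (MulAction.toPerm (S * T : SL(2, ℤ)) : Equiv.Perm (Cosets N))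
        + cuspCount N ≤ dedekindPsi N + 2 ∧
      Even (dedekindPsi N + (numOrbits (MulAction.toPerm (S : SL(2, ℤ)) : Equiv.Perm (Cosets N))
        + numOrbits (MulAction.toPerm (S * T : SL(2, ℤ)) : Equiv.Perm (Cosets N))
        + cuspCount N)) := by
  have h := numOrbits_scott (G := SL(2, ℤ)) (I := Cosets N) S T
    SpecialLinearGroup.SL2Z_generators
  rwa [numOrbits_T, card_cosets] at h

theorem arith_final (n r0 r1 rinf nu2 nu3 : ℕ) (deg : ℤ)
    (hdeg : deg = -2 * (n : ℤ) + (((n : ℤ) - r0) + ((n : ℤ) - r1)) + ((n : ℤ) - rinf))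
    (h1 : 2 * r1 = n + nu2) (h0 : 3 * r0 = n + 2 * nu3)
    (hle : r1 + r0 + rinf ≤ n + 2) (hev : Even (n + (r1 + r0 + rinf))) :
    ((((deg + 2).toNat / 2 : ℕ) : ℚ))
      = 1 + (n : ℚ) / 12 - (nu2 : ℚ) / 4 - (nu3 : ℚ) / 3 - (rinf : ℚ) / 2 := by
  obtain ⟨k, hk⟩ := hev
  have hd : deg + 2 = 2 * ((n : ℤ) + 1 - k) := by
    rw [hdeg]
    have : (n : ℤ) + (r1 + r0 + rinf) = k + k := by exact_mod_cast hk
    linarith
  have hk' : k ≤ n + 1 := by omega
  obtain ⟨g, hg⟩ : ∃ g : ℕ, (g : ℤ) = (n : ℤ) + 1 - k := ⟨n + 1 - k, by omega⟩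
  have : (deg + 2).toNat / 2 = g := by
    rw [hd, ← hg]; omega
  rw [this]
  have hgq : (g : ℚ) = (n : ℚ) + 1 - k := by exact_mod_cast hg
  have h1q : 2 * (r1 : ℚ) = n + nu2 := by exact_mod_cast h1
  have h0q : 3 * (r0 : ℚ) = n + 2 * nu3 := by exact_mod_cast h0
  have hkq : (n : ℚ) + (r1 + r0 + rinf) = k + k := by exact_mod_cast hk
  rw [hgq]
  linarith

end Fermat.Agent.S24
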