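import Fermat.Agent.S24.AnDefs

/-!
# S24 / B4.3 : `FF N` is the field of fractions of `ℚ̄[j(q^d) : d ∣ N]`
-/

set_option autoImplicit false

namespace Fermat.Agent.S24

open UpperHalfPlane ModularForm Filter Function ModularGroup
open scoped MatrixGroups Manifold Topology

/-- The Laurent series `j(q^d)`, `d ∣ N`, over `ℚ̄`. -/
def serGens (N : ℕ) : Set (LaurentSeries Qbar) :=
  {x | ∃ (d : ℕ) (_ : NeZero d), d ∣ N ∧ x = jBarSeries d}

theorem coeffEmb_algebraMap_rat (r : ℚ) :
    ModularCurve.coeffEmb Qbar (algebraMap ℚ (LaurentSeries ℚ) r)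
      = algebraMap Qbar (LaurentSeries Qbar) (algebraMap ℚ Qbar r) := by
  rw [ModularCurve.coeffEmb, ModularCurve.algebraMap_laurentSeries_eq_single,
    ModularCurve.algebraMap_laurentSeries_eq_single, ModularCurve.coeffMap_single]

theorem coeffEmb_mem_adjoin_serGens (N : ℕ) [NeZero N] (y : LaurentSeries ℚ)
    (hy : y ∈ ModularCurve.modularFunctionFieldFull N) :
    ModularCurve.coeffEmb Qbar y ∈ IntermediateField.adjoin Qbar (serGens N) := by
  rw [ModularCurve.modularFunctionFieldFull] at hy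
  induction hy using IntermediateField.adjoin_induction with
  | mem x hx =>
      obtain ⟨d, hd, hdN, rfl⟩ := hx
      exact IntermediateField.subset_adjoin Qbar _ ⟨d, hd, hdN, rfl⟩
  | algebraMap r =>
      rw [coeffEmb_algebraMap_rat]
      exact IntermediateField.algebraMap_mem _ _
  | add x y _ _ hx hy => simpa using add_mem hx hy
  | inv x _ hx => simpa using inv_mem hx
  | mul x y _ _ hx hy => simpa using mul_mem hx hy

theorem modularFunctionFieldBar_eq_adjoin (N : ℕ) [NeZero N] :
    ModularCurve.modularFunctionFieldBar N = IntermediateField.adjoin Qbar (serGens N) := by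
  apply le_antisymm
  · rw [ModularCurve.modularFunctionFieldBar, ModularCurve.laurentBaseChange,
      IntermediateField.adjoin_le_iff]
    rintro _ ⟨y, hy, rfl⟩
    exact coeffEmb_mem_adjoin_serGens N y hy
  · rw [IntermediateField.adjoin_le_iff]
    rintro _ ⟨d, hd, hdN, rfl⟩
    exact jBarSeries_mem hdN

theorem exists_div_of_mem_FF (N : ℕ) [NeZero N] (f : LaurentSeries Qbar)
    (hf : f ∈ ModularCurve.modularFunctionFieldBar N) :
    ∃ a b : LaurentSeries Qbar, a ∈ Algebra.adjoin Qbar (serGens N) ∧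
      b ∈ Algebra.adjoin Qbar (serGens N) ∧ b ≠ 0 ∧ f * b = a := by
  rw [modularFunctionFieldBar_eq_adjoin, IntermediateField.mem_adjoin_iff_div] at hf
  obtain ⟨a, ha, b, hb, rfl⟩ := hf
  by_cases hb0 : b = 0
  · refine ⟨0, 1, zero_mem _, one_mem _, one_ne_zero, ?_⟩
    simp [hb0]
  · exact ⟨a, b, ha, hb, hb0, div_mul_cancel₀ a hb0⟩

end Fermat.Agent.S24
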