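import Fermat.Agent.S24.Defs

/-!
# S24 / A5 (core): principal divisors have degree zero, from the fundamental identity

This file contains the part of A5 that does not depend on the packages A1, A2: the statements of
those packages enter as explicit hypotheses.
-/

set_option autoImplicit false

namespace Fermat.Agent.S24

open AlgebraicCurve IntermediateField

section FieldTheory

variable {K F : Type*} [Field K] [Field F] [Algebra K F]

/-- Exchange: if `f` is transcendental over `K` and algebraic over `K(j)`, `j` transcendental,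
then `j` is algebraic over `K(f)`. -/
theorem isAlgebraic_adjoin_simple_exchange (j : F) (hj : Transcendental K j)
    (f : F) (hf : Transcendental K f) (h : IsAlgebraic K⟮j⟯ f) : IsAlgebraic K⟮f⟯ j :=
  isAlgebraic_adjoin_iff.mpr
    (IsAlgebraic.adjoin_singleton (A := F) (B := F) hj hf (isAlgebraic_adjoin_iff.mp h))

/-- A function field in one variable is finite over `K(f)` for every transcendental `f`. -/
theorem finiteDimensional_adjoin_simple_of_transcendental (j : F) (hj : Transcendental K j)
    [FiniteDimensional K⟮j⟯ F] (f : F) (hf : Transcendental K f) : FiniteDimensional K⟮f⟯ F :=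
  let Fyx := restrictScalars K K⟮f⟯⟮j⟯
  let Fxy := restrictScalars K K⟮j⟯⟮f⟯
  let : Algebra K⟮f⟯ Fyx := K⟮f⟯⟮j⟯.algebra
  let : Module K⟮f⟯ Fyx := Algebra.toModule
  let : SMul K⟮f⟯ Fyx := Algebra.toSMul
  let : Algebra K⟮j⟯ Fxy := K⟮j⟯⟮f⟯.algebra
  let : Module K⟮j⟯ Fxy := Algebra.toModule
  let : SMul K⟮j⟯ Fxy := Algebra.toSMul
  have : FiniteDimensional K⟮f⟯ Fyx :=
    adjoin.finiteDimensional
      (isAlgebraic_iff_isIntegral.mp (isAlgebraic_adjoin_simple_exchange j hj f hf
        (Algebra.IsAlgebraic.isAlgebraic f)))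
  have : FiniteDimensional Fyx F := by
    unfold Fyx
    rw [adjoin_simple_comm]
    have : IsScalarTower K⟮j⟯ Fxy F := isScalarTower_mid' K⟮j⟯⟮f⟯
    exact .right K⟮j⟯ Fxy F
  have : IsScalarTower K⟮f⟯ Fyx F := isScalarTower_mid' K⟮f⟯⟮j⟯
  .trans K⟮f⟯ Fyx F

theorem adjoin_simple_inv_eq (f : F) : K⟮f⁻¹⟯ = K⟮f⟯ := by
  apply le_antisymm
  · rw [adjoin_simple_le_iff]
    exact inv_mem (mem_adjoin_simple_self K f)
  · rw [adjoin_simple_le_iff]
    have := inv_mem (mem_adjoin_simple_self K f⁻¹)
    rwa [inv_inv] at this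

theorem transcendental_inv_of_transcendental {f : F} (hf : Transcendental K f) :
    Transcendental K f⁻¹ := by
  intro h
  apply hf
  have := h.inv
  rwa [inv_inv] at this

end FieldTheory

section Core

variable {K F : Type*} [Field K] [Field F] [Algebra K F]

theorem degree_eq_sum_support (E : Divisor K F) :
    Divisor.degree E = ∑ v ∈ E.support, E v * (v.deg : ℤ) := by
  simp [Divisor.degree, Finsupp.liftAddHom_apply, Finsupp.sum]

/-- Core of A5: the degree of the divisor of `f` vanishes as soon as all places have degree one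
and `f`, `f⁻¹` have the same number of zeros (counted with multiplicity). -/
theorem degree_eq_zero_of_sum_zeroPlaces (f : F) (E : Divisor K F)
    (hE : ∀ v, E v = v.ord f) (hdeg : ∀ v : Place K F, v.deg = 1) (d : ℤ)
    (hfin1 : (zeroPlaces (K := K) f).Finite) (hfin2 : (zeroPlaces (K := K) f⁻¹).Finite)
    (h1 : ∑ v ∈ hfin1.toFinset, v.ord f = d) (h2 : ∑ v ∈ hfin2.toFinset, v.ord f⁻¹ = d) :
    Divisor.degree E = 0 := by
  classical
  have hsupp : E.support = hfin1.toFinset ∪ hfin2.toFinset := by
    ext v
    simp only [Finsupp.mem_support_iff, Finset.mem_union, Set.Finite.mem_toFinset, zeroPlaces,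
      Set.mem_ofPred_eq, hE v, Place.ord_inv]
    omega
  have hdisj : Disjoint hfin1.toFinset hfin2.toFinset := by
    rw [Finset.disjoint_left]
    intro v hv1 hv2
    simp only [Set.Finite.mem_toFinset, zeroPlaces, Set.mem_ofPred_eq, Place.ord_inv] at hv1 hv2
    omega
  rw [degree_eq_sum_support, hsupp, Finset.sum_union hdisj]
  have e1 : ∑ v ∈ hfin1.toFinset, E v * (v.deg : ℤ) = d := by
    rw [← h1]
    exact Finset.sum_congr rfl fun v _ => by rw [hE v, hdeg v]; simp
  have e2 : ∑ v ∈ hfin2.toFinset, E v * (v.deg : ℤ) = -d := by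
    rw [← h2, ← Finset.sum_neg_distrib]
    exact Finset.sum_congr rfl fun v _ => by rw [hE v, hdeg v, Place.ord_inv]; simp
  rw [e1, e2]
  ring

/-- The divisor of a constant is zero. -/
theorem degree_eq_zero_of_forall_ord_eq_zero (E : Divisor K F) (hE : ∀ v, E v = 0) :
    Divisor.degree E = 0 := by
  have : E = 0 := Finsupp.ext hE
  rw [this, map_zero]

/-- A5 with the results of the packages A1 (fundamental identity) and A2 (residue degree one,
constants have order zero) as explicit hypotheses. -/
theorem degree_eq_zero_of_forall_ord_of_hyps [IsAlgClosed K]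
    (hA1fin : ∀ (x : F), Transcendental K x → FiniteDimensional K⟮x⟯ F →
      (zeroPlaces (K := K) x).Finite)
    (hA1 : ∀ (x : F) (_ : Transcendental K x) (_ : FiniteDimensional K⟮x⟯ F)
      (hfin : (zeroPlaces (K := K) x).Finite),
      ∑ v ∈ hfin.toFinset, v.ord x = (Module.finrank K⟮x⟯ F : ℤ))
    (hdeg : ∀ v : Place K F, v.deg = 1)
    (hconst : ∀ (v : Place K F) (a : K), v.ord (algebraMap K F a) = 0)
    (j : F) (hj : Transcendental K j) [FiniteDimensional K⟮j⟯ F]
    (f : F) (E : Divisor K F) (hE : ∀ v, E v = v.ord f) : Divisor.degree E = 0 := by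
  by_cases hf : IsAlgebraic K f
  · obtain ⟨a, rfl⟩ := minpoly.mem_range_of_degree_eq_one K f
      (IsAlgClosed.degree_eq_one_of_irreducible K (minpoly.irreducible hf.isIntegral))
    exact degree_eq_zero_of_forall_ord_eq_zero E fun v => by rw [hE v, hconst v a]
  · have hf' : Transcendental K f := hf
    have hfi : Transcendental K f⁻¹ := transcendental_inv_of_transcendental hf'
    have fd1 : FiniteDimensional K⟮f⟯ F :=
      finiteDimensional_adjoin_simple_of_transcendental j hj f hf'
    have fd2 : FiniteDimensional K⟮f⁻¹⟯ F :=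
      finiteDimensional_adjoin_simple_of_transcendental j hj f⁻¹ hfi
    have hrank : Module.finrank K⟮f⁻¹⟯ F = Module.finrank K⟮f⟯ F := by
      rw [adjoin_simple_inv_eq]
    refine degree_eq_zero_of_sum_zeroPlaces f E hE hdeg (Module.finrank K⟮f⟯ F : ℤ)
      (hA1fin f hf' fd1) (hA1fin f⁻¹ hfi fd2) (hA1 f hf' fd1 _) ?_
    rw [hA1 f⁻¹ hfi fd2 _, hrank]

end Core

end Fermat.Agent.S24
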