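import Fermat.Agent.S24.Defs

/-!
# S24 / A0 : places of `F` versus height one primes of a Dedekind model `R ⊆ F`
-/

set_option autoImplicit false

namespace Fermat.Agent.S24

open AlgebraicCurve IsDedekindDomain

variable {K F : Type*} [Field K] [Field F] [Algebra K F]

/-- Comparison of `Place.ord` with an arbitrary `ℤᵐ⁰`-valued valuation having the same valuation
subring and taking the value `exp (-1)`. -/
theorem ord_eq_neg_log_of_valuationSubring_eq (v : Place K F) (val : Valuation F (WithZero (Multiplicative ℤ)))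
    (hval : val.valuationSubring = v.toValuationSubring)
    (huni : ∃ π : F, val π = WithZero.exp (-1 : ℤ)) (f : F) (hf : f ≠ 0) :
    v.ord f = - WithZero.log (val f) := by
  have hmem : ∀ x : F, x ∈ v.toValuationSubring ↔ val x ≤ 1 := by
    intro x
    rw [← hval, Valuation.mem_valuationSubring_iff]
  -- units have value one
  have hunit : ∀ u : v.toValuationSubringˣ, val ((u : v.toValuationSubring) : F) = 1 := by
    intro u
    have h1 : val ((u : v.toValuationSubring) : F) ≤ 1 := (hmem _).1 (u : v.toValuationSubring).2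
    have h2 : val (((u⁻¹ : v.toValuationSubringˣ) : v.toValuationSubring) : F) ≤ 1 :=
      (hmem _).1 ((u⁻¹ : v.toValuationSubringˣ) : v.toValuationSubring).2
    have h3 : ((u : v.toValuationSubring) : F) *
        (((u⁻¹ : v.toValuationSubringˣ) : v.toValuationSubring) : F) = 1 :=
      congrArg (Subtype.val) (u.mul_inv)
    have h4 : val ((u : v.toValuationSubring) : F) *
        val (((u⁻¹ : v.toValuationSubringˣ) : v.toValuationSubring) : F) = 1 := by
      rw [← map_mul, h3, map_one]
    exact eq_one_of_one_le_mul_left h1 h2 h4.ge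
  obtain ⟨ϖ, hϖ⟩ := IsDiscreteValuationRing.exists_irreducible v.toValuationSubring
  have hϖ0 : (ϖ : F) ≠ 0 := by
    simpa [ne_eq, ZeroMemClass.coe_eq_zero] using hϖ.ne_zero
  have hvϖ0 : val (ϖ : F) ≠ 0 := (Valuation.ne_zero_iff _).2 hϖ0
  -- general formula
  have key : ∀ g : F, g ≠ 0 → WithZero.log (val g) = v.ord g * WithZero.log (val (ϖ : F)) := by
    intro g hg
    obtain ⟨u, hu⟩ := v.exists_unit_mul_zpow hg hϖ
    conv_lhs => rw [hu]
    rw [map_mul, hunit u, one_mul, map_zpow₀, WithZero.log_zpow, smul_eq_mul]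
  -- the value of `ϖ`
  have hlt : val (ϖ : F) < 1 := by
    refine lt_of_le_of_ne ((hmem _).1 ϖ.2) ?_
    intro h1
    have hinv : (ϖ : F)⁻¹ ∈ v.toValuationSubring := by
      rw [hmem, map_inv₀, h1, inv_one]
    apply hϖ.not_isUnit
    refine IsUnit.of_mul_eq_one (⟨(ϖ : F)⁻¹, hinv⟩ : v.toValuationSubring) ?_
    ext
    simp [hϖ0]
  have hlog : WithZero.log (val (ϖ : F)) < 0 := by
    rw [← WithZero.log_one]
    exact (WithZero.log_lt_log hvϖ0 one_ne_zero).2 hlt
  obtain ⟨π, hπ⟩ := huni
  have hπ0 : π ≠ 0 := by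
    intro h
    rw [h, map_zero] at hπ
    exact WithZero.exp_ne_zero hπ.symm
  have h1 := key π hπ0
  rw [hπ, WithZero.log_exp] at h1
  have hm : WithZero.log (val (ϖ : F)) = -1 := by
    have hdvd : WithZero.log (val (ϖ : F)) ∣ 1 := ⟨- v.ord π, by linarith⟩
    rcases Int.isUnit_iff.1 (isUnit_of_dvd_one hdvd) with h | h
    · omega
    · exact h
  rw [key f hf, hm]
  ring

variable {R : Type*} [CommRing R] [IsDedekindDomain R] [Algebra R F] [IsFractionRing R F]
  [Algebra K R] [IsScalarTower K R F]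

theorem ord_ofHeightOneSpectrum (P : HeightOneSpectrum R) (f : F) (hf : f ≠ 0) :
    (Place.ofHeightOneSpectrum (K := K) P).ord f = - WithZero.log (P.valuation F f) :=
  ord_eq_neg_log_of_valuationSubring_eq _ _ rfl (P.valuation_exists_uniformizer F) f hf

theorem ord_ofHeightOneSpectrum_nonneg_iff (P : HeightOneSpectrum R) (f : F) (hf : f ≠ 0) :
    0 ≤ (Place.ofHeightOneSpectrum (K := K) P).ord f ↔ P.valuation F f ≤ 1 := by
  have h0 : P.valuation F f ≠ 0 := (Valuation.ne_zero_iff _).2 hf
  rw [ord_ofHeightOneSpectrum P f hf, neg_nonneg, ← WithZero.log_one,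
    WithZero.log_le_log h0 one_ne_zero]

theorem ord_ofHeightOneSpectrum_pos_iff (P : HeightOneSpectrum R) (f : F) (hf : f ≠ 0) :
    0 < (Place.ofHeightOneSpectrum (K := K) P).ord f ↔ P.valuation F f < 1 := by
  have h0 : P.valuation F f ≠ 0 := (Valuation.ne_zero_iff _).2 hf
  rw [ord_ofHeightOneSpectrum P f hf, neg_pos, ← WithZero.log_one,
    WithZero.log_lt_log h0 one_ne_zero]

theorem ord_algebraMap_pos_iff (P : HeightOneSpectrum R) (r : R) (hr : r ≠ 0) :
    0 < (Place.ofHeightOneSpectrum (K := K) P).ord (algebraMap R F r) ↔ r ∈ P.asIdeal := by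
  have hr' : algebraMap R F r ≠ 0 := by
    simpa using (IsFractionRing.injective R F).ne hr
  rw [ord_ofHeightOneSpectrum_pos_iff P _ hr', HeightOneSpectrum.valuation_lt_one_iff_mem]

theorem ord_algebraMap_nonneg (P : HeightOneSpectrum R) (r : R) :
    0 ≤ (Place.ofHeightOneSpectrum (K := K) P).ord (algebraMap R F r) := by
  rcases eq_or_ne r 0 with rfl | hr
  · simp
  have hr' : algebraMap R F r ≠ 0 := by
    simpa using (IsFractionRing.injective R F).ne hr
  rw [ord_ofHeightOneSpectrum_nonneg_iff P _ hr']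
  exact P.valuation_le_one r

theorem ord_algebraMap_eq_multiplicity (P : HeightOneSpectrum R) (r : R) (hr : r ≠ 0) :
    (Place.ofHeightOneSpectrum (K := K) P).ord (algebraMap R F r) =
      (multiplicity P.asIdeal (Ideal.span {r}) : ℤ) := by
  have hr' : algebraMap R F r ≠ 0 := by
    simpa using (IsFractionRing.injective R F).ne hr
  rw [ord_ofHeightOneSpectrum P _ hr', HeightOneSpectrum.valuation_of_algebraMap,
    P.intValuation_eq_exp_neg_multiplicity hr, WithZero.log_exp, neg_neg]

theorem ord_algebraMap_eq_count (P : HeightOneSpectrum R) (r : R) (hr : r ≠ 0) :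
    (Place.ofHeightOneSpectrum (K := K) P).ord (algebraMap R F r) =
      ((Associates.mk P.asIdeal).count (Associates.mk (Ideal.span {r} : Ideal R)).factors : ℤ) := by
  have hr' : algebraMap R F r ≠ 0 := by
    simpa using (IsFractionRing.injective R F).ne hr
  rw [ord_ofHeightOneSpectrum P _ hr', HeightOneSpectrum.valuation_of_algebraMap,
    P.intValuation_if_neg hr, WithZero.log_exp, neg_neg]

theorem ofHeightOneSpectrum_injective :
    Function.Injective (Place.ofHeightOneSpectrum (K := K) (F := F) (R := R)) := by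
  intro P Q h
  ext r
  rcases eq_or_ne r 0 with rfl | hr
  · simp
  rw [← ord_algebraMap_pos_iff (K := K) (F := F) P r hr, h, ord_algebraMap_pos_iff Q r hr]

theorem exists_div_of_ord_nonneg (P : HeightOneSpectrum R) (f : F)
    (hf : 0 ≤ (Place.ofHeightOneSpectrum (K := K) P).ord f) :
    ∃ a b : R, b ∉ P.asIdeal ∧ f * algebraMap R F b = algebraMap R F a := by
  rcases eq_or_ne f 0 with rfl | hf0
  · exact ⟨0, 1, fun h => P.isPrime.ne_top ((Ideal.eq_top_iff_one _).2 h), by simp⟩
  obtain ⟨n, d, h⟩ := P.exists_primeCompl_mul_eq_of_integer f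
    ((ord_ofHeightOneSpectrum_nonneg_iff (K := K) P f hf0).1 hf)
  exact ⟨n, d, d.2, h⟩

theorem exists_heightOneSpectrum_of_le (v : Place K F)
    (h : ∀ r : R, algebraMap R F r ∈ v.toValuationSubring) :
    ∃ P : HeightOneSpectrum R, v = Place.ofHeightOneSpectrum P := by
  classical
  -- the ring hom `R → O_v`
  let φ : R →+* v.toValuationSubring := (algebraMap R F).codRestrict v.toValuationSubring.toSubring h
  have hφ : ∀ r, ((φ r : v.toValuationSubring) : F) = algebraMap R F r := fun r => rfl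
  let 𝔭 : Ideal R := (IsLocalRing.maximalIdeal v.toValuationSubring).comap φ
  have hprime : 𝔭.IsPrime := Ideal.comap_isPrime φ _
  have hmem𝔭 : ∀ r, r ∈ 𝔭 ↔ ¬ IsUnit (φ r) := by
    intro r
    rw [Ideal.mem_comap, IsLocalRing.mem_maximalIdeal, mem_nonunits_iff]
  -- elements outside `𝔭` are invertible in `O_v`
  have hinv : ∀ d : R, d ∉ 𝔭 → (algebraMap R F d)⁻¹ ∈ v.toValuationSubring := by
    intro d hd
    rw [hmem𝔭, not_not] at hd
    obtain ⟨u, hu⟩ := hd
    have h3 : ((u : v.toValuationSubring) : F) *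
        (((u⁻¹ : v.toValuationSubringˣ) : v.toValuationSubring) : F) = 1 :=
      congrArg (Subtype.val) (u.mul_inv)
    rw [← hφ d, ← hu, inv_eq_of_mul_eq_one_right h3]
    exact Subtype.property _
  have hne : 𝔭 ≠ ⊥ := by
    intro hbot
    apply v.ne_top'
    refine SetLike.ext fun x => ⟨fun _ => ValuationSubring.mem_top x, fun _ => ?_⟩
    obtain ⟨a, b, hb, rfl⟩ := IsFractionRing.div_surjective (A := R) x
    have hb0 : b ≠ 0 := nonZeroDivisors.ne_zero hb
    have hb𝔭 : b ∉ 𝔭 := by
      rw [hbot, Ideal.mem_bot]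
      exact hb0
    rw [div_eq_mul_inv]
    exact v.toValuationSubring.mul_mem _ _ (h a) (hinv b hb𝔭)
  let P : HeightOneSpectrum R := ⟨𝔭, hprime, hne⟩
  have hle : ∀ x : F, P.valuation F x ≤ 1 → x ∈ v.toValuationSubring := by
    intro x hx
    obtain ⟨n, d, hnd⟩ := P.exists_primeCompl_mul_eq_of_integer x hx
    have hd𝔭 : (d : R) ∉ 𝔭 := d.2
    have hd0 : algebraMap R F (d : R) ≠ 0 := by
      intro h0
      apply hd𝔭
      have : (d : R) = 0 := (IsFractionRing.injective R F) (by rw [h0, map_zero])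
      rw [this]
      exact 𝔭.zero_mem
    have hx' : x = algebraMap R F n * (algebraMap R F (d : R))⁻¹ := by
      rw [← hnd, mul_assoc, mul_inv_cancel₀ hd0, mul_one]
    rw [hx']
    exact v.toValuationSubring.mul_mem _ _ (h n) (hinv d hd𝔭)
  refine ⟨P, ?_⟩
  ext1
  rw [Place.ofHeightOneSpectrum_toValuationSubring]
  refine SetLike.ext fun x => ?_
  rw [Valuation.mem_valuationSubring_iff]
  refine ⟨fun hx => ?_, hle x⟩
  by_contra hgt
  rw [not_le] at hgt
  have hx0 : x ≠ 0 := by
    rintro rfl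
    rw [map_zero] at hgt
    exact not_lt_of_ge zero_le hgt
  have hlt : P.valuation F x⁻¹ < 1 := by
    rw [map_inv₀]
    exact (inv_lt_one₀ (lt_trans zero_lt_one hgt)).2 hgt
  obtain ⟨n, d, hnd⟩ := P.exists_primeCompl_mul_eq_of_integer x⁻¹ hlt.le
  have hd𝔭 : (d : R) ∉ 𝔭 := d.2
  have hn𝔭 : n ∈ 𝔭 := by
    have h1 : P.valuation F (algebraMap R F n) < 1 := by
      rw [← hnd, map_mul]
      exact mul_lt_one_of_lt_of_le hlt (P.valuation_le_one _)
    exact (P.valuation_lt_one_iff_mem n).1 h1
  -- then `φ d = x * φ n` would lie in the maximal ideal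
  apply hd𝔭
  have hmul : φ d = (⟨x, hx⟩ : v.toValuationSubring) * φ n := by
    ext
    show algebraMap R F (d : R) = x * algebraMap R F n
    rw [← hnd, ← mul_assoc, mul_inv_cancel₀ hx0, one_mul]
  show φ d ∈ IsLocalRing.maximalIdeal v.toValuationSubring
  rw [hmul]
  exact Ideal.mul_mem_left _ _ hn𝔭

end Fermat.Agent.S24
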