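import Fermat.Agent.S24.Defs
import Fermat.Agent.S24.PlaceBasic
import Fermat.Agent.S24.PlacePrime

/-!
# S24, task A1 : the fundamental identity for places

`∑_{v : x(v) = 0} ord_v x = [F : K(x)]`.

The set-up (usable by other packages): `polyRing K x = K[x] ⊆ F`, `intRing K x` its integral
closure in `F` (a Dedekind domain with fraction field `F`, finite free over the PID `K[x]`).
-/

set_option autoImplicit false

namespace Fermat.Agent.S24

open AlgebraicCurve IntermediateField Polynomial IsDedekindDomain

section Abstract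

variable {K A B : Type*} [Field K] [IsAlgClosed K] [CommRing A] [CommRing B] [Algebra K A]
  [Algebra A B] [Algebra K B] [IsScalarTower K A B]

theorem inertiaDeg_eq_one_of_isAlgClosed [Algebra.IsIntegral A B] (p : Ideal A) [p.IsMaximal]
    (hp : Function.Surjective (algebraMap K (A ⧸ p))) (q : Ideal B) [q.IsPrime] [q.LiesOver p] :
    q.inertiaDeg A = 1 := by
  have hqmax : q.IsMaximal := Ideal.IsMaximal.of_liesOver_isMaximal q p
  rw [Ideal.inertiaDeg_eq_of_isMaximal p q]
  have h1 : Algebra.IsIntegral K (A ⧸ p) := Algebra.IsIntegral.of_surjective (Algebra.ofId K _) hp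
  have h4 : Algebra.IsIntegral K (B ⧸ q) := Algebra.IsIntegral.trans (A ⧸ p)
  have hbij : Function.Bijective (algebraMap K (B ⧸ q)) :=
    IsAlgClosed.algebraMap_bijective_of_isIntegral
  have hbij2 : Function.Bijective (Algebra.linearMap (A ⧸ p) (B ⧸ q)) := by
    constructor
    · let _ : Field (A ⧸ p) := Ideal.Quotient.field p
      exact (algebraMap (A ⧸ p) (B ⧸ q)).injective
    · intro y
      obtain ⟨c, rfl⟩ := hbij.2 y
      exact ⟨algebraMap K _ c, (IsScalarTower.algebraMap_apply K (A ⧸ p) (B ⧸ q) c).symm⟩
  rw [← (LinearEquiv.ofBijective _ hbij2).finrank_eq, Module.finrank_self]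

variable {F : Type*} [Field F] [Algebra K F] [IsDomain A] [IsDedekindDomain B] [Algebra B F]
  [IsFractionRing B F] [IsScalarTower K B F] [Module.Finite A B] [Module.Flat A B]

theorem sum_ord_zeroPlaces_abstract (t : A) (ht : (Ideal.span {t}).IsMaximal)
    (ht0 : algebraMap A B t ≠ 0)
    (hK : Function.Surjective (algebraMap K (A ⧸ Ideal.span {t})))
    (hB : ∀ v : Place K F, 0 < v.ord (algebraMap B F (algebraMap A B t)) →
      ∀ b : B, algebraMap B F b ∈ v.toValuationSubring) :
    ∃ hfin : (zeroPlaces (K := K) (algebraMap B F (algebraMap A B t))).Finite,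
      ∑ v ∈ hfin.toFinset, v.ord (algebraMap B F (algebraMap A B t)) =
        (Module.finrank A B : ℤ) := by
  classical
  set p : Ideal A := Ideal.span {t} with hp
  set x : F := algebraMap B F (algebraMap A B t) with hx
  have hmap : p.map (algebraMap A B) = Ideal.span {algebraMap A B t} := by
    rw [hp, Ideal.map_span, Set.image_singleton]
  have hmap0 : p.map (algebraMap A B) ≠ ⊥ := by
    rw [hmap, Ne, Ideal.span_singleton_eq_bot]; exact ht0
  have htq : ∀ q : p.primesOver B, algebraMap A B t ∈ q.1 := by
    intro q
    have := q.2.2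
    exact (Ideal.mem_of_liesOver q.1 p t).mp (Ideal.mem_span_singleton_self t)
  have hne : ∀ q : p.primesOver B, q.1 ≠ ⊥ := by
    intro q h
    have := htq q
    rw [h, Ideal.mem_bot] at this
    exact ht0 this
  let Ψ : p.primesOver B → HeightOneSpectrum B := fun q => ⟨q.1, q.2.1, hne q⟩
  let Φ : p.primesOver B → Place K F := fun q => Place.ofHeightOneSpectrum (K := K) (Ψ q)
  have hΦinj : Function.Injective Φ := by
    intro q q' h
    have h2 := ofHeightOneSpectrum_injective (K := K) (F := F) h
    exact Subtype.ext (congrArg HeightOneSpectrum.asIdeal h2)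
  have hrange : zeroPlaces (K := K) x = Set.range Φ := by
    ext v
    constructor
    · intro hv
      obtain ⟨P, rfl⟩ := exists_heightOneSpectrum_of_le v (hB v hv)
      have hmem : algebraMap A B t ∈ P.asIdeal := (ord_algebraMap_pos_iff P _ ht0).mp hv
      have hlies : P.asIdeal.LiesOver p := by
        constructor
        have hprime : (P.asIdeal.under A).IsPrime := Ideal.IsPrime.under A P.asIdeal
        refine ht.eq_of_le hprime.ne_top ?_
        rw [hp, Ideal.span_singleton_le_iff_mem]
        exact hmem
      exact ⟨⟨P.asIdeal, P.isPrime, hlies⟩, rfl⟩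
    · rintro ⟨q, rfl⟩
      exact (ord_algebraMap_pos_iff (Ψ q) _ ht0).mpr (htq q)
  have hfin : (zeroPlaces (K := K) x).Finite := by
    rw [hrange]; exact Set.finite_range Φ
  refine ⟨hfin, ?_⟩
  have hfs : hfin.toFinset = Finset.univ.image Φ := by
    ext v
    rw [Set.Finite.mem_toFinset, hrange]
    simp
  rw [hfs, Finset.sum_image (fun a _ b _ h => hΦinj h)]
  have hsum := Ideal.sum_ramification_inertia_eq_finrank p B
  rw [← hsum]
  push_cast
  refine Finset.sum_congr rfl fun q _ => ?_
  have := q.2.1
  have := q.2.2
  rw [inertiaDeg_eq_one_of_isAlgClosed (K := K) p hK q.1,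
    Ideal.IsDedekindDomain.ramificationIdx_eq_multiplicity p q.1 hmap0, hmap]
  simp only [Nat.cast_one, mul_one]
  exact ord_algebraMap_eq_multiplicity (Ψ q) _ ht0

end Abstract

section Concrete

open scoped IntermediateField.algebraAdjoinAdjoin

variable (K : Type*) {F : Type*} [Field K] [Field F] [Algebra K F]

/-- `K[x] ⊆ F`. -/
abbrev polyRing (x : F) : Subalgebra K F := Algebra.adjoin K {x}

/-- The integral closure of `K[x]` in `F`. -/
abbrev intRing (x : F) : Subalgebra (polyRing K x) F := integralClosure (polyRing K x) F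

/-- `x` as an element of `K[x]`. -/
def xPoly (x : F) : polyRing K x := ⟨x, Algebra.self_mem_adjoin_singleton K x⟩

/-- The ideal `(x)` of `K[x]`. -/
def xIdeal (x : F) : Ideal (polyRing K x) := Ideal.span {xPoly K x}

variable {K}

theorem polyRing_isPrincipalIdealRing {x : F} (hx : Transcendental K x) :
    IsPrincipalIdealRing (polyRing K x) :=
  IsPrincipalIdealRing.of_surjective (Polynomial.algEquivOfTranscendental K x hx).toRingEquiv.toRingHom
    (Polynomial.algEquivOfTranscendental K x hx).surjective

theorem algEquivOfTranscendental_X' {x : F} (hx : Transcendental K x) :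
    Polynomial.algEquivOfTranscendental K x hx X = xPoly K x := by
  apply Subtype.ext
  simp [xPoly]

theorem xPoly_prime {x : F} (hx : Transcendental K x) : Prime (xPoly K x) := by
  rw [← algEquivOfTranscendental_X' hx]
  exact (MulEquiv.prime_iff (Polynomial.algEquivOfTranscendental K x hx).toMulEquiv).mpr
    Polynomial.prime_X

theorem xIdeal_isMaximal {x : F} (hx : Transcendental K x) : (xIdeal K x).IsMaximal := by
  have := polyRing_isPrincipalIdealRing hx
  exact PrincipalIdealRing.isMaximal_of_irreducible (xPoly_prime hx).irreducible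

theorem xIdeal_ne_bot {x : F} (hx : Transcendental K x) : xIdeal K x ≠ ⊥ := by
  rw [xIdeal, Ne, Ideal.span_singleton_eq_bot]
  exact (xPoly_prime hx).ne_zero

/-- every element of `K[x]` is congruent to a constant modulo `x`. -/
theorem exists_sub_algebraMap_mem_xIdeal (x : F) (a : polyRing K x) :
    ∃ c : K, a - algebraMap K (polyRing K x) c ∈ xIdeal K x := by
  obtain ⟨a, ha⟩ := a
  have ha' : a ∈ (aeval x : K[X] →ₐ[K] F).range := by
    rw [← Algebra.adjoin_singleton_eq_range_aeval]; exact ha
  obtain ⟨P, rfl⟩ := ha'
  refine ⟨P.coeff 0, ?_⟩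
  rw [xIdeal, Ideal.mem_span_singleton]
  refine ⟨⟨aeval x P.divX, ?_⟩, ?_⟩
  · show aeval x P.divX ∈ Algebra.adjoin K {x}
    rw [Algebra.adjoin_singleton_eq_range_aeval]; exact ⟨_, rfl⟩
  · apply Subtype.ext
    show aeval x P - algebraMap K F (P.coeff 0) = x * aeval x P.divX
    have h := congrArg (aeval x) (Polynomial.divX_mul_X_add P)
    rw [map_add, map_mul, aeval_X, aeval_C] at h
    rw [← h]; ring

theorem isSeparable_adjoin [CharZero K] (x : F) [FiniteDimensional K⟮x⟯ F] :
    Algebra.IsSeparable K⟮x⟯ F := by
  have : CharZero F := charZero_of_injective_algebraMap (algebraMap K F).injective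
  have : CharZero K⟮x⟯ := charZero_of_injective_algebraMap (algebraMap K K⟮x⟯).injective
  infer_instance

theorem intRing_isDedekindDomain [CharZero K] {x : F} (hx : Transcendental K x)
    [FiniteDimensional K⟮x⟯ F] : IsDedekindDomain (intRing K x) := by
  have := polyRing_isPrincipalIdealRing hx
  have := isSeparable_adjoin (K := K) x
  exact integralClosure.isDedekindDomain (polyRing K x) K⟮x⟯ F

theorem intRing_isFractionRing (x : F) [FiniteDimensional K⟮x⟯ F] :
    IsFractionRing (intRing K x) F :=
  integralClosure.isFractionRing_of_finite_extension K⟮x⟯ F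

theorem intRing_finite [CharZero K] {x : F} (hx : Transcendental K x)
    [FiniteDimensional K⟮x⟯ F] : Module.Finite (polyRing K x) (intRing K x) := by
  have := polyRing_isPrincipalIdealRing hx
  have := isSeparable_adjoin (K := K) x
  exact IsIntegralClosure.finite (polyRing K x) K⟮x⟯ F (intRing K x)

theorem intRing_free [CharZero K] {x : F} (hx : Transcendental K x)
    [FiniteDimensional K⟮x⟯ F] : Module.Free (polyRing K x) (intRing K x) := by
  have := polyRing_isPrincipalIdealRing hx
  have := isSeparable_adjoin (K := K) x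
  exact IsIntegralClosure.module_free (polyRing K x) K⟮x⟯ F (intRing K x)

theorem finrank_intRing [CharZero K] {x : F} (hx : Transcendental K x)
    [FiniteDimensional K⟮x⟯ F] :
    Module.finrank (polyRing K x) (intRing K x) = Module.finrank K⟮x⟯ F := by
  have := polyRing_isPrincipalIdealRing hx
  have := isSeparable_adjoin (K := K) x
  exact IsIntegralClosure.rank (polyRing K x) K⟮x⟯ F (intRing K x)


theorem polyRing_le_valuationSubring {x : F} (v : Place K F) (hx : x ∈ v.toValuationSubring)
    (a : polyRing K x) : (a : F) ∈ v.toValuationSubring := by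
  let S : Subalgebra K F :=
    { v.toValuationSubring.toSubring with algebraMap_mem' := v.algebraMap_mem' }
  have hle : polyRing K x ≤ S := Algebra.adjoin_le (by
    intro y hy
    rw [Set.mem_singleton_iff] at hy
    rw [hy]; exact hx)
  exact hle a.2

theorem intRing_le_valuationSubring {x : F} (v : Place K F) (hx : x ∈ v.toValuationSubring)
    (b : intRing K x) : (b : F) ∈ v.toValuationSubring := by
  let φ : polyRing K x →+* v.toValuationSubring :=
    (algebraMap (polyRing K x) F).codRestrict v.toValuationSubring.toSubring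
      (polyRing_le_valuationSubring v hx)
  have h1 : IsIntegral v.toValuationSubring (b : F) :=
    IsIntegral.map_of_comp_eq φ (RingHom.id F) rfl b.2
  obtain ⟨y, hy⟩ := (IsIntegrallyClosed.isIntegral_iff (R := v.toValuationSubring) (K := F)).mp h1
  rw [← hy]
  exact y.2

theorem exists_sum_ord_zeroPlaces [IsAlgClosed K] [CharZero K] (x : F) (hx : Transcendental K x)
    [FiniteDimensional K⟮x⟯ F] :
    ∃ hfin : (zeroPlaces (K := K) x).Finite,
      ∑ v ∈ hfin.toFinset, v.ord x = (Module.finrank K⟮x⟯ F : ℤ) := by
  have := intRing_isDedekindDomain hx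
  have := intRing_isFractionRing (K := K) x
  have := intRing_finite hx
  have := intRing_free hx
  have hx0 : x ≠ 0 := fun h => hx (h ▸ isAlgebraic_zero)
  have key := sum_ord_zeroPlaces_abstract (K := K) (A := polyRing K x) (B := intRing K x) (F := F)
    (xPoly K x) (xIdeal_isMaximal hx) (fun h => hx0 (congrArg Subtype.val h))
    (by
      intro y
      obtain ⟨a, rfl⟩ := Ideal.Quotient.mk_surjective y
      obtain ⟨c, hc⟩ := exists_sub_algebraMap_mem_xIdeal x a
      exact ⟨c, ((Ideal.Quotient.eq).mpr hc).symm⟩)
    (fun v hv b => intRing_le_valuationSubring v (mem_of_ord_nonneg v hx0 (le_of_lt hv)) b)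
  rw [finrank_intRing hx] at key
  exact key

theorem zeroPlaces_finite [IsAlgClosed K] [CharZero K] (x : F) (hx : Transcendental K x)
    [FiniteDimensional K⟮x⟯ F] : (zeroPlaces (K := K) x).Finite :=
  (exists_sum_ord_zeroPlaces x hx).choose

theorem sum_ord_zeroPlaces [IsAlgClosed K] [CharZero K] (x : F) (hx : Transcendental K x)
    [FiniteDimensional K⟮x⟯ F] :
    ∑ v ∈ (zeroPlaces_finite (K := K) x hx).toFinset, v.ord x = (Module.finrank K⟮x⟯ F : ℤ) :=
  (exists_sum_ord_zeroPlaces x hx).choose_spec

end Concrete

end Fermat.Agent.S24
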