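import Fermat.Agent.S24.Defs

/-!
# S24 / A3a : every zero of `x` is induced by one of the embeddings
Self-contained valuation theoretic proof (no Dedekind model needed).
-/

set_option autoImplicit false

namespace Fermat.Agent.S24

open AlgebraicCurve IntermediateField Polynomial

/-- A `ℤ`-valued valuation (junk value at `0`) on a field `L`, trivial on `K`. -/
structure IsVal (K : Type*) [Field K] {L : Type*} [Field L] [Algebra K L] (V : L → ℤ) : Prop where
  map_mul : ∀ a b : L, a ≠ 0 → b ≠ 0 → V (a * b) = V a + V b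
  map_add : ∀ a b : L, a ≠ 0 → b ≠ 0 → a + b ≠ 0 → min (V a) (V b) ≤ V (a + b)
  map_const : ∀ a : K, a ≠ 0 → V (algebraMap K L a) = 0

namespace IsVal

variable {K : Type*} [Field K] {L : Type*} [Field L] [Algebra K L] {V : L → ℤ}

theorem map_one (h : IsVal K V) : V 1 = 0 := by
  have := h.map_const 1 one_ne_zero
  rwa [_root_.map_one] at this

theorem map_neg_one (h : IsVal K V) : V (-1) = 0 := by
  have := h.map_const (-1) (neg_ne_zero.mpr one_ne_zero)
  rwa [_root_.map_neg, _root_.map_one] at this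

theorem map_neg (h : IsVal K V) (a : L) : V (-a) = V a := by
  rcases eq_or_ne a 0 with rfl | ha
  · simp
  · rw [← neg_one_mul, h.map_mul _ _ (neg_ne_zero.mpr one_ne_zero) ha, h.map_neg_one, zero_add]

theorem map_inv (h : IsVal K V) {a : L} (ha : a ≠ 0) : V a⁻¹ = - V a := by
  have := h.map_mul a a⁻¹ ha (inv_ne_zero ha)
  rw [mul_inv_cancel₀ ha, h.map_one] at this
  linarith

theorem map_div (h : IsVal K V) {a b : L} (ha : a ≠ 0) (hb : b ≠ 0) : V (a / b) = V a - V b := by
  rw [div_eq_mul_inv, h.map_mul _ _ ha (inv_ne_zero hb), h.map_inv hb, sub_eq_add_neg]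

theorem map_pow (h : IsVal K V) {a : L} (ha : a ≠ 0) (n : ℕ) : V (a ^ n) = n * V a := by
  induction n with
  | zero => simp [h.map_one]
  | succ n ih =>
    rw [pow_succ, h.map_mul _ _ (pow_ne_zero n ha) ha, ih]; push_cast; ring

theorem map_zpow (h : IsVal K V) {a : L} (ha : a ≠ 0) (n : ℤ) : V (a ^ n) = n * V a := by
  cases n with
  | ofNat n => simpa using h.map_pow ha n
  | negSucc n =>
    rw [zpow_negSucc, h.map_inv (pow_ne_zero _ ha), h.map_pow ha]
    push_cast [Int.negSucc_eq]; ring

theorem map_prod (h : IsVal K V) {ι : Type*} (s : Finset ι) (f : ι → L) (hf : ∀ i ∈ s, f i ≠ 0) :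
    V (∏ i ∈ s, f i) = ∑ i ∈ s, V (f i) := by
  classical
  induction s using Finset.induction_on with
  | empty => simp [h.map_one]
  | insert a s ha ih =>
    rw [Finset.prod_insert ha, Finset.sum_insert ha,
      h.map_mul _ _ (hf a (Finset.mem_insert_self a s))
        (Finset.prod_ne_zero_iff.mpr fun i hi => hf i (Finset.mem_insert_of_mem hi)),
      ih fun i hi => hf i (Finset.mem_insert_of_mem hi)]

/-- if `V a < V b` then `a + b ≠ 0` and `V (a + b) = V a`. -/
theorem map_add_of_lt (h : IsVal K V) {a b : L} (ha : a ≠ 0) (hb : b ≠ 0) (hab : V a < V b) :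
    a + b ≠ 0 ∧ V (a + b) = V a := by
  have h0 : a + b ≠ 0 := by
    intro h0
    have : a = -b := eq_neg_of_add_eq_zero_left h0
    rw [this, h.map_neg] at hab
    exact lt_irrefl _ hab
  refine ⟨h0, le_antisymm ?_ ?_⟩
  · by_contra hlt
    push Not at hlt
    have h1 := h.map_add (a + b) (-b) h0 (neg_ne_zero.mpr hb) (by simpa using ha)
    rw [add_neg_cancel_right, h.map_neg] at h1
    have : V a < min (V (a + b)) (V b) := lt_min hlt hab
    exact absurd h1 (not_le.mpr this)
  · have := h.map_add a b ha hb h0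
    rwa [min_eq_left hab.le] at this

/-- The valuation ring, as a subring. -/
def subring (h : IsVal K V) : Subring L where
  carrier := {a | a = 0 ∨ 0 ≤ V a}
  mul_mem' := by
    rintro a b (rfl | ha) (rfl | hb)
    · left; simp
    · left; simp
    · left; simp
    · by_cases ha0 : a = 0
      · left; simp [ha0]
      by_cases hb0 : b = 0
      · left; simp [hb0]
      right; rw [h.map_mul _ _ ha0 hb0]; positivity
  one_mem' := Or.inr h.map_one.ge
  add_mem' := by
    rintro a b (rfl | ha) (rfl | hb)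
    · left; simp
    · right; simpa using hb
    · right; simpa using ha
    · by_cases ha0 : a = 0
      · right; simpa [ha0] using hb
      by_cases hb0 : b = 0
      · right; simpa [hb0] using ha
      by_cases hab : a + b = 0
      · left; exact hab
      right; exact le_trans (le_min ha hb) (h.map_add _ _ ha0 hb0 hab)
  zero_mem' := Or.inl rfl
  neg_mem' := by
    rintro a (rfl | ha)
    · left; simp
    · right; rwa [h.map_neg]

theorem mem_subring (h : IsVal K V) {a : L} : a ∈ h.subring ↔ a = 0 ∨ 0 ≤ V a := Iff.rfl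

theorem algebraMap_mem_subring (h : IsVal K V) (c : K) : algebraMap K L c ∈ h.subring := by
  rcases eq_or_ne c 0 with rfl | hc
  · left; simp
  · right; exact (h.map_const c hc).ge

theorem aeval_mem_subring (h : IsVal K V) {y : L} (hy : y ∈ h.subring) (P : K[X]) :
    aeval y P ∈ h.subring := by
  induction P using Polynomial.induction_on' with
  | add p q hp hq => rw [_root_.map_add]; exact h.subring.add_mem hp hq
  | monomial n a =>
    rw [aeval_monomial]
    exact h.subring.mul_mem (h.algebraMap_mem_subring a) (h.subring.pow_mem hy n)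

/-- a polynomial with nonzero constant term takes a unit value at an element of positive
valuation -/
theorem aeval_of_coeff_zero_ne_zero (h : IsVal K V) {y : L} (hy0 : y ≠ 0) (hy : 0 < V y)
    (P : K[X]) (hP : P.coeff 0 ≠ 0) : aeval y P ≠ 0 ∧ V (aeval y P) = 0 := by
  have hdec : aeval y P = algebraMap K L (P.coeff 0) + y * aeval y P.divX := by
    have h1 := congrArg (aeval y) (Polynomial.divX_mul_X_add P)
    rw [_root_.map_add, _root_.map_mul, aeval_X, aeval_C] at h1
    rw [← h1]; ring
  have hc0 : algebraMap K L (P.coeff 0) ≠ 0 := by simpa using hP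
  have hc : V (algebraMap K L (P.coeff 0)) = 0 := h.map_const _ hP
  rw [hdec]
  by_cases hz : aeval y P.divX = 0
  · rw [hz, mul_zero, add_zero]; exact ⟨hc0, hc⟩
  · have hmem := h.aeval_mem_subring (Or.inr hy.le : y ∈ h.subring) P.divX
    have hnn : 0 ≤ V (aeval y P.divX) := hmem.resolve_left hz
    have hlt : V (algebraMap K L (P.coeff 0)) < V (y * aeval y P.divX) := by
      rw [hc, h.map_mul _ _ hy0 hz]; linarith
    obtain ⟨h1, h2⟩ := h.map_add_of_lt hc0 (mul_ne_zero hy0 hz) hlt
    exact ⟨h1, h2.trans hc⟩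

/-- value of a nonzero polynomial at an element of positive valuation -/
theorem aeval_of_ne_zero (h : IsVal K V) {y : L} (hy0 : y ≠ 0) (hy : 0 < V y)
    (P : K[X]) (hP : P ≠ 0) :
    aeval y P ≠ 0 ∧ V (aeval y P) = (P.rootMultiplicity 0 : ℤ) * V y := by
  obtain ⟨Q, hQ, hQ'⟩ := Polynomial.exists_eq_pow_rootMultiplicity_mul_and_not_dvd P hP 0
  have hQ0 : Q.coeff 0 ≠ 0 := by
    intro h0
    apply hQ'
    rw [C_0, sub_zero]
    exact Polynomial.X_dvd_iff.mpr h0
  obtain ⟨h1, h2⟩ := h.aeval_of_coeff_zero_ne_zero hy0 hy Q hQ0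
  have : aeval y P = y ^ (P.rootMultiplicity 0) * aeval y Q := by
    conv_lhs => rw [hQ]
    simp
  rw [this]
  refine ⟨mul_ne_zero (pow_ne_zero _ hy0) h1, ?_⟩
  rw [h.map_mul _ _ (pow_ne_zero _ hy0) h1, h.map_pow hy0, h2, add_zero]

/-- The valuation ring, as a valuation subring. -/
def valuationSubring (h : IsVal K V) : ValuationSubring L :=
  { h.subring with
    mem_or_inv_mem' := by
      intro a
      by_cases ha : a = 0
      · left; left; exact ha
      rcases le_total 0 (V a) with h1 | h1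
      · left; right; exact h1
      · right; right; rw [h.map_inv ha]; linarith }

theorem mem_valuationSubring (h : IsVal K V) {a : L} :
    a ∈ h.valuationSubring ↔ a = 0 ∨ 0 ≤ V a := Iff.rfl

/-- valuation rings are integrally closed -/
theorem mem_subring_of_monic (h : IsVal K V) (g : L) (p : L[X]) (hp : p.Monic)
    (hc : ∀ k, p.coeff k ∈ h.subring) (hg : p.eval g = 0) : g ∈ h.subring := by
  have hl : p ∈ Polynomial.lifts (algebraMap h.valuationSubring L) := by
    rw [Polynomial.lifts_iff_coeff_lifts]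
    intro n
    exact ⟨⟨p.coeff n, hc n⟩, rfl⟩
  obtain ⟨q, hq, -, hqm⟩ := Polynomial.lifts_and_natDegree_eq_and_monic hl hp
  have hint : IsIntegral h.valuationSubring g := by
    refine ⟨q, hqm, ?_⟩
    rw [← Polynomial.eval_map, hq, hg]
  obtain ⟨y, hy⟩ := IsIntegrallyClosed.isIntegral_iff.mp hint
  rw [← hy]
  exact y.2

/-- two valuations positive at the generators induce the same valuation ring on `K(x)` -/
theorem div_mem_subring {L' : Type*} [Field L'] [Algebra K L'] {V' : L' → ℤ}
    (h : IsVal K V) (h' : IsVal K V') {y : L} {y' : L'} (hy0 : y ≠ 0) (hy : 0 < V y)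
    (hy0' : y' ≠ 0) (hy' : 0 < V' y') (r s : K[X])
    (hrs : aeval y r / aeval y s ∈ h.subring) : aeval y' r / aeval y' s ∈ h'.subring := by
  rcases eq_or_ne r 0 with rfl | hr
  · left; simp
  rcases eq_or_ne s 0 with rfl | hs
  · left; simp
  obtain ⟨r1, r2⟩ := h.aeval_of_ne_zero hy0 hy r hr
  obtain ⟨s1, s2⟩ := h.aeval_of_ne_zero hy0 hy s hs
  obtain ⟨r1', r2'⟩ := h'.aeval_of_ne_zero hy0' hy' r hr
  obtain ⟨s1', s2'⟩ := h'.aeval_of_ne_zero hy0' hy' s hs
  have h1 : 0 ≤ V (aeval y r / aeval y s) := hrs.resolve_left (div_ne_zero r1 s1)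
  rw [h.map_div r1 s1, r2, s2, ← sub_mul] at h1
  right
  rw [h'.map_div r1' s1', r2', s2', ← sub_mul]
  have h2 : (0 : ℤ) ≤ (r.rootMultiplicity 0 : ℤ) - (s.rootMultiplicity 0 : ℤ) :=
    nonneg_of_mul_nonneg_left h1 hy
  exact mul_nonneg h2 hy'.le

end IsVal

section Place

variable {K F : Type*} [Field K] [Field F] [Algebra K F]

theorem isVal_ord (v : Place K F) : IsVal K v.ord where
  map_mul a b ha hb := v.ord_mul ha hb
  map_add a b ha hb hab := by
    have h1 := v.adicValuation.map_add a b
    have ha' := v.adicValuation_ne_zero ha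
    have hb' := v.adicValuation_ne_zero hb
    have hab' := v.adicValuation_ne_zero hab
    unfold Place.ord
    rcases le_max_iff.mp h1 with h2 | h2
    · exact (min_le_left _ _).trans (neg_le_neg ((WithZero.log_le_log hab' ha').mpr h2))
    · exact (min_le_right _ _).trans (neg_le_neg ((WithZero.log_le_log hab' hb').mpr h2))
  map_const a ha := by
    have hu : IsUnit (algebraMap K v.toValuationSubring a) := (Ne.isUnit ha).map _
    have := v.ord_coe_unit hu.unit
    simpa using this

theorem exists_ord_one (v : Place K F) : ∃ t : F, t ≠ 0 ∧ v.ord t = 1 := by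
  obtain ⟨π, hπ⟩ := IsDiscreteValuationRing.exists_irreducible v.toValuationSubring
  refine ⟨π, ?_, v.ord_coe_irreducible hπ⟩
  simpa [ne_eq, ZeroMemClass.coe_eq_zero] using hπ.ne_zero

end Place

theorem coeff_minpoly_mem {K F M : Type*} [Field K] [CharZero K] [Field F] [Algebra K F]
    [Field M] [Algebra K M]
    (x : F) [FiniteDimensional K⟮x⟯ F] (I : Type*) [Fintype I]
    (hn : Module.finrank K⟮x⟯ F ≤ Fintype.card I) (φ : I → (F →ₐ[K] M))
    (hφ : Function.Injective φ) (hx : ∀ i i', φ i x = φ i' x) (i₀ : I) (O : Subring M) (g : F)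
    (hg : ∀ i, φ i g ∈ O) (k : ℕ) :
    φ i₀ (((minpoly K⟮x⟯ g).coeff k : K⟮x⟯) : F) ∈ O := by
  classical
  let ψ₀ : K⟮x⟯ →+* M := (φ i₀).toRingHom.comp (algebraMap K⟮x⟯ F)
  let _ : Algebra K⟮x⟯ M := ψ₀.toAlgebra
  have hcomm : ∀ i (e : K⟮x⟯), φ i (e : F) = φ i₀ (e : F) := by
    intro i e
    have : (φ i).comp K⟮x⟯.val = (φ i₀).comp K⟮x⟯.val :=
      IntermediateField.adjoin_algHom_ext K (by
        intro y hy
        rw [Set.mem_singleton_iff] at hy
        subst hy
        exact hx i i₀)
    exact DFunLike.congr_fun this e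
  let Φ : I → (F →ₐ[K⟮x⟯] AlgebraicClosure M) := fun i =>
    { (algebraMap M (AlgebraicClosure M)).comp (φ i).toRingHom with
      commutes' := fun e => by
        rw [IsScalarTower.algebraMap_apply K⟮x⟯ M (AlgebraicClosure M)]
        show algebraMap M (AlgebraicClosure M) (φ i (e : F)) =
          algebraMap M (AlgebraicClosure M) (φ i₀ (e : F))
        rw [hcomm] }
  have hΦ : ∀ i f, Φ i f = algebraMap M (AlgebraicClosure M) (φ i f) := fun _ _ => rfl
  have hΦinj : Function.Injective Φ := by
    intro i j hij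
    apply hφ
    ext f
    have := DFunLike.congr_fun hij f
    rw [hΦ, hΦ] at this
    exact (algebraMap M (AlgebraicClosure M)).injective this
  have : CharZero K⟮x⟯ := charZero_of_injective_algebraMap (algebraMap K K⟮x⟯).injective
  have hcard : Nat.card (F →ₐ[K⟮x⟯] AlgebraicClosure M) = Module.finrank K⟮x⟯ F :=
    AlgHom.natCard_of_splits _ _ _ (fun _ => IsAlgClosed.splits _)
  have : Finite (F →ₐ[K⟮x⟯] AlgebraicClosure M) :=
    Nat.finite_of_card_ne_zero (by rw [hcard]; exact Module.finrank_pos.ne')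
  have hΦsurj : Function.Surjective Φ :=
    (hΦinj.bijective_of_nat_card_le (by rw [hcard, Nat.card_eq_fintype_card]; exact hn)).2
  set p := minpoly K⟮x⟯ g with hp
  have hmonic : p.Monic := minpoly.monic (Algebra.IsIntegral.isIntegral g)
  have hl : p.map (algebraMap K⟮x⟯ (AlgebraicClosure M)) ∈
      Polynomial.lifts ((algebraMap M (AlgebraicClosure M)).comp O.subtype) := by
    refine (IsAlgClosed.splits _).mem_lift_of_roots_mem_range (hmonic.map _) _ ?_
    intro a ha
    have ha' : a ∈ p.rootSet (AlgebraicClosure M) := by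
      rw [Polynomial.rootSet, Polynomial.aroots]
      simpa using ha
    rw [← Algebra.IsAlgebraic.range_eval_eq_rootSet_minpoly] at ha'
    obtain ⟨ψ, rfl⟩ := ha'
    obtain ⟨i, rfl⟩ := hΦsurj ψ
    exact ⟨⟨φ i g, hg i⟩, rfl⟩
  rw [Polynomial.lifts_iff_coeff_lifts] at hl
  obtain ⟨y, hy⟩ := hl k
  rw [Polynomial.coeff_map, IsScalarTower.algebraMap_apply K⟮x⟯ M (AlgebraicClosure M)] at hy
  have := (algebraMap M (AlgebraicClosure M)).injective hy
  have h2 : φ i₀ ((p.coeff k : K⟮x⟯) : F) = (y : M) := this.symm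
  rw [h2]
  exact y.2


section Avoid

variable {K F : Type*} [Field K] [Infinite K] [Field F] [Algebra K F]

/-- replace `g` by an element integral for finitely many valuations, without changing whether it
lies in the maximal ideals -/
theorem exists_integral_modification {ι : Type*} [Finite ι] (V : ι → F → ℤ)
    (hV : ∀ a, IsVal K (V a)) (g : F) (hg : g ≠ 0) :
    ∃ h : F, h ≠ 0 ∧ ∀ a, 0 ≤ V a h ∧ (0 < V a g → 0 < V a h) ∧ (V a g ≤ 0 → V a h = 0) := by
  have hsub : ∀ a, {c : K | g - algebraMap K F c ≠ 0 ∧ 0 < V a (g - algebraMap K F c)}.Subsingleton := by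
    intro a c hc c' hc'
    by_contra hne
    have h1 : (g - algebraMap K F c') + -(g - algebraMap K F c) = algebraMap K F (c - c') := by
      rw [_root_.map_sub]; ring
    have h2 : algebraMap K F (c - c') ≠ 0 := by
      simpa [sub_eq_zero] using hne
    have h3 := (hV a).map_add (g - algebraMap K F c') (-(g - algebraMap K F c)) hc'.1
      (neg_ne_zero.mpr hc.1) (by rw [h1]; exact h2)
    rw [h1, (hV a).map_const _ (sub_ne_zero.mpr hne), (hV a).map_neg] at h3
    have := lt_min hc'.2 hc.2
    linarith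
  have hsub2 : {c : K | algebraMap K F c = g}.Subsingleton := by
    intro c hc c' hc'
    exact (algebraMap K F).injective (hc.trans hc'.symm)
  have hfin : ({0} ∪ {c : K | algebraMap K F c = g} ∪
      ⋃ a, {c : K | g - algebraMap K F c ≠ 0 ∧ 0 < V a (g - algebraMap K F c)}).Finite :=
    ((Set.finite_singleton 0).union hsub2.finite).union (Set.finite_iUnion fun a => (hsub a).finite)
  obtain ⟨c, hc⟩ := hfin.infinite_compl.nonempty
  simp only [Set.mem_compl_iff, Set.mem_union, Set.mem_singleton_iff, Set.mem_ofPred_eq,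
    Set.mem_iUnion, not_or, not_exists, not_and] at hc
  obtain ⟨⟨hc0, hcg⟩, hcV⟩ := hc
  have hd : g - algebraMap K F c ≠ 0 := sub_ne_zero.mpr (Ne.symm hcg)
  have hcc : algebraMap K F c ≠ 0 := by simpa using hc0
  refine ⟨g / (g - algebraMap K F c), div_ne_zero hg hd, fun a => ?_⟩
  have hVc : V a (-algebraMap K F c) = 0 := by rw [(hV a).map_neg, (hV a).map_const c hc0]
  have hnp := hcV a hd
  rw [(hV a).map_div hg hd]
  rcases lt_trichotomy (V a g) 0 with hlt | heq | hgt
  · have h1 := ((hV a).map_add_of_lt hg (neg_ne_zero.mpr hcc) (by rw [hVc]; exact hlt)).2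
    rw [← sub_eq_add_neg] at h1
    rw [h1]
    refine ⟨by simp, fun h => absurd h (not_lt.mpr hlt.le), fun _ => by simp⟩
  · have h1 := (hV a).map_add g (-algebraMap K F c) hg (neg_ne_zero.mpr hcc)
      (by rw [← sub_eq_add_neg]; exact hd)
    rw [← sub_eq_add_neg, hVc, heq, min_self] at h1
    have h2 : V a (g - algebraMap K F c) = 0 := le_antisymm (not_lt.mp hnp) h1
    rw [h2, heq]
    simp
  · have h1 := ((hV a).map_add_of_lt (neg_ne_zero.mpr hcc) hg (by rw [hVc]; exact hgt)).2
    rw [neg_add_eq_sub, hVc] at h1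
    rw [h1, sub_zero]
    exact ⟨hgt.le, fun _ => hgt, fun h => absurd hgt (not_lt.mpr h)⟩

end Avoid

section Main

variable {K F M : Type*} [Field K] [IsAlgClosed K] [CharZero K] [Field F] [Algebra K F]
  [Field M] [Algebra K M]

omit [IsAlgClosed K] [CharZero K] in
theorem IsDiffVal.isVal {w : M → ℤ} {δ : Derivation K M M} (hw : IsDiffVal w δ) : IsVal K w :=
  ⟨hw.map_mul, hw.map_add, hw.map_const⟩

omit [IsAlgClosed K] [CharZero K] in
theorem IsVal.comp {w : M → ℤ} (h : IsVal K w) (φ : F →ₐ[K] M) : IsVal K (fun f => w (φ f)) where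
  map_mul a b ha hb := by
    show w (φ (a * b)) = _
    rw [_root_.map_mul]
    exact h.map_mul _ _ (by simpa using ha) (by simpa using hb)
  map_add a b ha hb hab := by
    show _ ≤ w (φ (a + b))
    rw [_root_.map_add]
    exact h.map_add _ _ (by simpa using ha) (by simpa using hb)
      (by rw [← _root_.map_add]; exact (map_ne_zero φ).mpr hab)
  map_const a ha := by
    show w (φ (algebraMap K F a)) = 0
    rw [φ.commutes]
    exact h.map_const a ha

omit [IsAlgClosed K] in
theorem ord_nonneg_of_forall (w : M → ℤ) (hw : IsVal K w)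
    (x : F) [FiniteDimensional K⟮x⟯ F] (I : Type*) [Fintype I]
    (hn : Module.finrank K⟮x⟯ F ≤ Fintype.card I) (π : Equiv.Perm I) (U : LocalUnif K w x I π)
    (v : Place K F) (hv : 0 < v.ord x) (g : F) (hg : ∀ i, 0 ≤ w (U.φ i g)) : 0 ≤ v.ord g := by
  have hx0 : x ≠ 0 := by
    rintro rfl
    simp at hv
  have hI : 0 < Fintype.card I := lt_of_lt_of_le Module.finrank_pos hn
  obtain ⟨i₀⟩ := Fintype.card_pos_iff.mp hI
  have hc : ∀ k, (((minpoly K⟮x⟯ g).coeff k : K⟮x⟯) : F) ∈ (isVal_ord v).subring := by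
    intro k
    have h1 := coeff_minpoly_mem x I hn U.φ U.φ_injective U.φ_x i₀ hw.subring g
      (fun i => Or.inr (hg i)) k
    obtain ⟨r, s, hrs⟩ := (mem_adjoin_simple_iff K _).mp ((minpoly K⟮x⟯ g).coeff k).2
    rw [hrs] at h1 ⊢
    rw [map_div₀, ← Polynomial.aeval_algHom_apply, ← Polynomial.aeval_algHom_apply] at h1
    exact hw.div_mem_subring (isVal_ord v) (by simpa using hx0)
      (by rw [U.w_x]; exact_mod_cast U.s_pos) hx0 hv r s h1
  have hmem := (isVal_ord v).mem_subring_of_monic g ((minpoly K⟮x⟯ g).map (algebraMap K⟮x⟯ F))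
    ((minpoly.monic (Algebra.IsIntegral.isIntegral g)).map _)
    (fun k => by rw [Polynomial.coeff_map]; exact hc k)
    (by rw [Polynomial.eval_map_algebraMap, minpoly.aeval])
  rcases hmem with rfl | h
  · simp
  · exact h

omit [IsAlgClosed K] in
theorem ord_pos_of_forall (w : M → ℤ) (hw : IsVal K w)
    (x : F) [FiniteDimensional K⟮x⟯ F] (I : Type*) [Fintype I]
    (hn : Module.finrank K⟮x⟯ F ≤ Fintype.card I) (π : Equiv.Perm I) (U : LocalUnif K w x I π)
    (v : Place K F) (hv : 0 < v.ord x) (g : F) (hg0 : g ≠ 0) (hg : ∀ i, 0 < w (U.φ i g)) :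
    0 < v.ord g := by
  have hx0 : x ≠ 0 := by
    rintro rfl
    simp at hv
  have h1 : 0 ≤ v.ord (g ^ U.s / x) := by
    refine ord_nonneg_of_forall w hw x I hn π U v hv _ fun i => ?_
    have hW := hw.comp (U.φ i)
    have : w (U.φ i (g ^ U.s / x)) = U.s * w (U.φ i g) - U.s := by
      have h2 := hW.map_div (pow_ne_zero U.s hg0) hx0
      have h3 := hW.map_pow hg0 U.s
      beta_reduce at h2 h3
      rw [h2, h3, U.w_x]
    rw [this]
    have h4 : (1 : ℤ) ≤ w (U.φ i g) := hg i
    have h5 : (0 : ℤ) ≤ U.s := by positivity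
    nlinarith
  rw [(isVal_ord v).map_div (pow_ne_zero _ hg0) hx0, (isVal_ord v).map_pow hg0] at h1
  have h5 : (0 : ℤ) < U.s := by exact_mod_cast U.s_pos
  by_contra hcon
  push Not at hcon
  nlinarith

theorem exists_index_of_mem_zeroPlaces (w : M → ℤ) (δ : Derivation K M M) (hw : IsDiffVal w δ)
    (x : F) [FiniteDimensional K⟮x⟯ F] (I : Type*) [Fintype I]
    (hn : Module.finrank K⟮x⟯ F ≤ Fintype.card I) (π : Equiv.Perm I) (U : LocalUnif K w x I π)
    (v : Place K F) (hv : v ∈ zeroPlaces (K := K) x) :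
    ∃ i : I, ∃ m : ℕ, 0 < m ∧ ∀ f : F, f ≠ 0 → w (U.φ i f) = m * v.ord f := by
  classical
  have hv' : 0 < v.ord x := hv
  have hwV : IsVal K w := hw.isVal
  have hx0 : x ≠ 0 := by
    rintro rfl
    simp at hv'
  -- key: some `m_i ⊆ m_v`
  have key : ∃ i : I, ∀ g : F, g ≠ 0 → 0 < w (U.φ i g) → 0 < v.ord g := by
    by_contra hcon
    push Not at hcon
    choose g hg0 hgW hgv using hcon
    let V : Option I → F → ℤ := fun a => a.elim v.ord (fun j f => w (U.φ j f))
    have hV : ∀ a, IsVal K (V a) := by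
      intro a
      cases a with
      | none => exact isVal_ord v
      | some j => exact hwV.comp (U.φ j)
    have hex := fun i => exists_integral_modification V hV (g i) (hg0 i)
    choose h hh0 hh using hex
    have hG0 : (∏ i, h i) ≠ 0 := Finset.prod_ne_zero_iff.mpr fun i _ => hh0 i
    have h1 : 0 < v.ord (∏ i, h i) := by
      refine ord_pos_of_forall w hwV x I hn π U v hv' _ hG0 fun j => ?_
      have h2 := (hV (some j)).map_prod Finset.univ h (fun i _ => hh0 i)
      have h3 : w (U.φ j (∏ i, h i)) = ∑ i, w (U.φ j (h i)) := h2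
      rw [h3]
      have h4 : 0 < w (U.φ j (h j)) := (hh j (some j)).2.1 (hgW j)
      exact lt_of_lt_of_le h4 (Finset.single_le_sum (f := fun i => w (U.φ j (h i)))
        (fun i _ => (hh i (some j)).1) (Finset.mem_univ j))
    rw [(isVal_ord v).map_prod Finset.univ h (fun i _ => hh0 i)] at h1
    have h5 : ∑ i, v.ord (h i) = 0 :=
      Finset.sum_eq_zero fun i _ => (hh i none).2.2 (hgv i)
    rw [h5] at h1
    exact lt_irrefl _ h1
  obtain ⟨i, hi⟩ := key
  have hW := hwV.comp (U.φ i)
  have hunit : ∀ f : F, f ≠ 0 → v.ord f = 0 → w (U.φ i f) = 0 := by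
    intro f hf hf0
    rcases lt_trichotomy (w (U.φ i f)) 0 with hlt | heq | hgt
    · have h1 := hW.map_inv hf
      beta_reduce at h1
      have h2 := hi f⁻¹ (inv_ne_zero hf) (by rw [h1]; linarith)
      rw [v.ord_inv, hf0] at h2
      simp at h2
    · exact heq
    · have := hi f hf hgt
      rw [hf0] at this
      exact absurd this (lt_irrefl _)
  obtain ⟨t, ht0, ht⟩ := exists_ord_one v
  have hform : ∀ f : F, f ≠ 0 → w (U.φ i f) = w (U.φ i t) * v.ord f := by
    intro f hf
    have h0 : f / t ^ (v.ord f) ≠ 0 := div_ne_zero hf (zpow_ne_zero _ ht0)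
    have h1 : v.ord (f / t ^ (v.ord f)) = 0 := by
      rw [(isVal_ord v).map_div hf (zpow_ne_zero _ ht0), (isVal_ord v).map_zpow ht0, ht]
      ring
    have h2 := hunit _ h0 h1
    have h3 := hW.map_div hf (zpow_ne_zero (v.ord f) ht0)
    have h4 := hW.map_zpow ht0 (v.ord f)
    beta_reduce at h3 h4
    rw [h3, h4] at h2
    linarith
  have hm : 0 < w (U.φ i t) := by
    have h1 := hform x hx0
    rw [U.w_x] at h1
    have h2 : (0 : ℤ) < U.s := by exact_mod_cast U.s_pos
    rw [h1] at h2
    by_contra hcon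
    push Not at hcon
    nlinarith
  refine ⟨i, (w (U.φ i t)).toNat, by omega, fun f hf => ?_⟩
  rw [Int.toNat_of_nonneg hm.le]
  exact hform f hf

end Main

end Fermat.Agent.S24
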