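import Fermat.Agent.S24.CountZerosCore
import Fermat.Agent.S24.ExistsIndex
import Fermat.Agent.S24.FundId

/-!
# S24, task A3b: the number of zeros of `x` is the number of orbits
-/

set_option autoImplicit false

namespace Fermat.Agent.S24

open AlgebraicCurve KaehlerDifferential IntermediateField

variable {K F M : Type*} [Field K] [IsAlgClosed K] [CharZero K] [Field F] [Algebra K F]
  [Field M] [Algebra K M]

omit [IsAlgClosed K] [CharZero K] in
/-- `[F : K(x)]` is the number of embeddings. -/
theorem finrank_eq_card (w : M → ℤ) (δ : Derivation K M M) (_hw : IsDiffVal w δ)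
    (x : F) [FiniteDimensional K⟮x⟯ F] (I : Type*) [Fintype I]
    (hn : Module.finrank K⟮x⟯ F ≤ Fintype.card I) (π : Equiv.Perm I) (U : LocalUnif K w x I π) :
    Module.finrank K⟮x⟯ F = Fintype.card I :=
  le_antisymm hn U.card_le_finrank

/-- The number of zeros of `x` is the number of orbits of `π`. -/
theorem ncard_zeroPlaces (w : M → ℤ) (δ : Derivation K M M) (hw : IsDiffVal w δ)
    (x : F) (hx0 : x ≠ 0) [FiniteDimensional K⟮x⟯ F] (I : Type*) [Fintype I]
    (hn : Module.finrank K⟮x⟯ F ≤ Fintype.card I) (π : Equiv.Perm I) (U : LocalUnif K w x I π) :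
    (zeroPlaces (K := K) x).ncard = numOrbits π := by
  have hI : Nonempty I := by
    have h0 : 0 < Module.finrank K⟮x⟯ F := Module.finrank_pos
    exact Fintype.card_pos_iff.1 (h0.trans_le hn)
  have hx : Transcendental K x := U.transcendental hw hx0
  refine ncard_zeroPlaces_core hx0 U (zeroPlaces_finite x hx) ?_
    (fun v hv => exists_index_of_mem_zeroPlaces w δ hw x I hn π U v hv)
  rw [sum_ord_zeroPlaces x hx]
  exact_mod_cast U.card_le_finrank

end Fermat.Agent.S24
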