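import Fermat.Agent.S24.PlaceBasic

/-!
# S24, task A2: residue degree one, and the fibration of places over the `x`-line
-/

set_option autoImplicit false

namespace Fermat.Agent.S24

open AlgebraicCurve IntermediateField Polynomial

section General

variable {K F : Type*} [Field K] [Field F] [Algebra K F]

theorem place_ord_neg (v : Place K F) (f : F) : v.ord (-f) = v.ord f := by
  unfold Place.ord
  rw [Valuation.map_neg]

/-- every element of `F` is algebraic over `K[y]`. -/
theorem exists_polynomial_relation (y : F) (hy : Transcendental K y) [FiniteDimensional K⟮y⟯ F]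
    (f : F) :
    (∃ p : K[X][X], p ≠ 0 ∧ p.eval₂ ((aeval y : K[X] →ₐ[K] F) : K[X] →+* F) f = 0) ∧
    (f ≠ 0 → ∃ p : K[X][X], p.coeff 0 ≠ 0 ∧
      p.eval₂ ((aeval y : K[X] →ₐ[K] F) : K[X] →+* F) f = 0) := by
  let i1 : Algebra K[X] F := ((aeval y : K[X] →ₐ[K] F) : K[X] →+* F).toAlgebra
  let i2 : Algebra K[X] K⟮y⟯ :=
    ((aeval (AdjoinSimple.gen K y) : K[X] →ₐ[K] K⟮y⟯) : K[X] →+* K⟮y⟯).toAlgebra
  have hcoe : ∀ p : K[X], ((aeval (AdjoinSimple.gen K y) p : K⟮y⟯) : F) = aeval y p := by
    intro p
    have := Polynomial.aeval_algebraMap_apply F (AdjoinSimple.gen K y) p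
    rw [AdjoinSimple.algebraMap_gen] at this
    exact this.symm
  have i3 : IsScalarTower K[X] K⟮y⟯ F := IsScalarTower.of_algebraMap_eq fun p => (hcoe p).symm
  have hinj : Function.Injective (algebraMap K[X] K⟮y⟯) := by
    intro p q hpq
    have h1 : aeval y p = aeval y q := by
      rw [← hcoe, ← hcoe]
      exact congrArg _ hpq
    exact (transcendental_iff_injective.mp hy) h1
  have i4 : FaithfulSMul K[X] K⟮y⟯ := (faithfulSMul_iff_algebraMap_injective _ _).mpr hinj
  have i5 : IsFractionRing K[X] K⟮y⟯ := IsFractionRing.of_field _ _ fun z => by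
    obtain ⟨r, s, hrs⟩ := (mem_adjoin_simple_iff K (z : F)).mp z.2
    refine ⟨r, s, Subtype.ext ?_⟩
    rw [hrs]
    show _ = ((aeval (AdjoinSimple.gen K y) r : K⟮y⟯) : F) / ((aeval (AdjoinSimple.gen K y) s : K⟮y⟯) : F)
    rw [hcoe, hcoe]
  have halg : IsAlgebraic K[X] f :=
    (IsFractionRing.isAlgebraic_iff K[X] K⟮y⟯ F).mpr (Algebra.IsAlgebraic.isAlgebraic f)
  refine ⟨?_, fun hf => ?_⟩
  · obtain ⟨p, hp, hpf⟩ := halg
    exact ⟨p, hp, hpf⟩
  · obtain ⟨p, hp, hpf⟩ := halg.exists_nonzero_coeff_and_aeval_eq_zero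
      (mem_nonZeroDivisors_of_ne_zero hf)
    exact ⟨p, hp, hpf⟩

/-- reduction of a polynomial relation to the residue field -/
theorem residue_relation (v : Place K F) (y f : v.toValuationSubring) (p : K[X][X])
    (hp : p.eval₂ ((aeval (y : F) : K[X] →ₐ[K] F) : K[X] →+* F) (f : F) = 0) :
    p.eval₂ ((aeval (IsLocalRing.residue v.toValuationSubring y) : K[X] →ₐ[K] v.ResidueField) :
      K[X] →+* v.ResidueField) (IsLocalRing.residue v.toValuationSubring f) = 0 := by
  have h1 : p.eval₂ ((aeval y : K[X] →ₐ[K] v.toValuationSubring) : K[X] →+* v.toValuationSubring)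
      f = 0 := by
    apply Subtype.val_injective
    have := Polynomial.hom_eval₂ p
      ((aeval y : K[X] →ₐ[K] v.toValuationSubring) : K[X] →+* v.toValuationSubring)
      v.toValuationSubring.subtype f
    have hcomp : v.toValuationSubring.subtype.comp
        ((aeval y : K[X] →ₐ[K] v.toValuationSubring) : K[X] →+* v.toValuationSubring) =
        ((aeval (y : F) : K[X] →ₐ[K] F) : K[X] →+* F) := by
      ext a
      · simp
      · simp
    rw [hcomp] at this
    exact this.trans hp
  have h2 := Polynomial.hom_eval₂ p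
      ((aeval y : K[X] →ₐ[K] v.toValuationSubring) : K[X] →+* v.toValuationSubring)
      (IsLocalRing.residue v.toValuationSubring) f
  rw [h1, map_zero] at h2
  have hcomp : (IsLocalRing.residue v.toValuationSubring).comp
      ((aeval y : K[X] →ₐ[K] v.toValuationSubring) : K[X] →+* v.toValuationSubring) =
      ((aeval (IsLocalRing.residue v.toValuationSubring y) : K[X] →ₐ[K] v.ResidueField) :
      K[X] →+* v.ResidueField) := by
    ext a
    · simp
      rfl
    · simp
  rw [hcomp] at h2
  exact h2.symm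

end General

section AlgClosed

variable {K F : Type*} [Field K] [IsAlgClosed K] [Field F] [Algebra K F]

/-- the residue of `y` is a constant -/
theorem exists_residue_eq_algebraMap (y : F) (hy : Transcendental K y) [FiniteDimensional K⟮y⟯ F]
    (v : Place K F) (hyO : y ∈ v.toValuationSubring) :
    ∃ c : K, IsLocalRing.residue v.toValuationSubring ⟨y, hyO⟩ =
      algebraMap K v.ResidueField c := by
  obtain ⟨π, hπ⟩ := IsDiscreteValuationRing.exists_irreducible v.toValuationSubring
  have hπF : (π : F) ≠ 0 := fun h => hπ.ne_zero (Subtype.ext h)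
  obtain ⟨p, hp0, hp⟩ := (exists_polynomial_relation y hy (π : F)).2 hπF
  have h1 := residue_relation v ⟨y, hyO⟩ π p hp
  have hπres : IsLocalRing.residue v.toValuationSubring π = 0 :=
    (IsLocalRing.residue_eq_zero_iff π).mpr ((IsLocalRing.mem_maximalIdeal π).mpr hπ.not_isUnit)
  rw [hπres, Polynomial.eval₂_at_zero] at h1
  have halg : IsAlgebraic K (IsLocalRing.residue v.toValuationSubring ⟨y, hyO⟩) :=
    ⟨p.coeff 0, hp0, h1⟩
  have hint : IsIntegral K (IsLocalRing.residue v.toValuationSubring ⟨y, hyO⟩) := halg.isIntegral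
  have hdeg := IsAlgClosed.degree_eq_one_of_irreducible K (minpoly.irreducible hint)
  obtain ⟨c, hc⟩ := minpoly.mem_range_of_degree_eq_one K _ hdeg
  exact ⟨c, hc.symm⟩

theorem exists_ord_sub_pos (y : F) (hy : Transcendental K y) [FiniteDimensional K⟮y⟯ F]
    (v : Place K F) (hyO : y ∈ v.toValuationSubring) :
    ∃ c : K, 0 < v.ord (y - algebraMap K F c) := by
  obtain ⟨c, hc⟩ := exists_residue_eq_algebraMap y hy v hyO
  refine ⟨c, ?_⟩
  have hne : (⟨y, hyO⟩ : v.toValuationSubring) - algebraMap K v.toValuationSubring c ≠ 0 := by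
    intro h
    have h' : y - algebraMap K F c = 0 := congrArg Subtype.val h
    exact hy (sub_eq_zero.mp h' ▸ isAlgebraic_algebraMap c)
  have hmem : (⟨y, hyO⟩ : v.toValuationSubring) - algebraMap K v.toValuationSubring c ∈
      IsLocalRing.maximalIdeal v.toValuationSubring := by
    rw [← IsLocalRing.residue_eq_zero_iff, map_sub, hc, sub_eq_zero]
    rfl
  exact (mem_maximalIdeal_iff_ord_pos v _ hne).mp hmem

theorem deg_eq_one_of_mem (y : F) (hy : Transcendental K y) [FiniteDimensional K⟮y⟯ F]
    (v : Place K F) (hyO : y ∈ v.toValuationSubring) : v.deg = 1 := by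
  obtain ⟨c, hc⟩ := exists_residue_eq_algebraMap y hy v hyO
  have hyc : y - algebraMap K F c ≠ 0 := fun h =>
    hy (sub_eq_zero.mp h ▸ isAlgebraic_algebraMap c)
  have halg : ∀ z : v.ResidueField, IsAlgebraic K z := by
    intro z
    obtain ⟨f, rfl⟩ := IsLocalRing.residue_surjective z
    obtain ⟨p, hp0, hp⟩ := (exists_polynomial_relation y hy (f : F)).1
    have hnu : ¬ IsUnit (C (X - C c) : K[X][X]) := by
      rw [Polynomial.isUnit_C]
      exact Polynomial.not_isUnit_X_sub_C c
    obtain ⟨n, q, hq, hpq⟩ := WfDvdMonoid.max_power_factor' hp0 hnu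
    have hq0 : q.eval₂ ((aeval y : K[X] →ₐ[K] F) : K[X] →+* F) (f : F) = 0 := by
      rw [hpq, Polynomial.eval₂_mul, Polynomial.eval₂_pow, Polynomial.eval₂_C] at hp
      have h1 : ((aeval y : K[X] →ₐ[K] F) : K[X] →+* F) (X - C c) = y - algebraMap K F c := by
        simp
      rw [h1] at hp
      exact (mul_eq_zero.mp hp).resolve_left (pow_ne_zero _ hyc)
    rw [Polynomial.C_dvd_iff_dvd_coeff] at hq
    push Not at hq
    obtain ⟨k, hk⟩ := hq
    rw [Polynomial.dvd_iff_isRoot] at hk
    have h2 := residue_relation v ⟨y, hyO⟩ f q hq0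
    rw [hc] at h2
    have hcomp : ((aeval (algebraMap K v.ResidueField c) : K[X] →ₐ[K] v.ResidueField) :
        K[X] →+* v.ResidueField) = (algebraMap K v.ResidueField).comp (evalRingHom c) := by
      ext a
      · simp
      · simp
    rw [hcomp, ← Polynomial.eval₂_map] at h2
    refine ⟨q.map (evalRingHom c), fun h0 => hk ?_, h2⟩
    have := congrArg (fun r => r.coeff k) h0
    simpa [Polynomial.coeff_map] using this
  have : Algebra.IsAlgebraic K v.ResidueField := ⟨halg⟩
  have hbij : Function.Bijective (algebraMap K v.ResidueField) :=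
    IsAlgClosed.algebraMap_bijective_of_isIntegral
  unfold Place.deg
  rw [finrank_eq_one_iff_of_nonzero' (1 : v.ResidueField) one_ne_zero]
  intro w
  obtain ⟨a, ha⟩ := hbij.2 w
  exact ⟨a, by rw [← ha, Algebra.algebraMap_eq_smul_one]⟩

omit [IsAlgClosed K] in
theorem placeCases_adjoin_inv_eq (x : F) : K⟮x⁻¹⟯ = K⟮x⟯ := by
  apply le_antisymm
  · rw [adjoin_simple_le_iff]
    exact inv_mem (mem_adjoin_simple_self K x)
  · rw [adjoin_simple_le_iff]
    have := inv_mem (mem_adjoin_simple_self K x⁻¹)
    rwa [inv_inv] at this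

omit [IsAlgClosed K] in
theorem placeCases_transcendental_inv {x : F} (hx : Transcendental K x) : Transcendental K x⁻¹ := by
  intro h
  apply hx
  have := h.inv
  rwa [inv_inv] at this

omit [IsAlgClosed K] in
theorem placeCases_finiteDimensional_adjoin_inv (x : F) [h : FiniteDimensional K⟮x⟯ F] :
    FiniteDimensional K⟮x⁻¹⟯ F := by
  rw [placeCases_adjoin_inv_eq]
  exact h

theorem place_deg_eq_one (x : F) (hx : Transcendental K x) [FiniteDimensional K⟮x⟯ F]
    (v : Place K F) : v.deg = 1 := by
  rcases v.toValuationSubring.mem_or_inv_mem x with h | h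
  · exact deg_eq_one_of_mem x hx v h
  · have := placeCases_finiteDimensional_adjoin_inv (K := K) x
    exact deg_eq_one_of_mem x⁻¹ (placeCases_transcendental_inv hx) v h

theorem place_cases (x : F) (hx : Transcendental K x) [FiniteDimensional K⟮x⟯ F]
    (v : Place K F) :
    (0 < v.ord x⁻¹ ∧ ∀ c : K, ¬ 0 < v.ord (x - algebraMap K F c)) ∨
      (¬ 0 < v.ord x⁻¹ ∧ ∃! c : K, 0 < v.ord (x - algebraMap K F c)) := by
  have hx0 : x ≠ 0 := fun h => hx (h ▸ isAlgebraic_zero)
  have hxc : ∀ c : K, x - algebraMap K F c ≠ 0 := fun c h =>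
    hx (sub_eq_zero.mp h ▸ isAlgebraic_algebraMap c)
  by_cases hmem : x ∈ v.toValuationSubring
  · right
    have h0 : 0 ≤ v.ord x := ord_nonneg_of_mem v hmem
    refine ⟨by rw [v.ord_inv]; omega, ?_⟩
    obtain ⟨c, hc⟩ := exists_ord_sub_pos x hx v hmem
    refine ⟨c, hc, fun c' hc' => ?_⟩
    by_contra hne
    have hd : algebraMap K F (c' - c) ≠ 0 := by
      simpa [sub_eq_zero] using hne
    have hsum : (x - algebraMap K F c) + -(x - algebraMap K F c') = algebraMap K F (c' - c) := by
      rw [map_sub]; ring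
    have h1 := ord_add_ge v (hxc c) (neg_ne_zero.mpr (hxc c')) (by rw [hsum]; exact hd)
    rw [hsum, ord_algebraMap, place_ord_neg] at h1
    have := lt_min hc hc'
    omega
  · left
    have hneg : v.ord x < 0 := by
      by_contra h
      exact hmem (mem_of_ord_nonneg v hx0 (not_lt.mp h))
    refine ⟨by rw [v.ord_inv]; omega, fun c => ?_⟩
    rcases eq_or_ne c 0 with rfl | hc
    · simp only [map_zero, sub_zero]
      omega
    · have hc' : -algebraMap K F c ≠ 0 := by simpa using hc
      have h1 : v.ord (x + -algebraMap K F c) = v.ord x :=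
        ord_add_eq_of_lt v hx0 hc' (by rw [place_ord_neg, ord_algebraMap]; exact hneg)
      rw [sub_eq_add_neg, h1]
      omega

end AlgClosed

end Fermat.Agent.S24
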