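import Fermat.Agent.S24.DegPrincipalCore
import Fermat.Agent.S24.FundId
import Fermat.Agent.S24.PlaceCases

/-!
# S24 / A5 : principal divisors have degree zero
-/

set_option autoImplicit false

namespace Fermat.Agent.S24

open AlgebraicCurve KaehlerDifferential IntermediateField

variable {K F : Type*} [Field K] [IsAlgClosed K] [CharZero K] [Field F] [Algebra K F]

theorem degree_eq_zero_of_forall_ord (j : F) (hj : Transcendental K j) [FiniteDimensional K⟮j⟯ F]
    (f : F) (hf : f ≠ 0) (E : Divisor K F) (hE : ∀ v, E v = v.ord f) : Divisor.degree E = 0 :=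
  have _ := hf
  degree_eq_zero_of_forall_ord_of_hyps
    (fun x hx _ => zeroPlaces_finite x hx)
    (fun x hx _ _ => sum_ord_zeroPlaces x hx)
    (fun v => place_deg_eq_one j hj v)
    (fun v a => ord_algebraMap v a)
    j hj f E hE

end Fermat.Agent.S24
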