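import Fermat.Agent.S24.Defs

/-!
# S24 / A4 : differentials of a function field of one variable

* `span_D_eq_top` : `Ω[F⁄K]` is spanned by `D j` when `F` is finite over `K(j)` (char. 0);
* `ordDifferential_smul_D` : the order of `f₀ • D x` at a place which is induced by an embedding
  into a differential valued field;
* `exists_differential_ne_zero`.
-/

set_option autoImplicit false
set_option linter.unusedSectionVars false
set_option linter.style.haveILetI false

namespace Fermat.Agent.S24

open AlgebraicCurve KaehlerDifferential IntermediateField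

variable {K F M : Type*} [Field K] [IsAlgClosed K] [CharZero K] [Field F] [Algebra K F]
  [Field M] [Algebra K M]

section Span

omit [IsAlgClosed K]

/-- `D f ∈ span {D j}` for `f ∈ K(j)`. -/
theorem D_mem_span_of_mem_adjoin (j : F) {f : F} (hf : f ∈ K⟮j⟯) :
    D K F f ∈ Submodule.span F {D K F j} := by
  obtain ⟨r, s, rfl⟩ := (IntermediateField.mem_adjoin_simple_iff K f).1 hf
  have h : ∀ p : Polynomial K, D K F (Polynomial.aeval j p) ∈ Submodule.span F {D K F j} := by
    intro p
    rw [Derivation.map_aeval]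
    exact Submodule.smul_mem _ _ (Submodule.mem_span_singleton_self _)
  rw [Derivation.leibniz_div]
  exact Submodule.smul_mem _ _
    (Submodule.sub_mem _ (Submodule.smul_mem _ _ (h r)) (Submodule.smul_mem _ _ (h s)))

/-- Derivative of a polynomial expression with coefficients in `K(j)`, modulo `span {D j}`. -/
theorem D_aeval_sub_mem_span (j f : F) (P : Polynomial K⟮j⟯) :
    D K F (Polynomial.aeval f P) - Polynomial.aeval f (Polynomial.derivative P) • D K F f ∈
      Submodule.span F {D K F j} := by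
  induction P using Polynomial.induction_on' with
  | add p q hp hq =>
    have : D K F (Polynomial.aeval f (p + q)) -
        Polynomial.aeval f (Polynomial.derivative (p + q)) • D K F f =
        (D K F (Polynomial.aeval f p) - Polynomial.aeval f (Polynomial.derivative p) • D K F f) +
        (D K F (Polynomial.aeval f q) - Polynomial.aeval f (Polynomial.derivative q) • D K F f) := by
      simp only [map_add, add_smul]
      abel
    rw [this]
    exact Submodule.add_mem _ hp hq
  | monomial n a =>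
    have ha : D K F (a : F) ∈ Submodule.span F {D K F j} := D_mem_span_of_mem_adjoin j a.2
    have : D K F (Polynomial.aeval f (Polynomial.monomial n a)) -
        Polynomial.aeval f (Polynomial.derivative (Polynomial.monomial n a)) • D K F f =
        f ^ n • D K F (a : F) := by
      rw [Polynomial.aeval_monomial, Polynomial.derivative_monomial, Polynomial.aeval_monomial,
        Derivation.leibniz, Derivation.leibniz_pow]
      have e1 : algebraMap K⟮j⟯ F a = (a : F) := rfl
      have e2 : algebraMap K⟮j⟯ F (a * (n : K⟮j⟯)) = (a : F) * (n : F) := by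
        simp
      rw [e1, e2]
      rw [← Nat.cast_smul_eq_nsmul F n, smul_smul, smul_smul]
      abel
    rw [this]
    exact Submodule.smul_mem _ _ ha

theorem span_D_eq_top (j : F) [FiniteDimensional K⟮j⟯ F] : Submodule.span F {D K F j} = ⊤ := by
  rw [eq_top_iff, ← KaehlerDifferential.span_range_derivation, Submodule.span_le]
  rintro _ ⟨f, rfl⟩
  have hint : IsIntegral K⟮j⟯ f := Algebra.IsIntegral.isIntegral f
  have hsep : IsSeparable K⟮j⟯ f := Algebra.IsSeparable.isSeparable K⟮j⟯ f
  set P := minpoly K⟮j⟯ f with hP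
  have h0 : Polynomial.aeval f P = 0 := minpoly.aeval _ _
  have h1 : Polynomial.aeval f (Polynomial.derivative P) ≠ 0 :=
    hsep.aeval_derivative_ne_zero h0
  have h2 := D_aeval_sub_mem_span j f P
  rw [h0, map_zero, zero_sub] at h2
  have h3 := Submodule.smul_mem _ (-(Polynomial.aeval f (Polynomial.derivative P))⁻¹) h2
  rw [smul_neg, neg_smul, neg_neg, smul_smul, inv_mul_cancel₀ h1, one_smul] at h3
  exact h3

end Span

section Lift

omit [IsAlgClosed K] [CharZero K]

/-- An additive map `L : Ω[F⁄K] → M`, semilinear along an embedding `φ : F → M`, which sends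
`D f` to `δ (φ f)`. -/
theorem exists_lift_derivation (δ : Derivation K M M) (φ : F →ₐ[K] M) :
    ∃ L : Ω[F⁄K] →+ M, (∀ (a : F) (ω : Ω[F⁄K]), L (a • ω) = φ a * L ω) ∧
      ∀ f : F, L (D K F f) = δ (φ f) := by
  letI : Algebra F M := φ.toRingHom.toAlgebra
  haveI : IsScalarTower K F M := IsScalarTower.of_algebraMap_eq fun a => (φ.commutes a).symm
  let d : Derivation K F M := δ.compAlgebraMap F
  refine ⟨d.liftKaehlerDifferential.toAddMonoidHom, fun a ω => ?_, fun f => ?_⟩
  · change d.liftKaehlerDifferential (a • ω) = _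
    rw [map_smul]
    rfl
  · change d.liftKaehlerDifferential (D K F f) = _
    rw [Derivation.liftKaehlerDifferential_comp_D]
    rfl

/-- The chosen local coordinate differential is `D t` for a uniformizer `t`. -/
theorem dCoord_eq_D (v : Place K F) : ∃ t : F, v.ord t = 1 ∧ v.dCoord = D K F t := by
  refine ⟨_, ?_, rfl⟩
  exact v.ord_coe_irreducible (Classical.choose_spec _)

end Lift

theorem ordDifferential_smul_D (w : M → ℤ) (δ : Derivation K M M) (hw : IsDiffVal w δ)
    (j : F) [FiniteDimensional K⟮j⟯ F]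
    (v : Place K F) (φ : F →ₐ[K] M) (m : ℕ) (hm : 0 < m)
    (hφ : ∀ f : F, f ≠ 0 → w (φ f) = m * v.ord f)
    (x : F) (hx : v.ord x ≠ 0) (f₀ : F) (hf₀ : f₀ ≠ 0) :
    v.ordDifferential (f₀ • D K F x) = v.ord f₀ + v.ord x - 1 := by
  obtain ⟨L, hLs, hLD⟩ := exists_lift_derivation δ φ
  obtain ⟨t, ht, hdt⟩ := dCoord_eq_D v
  have hmZ : (m : ℤ) ≠ 0 := by exact_mod_cast hm.ne'
  have hφ0 : ∀ f : F, f ≠ 0 → φ f ≠ 0 := fun f hf => (map_ne_zero φ.toRingHom).2 hf
  have ht0 : t ≠ 0 := by
    rintro rfl
    simp at ht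
  have hx0 : x ≠ 0 := by
    rintro rfl
    simp at hx
  have hwt : w (φ t) = m := by rw [hφ t ht0, ht, mul_one]
  have hwt0 : w (φ t) ≠ 0 := by rw [hwt]; exact hmZ
  have hwx : w (φ x) ≠ 0 := by rw [hφ x hx0]; exact mul_ne_zero hmZ hx
  have hδt : δ (φ t) ≠ 0 := hw.deriv_ne_zero _ (hφ0 t ht0) hwt0
  have hδx : δ (φ x) ≠ 0 := hw.deriv_ne_zero _ (hφ0 x hx0) hwx
  have hDt : D K F t ≠ 0 := by
    intro h
    apply hδt
    rw [← hLD, h, map_zero]
  -- every differential is a multiple of `D t`
  have hspan : ∀ ω : Ω[F⁄K], ∃ a : F, ω = a • D K F t := by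
    have htop := span_D_eq_top (K := K) j
    have hmem : ∀ ω : Ω[F⁄K], ∃ a : F, a • D K F j = ω := fun ω =>
      Submodule.mem_span_singleton.1 (htop ▸ Submodule.mem_top)
    obtain ⟨c, hc⟩ := hmem (D K F t)
    have hc0 : c ≠ 0 := by
      rintro rfl
      rw [zero_smul] at hc
      exact hDt hc.symm
    intro ω
    obtain ⟨a, ha⟩ := hmem ω
    refine ⟨a * c⁻¹, ?_⟩
    rw [← hc, smul_smul, mul_assoc, inv_mul_cancel₀ hc0, mul_one, ha]
  have hex : ∃ f : F, f₀ • D K F x = f • v.dCoord := by
    rw [hdt]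
    exact hspan _
  have hcoeff : f₀ • D K F x = v.differentialCoeff (f₀ • D K F x) • v.dCoord := by
    rw [Place.differentialCoeff, dif_pos hex]
    exact hex.choose_spec
  set a := v.differentialCoeff (f₀ • D K F x) with ha
  have hL : φ f₀ * δ (φ x) = φ a * δ (φ t) := by
    have := congrArg L hcoeff
    rwa [hdt, hLs, hLs, hLD, hLD] at this
  have ha0 : a ≠ 0 := by
    intro h
    rw [h, map_zero, zero_mul] at hL
    exact mul_ne_zero (hφ0 f₀ hf₀) hδx hL
  have hwL := congrArg w hL
  rw [hw.map_mul _ _ (hφ0 f₀ hf₀) hδx, hw.map_mul _ _ (hφ0 a ha0) hδt,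
    hw.map_deriv _ (hφ0 x hx0) hwx, hw.map_deriv _ (hφ0 t ht0) hwt0, hφ f₀ hf₀, hφ x hx0,
    hφ a ha0, hφ t ht0, ht] at hwL
  rw [Place.ordDifferential, ← ha]
  have : (m : ℤ) * (v.ord a) = m * (v.ord f₀ + v.ord x - 1) := by linarith
  exact mul_left_cancel₀ hmZ this

omit [IsAlgClosed K] [CharZero K] in
/-- NB: the hypothesis `hj : j ≠ 0` is necessary (the junk value `w 0` is unconstrained). -/
theorem exists_differential_ne_zero (w : M → ℤ) (δ : Derivation K M M) (hw : IsDiffVal w δ)
    (j : F) (hj : j ≠ 0) (I : Type*) [Nonempty I] (πinf : Equiv.Perm I)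
    (Uinf : LocalUnif K w j⁻¹ I πinf) : ∃ ω : Ω[F⁄K], ω ≠ 0 := by
  obtain ⟨i⟩ := ‹Nonempty I›
  obtain ⟨L, -, hLD⟩ := exists_lift_derivation δ (Uinf.φ i)
  refine ⟨D K F j⁻¹, fun h => ?_⟩
  have h1 : (Uinf.φ i) j⁻¹ ≠ 0 := (map_ne_zero (Uinf.φ i).toRingHom).2 (inv_ne_zero hj)
  have h2 : w ((Uinf.φ i) j⁻¹) ≠ 0 := by
    rw [Uinf.w_x i]
    exact_mod_cast Uinf.s_pos.ne'
  apply hw.deriv_ne_zero _ h1 h2
  rw [← hLD, h, map_zero]

end Fermat.Agent.S24
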