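import Fermat.Agent.S24.Defs
import Fermat.Agent.S24.FundId
import Fermat.Agent.S24.PlaceCases
import Fermat.Agent.S24.ExistsIndex
import Fermat.Agent.S24.CountZeros
import Fermat.Agent.S24.Differential
import Fermat.Agent.S24.DegPrincipal
import Fermat.Agent.S24.OrbitCount

/-!
# S24, task A6 : Riemann-Hurwitz assembly
-/

set_option autoImplicit false

namespace Fermat.Agent.S24

open AlgebraicCurve KaehlerDifferential IntermediateField
variable {K F M : Type*} [Field K] [IsAlgClosed K] [CharZero K] [Field F] [Algebra K F] [Field M]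
  [Algebra K M]

omit [IsAlgClosed K] [CharZero K] in
theorem rh_adjoin_sub_algebraMap_eq (j : F) (c : K) : K⟮j - algebraMap K F c⟯ = K⟮j⟯ := by
  apply le_antisymm
  · rw [adjoin_simple_le_iff]
    exact sub_mem (mem_adjoin_simple_self K j) (IntermediateField.algebraMap_mem _ c)
  · rw [adjoin_simple_le_iff]
    have h := add_mem (mem_adjoin_simple_self K (j - algebraMap K F c))
      (IntermediateField.algebraMap_mem K⟮j - algebraMap K F c⟯ c)
    simpa using h

omit [IsAlgClosed K] [CharZero K] in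
theorem rh_adjoin_inv_eq (j : F) : K⟮j⁻¹⟯ = K⟮j⟯ := by
  apply le_antisymm
  · rw [adjoin_simple_le_iff]
    exact inv_mem (mem_adjoin_simple_self K j)
  · rw [adjoin_simple_le_iff]
    have h := inv_mem (mem_adjoin_simple_self K j⁻¹)
    simpa using h

omit [CharZero K] in
theorem rh_mem_range_of_isAlgebraic {x : F} (hx : IsAlgebraic K x) :
    x ∈ (algebraMap K F).range := by
  have hint : IsIntegral K x := hx.isIntegral
  exact minpoly.mem_range_of_degree_eq_one K x
    (IsAlgClosed.degree_eq_one_of_irreducible K (minpoly.irreducible hint))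

omit [IsAlgClosed K] [CharZero K] in
theorem rh_ne_zero_of_transcendental {x : F} (hx : Transcendental K x) : x ≠ 0 := by
  rintro rfl
  exact hx isAlgebraic_zero

/-- `∑_{v ∈ Z(x)} (ord_v x - 1) = n - r`. -/
theorem rh_sum_ord_sub_one (w : M → ℤ) (δ : Derivation K M M) (hw : IsDiffVal w δ)
    (x : F) (hx : Transcendental K x) [FiniteDimensional K⟮x⟯ F] (I : Type*) [Fintype I]
    (hn : Module.finrank K⟮x⟯ F ≤ Fintype.card I) (π : Equiv.Perm I) (U : LocalUnif K w x I π) :
    ∑ v ∈ (zeroPlaces_finite (K := K) x hx).toFinset, (v.ord x - 1)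
      = (Fintype.card I : ℤ) - numOrbits π := by
  rw [Finset.sum_sub_distrib, sum_ord_zeroPlaces x hx, finrank_eq_card w δ hw x I hn π U,
    ← ncard_zeroPlaces w δ hw x (rh_ne_zero_of_transcendental hx) I hn π U,
    Set.ncard_eq_toFinset_card _ (zeroPlaces_finite (K := K) x hx)]
  simp

/-- `∑_{v ∈ Z(x)} (- ord_v x - 1) = - n - r`. -/
theorem rh_sum_neg_ord_sub_one (w : M → ℤ) (δ : Derivation K M M) (hw : IsDiffVal w δ)
    (x : F) (hx : Transcendental K x) [FiniteDimensional K⟮x⟯ F] (I : Type*) [Fintype I]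
    (hn : Module.finrank K⟮x⟯ F ≤ Fintype.card I) (π : Equiv.Perm I) (U : LocalUnif K w x I π) :
    ∑ v ∈ (zeroPlaces_finite (K := K) x hx).toFinset, (- v.ord x - 1)
      = - (Fintype.card I : ℤ) - numOrbits π := by
  rw [Finset.sum_sub_distrib, Finset.sum_neg_distrib, sum_ord_zeroPlaces x hx,
    finrank_eq_card w δ hw x I hn π U,
    ← ncard_zeroPlaces w δ hw x (rh_ne_zero_of_transcendental hx) I hn π U,
    Set.ncard_eq_toFinset_card _ (zeroPlaces_finite (K := K) x hx)]
  simp

/-- If the monodromy permutation is trivial, all zeros of `x` are simple. -/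
theorem rh_ord_eq_one_of_perm_eq_one (w : M → ℤ) (δ : Derivation K M M) (hw : IsDiffVal w δ)
    (x : F) (hx : Transcendental K x) [FiniteDimensional K⟮x⟯ F] (I : Type*) [Fintype I]
    (hn : Module.finrank K⟮x⟯ F ≤ Fintype.card I) (π : Equiv.Perm I) (U : LocalUnif K w x I π)
    (hπ : π = 1) (v : Place K F) (hv : 0 < v.ord x) : v.ord x = 1 := by
  have hsum := rh_sum_ord_sub_one w δ hw x hx I hn π U
  rw [hπ, numOrbits_one, Nat.card_eq_fintype_card, sub_self] at hsum
  have hnn : ∀ v' ∈ (zeroPlaces_finite (K := K) x hx).toFinset, 0 ≤ v'.ord x - 1 := by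
    intro v' hv'
    have : 0 < v'.ord x := by simpa [zeroPlaces] using hv'
    omega
  have h0 := (Finset.sum_eq_zero_iff_of_nonneg hnn).1 hsum v (by simpa [zeroPlaces] using hv)
  omega

/-- Local computation at a zero of `x`, where `D x = D j`. -/
theorem rh_ordDifferential_of_mem_zeroPlaces (w : M → ℤ) (δ : Derivation K M M) (hw : IsDiffVal w δ)
    (x : F) [FiniteDimensional K⟮x⟯ F] (I : Type*) [Fintype I]
    (hn : Module.finrank K⟮x⟯ F ≤ Fintype.card I) (π : Equiv.Perm I) (U : LocalUnif K w x I π)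
    (v : Place K F) (hv : 0 < v.ord x) (y : F) (hy : v.ord y ≠ 0) (f₀ : F) (hf₀ : f₀ ≠ 0) :
    v.ordDifferential (f₀ • D K F y) = v.ord f₀ + v.ord y - 1 := by
  obtain ⟨i, m, hm, hφ⟩ := exists_index_of_mem_zeroPlaces w δ hw x I hn π U v hv
  exact ordDifferential_smul_D w δ hw x v (U.φ i) m hm hφ y hy f₀ hf₀

theorem degree_eq_of_localUnif (w : M → ℤ) (δ : Derivation K M M) (hw : IsDiffVal w δ)
    (j : F) [FiniteDimensional K⟮j⟯ F] (I : Type*) [Fintype I]
    (hn : Module.finrank K⟮j⟯ F ≤ Fintype.card I)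
    (π : K → Equiv.Perm I) (πinf : Equiv.Perm I)
    (U : ∀ c : K, LocalUnif K w (j - algebraMap K F c) I (π c)) (Uinf : LocalUnif K w j⁻¹ I πinf)
    (C : Finset K) (hC : ∀ c, c ∉ C → π c = 1)
    (ω : Ω[F⁄K]) (hω : ω ≠ 0) (E : Divisor K F) (hE : ∀ v, E v = v.ordDifferential ω) :
    Divisor.degree E = -2 * (Fintype.card I : ℤ) + ∑ c ∈ C, ((Fintype.card I : ℤ) - numOrbits (π c)) + ((Fintype.card I : ℤ) - numOrbits πinf) := by
  classical
  -- `I` is nonempty
  have hpos : 0 < Module.finrank K⟮j⟯ F := Module.finrank_pos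
  obtain ⟨i₀⟩ : Nonempty I := Fintype.card_pos_iff.1 (lt_of_lt_of_le hpos hn)
  -- `j` is transcendental
  have hj : Transcendental K j := by
    intro halg
    obtain ⟨a, ha⟩ := rh_mem_range_of_isAlgebraic halg
    have h1 := (U (a + 1)).w_x i₀
    have h2 : j - algebraMap K F (a + 1) = algebraMap K F (-1) := by
      rw [← ha]; simp
    have h3 : (U (a + 1)).φ i₀ (j - algebraMap K F (a + 1)) = algebraMap K M (-1) := by
      rw [congrArg ((U (a + 1)).φ i₀) h2, AlgHom.commutes]
    rw [h3, hw.map_const (-1) (by simp)] at h1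
    have := (U (a + 1)).s_pos
    omega
  have hjc : ∀ c : K, Transcendental K (j - algebraMap K F c) := by
    intro c halg
    apply hj
    have := halg.add (isAlgebraic_algebraMap (A := F) c)
    simpa using this
  have hjinv : Transcendental K j⁻¹ := by
    intro halg
    apply hj
    simpa using halg.inv
  have hfdc : ∀ c : K, FiniteDimensional K⟮j - algebraMap K F c⟯ F := by
    intro c; rw [rh_adjoin_sub_algebraMap_eq]; infer_instance
  have hfdinv : FiniteDimensional K⟮j⁻¹⟯ F := by
    rw [rh_adjoin_inv_eq]; infer_instance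
  have hnc : ∀ c : K, Module.finrank K⟮j - algebraMap K F c⟯ F ≤ Fintype.card I := by
    intro c; rw [rh_adjoin_sub_algebraMap_eq]; exact hn
  have hninv : Module.finrank K⟮j⁻¹⟯ F ≤ Fintype.card I := by
    rw [rh_adjoin_inv_eq]; exact hn
  -- `ω = f₀ • D j`
  obtain ⟨f₀, hf₀ω⟩ : ∃ f₀ : F, f₀ • D K F j = ω := by
    have : ω ∈ Submodule.span F {D K F j} := by rw [span_D_eq_top j]; trivial
    exact Submodule.mem_span_singleton.1 this
  have hf₀ : f₀ ≠ 0 := by
    rintro rfl
    exact hω (by rw [← hf₀ω, zero_smul])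
  -- the finite sets of zeros
  set Z : K → Finset (Place K F) :=
    fun c => (zeroPlaces_finite (K := K) (j - algebraMap K F c) (hjc c)).toFinset with hZ
  set Zinf : Finset (Place K F) := (zeroPlaces_finite (K := K) j⁻¹ hjinv).toFinset with hZinf
  have hmemZ : ∀ c v, v ∈ Z c ↔ 0 < v.ord (j - algebraMap K F c) := by
    intro c v; simp [hZ, zeroPlaces]
  have hmemZinf : ∀ v, v ∈ Zinf ↔ 0 < v.ord j⁻¹ := by
    intro v; simp [hZinf, zeroPlaces]
  -- the ramification divisor
  set Ej : Divisor K F :=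
    ∑ c ∈ C, ∑ v ∈ Z c, Finsupp.single v (v.ord (j - algebraMap K F c) - 1)
      + ∑ v ∈ Zinf, Finsupp.single v (- v.ord j⁻¹ - 1) with hEj
  have hEj_apply : ∀ v : Place K F, Ej v =
      ∑ c ∈ C, (if v ∈ Z c then v.ord (j - algebraMap K F c) - 1 else 0)
        + (if v ∈ Zinf then - v.ord j⁻¹ - 1 else 0) := by
    intro v
    rw [hEj, Finsupp.add_apply, Finsupp.finsetSum_apply, Finsupp.finsetSum_apply]
    congr 1
    · refine Finset.sum_congr rfl fun c _ => ?_
      rw [Finsupp.finsetSum_apply]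
      simp only [Finsupp.single_apply]
      rw [Finset.sum_ite_eq']
    · simp only [Finsupp.single_apply]
      rw [Finset.sum_ite_eq']
  have hdeg1 : ∀ v : Place K F, v.deg = 1 := fun v => place_deg_eq_one j hj v
  have hdegEj : Divisor.degree Ej =
      ∑ c ∈ C, ((Fintype.card I : ℤ) - numOrbits (π c))
        + (- (Fintype.card I : ℤ) - numOrbits πinf) := by
    rw [hEj, map_add, map_sum, map_sum]
    congr 1
    · refine Finset.sum_congr rfl fun c _ => ?_
      rw [map_sum, ← rh_sum_ord_sub_one w δ hw _ (hjc c) I (hnc c) (π c) (U c)]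
      refine Finset.sum_congr rfl fun v _ => ?_
      rw [Divisor.degree_single, hdeg1]; simp
    · rw [← rh_sum_neg_ord_sub_one w δ hw _ hjinv I hninv πinf Uinf]
      refine Finset.sum_congr rfl fun v _ => ?_
      rw [Divisor.degree_single, hdeg1]; simp
  -- `E - Ej` is the divisor of `f₀`
  have hprinc : ∀ v : Place K F, (E - Ej) v = v.ord f₀ := by
    intro v
    rw [Finsupp.sub_apply, hE, hEj_apply, ← hf₀ω]
    rcases place_cases j hj v with ⟨hinf, hfin⟩ | ⟨hinf, c₀, hc₀, huniq⟩
    · have h1 : ∑ c ∈ C, (if v ∈ Z c then v.ord (j - algebraMap K F c) - 1 else 0) = 0 := by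
        refine Finset.sum_eq_zero fun c _ => ?_
        rw [if_neg]
        rw [hmemZ]; exact hfin c
      rw [h1, if_pos ((hmemZinf v).2 hinf)]
      have hordj : v.ord j ≠ 0 := by
        rw [Place.ord_inv] at hinf; omega
      rw [rh_ordDifferential_of_mem_zeroPlaces w δ hw j⁻¹ I hninv πinf Uinf v hinf j hordj f₀ hf₀,
        Place.ord_inv]
      ring
    · have hD : D K F j = D K F (j - algebraMap K F c₀) := by
        rw [map_sub, Derivation.map_algebraMap, sub_zero]
      rw [if_neg (by rw [hmemZinf]; exact hinf), hD,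
        rh_ordDifferential_of_mem_zeroPlaces w δ hw _ I (hnc c₀) (π c₀) (U c₀) v hc₀ _ hc₀.ne' f₀ hf₀]
      have h1 : ∑ c ∈ C, (if v ∈ Z c then v.ord (j - algebraMap K F c) - 1 else 0)
          = v.ord (j - algebraMap K F c₀) - 1 := by
        by_cases hcC : c₀ ∈ C
        · rw [Finset.sum_eq_single c₀]
          · rw [if_pos ((hmemZ c₀ v).2 hc₀)]
          · intro c _ hc
            rw [if_neg]
            rw [hmemZ]
            exact fun h => hc (huniq c h)
          · exact fun h => absurd hcC h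
        · rw [rh_ord_eq_one_of_perm_eq_one w δ hw _ (hjc c₀) I (hnc c₀) (π c₀) (U c₀) (hC c₀ hcC) v hc₀]
          refine Finset.sum_eq_zero fun c hc => ?_
          rw [if_neg]
          rw [hmemZ]
          intro h
          exact hcC (huniq c h ▸ hc)
      rw [h1]
      ring
  have hdeg0 : Divisor.degree (E - Ej) = 0 :=
    degree_eq_zero_of_forall_ord j hj f₀ hf₀ (E - Ej) hprinc
  rw [map_sub, sub_eq_zero] at hdeg0
  rw [hdeg0, hdegEj]
  ring

end Fermat.Agent.S24
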