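import Mathlib

/-!
# S24 / B5b : the purely algebraic part of the degree bound
-/

set_option autoImplicit false

namespace Fermat.Agent.S24.DegBd

open IntermediateField Polynomial

section A

variable {E F : Type*} [Field E] [Field F] [Algebra E F]

/-- A separable algebraic extension all of whose elements have degree `≤ n` has degree `≤ n`. -/
theorem finrank_le_of_forall_finrank_adjoin_le [Infinite E] [Algebra.IsSeparable E F] (n : ℕ)
    (h : ∀ x : F, Module.finrank E E⟮x⟯ ≤ n) :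
    FiniteDimensional E F ∧ Module.finrank E F ≤ n := by
  classical
  let d : F → ℕ := fun x => n - Module.finrank E E⟮x⟯
  let x : F := Function.argmin d
  have hx : ∀ y : F, Module.finrank E E⟮y⟯ ≤ Module.finrank E E⟮x⟯ := by
    intro y
    have h1 : d x ≤ d y := Function.argmin_le d y
    have h2 := h x
    have h3 := h y
    simp only [d] at h1
    omega
  have hfd : ∀ y : F, FiniteDimensional E E⟮y⟯ := fun y =>
    adjoin.finiteDimensional (Algebra.IsSeparable.isIntegral E y)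
  have htop : E⟮x⟯ = ⊤ := by
    rw [eq_top_iff]
    intro y _
    obtain ⟨γ, hγ⟩ := Field.primitive_element_inf_aux E x y
    have hle : E⟮x⟯ ≤ E⟮γ⟯ := by
      rw [← hγ]
      apply adjoin.mono
      intro z hz
      simp only [Set.mem_singleton_iff] at hz
      simp [hz]
    have := hfd γ
    have heq : E⟮x⟯ = E⟮γ⟯ := eq_of_le_of_finrank_le hle (hx γ)
    rw [heq, ← hγ]
    apply subset_adjoin
    simp
  have := hfd x
  have hfin : FiniteDimensional E F := by
    have : FiniteDimensional E (⊤ : IntermediateField E F) := htop ▸ hfd x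
    exact (topEquiv (F := E) (E := F)).toLinearEquiv.finiteDimensional
  refine ⟨hfin, ?_⟩
  have := h x
  rw [htop] at this
  rwa [finrank_top'] at this

end A

section B

variable {K F A : Type*} [Field K] [Field F] [Algebra K F] [CommRing A] [Algebra K A]

/-- A `K`-linear dependence between the `j^a θ^b`, `b ≤ n`, bounds the degree of `θ` over
`K(j)`. -/
theorem isIntegral_and_natDegree_le_of_dependent (ρ : A →ₐ[K] F) (jA θ : A) (m n : ℕ)
    (htr : Transcendental K (ρ jA))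
    (hdep : ¬ LinearIndependent K
      (fun p : Fin (m + 1) × Fin (n + 1) => jA ^ (p.1 : ℕ) * θ ^ (p.2 : ℕ))) :
    IsIntegral K⟮ρ jA⟯ (ρ θ) ∧ (minpoly K⟮ρ jA⟯ (ρ θ)).natDegree ≤ n := by
  classical
  rw [Fintype.not_linearIndependent_iff] at hdep
  obtain ⟨g, hg, ⟨a₀, b₀⟩, hne⟩ := hdep
  set gen : K⟮ρ jA⟯ := AdjoinSimple.gen K (ρ jA) with hgen
  have hgen' : algebraMap K⟮ρ jA⟯ F gen = ρ jA := AdjoinSimple.algebraMap_gen K (ρ jA)
  have htr' : Transcendental K gen := by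
    intro halg
    apply htr
    rw [← hgen']
    exact halg.algebraMap
  -- the coefficient polynomials
  let p : Fin (n + 1) → K[X] := fun b => ∑ a : Fin (m + 1), C (g (a, b)) * X ^ (a : ℕ)
  let R : K⟮ρ jA⟯[X] := ∑ b : Fin (n + 1), C (aeval gen (p b)) * X ^ (b : ℕ)
  have hp : p b₀ ≠ 0 := by
    intro h0
    apply hne
    have := congrArg (fun q => q.coeff (a₀ : ℕ)) h0
    simp only [p, finsetSum_coeff, coeff_C_mul_X_pow, coeff_zero] at this
    rw [Finset.sum_eq_single a₀] at this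
    · simpa using this
    · intro a _ ha
      rw [if_neg]
      intro h
      exact ha (Fin.ext h.symm)
    · simp
  have hR0 : R ≠ 0 := by
    intro h0
    have := congrArg (fun q => q.coeff (b₀ : ℕ)) h0
    simp only [R, finsetSum_coeff, coeff_C_mul_X_pow, coeff_zero] at this
    rw [Finset.sum_eq_single b₀] at this
    · simp only [if_true] at this
      exact hp ((transcendental_iff.mp htr') _ this)
    · intro b _ hb
      rw [if_neg]
      intro h
      exact hb (Fin.ext h.symm)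
    · simp
  have hRdeg : R.natDegree ≤ n := by
    apply natDegree_sum_le_of_forall_le
    intro b _
    refine (natDegree_C_mul_X_pow_le _ _).trans ?_
    have := b.2
    omega
  have hRx : aeval (ρ θ) R = 0 := by
    have h1 := congrArg ρ hg
    rw [map_zero, map_sum, Fintype.sum_prod_type_right] at h1
    rw [← h1]
    simp only [R, map_sum, map_mul, aeval_C, map_pow, aeval_X, p, map_smul]
    refine Finset.sum_congr rfl fun b _ => ?_
    rw [Finset.sum_mul]
    refine Finset.sum_congr rfl fun a _ => ?_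
    rw [hgen', ← IsScalarTower.algebraMap_apply, Algebra.smul_def, mul_assoc]
  have halg : IsAlgebraic K⟮ρ jA⟯ (ρ θ) := ⟨R, hR0, hRx⟩
  exact ⟨halg.isIntegral, (natDegree_le_of_dvd (minpoly.dvd _ _ hRx) hR0).trans hRdeg⟩

/-- Main algebraic statement: if `F` is the field of fractions of (the image of) `A`, `j ∈ A` is
transcendental and every `θ ∈ A` satisfies a `K`-linear dependence between the `j^a θ^b`, `b ≤ n`,
then `[F : K(j)] ≤ n`. -/
theorem finrank_adjoin_le_of_dependent [CharZero K] (ρ : A →ₐ[K] F) (jA : A) (n : ℕ)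
    (hinj : Function.Injective ρ)
    (hfrac : ∀ f : F, ∃ a b : A, b ≠ 0 ∧ f * ρ b = ρ a)
    (htr : Transcendental K (ρ jA))
    (hdep : ∀ θ : A, ∃ m : ℕ, ¬ LinearIndependent K
      (fun p : Fin (m + 1) × Fin (n + 1) => jA ^ (p.1 : ℕ) * θ ^ (p.2 : ℕ))) :
    FiniteDimensional K⟮ρ jA⟯ F ∧ Module.finrank K⟮ρ jA⟯ F ≤ n := by
  classical
  have hB1 : ∀ θ : A, IsIntegral K⟮ρ jA⟯ (ρ θ) ∧ (minpoly K⟮ρ jA⟯ (ρ θ)).natDegree ≤ n := by
    intro θ
    obtain ⟨m, hm⟩ := hdep θ
    exact isIntegral_and_natDegree_le_of_dependent ρ jA θ m n htr hm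
  -- `F / K(j)` is algebraic
  have hρne : ∀ b : A, b ≠ 0 → ρ b ≠ 0 := fun b hb h => hb (hinj (by rw [h, map_zero]))
  have hquot : ∀ f : F, ∃ a b : A, f = ρ a * (ρ b)⁻¹ := by
    intro f
    obtain ⟨a, b, hb, hf⟩ := hfrac f
    exact ⟨a, b, by rw [← hf, mul_assoc, mul_inv_cancel₀ (hρne b hb), mul_one]⟩
  have halg : Algebra.IsAlgebraic K⟮ρ jA⟯ F := by
    refine ⟨fun f => ?_⟩
    obtain ⟨a, b, rfl⟩ := hquot f
    exact (hB1 a).1.isAlgebraic.mul (hB1 b).1.isAlgebraic.inv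
  have hchar : CharZero K⟮ρ jA⟯ := charZero_of_injective_algebraMap
    (algebraMap K K⟮ρ jA⟯).injective
  have hsep : Algebra.IsSeparable K⟮ρ jA⟯ F := inferInstance
  -- every element is `ρ r / e`
  let B : Subalgebra K⟮ρ jA⟯ F := Algebra.adjoin K⟮ρ jA⟯ (Set.range ρ)
  have hBtop : ∀ f : F, f ∈ B := by
    intro f
    obtain ⟨a, b, rfl⟩ := hquot f
    have ha : ρ a ∈ B := Algebra.subset_adjoin ⟨a, rfl⟩
    have hb : ρ b ∈ B := Algebra.subset_adjoin ⟨b, rfl⟩
    exact B.mul_mem ha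
      (B.inv_mem_of_algebraic (x := ⟨ρ b, hb⟩) (Algebra.IsAlgebraic.isAlgebraic _))
  have hP : ∀ f : F, ∃ (r : A) (q : K[X]), q ≠ 0 ∧ f * aeval (ρ jA) q = ρ r := by
    intro f
    induction hBtop f using Algebra.adjoin_induction with
    | mem x hx =>
      obtain ⟨r, rfl⟩ := hx
      exact ⟨r, 1, one_ne_zero, by simp⟩
    | algebraMap c =>
      obtain ⟨r, s, hrs⟩ := (mem_adjoin_simple_iff K (c : F)).mp c.2
      by_cases hs : s = 0
      · refine ⟨0, 1, one_ne_zero, ?_⟩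
        have : algebraMap K⟮ρ jA⟯ F c = (c : F) := rfl
        rw [this, hrs, hs]
        simp
      · refine ⟨aeval jA r, s, hs, ?_⟩
        have : algebraMap K⟮ρ jA⟯ F c = (c : F) := rfl
        have hs' : aeval (ρ jA) s ≠ 0 := fun h => hs ((transcendental_iff.mp htr) _ h)
        rw [this, hrs, div_mul_cancel₀ _ hs', aeval_algHom_apply]
    | add x y _ _ hx hy =>
      obtain ⟨r₁, q₁, hq₁, h₁⟩ := hx
      obtain ⟨r₂, q₂, hq₂, h₂⟩ := hy
      refine ⟨r₁ * aeval jA q₂ + r₂ * aeval jA q₁, q₁ * q₂, mul_ne_zero hq₁ hq₂, ?_⟩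
      rw [map_add, map_mul, map_mul, map_mul, ← h₁, ← h₂, ← aeval_algHom_apply,
        ← aeval_algHom_apply]
      ring
    | mul x y _ _ hx hy =>
      obtain ⟨r₁, q₁, hq₁, h₁⟩ := hx
      obtain ⟨r₂, q₂, hq₂, h₂⟩ := hy
      refine ⟨r₁ * r₂, q₁ * q₂, mul_ne_zero hq₁ hq₂, ?_⟩
      rw [map_mul, map_mul, ← h₁, ← h₂]
      ring
  refine finrank_le_of_forall_finrank_adjoin_le n fun f => ?_
  obtain ⟨r, q, hq, hf⟩ := hP f
  have hq' : aeval (ρ jA) q ≠ 0 := fun h => hq ((transcendental_iff.mp htr) _ h)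
  have hmem : f ∈ K⟮ρ jA⟯⟮ρ r⟯ := by
    have h1 : f = ρ r * (aeval (ρ jA) q)⁻¹ := by
      rw [← hf, mul_assoc, mul_inv_cancel₀ hq', mul_one]
    rw [h1]
    refine mul_mem (mem_adjoin_simple_self _ _) (inv_mem ?_)
    have h2 : aeval (ρ jA) q ∈ K⟮ρ jA⟯ := by
      rw [mem_adjoin_simple_iff]
      exact ⟨q, 1, by simp⟩
    exact (K⟮ρ jA⟯⟮ρ r⟯).algebraMap_mem ⟨_, h2⟩
  have hle : K⟮ρ jA⟯⟮f⟯ ≤ K⟮ρ jA⟯⟮ρ r⟯ := by
    rw [adjoin_simple_le_iff]
    exact hmem
  have hfd : FiniteDimensional K⟮ρ jA⟯ K⟮ρ jA⟯⟮ρ r⟯ := adjoin.finiteDimensional (hB1 r).1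
  calc Module.finrank K⟮ρ jA⟯ K⟮ρ jA⟯⟮f⟯ ≤ Module.finrank K⟮ρ jA⟯ K⟮ρ jA⟯⟮ρ r⟯ :=
        finrank_le_of_le_right hle
    _ = (minpoly K⟮ρ jA⟯ (ρ r)).natDegree := adjoin.finrank (hB1 r).1
    _ ≤ n := (hB1 r).2

end B

end Fermat.Agent.S24.DegBd
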