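import Fermat.Agent.S24.AnDefs
import Fermat.Agent.S24.DegBdAlg

/-!
# S24 / B5b : degree bound `[FF N : ℚ̄(j)] ≤ card (SL₂(ℤ)/Γ₀(N))`, modulo the black boxes
-/

set_option autoImplicit false

namespace Fermat.Agent.S24.DegBd

open UpperHalfPlane ModularForm Filter Function ModularGroup
open scoped MatrixGroups Manifold Topology
attribute [local instance] algQbarComplex

/-! ### `j` is transcendental over `ℚ̄` -/

theorem jBarSeries_one_coeff : (jBarSeries 1).coeff (-1) = 1 := by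
  simp [jBarSeries, ModularCurve.qExpand_one_apply]

theorem transcendental_jF (N : ℕ) : Transcendental Qbar (jF N) := by
  intro halg
  have hint : IsIntegral Qbar (jF N) := halg.isIntegral
  have hmem : jF N ∈ (algebraMap Qbar (FF N)).range :=
    hint.mem_range_algebraMap_of_minpoly_splits (IsAlgClosed.splits _)
  obtain ⟨c, hc⟩ := hmem
  have h1 : (jBarSeries 1) = algebraMap Qbar (LaurentSeries Qbar) c := by
    have := congrArg (fun x : FF N => (x : LaurentSeries Qbar)) hc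
    exact this.symm
  have h2 := jBarSeries_one_coeff
  rw [h1, ModularCurve.algebraMap_laurentSeries_eq_single,
    HahnSeries.coeff_single_of_ne (by norm_num)] at h2
  exact zero_ne_one h2

/-! ### The algebra of holomorphic functions of moderate growth -/

/-- Holomorphic functions `f` on `ℍ` with `f Δ^m` bounded at `i∞` for some `m`. -/
noncomputable def modGrowth : Subalgebra ℂ (ℍ → ℂ) where
  carrier := {f | MDiff f ∧ ∃ m : ℕ, IsBoundedAtImInfty (fun τ => f τ * discriminant τ ^ m)}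
  mul_mem' := by
    rintro f g ⟨hf, m, hm⟩ ⟨hg, k, hk⟩
    refine ⟨hf.mul hg, m + k, ?_⟩
    have := hm.mul hk
    refine this.congr' (Eventually.of_forall fun τ => ?_) (Eventually.of_forall fun τ => rfl)
    simp only [Pi.mul_apply, pow_add]
    ring
  add_mem' := by
    rintro f g ⟨hf, m, hm⟩ ⟨hg, k, hk⟩
    refine ⟨hf.add hg, m + k, ?_⟩
    have hΔ : IsBoundedAtImInfty discriminant := discriminant_isZeroAtImInfty.isBoundedAtImInfty
    have hΔp : ∀ i : ℕ, IsBoundedAtImInfty (fun τ => discriminant τ ^ i) := by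
      intro i
      induction i with
      | zero =>
        simp only [pow_zero]
        exact Filter.const_boundedAtFilter atImInfty (1 : ℂ)
      | succ i ih =>
        have := ih.mul hΔ
        refine this.congr' (Eventually.of_forall fun τ => ?_) (Eventually.of_forall fun τ => rfl)
        simp only [Pi.mul_apply, pow_succ]
    have := (hm.mul (hΔp k)).add (hk.mul (hΔp m))
    refine this.congr' (Eventually.of_forall fun τ => ?_) (Eventually.of_forall fun τ => rfl)
    simp only [Pi.mul_apply, Pi.add_apply, pow_add]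
    ring
  algebraMap_mem' := by
    intro c
    refine ⟨mdifferentiable_const, 0, ?_⟩
    simp only [pow_zero, mul_one]
    exact Filter.const_boundedAtFilter atImInfty c

/-! ### Translates of a `Γ₀(N)`-invariant function -/

/-- The translate of `θ` attached to the coset `x = g Γ₀(N)`: `τ ↦ θ (g⁻¹ τ)`. -/
noncomputable def coTr (N : ℕ) (θ : ℍ → ℂ) (x : Cosets N) : ℍ → ℂ :=
  fun τ => θ ((x.out)⁻¹ • τ)

theorem coTr_smul {N : ℕ} {θ : ℍ → ℂ}
    (hinv : ∀ γ : SL(2, ℤ), γ ∈ CongruenceSubgroup.Gamma0 N → ∀ τ : ℍ, θ (γ • τ) = θ τ)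
    (x : Cosets N) (γ : SL(2, ℤ)) (τ : ℍ) :
    coTr N θ x (γ • τ) = coTr N θ (γ⁻¹ • x) τ := by
  have hx : γ⁻¹ • x = QuotientGroup.mk (γ⁻¹ * x.out) := by
    conv_lhs => rw [← QuotientGroup.out_eq' x]
    rfl
  obtain ⟨h, hh⟩ := QuotientGroup.mk_out_eq_mul (CongruenceSubgroup.Gamma0 N) (γ⁻¹ * x.out)
  simp only [coTr]
  rw [hx, hh]
  have : (γ⁻¹ * x.out * (h : SL(2, ℤ)))⁻¹ = (h : SL(2, ℤ))⁻¹ * ((x.out)⁻¹ * γ) := by
    group
  rw [this, mul_smul, hinv _ (inv_mem h.2), mul_smul]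

theorem coTr_one {N : ℕ} {θ : ℍ → ℂ}
    (hinv : ∀ γ : SL(2, ℤ), γ ∈ CongruenceSubgroup.Gamma0 N → ∀ τ : ℍ, θ (γ • τ) = θ τ) :
    coTr N θ (QuotientGroup.mk 1) = θ := by
  funext τ
  obtain ⟨h, hh⟩ := QuotientGroup.mk_out_eq_mul (CongruenceSubgroup.Gamma0 N) 1
  simp only [coTr]
  rw [hh, one_mul, hinv _ (inv_mem h.2)]

theorem mdiff_comp_SL_smul {θ : ℍ → ℂ} (hθ : MDiff θ) (g : SL(2, ℤ)) :
    MDiff (fun τ : ℍ => θ (g • τ)) := by
  have h1 : MDiff (fun τ : ℍ => (g : GL (Fin 2) ℝ) • τ) :=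
    UpperHalfPlane.mdifferentiable_smul (by simp)
  exact hθ.comp h1

/-- Precomposition with `γ` as a ring endomorphism of `ℍ → ℂ`. -/
noncomputable def preComp (γ : SL(2, ℤ)) : (ℍ → ℂ) →+* (ℍ → ℂ) :=
  RingHom.pi (fun τ => Pi.evalRingHom (fun _ => ℂ) (γ • τ))

theorem preComp_apply (γ : SL(2, ℤ)) (f : ℍ → ℂ) (τ : ℍ) : preComp γ f τ = f (γ • τ) := rfl

open Polynomial in
/-- The characteristic polynomial argument: a holomorphic `Γ₀(N)`-invariant function of moderate
growth at all cusps satisfies a `ℂ`-linear dependence between the `j^a θ^b`, `b ≤ n`. -/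
theorem exists_complex_dependence (N : ℕ) [NeZero N] (θ : ℍ → ℂ) (hmd : MDiff θ)
    (hinv : ∀ γ : SL(2, ℤ), γ ∈ CongruenceSubgroup.Gamma0 N → ∀ τ : ℍ, θ (γ • τ) = θ τ)
    (hgr : ∀ g : SL(2, ℤ), ∃ m : ℕ, IsBoundedAtImInfty (fun τ => θ (g • τ) * discriminant τ ^ m))
    (hpoly : ∀ (h : ℍ → ℂ), MDiff h → (∀ (γ : SL(2, ℤ)) (τ : ℍ), h (γ • τ) = h τ) → ∀ m : ℕ,
      IsBoundedAtImInfty (fun τ => h τ * discriminant τ ^ m) →
      ∃ P : Polynomial ℂ, P.natDegree ≤ m ∧ ∀ τ, h τ = P.eval (jFun τ)) :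
    ∃ m : ℕ, ¬ LinearIndependent ℂ
      (fun p : Fin (m + 1) × Fin (Nat.card (Cosets N) + 1) =>
        jFun ^ (p.1 : ℕ) * θ ^ (p.2 : ℕ)) := by
  classical
  have hfin : Finite (Cosets N) := inferInstance
  let _ : Fintype (Cosets N) := Fintype.ofFinite _
  set n := Nat.card (Cosets N) with hn
  have hncard : Fintype.card (Cosets N) = n := by rw [hn, Nat.card_eq_fintype_card]
  have hmem : ∀ x, coTr N θ x ∈ modGrowth := fun x => ⟨mdiff_comp_SL_smul hmd _, hgr _⟩
  let Q' : Polynomial modGrowth := ∏ x : Cosets N, (X - C ⟨coTr N θ x, hmem x⟩)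
  let Q : Polynomial (ℍ → ℂ) := ∏ x : Cosets N, (X - C (coTr N θ x))
  have hQ : Q = Q'.map (algebraMap modGrowth (ℍ → ℂ)) := by
    simp only [Q, Q', Polynomial.map_prod, Polynomial.map_sub, map_X, map_C]
    rfl
  have hcoeff_mem : ∀ b, Q.coeff b ∈ modGrowth := by
    intro b
    rw [hQ, coeff_map]
    exact (Q'.coeff b).2
  have hcoeff_inv : ∀ (b : ℕ) (γ : SL(2, ℤ)) (τ : ℍ), Q.coeff b (γ • τ) = Q.coeff b τ := by
    intro b γ τ
    have hmap : Q.map (preComp γ) = Q := by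
      simp only [Q, Polynomial.map_prod, Polynomial.map_sub, map_X, map_C]
      refine Fintype.prod_equiv (MulAction.toPerm γ⁻¹) _ _ (fun x => ?_)
      congr 2
      funext τ
      exact coTr_smul hinv x γ τ
    calc Q.coeff b (γ • τ) = preComp γ (Q.coeff b) τ := rfl
      _ = (Q.map (preComp γ)).coeff b τ := by rw [coeff_map]
      _ = Q.coeff b τ := by rw [hmap]
  have hex : ∀ b : ℕ, ∃ P : Polynomial ℂ, ∀ τ, Q.coeff b τ = P.eval (jFun τ) := by
    intro b
    obtain ⟨h1, m, hm⟩ := hcoeff_mem b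
    obtain ⟨P, -, hP⟩ := hpoly _ h1 (hcoeff_inv b) m hm
    exact ⟨P, hP⟩
  choose P hP using hex
  have hQmonic : Q.Monic := monic_prod_of_monic _ _ fun x _ => monic_X_sub_C _
  have hQdeg : Q.natDegree = n := by
    rw [← hncard]
    exact natDegree_finsetProd_X_sub_C_eq_card _ _
  have hQeval : Q.eval θ = 0 := by
    simp only [Q, eval_prod]
    refine Finset.prod_eq_zero (Finset.mem_univ (QuotientGroup.mk 1 : Cosets N)) ?_
    rw [eval_sub, eval_X, eval_C, coTr_one hinv, sub_self]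
  let m : ℕ := (Finset.range (n + 1)).sup fun b => (P b).natDegree
  have hm : ∀ b : Fin (n + 1), (P b).natDegree < m + 1 := by
    intro b
    have : (P b).natDegree ≤ m :=
      Finset.le_sup (f := fun b => (P b).natDegree) (Finset.mem_range.mpr b.2)
    omega
  refine ⟨m, fun hli => ?_⟩
  rw [Fintype.linearIndependent_iff] at hli
  have hzero := hli (fun p => (P p.2).coeff p.1) ?_
  · have hPn : P n = 0 := by
      ext a
      by_cases ha : a < m + 1
      · simpa using hzero (⟨a, ha⟩, ⟨n, Nat.lt_succ_self n⟩)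
      · rw [coeff_zero]
        apply coeff_eq_zero_of_natDegree_lt
        have := hm ⟨n, Nat.lt_succ_self n⟩
        simp only at this
        omega
    have h1 : Q.coeff n = 1 := by
      rw [← hQdeg]
      exact hQmonic.coeff_natDegree
    have h2 := hP n UpperHalfPlane.I
    rw [h1, hPn] at h2
    simp at h2
  · funext τ
    rw [Fintype.sum_prod_type_right]
    have h1 := congrFun hQeval τ
    rw [eval_eq_sum_range, hQdeg, Finset.sum_apply, Finset.sum_range, Pi.zero_apply] at h1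
    rw [Finset.sum_apply, Pi.zero_apply, ← h1]
    refine Finset.sum_congr rfl fun b _ => ?_
    rw [Finset.sum_apply, Pi.mul_apply, hP, eval_eq_sum_range' (hm b), Finset.sum_range,
      Finset.sum_mul]
    refine Finset.sum_congr rfl fun a _ => ?_
    simp only [Pi.smul_apply, Pi.mul_apply, Pi.pow_apply, smul_eq_mul]
    ring

theorem jFunD_one : jFunD 1 = jFun := by
  funext τ
  simp [jFunD]

open IntermediateField in
/-- The degree bound, with the inputs of the packages B4, B5a, B6b as explicit hypotheses. -/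
theorem finrank_FF_le_of (N : ℕ) [NeZero N]
    (hρ : ∃ ρ : funAlg N →ₐ[Qbar] FF N, Function.Injective ρ ∧
      (∀ (d : ℕ) [NeZero d] (hd : d ∣ N), ρ (jAlg N d hd) = jBar N d hd) ∧
      (∀ f : FF N, ∃ a b : funAlg N, b ≠ 0 ∧ f * ρ b = ρ a))
    (hli : ∀ (κ : Type) (θ : κ → funAlg N), LinearIndependent Qbar θ →
      LinearIndependent ℂ (fun i => ((θ i : funAlg N) : ℍ → ℂ)))
    (hmd : ∀ θ : ℍ → ℂ, θ ∈ funAlg N → MDiff θ)
    (hinv : ∀ θ : ℍ → ℂ, θ ∈ funAlg N → ∀ γ : SL(2, ℤ), γ ∈ CongruenceSubgroup.Gamma0 N →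
      ∀ τ : ℍ, θ (γ • τ) = θ τ)
    (hgr : ∀ θ : ℍ → ℂ, θ ∈ funAlg N → ∀ g : SL(2, ℤ), ∃ m : ℕ,
      IsBoundedAtImInfty (fun τ => θ (g • τ) * discriminant τ ^ m))
    (hpoly : ∀ (h : ℍ → ℂ), MDiff h → (∀ (γ : SL(2, ℤ)) (τ : ℍ), h (γ • τ) = h τ) → ∀ m : ℕ,
      IsBoundedAtImInfty (fun τ => h τ * discriminant τ ^ m) →
      ∃ P : Polynomial ℂ, P.natDegree ≤ m ∧ ∀ τ, h τ = P.eval (jFun τ)) :
    FiniteDimensional Qbar⟮jF N⟯ (FF N) ∧
      Module.finrank Qbar⟮jF N⟯ (FF N) ≤ Nat.card (Cosets N) := by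
  obtain ⟨ρ, hinj, hj, hfrac⟩ := hρ
  have hj1 : ρ (jAlg N 1 (one_dvd N)) = jF N := hj 1 (one_dvd N)
  have htr : Transcendental Qbar (ρ (jAlg N 1 (one_dvd N))) := by
    rw [hj1]
    exact transcendental_jF N
  have key := finrank_adjoin_le_of_dependent ρ (jAlg N 1 (one_dvd N)) (Nat.card (Cosets N))
    hinj hfrac htr ?_
  · rw [hj1] at key
    exact key
  · intro θ
    obtain ⟨m, hm⟩ := exists_complex_dependence N θ.1 (hmd _ θ.2) (hinv _ θ.2) (hgr _ θ.2) hpoly
    refine ⟨m, fun h => hm ?_⟩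
    have := hli _ _ h
    convert this using 2 with p
    simp [jAlg, jFunD_one]

end Fermat.Agent.S24.DegBd
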