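import Fermat.Agent.S24.AnDefs

/-!
# S24 / B6b, arithmetic half : Hermite normal form, `Γ₀(N)`-invariance of `funAlg N`
-/

set_option autoImplicit false

namespace Fermat.Agent.S24

open UpperHalfPlane ModularForm Filter Function ModularGroup
open scoped MatrixGroups Manifold Topology
attribute [local instance] algQbarComplex
local notation "𝕢" => Periodic.qParam

namespace Hermite

/-- Integer Hermite normal form of `diag(d,1) * g`. -/
theorem exists_matrix (d : ℕ) (hd : 0 < d) (g : SL(2, ℤ)) :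
    ∃ (γ : SL(2, ℤ)) (a b e : ℤ), 0 < a ∧ 0 < e ∧ a * e = d ∧ a = Int.gcd d (g 1 0) ∧
      (d : ℤ) * g 0 0 = γ 0 0 * a ∧ (d : ℤ) * g 0 1 = γ 0 0 * b + γ 0 1 * e ∧
      g 1 0 = γ 1 0 * a ∧ g 1 1 = γ 1 0 * b + γ 1 1 * e := by
  set p := g 0 0 with hp
  set q := g 0 1 with hq
  set r := g 1 0 with hr
  set s := g 1 1 with hs
  have hdet : p * s - q * r = 1 := by
    have := g.det_coe
    rw [Matrix.det_fin_two] at this
    simpa [hp, hq, hr, hs] using this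
  set a : ℤ := ((Int.gcd d r : ℕ) : ℤ) with ha
  have hd' : (d : ℤ) ≠ 0 := by exact_mod_cast hd.ne'
  have ha_pos : 0 < a := by
    have : 0 < Int.gcd d r := Int.gcd_pos_of_ne_zero_left _ hd'
    rw [ha]
    exact_mod_cast this
  obtain ⟨e, he⟩ : a ∣ (d : ℤ) := Int.gcd_dvd_left _ _
  obtain ⟨z, hz⟩ : a ∣ r := Int.gcd_dvd_right _ _
  have he_pos : 0 < e := by
    have : (0 : ℤ) < a * e := by rw [← he]; exact_mod_cast hd
    exact (pos_iff_pos_of_mul_pos this).1 ha_pos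
  -- `e` and `z` are coprime
  have hez : IsCoprime e z := by
    obtain ⟨u, v, huv⟩ : ∃ u v : ℤ, a = d * u + r * v := ⟨_, _, Int.gcd_eq_gcd_ab d r⟩
    refine ⟨u, v, ?_⟩
    have : a * (u * e + v * z) = a * 1 := by
      calc a * (u * e + v * z) = (a * e) * u + (a * z) * v := by ring
        _ = d * u + r * v := by rw [← he, ← hz]
        _ = a * 1 := by rw [← huv, mul_one]
    exact mul_left_cancel₀ ha_pos.ne' this
  have hpz : IsCoprime p z := by
    refine ⟨s, -(q * a), ?_⟩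
    calc s * p + -(q * a) * z = p * s - q * (a * z) := by ring
      _ = 1 := by rw [← hz, hdet]
  have hx : IsCoprime (e * p) z := hez.mul_left hpz
  obtain ⟨w0, y0', hwy⟩ := hx
  -- `w0 * (e p) + y0' * z = 1`; put `y0 = - y0'`
  refine ⟨⟨!![e * p, -y0'; z, w0], by rw [Matrix.det_fin_two_of]; linarith⟩, a,
    w0 * d * q + y0' * s, e, ha_pos, he_pos, he.symm, rfl, ?_, ?_, ?_, ?_⟩
  · simp only [Matrix.of_apply, Matrix.cons_val', Matrix.cons_val_zero,
      Matrix.cons_val_fin_one]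
    rw [he]; ring
  · simp only [Matrix.of_apply, Matrix.cons_val', Matrix.cons_val_zero,
      Matrix.cons_val_fin_one, Matrix.cons_val_one]
    linear_combination (-(d : ℤ) * q) * hwy + y0' * z * q * he - y0' * e * q * hz - y0' * e * hdet
  · simp only [Matrix.of_apply, Matrix.cons_val', Matrix.cons_val_zero,
      Matrix.cons_val_fin_one, Matrix.cons_val_one]
    rw [hz]; ring
  · simp only [Matrix.of_apply, Matrix.cons_val', Matrix.cons_val_zero,
      Matrix.cons_val_fin_one, Matrix.cons_val_one]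
    linear_combination (-s) * hwy - w0 * z * q * he + w0 * e * q * hz + w0 * e * hdet

/-- `j` is `SL₂(ℤ)`-invariant. -/
theorem jFun_smul' (γ : SL(2, ℤ)) (τ : ℍ) : jFun (γ • τ) = jFun τ := by
  have h4 : E₄ (γ • τ) = (denom γ τ) ^ (4 : ℤ) * E₄ τ :=
    SlashInvariantForm.slash_action_eqn'' (Γ := 𝒮ℒ) E₄ (γ := (γ : GL (Fin 2) ℝ)) ⟨γ, rfl⟩ τ
  have h12 : discriminant (γ • τ) = (denom γ τ) ^ (12 : ℤ) * discriminant τ :=
    SlashInvariantForm.slash_action_eqn'' (Γ := 𝒮ℒ) CuspForm.discriminant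
      (γ := (γ : GL (Fin 2) ℝ)) ⟨γ, rfl⟩ τ
  have hden : (denom γ τ) ≠ 0 := denom_ne_zero _ _
  have hΔ := discriminant_ne_zero τ
  unfold jFun
  rw [h4, h12]
  field_simp

theorem coe_smul_eq (g : SL(2, ℤ)) (τ : ℍ) :
    ((g • τ : ℍ) : ℂ) = ((g 0 0 : ℂ) * τ + (g 0 1 : ℂ)) / ((g 1 0 : ℂ) * τ + (g 1 1 : ℂ)) := by
  rw [coe_specialLinearGroup_apply]
  simp

theorem denom_ne (g : SL(2, ℤ)) (τ : ℍ) : ((g 1 0 : ℂ) * τ + (g 1 1 : ℂ)) ≠ 0 := by
  have := denom_ne_zero (g : GL (Fin 2) ℝ) τ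
  simpa [denom] using this

end Hermite

/-- KEY (Hermite normal form): `j(d · gτ) = j((aτ+b)/e)` with `a e = d`, `a = gcd(d, g₁₀)`. -/
theorem jFunD_smul_eq (d : ℕ) (hd : 0 < d) (g : SL(2, ℤ)) :
    ∃ a b e : ℤ, 0 < a ∧ 0 < e ∧ a * e = d ∧ a = Int.gcd d (g 1 0) ∧
      ∀ τ : ℍ, jFunD d (g • τ) = jFun (ofComplex (((a : ℂ) * τ + b) / e)) := by
  obtain ⟨γ, a, b, e, ha, he, hae, hgcd, h00, h01, h10, h11⟩ := Hermite.exists_matrix d hd g
  refine ⟨a, b, e, ha, he, hae, hgcd, fun τ => ?_⟩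
  have haR : (0 : ℝ) < a := by exact_mod_cast ha
  have heR : (0 : ℝ) < e := by exact_mod_cast he
  have heC : (e : ℂ) ≠ 0 := by exact_mod_cast he.ne'
  have him : 0 < (((a : ℂ) * τ + b) / e).im := by
    have : (((a : ℂ) * τ + b) / e).im = a * τ.im / e := by
      have h : (((a : ℂ) * τ + b) / e) = (((a : ℝ) : ℂ) * τ + ((b : ℝ) : ℂ)) / ((e : ℝ) : ℂ) := by
        push_cast; ring
      rw [h, Complex.div_ofReal_im]
      simp
    rw [this]
    have := τ.im_pos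
    positivity
  set σ : ℍ := ⟨((a : ℂ) * τ + b) / e, him⟩ with hσ
  have h1 : ofComplex (((a : ℂ) * τ + b) / e) = σ := ofComplex_apply_of_im_pos him
  have hcoe : (d : ℂ) * ((g • τ : ℍ) : ℂ) = ((γ • σ : ℍ) : ℂ) := by
    rw [Hermite.coe_smul_eq, Hermite.coe_smul_eq]
    have hσc : (σ : ℂ) = ((a : ℂ) * τ + b) / e := rfl
    have hd1 := Hermite.denom_ne g τ
    have hd2 := Hermite.denom_ne γ σ
    rw [hσc] at hd2 ⊢
    have c00 : (d : ℂ) * (g 0 0 : ℂ) = (γ 0 0 : ℂ) * a := by exact_mod_cast h00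
    have c01 : (d : ℂ) * (g 0 1 : ℂ) = (γ 0 0 : ℂ) * b + (γ 0 1 : ℂ) * e := by exact_mod_cast h01
    have c10 : (g 1 0 : ℂ) = (γ 1 0 : ℂ) * a := by exact_mod_cast h10
    have c11 : (g 1 1 : ℂ) = (γ 1 0 : ℂ) * b + (γ 1 1 : ℂ) * e := by exact_mod_cast h11
    rw [mul_div_assoc', div_eq_div_iff hd1 hd2]
    have e1 : (d : ℂ) * ((g 0 0 : ℂ) * τ + (g 0 1 : ℂ))
        = (γ 0 0 : ℂ) * a * τ + ((γ 0 0 : ℂ) * b + (γ 0 1 : ℂ) * e) := by
      rw [← c00, ← c01]; ring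
    rw [e1, c10, c11]
    field_simp
    ring
  have h2 : ofComplex ((d : ℂ) * ((g • τ : ℍ) : ℂ)) = γ • σ := by
    rw [hcoe]
    exact ofComplex_apply _
  unfold jFunD
  rw [h1, h2, Hermite.jFun_smul']

end Fermat.Agent.S24
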