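import Fermat.Agent.S24.MerGerm
import Fermat.Agent.S24.FunAlgProps
import Fermat.Agent.S24.FunAlgCusp
import Fermat.Agent.S24.FunAlgInv
import Fermat.Agent.S24.QExpHom

/-!
# S24 B7b : local uniformisation at the cusps (`j = ∞`)
-/

set_option autoImplicit false

namespace Fermat.Agent.S24

open UpperHalfPlane ModularForm Filter Function ModularGroup
open scoped MatrixGroups Manifold Topology
attribute [local instance] algQbarComplex
local notation "𝕢" => Periodic.qParam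

namespace UnifInfty

/-- Invariance of a meromorphic germ of finite order `k` under the rotation `u ↦ c u` forces
`c ^ k = 1`. -/
theorem rotate_zpow_order_eq_one {H : ℂ → ℂ} (hH : MeromorphicAt H 0) (k : ℤ)
    (hk : meromorphicOrderAt H 0 = k) {c : ℂ} (hc : c ≠ 0)
    (hinv : ∀ᶠ u in 𝓝[≠] (0 : ℂ), H (c * u) = H u) : c ^ k = 1 := by
  obtain ⟨g, hg, hg0, hHg⟩ := (meromorphicOrderAt_eq_int_iff hH).1 hk
  have hφt : Tendsto (fun u : ℂ => c * u) (𝓝[≠] 0) (𝓝[≠] 0) := by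
    refine tendsto_nhdsWithin_iff.2 ⟨?_, ?_⟩
    · have : Tendsto (fun u : ℂ => c * u) (𝓝 0) (𝓝 (c * 0)) :=
        (continuous_const.mul continuous_id).tendsto 0
      rw [mul_zero] at this
      exact this.mono_left nhdsWithin_le_nhds
    · filter_upwards [self_mem_nhdsWithin] with u hu
      exact mul_ne_zero hc hu
  have hHg' : ∀ᶠ u in 𝓝[≠] (0 : ℂ), H (c * u) = (c * u - 0) ^ k • g (c * u) :=
    hφt.eventually hHg
  have h1 : Tendsto (fun u : ℂ => c ^ k * g (c * u)) (𝓝[≠] 0) (𝓝 (c ^ k * g 0)) :=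
    Tendsto.const_mul _ (hg.continuousAt.tendsto.comp (hφt.mono_right nhdsWithin_le_nhds))
  have h2 : Tendsto (fun u : ℂ => c ^ k * g (c * u)) (𝓝[≠] 0) (𝓝 (g 0)) := by
    have h3 : Tendsto g (𝓝[≠] 0) (𝓝 (g 0)) :=
      hg.continuousAt.tendsto.mono_left nhdsWithin_le_nhds
    refine h3.congr' ?_
    filter_upwards [hHg, hHg', hinv, self_mem_nhdsWithin] with u e1 e2 e3 e4
    have hne : u ≠ 0 := e4
    rw [e1, e2] at e3
    simp only [smul_eq_mul, sub_zero] at e3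
    rw [mul_zpow, mul_assoc, mul_comm (c ^ k), mul_assoc] at e3
    have := mul_left_cancel₀ (zpow_ne_zero k hne) e3
    rw [← this, mul_comm]
  have h3 := tendsto_nhds_unique h1 h2
  exact mul_right_cancel₀ hg0 (by rw [h3, one_mul])

/-- The function `u ↦ θ (g • τ(u))`, `τ(u) = N/(2πi) log u`. -/
noncomputable def cuspFn (N : ℕ) (θ : ℍ → ℂ) (g : SL(2, ℤ)) : ℂ → ℂ :=
  fun u => θ (g • ofComplex (Periodic.invQParam N u))

theorem conj_T_zpow_mem (N : ℕ) (g : SL(2, ℤ)) (m : ℤ) :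
    g * T ^ (m * N) * g⁻¹ ∈ CongruenceSubgroup.Gamma0 N := by
  have h1 : T ^ (m * N) ∈ CongruenceSubgroup.Gamma N := by
    have := CongruenceSubgroup.ModularGroup_T_pow_mem_Gamma (N : ℤ) (m * N) (Dvd.intro_left m rfl)
    simpa using this
  have h2 : g * T ^ (m * N) * g⁻¹ ∈ CongruenceSubgroup.Gamma N :=
    (CongruenceSubgroup.Gamma_normal N).conj_mem _ h1 g
  have h3 : CongruenceSubgroup.Gamma N ≤ CongruenceSubgroup.Gamma0 N := by
    intro A hA
    rw [CongruenceSubgroup.Gamma_mem] at hA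
    rw [CongruenceSubgroup.Gamma0_mem]
    exact hA.2.2.1
  exact h3 h2

theorem ofComplex_add_int (τ : ℍ) (k : ℤ) : ofComplex ((τ : ℂ) + k) = T ^ k • τ := by
  rw [modular_T_zpow_smul]
  apply UpperHalfPlane.ext
  have him : 0 < ((τ : ℂ) + k).im := by simpa using τ.im_pos
  rw [ofComplex_apply_of_im_pos him, coe_vadd]
  push_cast
  ring

variable {N : ℕ} [NeZero N]

theorem cuspFn_qParam {θ : ℍ → ℂ} (hθ : θ ∈ funAlg N) (g : SL(2, ℤ)) (τ : ℍ) :
    cuspFn N θ g (𝕢 N τ) = θ (g • τ) := by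
  have hN : (N : ℝ) ≠ 0 := by exact_mod_cast NeZero.ne N
  obtain ⟨m, hm⟩ := Periodic.qParam_left_inv_mod_period hN (τ : ℂ)
  have h1 : ofComplex (Periodic.invQParam N (𝕢 N τ)) = T ^ (m * N) • τ := by
    rw [hm, ← ofComplex_add_int]
    push_cast
    rfl
  unfold cuspFn
  rw [h1]
  have h2 : g • T ^ (m * (N : ℤ)) • τ = (g * T ^ (m * (N : ℤ)) * g⁻¹) • (g • τ) := by
    simp [mul_smul]
  rw [h2, funAlg_invariant hθ _ (conj_T_zpow_mem N g m)]

/-- For `0 < ‖u‖ < 1`: `θ (g • T^k • τ(u)) = cuspFn N θ g (𝕢 N k * u)`. -/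
theorem cuspFn_rotate {θ : ℍ → ℂ} (hθ : θ ∈ funAlg N) (g : SL(2, ℤ)) (k : ℤ) {u : ℂ}
    (hu0 : u ≠ 0) (hu1 : ‖u‖ < 1) :
    θ (g • T ^ k • ofComplex (Periodic.invQParam N u)) = cuspFn N θ g (𝕢 N k * u) := by
  have hN : (0 : ℝ) < N := by exact_mod_cast Nat.pos_of_ne_zero (NeZero.ne N)
  have him := Periodic.im_invQParam_pos_of_norm_lt_one hN hu1 hu0
  rw [← cuspFn_qParam hθ g]
  congr 1
  rw [← ofComplex_add_int, ofComplex_apply_of_im_pos him]
  have him2 : 0 < (Periodic.invQParam N u + k).im := by simpa using him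
  rw [ofComplex_apply_of_im_pos him2]
  show 𝕢 N (Periodic.invQParam N u + k) = _
  have h1 : 𝕢 N (Periodic.invQParam N u + k) = 𝕢 N (Periodic.invQParam N u) * 𝕢 N k := by
    simp only [Periodic.qParam, ← Complex.exp_add]
    congr 1
    ring
  rw [h1, Periodic.qParam_right_inv hN.ne' hu0, mul_comm]

/-- Identity theorem on `ℍ`. -/
theorem eq_of_eventuallyEq_atImInfty {f₁ f₂ : ℍ → ℂ} (h₁ : MDiff f₁) (h₂ : MDiff f₂)
    (h : ∀ᶠ τ in atImInfty, f₁ τ = f₂ τ) : f₁ = f₂ := by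
  rw [UpperHalfPlane.mdifferentiable_iff] at h₁ h₂
  have hopen : IsOpen {z : ℂ | 0 < z.im} := isOpen_lt continuous_const Complex.continuous_im
  have han : AnalyticOnNhd ℂ (f₁ ∘ ofComplex - f₂ ∘ ofComplex) {z : ℂ | 0 < z.im} :=
    (h₁.sub h₂).analyticOnNhd hopen
  have hconn : IsPreconnected {z : ℂ | 0 < z.im} := (convex_halfSpace_im_gt 0).isPreconnected
  obtain ⟨A, hA⟩ := (atImInfty_mem _).mp h
  set z₀ : ℂ := ((max A 0 + 1 : ℝ) : ℂ) * Complex.I with hz₀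
  have hz₀im : z₀.im = max A 0 + 1 := by simp [hz₀]
  have hz₀mem : z₀ ∈ {z : ℂ | 0 < z.im} := by
    show 0 < z₀.im
    rw [hz₀im]
    have := le_max_right A 0
    linarith
  have hev : (f₁ ∘ ofComplex - f₂ ∘ ofComplex) =ᶠ[𝓝 z₀] 0 := by
    have hopen2 : IsOpen {z : ℂ | max A 0 < z.im} :=
      isOpen_lt continuous_const Complex.continuous_im
    have hmem : z₀ ∈ {z : ℂ | max A 0 < z.im} := by
      show max A 0 < z₀.im
      rw [hz₀im]; linarith
    filter_upwards [hopen2.mem_nhds hmem] with z hz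
    have hz' : max A 0 < z.im := hz
    have hzpos : 0 < z.im := lt_of_le_of_lt (le_max_right A 0) hz'
    have hAz : A ≤ (ofComplex z).im := by
      rw [ofComplex_apply_of_im_pos hzpos]
      exact ((le_max_left A 0).trans hz'.le)
    have h3 : f₁ (ofComplex z) = f₂ (ofComplex z) := hA (ofComplex z) hAz
    simp [h3]
  have hzero := han.eqOn_zero_of_preconnected_of_eventuallyEq_zero hconn hz₀mem hev
  funext τ
  have := hzero (show (τ : ℂ) ∈ {z : ℂ | 0 < z.im} from τ.im_pos)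
  simpa [sub_eq_zero] using this

theorem mdiff_comp_smul {θ : ℍ → ℂ} (hθ : MDiff θ) (g : SL(2, ℤ)) :
    MDiff (fun τ : ℍ => θ (g • τ)) := by
  have h : MDiff (fun τ : ℍ => ((g : SL(2, ℤ)) : GL (Fin 2) ℝ) • τ) :=
    mdifferentiable_smul (by simp)
  exact hθ.comp h

theorem eq_of_cuspFn_eventuallyEq {θ₁ θ₂ : ℍ → ℂ} (h₁ : θ₁ ∈ funAlg N) (h₂ : θ₂ ∈ funAlg N)
    (g₁ g₂ : SL(2, ℤ)) (h : cuspFn N θ₁ g₁ =ᶠ[𝓝[≠] 0] cuspFn N θ₂ g₂) (τ : ℍ) :
    θ₁ (g₁ • τ) = θ₂ (g₂ • τ) := by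
  have hN : (0 : ℝ) < N := by exact_mod_cast Nat.pos_of_ne_zero (NeZero.ne N)
  have ht : Tendsto (fun τ : ℍ => 𝕢 N (τ : ℂ)) atImInfty (𝓝[≠] 0) :=
    (Periodic.qParam_tendsto hN).comp tendsto_coe_atImInfty
  have hev : ∀ᶠ τ : ℍ in atImInfty, θ₁ (g₁ • τ) = θ₂ (g₂ • τ) := by
    filter_upwards [ht.eventually h] with τ hτ
    rwa [cuspFn_qParam h₁, cuspFn_qParam h₂] at hτ
  exact congrFun (eq_of_eventuallyEq_atImInfty (mdiff_comp_smul (funAlg_mdiff h₁) g₁)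
    (mdiff_comp_smul (funAlg_mdiff h₂) g₂) hev) τ

theorem mk_congr {f g : ℂ → ℂ} (hf : MeromorphicAt f 0) (hg : MeromorphicAt g 0) (h : f = g) :
    MerGerm.mk f hf = MerGerm.mk g hg := by
  subst h; rfl

theorem cuspFn_meromorphicAt {θ : ℍ → ℂ} (hθ : θ ∈ funAlg N) (g : SL(2, ℤ)) :
    MeromorphicAt (cuspFn N θ g) 0 :=
  funAlg_meromorphicAt_cusp hθ g

variable (N) in
/-- The expansion homomorphism at the cusp `g • ∞`. -/
noncomputable def eps (g : SL(2, ℤ)) : funAlg N →ₐ[Qbar] MerGerm where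
  toFun θ := MerGerm.mk (cuspFn N θ g) (cuspFn_meromorphicAt θ.2 g)
  map_one' := by
    rw [← map_one (algebraMap ℂ MerGerm), ← MerGerm.mk_const]
    exact mk_congr _ _ rfl
  map_mul' θ₁ θ₂ := by
    rw [← MerGerm.mk_mul]
    exact mk_congr _ _ rfl
  map_zero' := by
    rw [← map_zero (algebraMap ℂ MerGerm), ← MerGerm.mk_const]
    exact mk_congr _ _ rfl
  map_add' θ₁ θ₂ := by
    rw [← MerGerm.mk_add]
    exact mk_congr _ _ rfl
  commutes' a := by
    rw [MerGerm.algebraMap_Qbar, ← MerGerm.mk_const]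
    exact mk_congr _ _ rfl

theorem eps_apply (g : SL(2, ℤ)) (θ : funAlg N) :
    eps N g θ = MerGerm.mk (cuspFn N θ g) (cuspFn_meromorphicAt θ.2 g) := rfl

theorem eps_eq_iff (g₁ g₂ : SL(2, ℤ)) (θ₁ θ₂ : funAlg N) :
    eps N g₁ θ₁ = eps N g₂ θ₂ ↔ ∀ τ : ℍ, (θ₁ : ℍ → ℂ) (g₁ • τ) = (θ₂ : ℍ → ℂ) (g₂ • τ) := by
  rw [eps_apply, eps_apply, MerGerm.mk_eq_mk_iff]
  constructor
  · intro h
    exact eq_of_cuspFn_eventuallyEq θ₁.2 θ₂.2 g₁ g₂ h
  · intro h
    exact Eventually.of_forall fun u => h _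

theorem eps_injective (g : SL(2, ℤ)) : Function.Injective (eps N g) := by
  intro θ₁ θ₂ h
  rw [eps_eq_iff] at h
  apply Subtype.ext
  funext τ
  have := h (g⁻¹ • τ)
  simpa using this

/-- Extension of an injective algebra homomorphism to the field of fractions. -/
theorem exists_lift {K A F M : Type*} [Field K] [CommRing A] [Field F] [Field M] [Algebra K A]
    [Algebra K F] [Algebra K M] (ρ : A →ₐ[K] F) (hρ : Function.Injective ρ)
    (hfrac : ∀ f : F, ∃ a b : A, b ≠ 0 ∧ f * ρ b = ρ a) (ε : A →ₐ[K] M)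
    (hε : Function.Injective ε) : ∃ φ : F →ₐ[K] M, ∀ a, φ (ρ a) = ε a := by
  letI : Algebra A F := ρ.toRingHom.toAlgebra
  have halg : ∀ a : A, algebraMap A F a = ρ a := fun _ => rfl
  haveI : FaithfulSMul A F := (faithfulSMul_iff_algebraMap_injective A F).mpr hρ
  haveI : IsFractionRing A F := IsFractionRing.of_field A F (fun z => by
    obtain ⟨a, b, hb, hab⟩ := hfrac z
    refine ⟨a, b, ?_⟩
    have hb' : ρ b ≠ 0 := fun h0 => hb (hρ (by rw [h0, map_zero]))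
    rw [halg, halg, eq_div_iff hb', hab])
  haveI : IsDomain A := hρ.isDomain ρ.toRingHom
  let ψ : F →+* M := IsFractionRing.lift (g := ε.toRingHom) hε
  have hψ : ∀ a, ψ (ρ a) = ε a := fun a => IsFractionRing.lift_algebraMap (g := ε.toRingHom) hε a
  refine ⟨{ ψ with commutes' := fun k => ?_ }, hψ⟩
  show ψ (algebraMap K F k) = algebraMap K M k
  rw [← ρ.commutes k, hψ, ε.commutes]

theorem order_ne_top {θ : funAlg N} (hθ : θ ≠ 0) (g : SL(2, ℤ)) :
    meromorphicOrderAt (cuspFn N θ g) 0 ≠ ⊤ := by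
  intro htop
  rw [meromorphicOrderAt_eq_top_iff] at htop
  apply hθ
  apply eps_injective g
  rw [map_zero, eps_apply, ← map_zero (algebraMap ℂ MerGerm), ← MerGerm.mk_const,
    MerGerm.mk_eq_mk_iff]
  exact htop

theorem ord_eps (θ : funAlg N) (g : SL(2, ℤ)) :
    (eps N g θ).ord = (meromorphicOrderAt (cuspFn N θ g) 0).untop₀ := by
  rw [eps_apply, MerGerm.ord_mk]

theorem order_rotate (H : ℂ → ℂ) {c : ℂ} (hc : c ≠ 0) :
    meromorphicOrderAt (fun u => H (c * u)) 0 = meromorphicOrderAt H 0 := by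
  have h := meromorphicOrderAt_comp_of_deriv_ne_zero (f := H) (g := fun u : ℂ => c * u) (x := 0)
    (by fun_prop) (by
      have : deriv (fun u : ℂ => c * u) 0 = c := by
        simpa using (deriv_const_mul_field (u := c) (v := fun u : ℂ => u) (x := (0 : ℂ)))
      rw [this]; exact hc)
  simpa [Function.comp_def] using h

theorem eventually_norm_lt_one : ∀ᶠ u : ℂ in 𝓝[≠] 0, u ≠ 0 ∧ ‖u‖ < 1 := by
  have h1 : ∀ᶠ u : ℂ in 𝓝[≠] 0, u ≠ 0 := eventually_mem_nhdsWithin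
  have h2 : ∀ᶠ u : ℂ in 𝓝[≠] 0, ‖u‖ < 1 := by
    apply eventually_nhdsWithin_of_eventually_nhds
    have : Metric.ball (0 : ℂ) 1 ∈ 𝓝 (0 : ℂ) := Metric.ball_mem_nhds _ one_pos
    filter_upwards [this] with u hu
    simpa using hu
  exact h1.and h2

theorem cuspFn_mul_T_zpow (θ : funAlg N) (g : SL(2, ℤ)) (k : ℤ) :
    cuspFn N θ (g * T ^ k) =ᶠ[𝓝[≠] 0] fun u => cuspFn N θ g (𝕢 N k * u) := by
  filter_upwards [eventually_norm_lt_one] with u hu
  rw [← cuspFn_rotate θ.2 g k hu.1 hu.2]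
  simp [cuspFn, mul_smul]

theorem ord_eps_mul_T_zpow (θ : funAlg N) (g : SL(2, ℤ)) (k : ℤ) :
    (eps N (g * T ^ k) θ).ord = (eps N g θ).ord := by
  rw [ord_eps, ord_eps, meromorphicOrderAt_congr (cuspFn_mul_T_zpow θ g k),
    order_rotate _ (Periodic.qParam_ne_zero _)]

theorem eps_inv_eq_of_mem {g₁ g₂ : SL(2, ℤ)} (h : g₁⁻¹ * g₂ ∈ CongruenceSubgroup.Gamma0 N) :
    eps N g₁⁻¹ = eps N g₂⁻¹ := by
  apply AlgHom.ext
  intro θ
  rw [eps_eq_iff]
  intro τ
  have h2 : g₂⁻¹ • τ = (g₁⁻¹ * g₂)⁻¹ • (g₁⁻¹ • τ) := by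
    simp [mul_smul]
  rw [h2, funAlg_invariant θ.2 _ (inv_mem h)]

theorem dvd_of_qParam_zpow_eq_one (h k : ℤ) (hk : (𝕢 N (h : ℂ)) ^ k = 1) : (N : ℤ) ∣ h * k := by
  have hN : (N : ℂ) ≠ 0 := by exact_mod_cast NeZero.ne N
  rw [Periodic.qParam, ← Complex.exp_int_mul, Complex.exp_eq_one_iff] at hk
  obtain ⟨n, hn⟩ := hk
  refine ⟨n, ?_⟩
  have h2 : (2 * Real.pi * Complex.I : ℂ) ≠ 0 := Complex.two_pi_I_ne_zero
  have h3 : ((h * k : ℤ) : ℂ) = ((N * n : ℤ) : ℂ) := by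
    push_cast
    have h4 : (k : ℂ) * (2 * Real.pi * Complex.I * h / ((N : ℝ) : ℂ)) = n * (2 * Real.pi * Complex.I) := hn
    have h5 : (((N : ℝ) : ℂ)) = (N : ℂ) := by push_cast; rfl
    rw [h5] at h4
    field_simp at h4
    linear_combination h4
  exact_mod_cast h3

theorem dvd_ord_of_eps_eq {θ : funAlg N} (hθ : θ ≠ 0) (g : SL(2, ℤ)) (h : ℤ)
    (heq : eps N (g * T ^ h) θ = eps N g θ) : (N : ℤ) ∣ h * (eps N g θ).ord := by
  rw [eps_apply, eps_apply, MerGerm.mk_eq_mk_iff] at heq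
  have hinv : ∀ᶠ u in 𝓝[≠] (0 : ℂ), cuspFn N θ g (𝕢 N h * u) = cuspFn N θ g u := by
    filter_upwards [heq, cuspFn_mul_T_zpow θ g h] with u h1 h2
    rw [← h2, h1]
  have hk : meromorphicOrderAt (cuspFn N θ g) 0
      = ((meromorphicOrderAt (cuspFn N θ g) 0).untop₀ : ℤ) :=
    (WithTop.coe_untop₀_of_ne_top (order_ne_top hθ g)).symm
  have key := rotate_zpow_order_eq_one (H := cuspFn N θ g)
    (cuspFn_meromorphicAt θ.2 g) _ hk (Periodic.qParam_ne_zero _) hinv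
  rw [ord_eps]
  exact dvd_of_qParam_zpow_eq_one h _ key

theorem ord_one : MerGerm.ord 1 = 0 := by
  have := MerGerm.isDiffVal.map_const (1 : Qbar) one_ne_zero
  rwa [map_one] at this

theorem ord_inv {a : MerGerm} (ha : a ≠ 0) : MerGerm.ord a⁻¹ = - MerGerm.ord a := by
  have h := MerGerm.isDiffVal.map_mul a a⁻¹ ha (inv_ne_zero ha)
  rw [mul_inv_cancel₀ ha, ord_one] at h
  linarith

theorem ord_lift {ρ : funAlg N →ₐ[Qbar] FF N} (hρ : Function.Injective ρ)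
    {φ : FF N →ₐ[Qbar] MerGerm} {g : SL(2, ℤ)} (hφ : ∀ a, φ (ρ a) = eps N g a) {f : FF N}
    (hf : f ≠ 0) {a b : funAlg N} (hb : b ≠ 0) (hab : f * ρ b = ρ a) :
    a ≠ 0 ∧ (φ f).ord = (eps N g a).ord - (eps N g b).ord := by
  have hρb : ρ b ≠ 0 := fun h0 => hb (hρ (by rw [h0, map_zero]))
  have ha : a ≠ 0 := by
    rintro rfl
    rw [map_zero] at hab
    exact (mul_ne_zero hf hρb) hab
  refine ⟨ha, ?_⟩
  have h1 : φ f * eps N g b = eps N g a := by
    rw [← hφ, ← hφ, ← map_mul, hab]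
  have hφf : φ f ≠ 0 := (map_ne_zero φ).mpr hf
  have hεb : eps N g b ≠ 0 := fun h0 => hb (eps_injective g (by rw [h0, map_zero]))
  have h2 := MerGerm.isDiffVal.map_mul (φ f) (eps N g b) hφf hεb
  rw [h1] at h2
  linarith

theorem jFunD_one (τ : ℍ) : jFunD 1 τ = jFun τ := by
  simp [jFunD]

theorem cuspFn_jFunD_one (g : SL(2, ℤ)) :
    cuspFn N (jFunD 1) g = fun u : ℂ => jFun (ofComplex (Periodic.invQParam N u)) := by
  funext u
  simp only [cuspFn, jFunD_one, jFun_smul]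

theorem toPerm_pow_apply (h : ℕ) (x : Cosets N) :
    ((MulAction.toPerm (T : SL(2, ℤ)) : Equiv.Perm (Cosets N)) ^ h) x = (T ^ h : SL(2, ℤ)) • x := by
  induction h generalizing x with
  | zero => simp
  | succ n ih =>
    rw [pow_succ, Equiv.Perm.mul_apply, ih, MulAction.toPerm_apply, pow_succ, mul_smul]

theorem out_inv_mul_mem (γ : SL(2, ℤ)) (x : Cosets N) :
    (γ • x).out⁻¹ * (γ * x.out) ∈ CongruenceSubgroup.Gamma0 N := by
  rw [← QuotientGroup.eq, QuotientGroup.out_eq']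
  conv_lhs => rw [← QuotientGroup.out_eq' x]
  rfl

end UnifInfty

open UnifInfty in
/-- B7b, with the statement of B4 (`exists_qExpHom`) as a hypothesis. -/
theorem localUnif_infty_of_qExpHom (N : ℕ) [NeZero N]
    (hB4 : ∃ ρ : funAlg N →ₐ[Qbar] FF N, Function.Injective ρ ∧
      (∀ (d : ℕ) [NeZero d] (hd : d ∣ N), ρ (jAlg N d hd) = jBar N d hd) ∧
      (∀ f : FF N, ∃ a b : funAlg N, b ≠ 0 ∧ f * ρ b = ρ a)) :
    Nonempty (LocalUnif Qbar MerGerm.ord (jF N)⁻¹ (Cosets N)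
      (MulAction.toPerm (T : SL(2, ℤ)))) := by
  obtain ⟨ρ, hρ, hρj, hfrac⟩ := hB4
  have hlift : ∀ x : Cosets N, ∃ φ : FF N →ₐ[Qbar] MerGerm,
      ∀ a, φ (ρ a) = eps N (x.out)⁻¹ a :=
    fun x => exists_lift ρ hρ hfrac _ (eps_injective _)
  choose φ hφ using hlift
  have hj : ∀ x : Cosets N, φ x (jF N) = eps N (x.out)⁻¹ (jAlg N 1 (one_dvd N)) := by
    intro x
    rw [← hφ, hρj 1 (one_dvd N)]
    rfl
  have hjval : ∀ g : SL(2, ℤ), eps N g (jAlg N 1 (one_dvd N)) =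
      MerGerm.mk (fun u : ℂ => jFun (ofComplex (Periodic.invQParam N u)))
        (by rw [← cuspFn_jFunD_one (N := N) g]
            exact cuspFn_meromorphicAt (jFunD_mem_funAlg (one_dvd N)) g) := by
    intro g
    rw [eps_apply]
    exact mk_congr _ _ (cuspFn_jFunD_one g)
  refine ⟨{ φ := φ, φ_injective := ?_, φ_x := ?_, s := N, s_pos := Nat.pos_of_ne_zero (NeZero.ne N),
            w_x := ?_, w_perm := ?_, dvd := ?_ }⟩
  · intro x x' hxx
    have h1 : eps N (x.out)⁻¹ (jAlg N N dvd_rfl) = eps N (x'.out)⁻¹ (jAlg N N dvd_rfl) := by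
      rw [← hφ, ← hφ, hxx]
    rw [eps_eq_iff] at h1
    have h2 : x.out⁻¹ * x'.out ∈ CongruenceSubgroup.Gamma0 N := by
      apply mem_Gamma0_of_jFunD_smul
      intro τ
      have := h1 (x'.out • τ)
      simpa [mul_smul, jAlg] using this
    rw [← QuotientGroup.eq, QuotientGroup.out_eq', QuotientGroup.out_eq'] at h2
    exact h2
  · intro i i'
    rw [map_inv₀, map_inv₀, hj, hj, hjval, hjval]
  · intro i
    rw [map_inv₀, hj]
    have hne : eps N (i.out)⁻¹ (jAlg N 1 (one_dvd N)) ≠ 0 := by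
      intro h0
      have h1 := eps_injective (N := N) (i.out)⁻¹ (h0.trans (map_zero _).symm)
      have h2 := ord_eps (N := N) (jAlg N 1 (one_dvd N)) (i.out)⁻¹
      have h3 : cuspFn N ((jAlg N 1 (one_dvd N) : funAlg N) : ℍ → ℂ) (i.out)⁻¹ =
          fun u : ℂ => jFun (ofComplex (Periodic.invQParam N u)) := cuspFn_jFunD_one _
      have h4 := order_ne_top (N := N) (θ := jAlg N 1 (one_dvd N))
      have h5 : meromorphicOrderAt (cuspFn N ((0 : funAlg N) : ℍ → ℂ) (i.out)⁻¹) 0 = ⊤ := by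
        rw [meromorphicOrderAt_eq_top_iff]
        exact Eventually.of_forall fun u => rfl
      rw [← h1, h3, meromorphicOrderAt_jFun_cusp] at h5
      exact absurd h5 (by exact WithTop.coe_ne_top)
    rw [ord_inv hne, hjval, MerGerm.ord_mk, meromorphicOrderAt_jFun_cusp]
    have : ((-(N : ℤ) : ℤ) : WithTop ℤ).untop₀ = -(N : ℤ) := WithTop.untop₀_coe _
    have h6 : (-((N : ℤ) : WithTop ℤ)) = ((-(N : ℤ) : ℤ) : WithTop ℤ) := rfl
    rw [h6, this]
    simp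
  · intro i f
    by_cases hf : f = 0
    · subst hf; simp
    obtain ⟨a, b, hb, hab⟩ := hfrac f
    have h1 := (ord_lift hρ (hφ (MulAction.toPerm (T : SL(2, ℤ)) i)) hf hb hab).2
    have h2 := (ord_lift hρ (hφ i) hf hb hab).2
    have h3 : eps N ((MulAction.toPerm (T : SL(2, ℤ)) i : Cosets N).out)⁻¹
        = eps N ((i.out)⁻¹ * T ^ (-1 : ℤ)) := by
      have := eps_inv_eq_of_mem (out_inv_mul_mem (N := N) T i)
      rw [MulAction.toPerm_apply, this]
      congr 1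
      simp [mul_inv_rev]
    rw [h1, h2, h3, ord_eps_mul_T_zpow, ord_eps_mul_T_zpow]
  · intro i h hfix f hf
    obtain ⟨a, b, hb, hab⟩ := hfrac f
    obtain ⟨ha, h2⟩ := ord_lift hρ (hφ i) hf hb hab
    rw [toPerm_pow_apply] at hfix
    have h3 : eps N ((i.out)⁻¹ * T ^ (-(h : ℤ))) = eps N (i.out)⁻¹ := by
      have := eps_inv_eq_of_mem (out_inv_mul_mem (N := N) (T ^ h) i)
      rw [hfix] at this
      rw [this]
      congr 1
      simp [mul_inv_rev]
    have ha' := dvd_ord_of_eps_eq ha (i.out)⁻¹ (-(h : ℤ)) (by rw [h3])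
    have hb' := dvd_ord_of_eps_eq hb (i.out)⁻¹ (-(h : ℤ)) (by rw [h3])
    rw [h2, mul_sub]
    rw [neg_mul, dvd_neg] at ha' hb'
    exact dvd_sub ha' hb'

/-- B7b : local uniformisation at the cusps. -/
theorem localUnif_infty (N : ℕ) [NeZero N] :
    Nonempty (LocalUnif Qbar MerGerm.ord (jF N)⁻¹ (Cosets N)
      (MulAction.toPerm (T : SL(2, ℤ)))) :=
  localUnif_infty_of_qExpHom N (exists_qExpHom N)

end Fermat.Agent.S24
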