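import Mathlib
import Fermat.Prelude.Def_ModularCurve_ArithmeticGalois
import Fermat.Prelude.Def_ModularCurve_GenusNumerics
import Fermat.Prelude.Def_AlgebraicCurve_CanonicalDivisor

/-!
# S24 : shared definitions (interface between the algebra / analysis / combinatorics packages)
-/

set_option autoImplicit false

namespace Fermat.Agent.S24

open AlgebraicCurve

/-- Number of orbits (= cycles, fixed points included) of a permutation. -/
noncomputable def numOrbits {I : Type*} (π : Equiv.Perm I) : ℕ :=
  Nat.card (Quotient (Equiv.Perm.SameCycle.setoid π))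

section Abstract

variable {K : Type*} [Field K] {M : Type*} [Field M] [Algebra K M]

/-- `w` is a `ℤ`-valued discrete valuation on the field `M` (junk value at `0`), trivial on `K`,
and `δ` is a `K`-derivation of `M` lowering the order by exactly one wherever the order is
nonzero.  Model: germs of meromorphic functions at a point of `ℂ`, `w = ` order, `δ = d/du`. -/
structure IsDiffVal (w : M → ℤ) (δ : Derivation K M M) : Prop where
  map_mul : ∀ a b : M, a ≠ 0 → b ≠ 0 → w (a * b) = w a + w b
  map_add : ∀ a b : M, a ≠ 0 → b ≠ 0 → a + b ≠ 0 → min (w a) (w b) ≤ w (a + b)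
  map_const : ∀ a : K, a ≠ 0 → w (algebraMap K M a) = 0
  deriv_ne_zero : ∀ y : M, y ≠ 0 → w y ≠ 0 → δ y ≠ 0
  map_deriv : ∀ y : M, y ≠ 0 → w y ≠ 0 → w (δ y) = w y - 1

variable {F : Type*} [Field F] [Algebra K F]

variable (K) in
/-- Local uniformisation data for the zeros of `x ∈ F`: `card I` distinct `K`-embeddings of `F`
into the valued field `M`, all agreeing on `x`, with `w (φ i x) = s > 0`; a permutation `π` of `I`
not changing the induced valuation, such that the values of `w ∘ φ i` are multiples of `s / h`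
whenever `π ^ h` fixes `i`. -/
structure LocalUnif (w : M → ℤ) (x : F) (I : Type*) (π : Equiv.Perm I) where
  φ : I → (F →ₐ[K] M)
  φ_injective : Function.Injective φ
  φ_x : ∀ i i' : I, φ i x = φ i' x
  s : ℕ
  s_pos : 0 < s
  w_x : ∀ i : I, w (φ i x) = s
  w_perm : ∀ (i : I) (f : F), w (φ (π i) f) = w (φ i f)
  dvd : ∀ (i : I) (h : ℕ), (π ^ h) i = i → ∀ f : F, f ≠ 0 → (s : ℤ) ∣ h * w (φ i f)

end Abstract

/-- The places of `F` at which `x` vanishes. -/
def zeroPlaces {K F : Type*} [Field K] [Field F] [Algebra K F] (x : F) : Set (Place K F) :=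
  {v | 0 < v.ord x}

open scoped MatrixGroups

/-- The coset space `SL₂(ℤ) / Γ₀(N)` (left cosets `g Γ₀(N)`), with its left `SL₂(ℤ)`-action. -/
abbrev Cosets (N : ℕ) : Type := SL(2, ℤ) ⧸ (CongruenceSubgroup.Gamma0 N)

/-- `ℚ̄`. -/
abbrev Qbar : Type := AlgebraicClosure ℚ

/-- A fixed embedding `ℚ̄ → ℂ`. -/
noncomputable def iota : Qbar →ₐ[ℚ] ℂ :=
  haveI : Algebra.IsAlgebraic ℚ Qbar := AlgebraicClosure.isAlgebraic ℚ
  IsAlgClosed.lift

/-- `ℂ` as a `ℚ̄`-algebra through `iota`. NOT a global instance: activate with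
`attribute [local instance] Fermat.Agent.S24.algQbarComplex`. -/
@[instance_reducible]
noncomputable def algQbarComplex : Algebra Qbar ℂ := iota.toRingHom.toAlgebra

/-- The function field of `X₀(N)` over `ℚ̄` (the field of the statement). -/
abbrev FF (N : ℕ) : Type := ↥(ModularCurve.modularFunctionFieldBar N)

/-- The Laurent series `j(q^d)` with coefficients in `ℚ̄`. -/
noncomputable def jBarSeries (d : ℕ) [NeZero d] : LaurentSeries Qbar :=
  ModularCurve.coeffEmb Qbar (ModularCurve.qExpand ℚ d ModularCurve.jq)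

theorem jBarSeries_mem {N d : ℕ} [NeZero d] (hd : d ∣ N) :
    jBarSeries d ∈ ModularCurve.modularFunctionFieldBar N :=
  ModularCurve.coeffEmb_mem_laurentBaseChange Qbar (ModularCurve.jqd_mem_full N hd)

/-- `j(q^d)` as an element of the function field of `X₀(N)`, `d ∣ N`. -/
noncomputable def jBar (N d : ℕ) [NeZero d] (hd : d ∣ N) : FF N := ⟨jBarSeries d, jBarSeries_mem hd⟩

/-- `j = j(q)` as an element of the function field of `X₀(N)`. -/
noncomputable def jF (N : ℕ) : FF N := jBar N 1 (one_dvd N)

open UpperHalfPlane in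
/-- The analytic `j`-function `E₄³/Δ` on the upper half plane. -/
noncomputable def jFun (τ : ℍ) : ℂ := (ModularForm.E₄ τ) ^ 3 / ModularForm.discriminant τ

open UpperHalfPlane in
/-- `τ ↦ j(dτ)`. -/
noncomputable def jFunD (d : ℕ) (τ : ℍ) : ℂ := jFun (ofComplex ((d : ℂ) * (τ : ℂ)))

end Fermat.Agent.S24
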