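import Fermat.Agent.S24.JBasic
import Fermat.Agent.S20.Serre

/-! # S24-B3b (1) : the derivative of the `j`-function

`D j = c E₄² E₆ / Δ` with `c ≠ 0`. -/

set_option autoImplicit false

namespace Fermat.Agent.S24

open UpperHalfPlane ModularForm Filter Function ModularGroup
open scoped MatrixGroups Manifold Topology
attribute [local instance] algQbarComplex
local notation "𝕢" => Periodic.qParam

open Derivative in
/-- The Serre derivative of `E₄` is a multiple of `E₆`. -/
theorem exists_serreDerivative_E4 :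
    ∃ c : ℂ, ∀ τ : ℍ, serreDerivative 4 (E₄ : ℍ → ℂ) τ = c * E₆ τ := by
  have h4 : Fermat.Agent.S20.IsMF ⊤ 4 (E₄ : ℍ → ℂ) := Fermat.Agent.S20.isMF_top_coe E₄
  have h6 : Fermat.Agent.S20.IsMF ⊤ (4 + 2) (serreDerivative ((4 : ℤ) : ℂ) (E₄ : ℍ → ℂ)) :=
    Fermat.Agent.S20.serre ⊤ 4 _ h4
  have h6' : Fermat.Agent.S20.IsMF ⊤ 6 (serreDerivative 4 (E₄ : ℍ → ℂ)) := by
    simpa using h6
  have hrank : Module.finrank ℂ (ModularForm 𝒮ℒ 6) = 1 := by
    have := levelOne_weight_six_rank_one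
    exact Module.finrank_eq_of_rank_eq this
  have hE6 : (E₆ : ModularForm 𝒮ℒ 6) ≠ 0 := by
    intro h
    have h1 : E₆ rho = 0 := by rw [h]; rfl
    have h2 := jFun_sub_eq rho
    rw [jFun_rho, h1] at h2
    norm_num at h2
  obtain ⟨c, hc⟩ := exists_smul_eq_of_finrank_eq_one hrank hE6 h6'.toLevelOne
  refine ⟨c, fun τ => ?_⟩
  have := congrArg (fun f : ModularForm 𝒮ℒ 6 => f τ) hc
  simpa using this.symm

open Derivative in
theorem D_jFun_mul_discriminant (τ : ℍ) :
    normalizedDerivOfComplex jFun τ * discriminant τ =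
      3 * E₄ τ ^ 2 * serreDerivative 4 (E₄ : ℍ → ℂ) τ := by
  have h1 : jFun * discriminant = (E₄ : ℍ → ℂ) ^ 3 := by
    ext z
    simp only [Pi.mul_apply, Pi.pow_apply, jFun]
    exact div_mul_cancel₀ _ (discriminant_ne_zero z)
  have h2 := congrArg normalizedDerivOfComplex h1
  rw [normalizedDerivOfComplex_mul _ _ jFun_mdiff discriminant_mdiff,
    normalizedDerivOfComplex_pow (E₄ : ℍ → ℂ) 3 E₄.holo'] at h2
  have h3 := congrFun h2 τ
  have h4 : normalizedDerivOfComplex discriminant τ = EisensteinSeries.E2 τ * discriminant τ :=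
    congrFun Fermat.Agent.S20.D_discriminant τ
  have h5 : jFun τ * discriminant τ = E₄ τ ^ 3 := congrFun h1 τ
  simp only [Pi.add_apply, Pi.mul_apply, Pi.pow_apply, h4] at h3
  rw [serreDerivative_apply]
  norm_num at h3 ⊢
  linear_combination h3 - EisensteinSeries.E2 τ * h5

theorem isPreconnected_upperHalfPlaneSet : IsPreconnected upperHalfPlaneSet :=
  (convex_halfSpace_im_gt 0).isPreconnected

open Derivative in
/-- `D j = c E₄² E₆ / Δ` with `c ≠ 0`. -/
theorem exists_D_jFun : ∃ c : ℂ, c ≠ 0 ∧ ∀ τ : ℍ,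
    normalizedDerivOfComplex jFun τ = c * E₄ τ ^ 2 * E₆ τ / discriminant τ := by
  obtain ⟨c, hc⟩ := exists_serreDerivative_E4
  have key : ∀ τ : ℍ,
      normalizedDerivOfComplex jFun τ = (3 * c) * E₄ τ ^ 2 * E₆ τ / discriminant τ := by
    intro τ
    rw [eq_div_iff (discriminant_ne_zero τ), D_jFun_mul_discriminant, hc]
    ring
  refine ⟨3 * c, ?_, key⟩
  intro h0
  have hd : DifferentiableOn ℂ (jFun ∘ ofComplex) upperHalfPlaneSet :=
    UpperHalfPlane.mdifferentiable_iff.mp jFun_mdiff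
  have hz : Set.EqOn (deriv (jFun ∘ ofComplex)) 0 upperHalfPlaneSet := by
    intro w hw
    have h1 := key ⟨w, hw⟩
    rw [h0] at h1
    simp only [normalizedDerivOfComplex, zero_mul, zero_div, mul_eq_zero, inv_eq_zero] at h1
    rcases h1 with h1 | h1
    · exfalso
      simp [Real.pi_ne_zero] at h1
    · exact h1
  have h2 := isOpen_upperHalfPlaneSet.is_const_of_deriv_eq_zero isPreconnected_upperHalfPlaneSet
    hd hz (x := (UpperHalfPlane.I : ℂ)) (y := (rho : ℂ)) UpperHalfPlane.I.im_pos rho.im_pos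
  simp only [Function.comp_apply, ofComplex_apply, jFun_I, jFun_rho] at h2
  norm_num at h2

end Fermat.Agent.S24
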