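import Fermat.Agent.S24.AnDefs

/-!
# S24, package B1 : the field of germs of meromorphic functions at `0 ∈ ℂ`

with its order function and the derivation `d/du`.
-/

set_option autoImplicit false

namespace Fermat.Agent.S24

open UpperHalfPlane ModularForm Filter Function ModularGroup
open scoped MatrixGroups Manifold Topology

attribute [local instance] algQbarComplex

/-- The subring of germs (along the punctured neighbourhood filter of `0`) of functions that are
meromorphic at `0`. -/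
def merSubring : Subring (Germ (𝓝[≠] (0 : ℂ)) ℂ) where
  carrier := {x | ∃ f : ℂ → ℂ, MeromorphicAt f 0 ∧ (f : Germ (𝓝[≠] (0 : ℂ)) ℂ) = x}
  mul_mem' := by
    rintro _ _ ⟨f, hf, rfl⟩ ⟨g, hg, rfl⟩
    exact ⟨f * g, hf.mul hg, rfl⟩
  one_mem' := ⟨fun _ => 1, MeromorphicAt.const 1 0, rfl⟩
  add_mem' := by
    rintro _ _ ⟨f, hf, rfl⟩ ⟨g, hg, rfl⟩
    exact ⟨f + g, hf.add hg, rfl⟩
  zero_mem' := ⟨fun _ => 0, MeromorphicAt.const 0 0, rfl⟩
  neg_mem' := by
    rintro _ ⟨f, hf, rfl⟩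
    exact ⟨-f, hf.neg, rfl⟩

/-- The field of germs of meromorphic functions at `0 ∈ ℂ`. -/
def MerGerm : Type := ↥merSubring

namespace MerGerm

noncomputable instance instCommRing : CommRing MerGerm := inferInstanceAs (CommRing ↥merSubring)

/-- The germ of a function meromorphic at `0`. -/
noncomputable def mk (f : ℂ → ℂ) (hf : MeromorphicAt f 0) : MerGerm :=
  (⟨(f : Germ (𝓝[≠] (0 : ℂ)) ℂ), f, hf, rfl⟩ : ↥merSubring)

theorem mk_eq_mk_iff {f g : ℂ → ℂ} (hf : MeromorphicAt f 0) (hg : MeromorphicAt g 0) :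
    mk f hf = mk g hg ↔ f =ᶠ[𝓝[≠] 0] g := by
  constructor
  · intro h
    exact Germ.coe_eq.mp (congrArg (Subtype.val : ↥merSubring → _) h)
  · intro h
    exact Subtype.ext (Germ.coe_eq.mpr h)

theorem exists_rep (x : MerGerm) : ∃ f, ∃ hf : MeromorphicAt f 0, x = mk f hf := by
  obtain ⟨_, f, hf, rfl⟩ := x
  exact ⟨f, hf, rfl⟩

theorem mk_add {f g : ℂ → ℂ} (hf : MeromorphicAt f 0) (hg : MeromorphicAt g 0) :
    mk (f + g) (hf.add hg) = mk f hf + mk g hg := rfl

theorem mk_mul {f g : ℂ → ℂ} (hf : MeromorphicAt f 0) (hg : MeromorphicAt g 0) :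
    mk (f * g) (hf.mul hg) = mk f hf * mk g hg := rfl

theorem mk_neg {f : ℂ → ℂ} (hf : MeromorphicAt f 0) : mk (-f) hf.neg = -mk f hf := rfl

theorem mk_sub {f g : ℂ → ℂ} (hf : MeromorphicAt f 0) (hg : MeromorphicAt g 0) :
    mk (f - g) (hf.sub hg) = mk f hf - mk g hg := rfl

theorem mk_zero : mk (fun _ => 0) (MeromorphicAt.const 0 0) = 0 := rfl

theorem mk_one : mk (fun _ => 1) (MeromorphicAt.const 1 0) = 1 := rfl

theorem mk_congr {f g : ℂ → ℂ} (hf : MeromorphicAt f 0) (h : f =ᶠ[𝓝[≠] 0] g) :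
    mk f hf = mk g (hf.congr h) := (mk_eq_mk_iff _ _).mpr h

theorem mk_eq_zero_iff' {f : ℂ → ℂ} (hf : MeromorphicAt f 0) :
    mk f hf = 0 ↔ ∀ᶠ z in 𝓝[≠] (0 : ℂ), f z = 0 := by
  rw [← mk_zero, mk_eq_mk_iff]
  rfl

theorem mk_eq_zero_iff {f : ℂ → ℂ} (hf : MeromorphicAt f 0) :
    mk f hf = 0 ↔ meromorphicOrderAt f 0 = ⊤ := by
  rw [mk_eq_zero_iff', meromorphicOrderAt_eq_top_iff]

theorem mk_ne_zero_iff {f : ℂ → ℂ} (hf : MeromorphicAt f 0) :
    mk f hf ≠ 0 ↔ ∀ᶠ z in 𝓝[≠] (0 : ℂ), f z ≠ 0 := by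
  rw [Ne, mk_eq_zero_iff, ← Ne, meromorphicOrderAt_ne_top_iff_eventually_ne_zero hf]

/-- The inverse of a germ. -/
noncomputable def inv' (x : MerGerm) : MerGerm :=
  (⟨(x.1)⁻¹, by
    obtain ⟨_, f, hf, rfl⟩ := x
    exact ⟨f⁻¹, hf.inv, rfl⟩⟩ : ↥merSubring)

theorem inv'_mk {f : ℂ → ℂ} (hf : MeromorphicAt f 0) : inv' (mk f hf) = mk f⁻¹ hf.inv := rfl

noncomputable instance instField : Field MerGerm :=
  { instCommRing with
    inv := inv'
    exists_pair_ne := by
      refine ⟨0, 1, ?_⟩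
      rw [← mk_zero, ← mk_one, Ne, mk_eq_mk_iff]
      intro h
      obtain ⟨z, hz⟩ := h.exists
      exact zero_ne_one hz
    mul_inv_cancel := by
      intro x hx
      obtain ⟨f, hf, rfl⟩ := exists_rep x
      change mk f hf * inv' (mk f hf) = 1
      rw [inv'_mk, ← mk_mul, ← mk_one, mk_eq_mk_iff]
      filter_upwards [(mk_ne_zero_iff hf).mp hx] with z hz
      simp [hz]
    inv_zero := by
      change inv' 0 = 0
      rw [← mk_zero, inv'_mk, mk_eq_mk_iff]
      exact Eventually.of_forall fun z => by simp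
    nnqsmul := _
    nnqsmul_def := fun _ _ => rfl
    qsmul := _
    qsmul_def := fun _ _ => rfl }

theorem mk_inv {f : ℂ → ℂ} (hf : MeromorphicAt f 0) : mk f⁻¹ hf.inv = (mk f hf)⁻¹ := rfl

theorem mk_div {f g : ℂ → ℂ} (hf : MeromorphicAt f 0) (hg : MeromorphicAt g 0) :
    mk (f / g) (hf.div hg) = mk f hf / mk g hg := by
  rw [div_eq_mul_inv (mk f hf), ← mk_inv, ← mk_mul, mk_eq_mk_iff]
  exact Eventually.of_forall fun z => by simp [div_eq_mul_inv]

theorem mk_pow {f : ℂ → ℂ} (hf : MeromorphicAt f 0) (n : ℕ) :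
    mk (f ^ n) (hf.pow n) = mk f hf ^ n := rfl

/-- Constants. -/
noncomputable def constHom : ℂ →+* MerGerm where
  toFun c := mk (fun _ => c) (MeromorphicAt.const c 0)
  map_one' := rfl
  map_mul' _ _ := rfl
  map_zero' := rfl
  map_add' _ _ := rfl

noncomputable instance instAlgebraComplex : Algebra ℂ MerGerm := constHom.toAlgebra

theorem mk_const (c : ℂ) : mk (fun _ => c) (MeromorphicAt.const c 0) = algebraMap ℂ MerGerm c :=
  rfl

noncomputable instance instAlgebraQbar : Algebra Qbar MerGerm :=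
  ((algebraMap ℂ MerGerm).comp iota.toRingHom).toAlgebra

theorem algebraMap_Qbar (a : Qbar) : algebraMap Qbar MerGerm a = algebraMap ℂ MerGerm (iota a) :=
  rfl

instance instIsScalarTower : IsScalarTower Qbar ℂ MerGerm :=
  IsScalarTower.of_algebraMap_eq fun _ => rfl

/-- The order of a germ (junk value `0` at the zero germ). -/
noncomputable def ord (x : MerGerm) : ℤ :=
  (Germ.liftOn x.1 (fun f => meromorphicOrderAt f 0)
    (fun _ _ h => meromorphicOrderAt_congr h)).untop₀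

theorem ord_mk {f : ℂ → ℂ} (hf : MeromorphicAt f 0) :
    (mk f hf).ord = (meromorphicOrderAt f 0).untop₀ := rfl

theorem coe_ord_mk {f : ℂ → ℂ} (hf : MeromorphicAt f 0) (h : mk f hf ≠ 0) :
    ((mk f hf).ord : WithTop ℤ) = meromorphicOrderAt f 0 := by
  rw [ord_mk]
  exact WithTop.coe_untop₀_of_ne_top (fun h' => h ((mk_eq_zero_iff hf).mpr h'))

theorem ord_zero : (0 : MerGerm).ord = 0 := by
  have h : meromorphicOrderAt (fun _ : ℂ => (0 : ℂ)) 0 = ⊤ :=
    (mk_eq_zero_iff (MeromorphicAt.const 0 0)).mp mk_zero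
  rw [← mk_zero, ord_mk, h, WithTop.untop₀_top]

theorem ord_mul {a b : MerGerm} (ha : a ≠ 0) (hb : b ≠ 0) : (a * b).ord = a.ord + b.ord := by
  obtain ⟨f, hf, rfl⟩ := exists_rep a
  obtain ⟨g, hg, rfl⟩ := exists_rep b
  rw [← mk_mul, ord_mk, ord_mk, ord_mk, meromorphicOrderAt_mul hf hg]
  exact WithTop.untop₀_add (fun h => ha ((mk_eq_zero_iff hf).mpr h))
    (fun h => hb ((mk_eq_zero_iff hg).mpr h))

theorem ord_add {a b : MerGerm} (ha : a ≠ 0) (hb : b ≠ 0) (hab : a + b ≠ 0) :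
    min a.ord b.ord ≤ (a + b).ord := by
  obtain ⟨f, hf, rfl⟩ := exists_rep a
  obtain ⟨g, hg, rfl⟩ := exists_rep b
  have h := meromorphicOrderAt_add hf hg
  rw [← mk_add] at hab ⊢
  rw [← coe_ord_mk hf ha, ← coe_ord_mk hg hb, ← coe_ord_mk (hf.add hg) hab] at h
  exact_mod_cast h

theorem ord_algebraMap {c : ℂ} (hc : c ≠ 0) : (algebraMap ℂ MerGerm c).ord = 0 := by
  classical
  rw [← mk_const, ord_mk, meromorphicOrderAt_const, if_neg hc]
  rfl

theorem ord_inv (a : MerGerm) : (a⁻¹).ord = -a.ord := by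
  obtain ⟨f, hf, rfl⟩ := exists_rep a
  rw [← mk_inv, ord_mk, ord_mk, meromorphicOrderAt_inv, WithTop.untop₀_neg]

/-- The underlying function of the derivation. -/
noncomputable def derivFun (x : MerGerm) : MerGerm :=
  (⟨Germ.map' (lc := 𝓝[≠] (0 : ℂ)) (_root_.deriv : (ℂ → ℂ) → ℂ → ℂ)
      (fun _ _ h => h.nhdsNE_deriv) x.1, by
    obtain ⟨_, f, hf, rfl⟩ := x
    exact ⟨_root_.deriv f, hf.deriv, rfl⟩⟩ : ↥merSubring)

theorem derivFun_mk {f : ℂ → ℂ} (hf : MeromorphicAt f 0) :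
    derivFun (mk f hf) = mk (_root_.deriv f) hf.deriv := rfl

theorem derivFun_add (x y : MerGerm) : derivFun (x + y) = derivFun x + derivFun y := by
  obtain ⟨f, hf, rfl⟩ := exists_rep x
  obtain ⟨g, hg, rfl⟩ := exists_rep y
  rw [← mk_add, derivFun_mk, derivFun_mk, derivFun_mk, ← mk_add, mk_eq_mk_iff]
  filter_upwards [hf.eventually_analyticAt, hg.eventually_analyticAt] with z hfz hgz
  simpa using deriv_add hfz.differentiableAt hgz.differentiableAt

theorem derivFun_mul (x y : MerGerm) :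
    derivFun (x * y) = x * derivFun y + y * derivFun x := by
  obtain ⟨f, hf, rfl⟩ := exists_rep x
  obtain ⟨g, hg, rfl⟩ := exists_rep y
  rw [← mk_mul, derivFun_mk, derivFun_mk, derivFun_mk, ← mk_mul, ← mk_mul, ← mk_add, mk_eq_mk_iff]
  filter_upwards [hf.eventually_analyticAt, hg.eventually_analyticAt] with z hfz hgz
  have := deriv_mul hfz.differentiableAt hgz.differentiableAt
  simp only [Pi.add_apply, Pi.mul_apply]
  rw [this]
  ring

theorem derivFun_algebraMap (c : ℂ) : derivFun (algebraMap ℂ MerGerm c) = 0 := by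
  rw [← mk_const, derivFun_mk, ← mk_zero, mk_eq_mk_iff]
  exact Eventually.of_forall fun z => by simp

/-- The derivation `d/du` on germs of meromorphic functions, `ℂ`-linear version. -/
noncomputable def derivC : Derivation ℂ MerGerm MerGerm where
  toFun := derivFun
  map_add' := derivFun_add
  map_smul' c x := by
    simp only [RingHom.id_apply, Algebra.smul_def]
    rw [derivFun_mul, derivFun_algebraMap, mul_zero, add_zero]
  map_one_eq_zero' := by
    have := derivFun_algebraMap 1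
    rwa [map_one] at this
  leibniz' x y := by
    simp only [smul_eq_mul]
    exact derivFun_mul x y

/-- The derivation `d/du` on germs of meromorphic functions. -/
noncomputable def deriv : Derivation Qbar MerGerm MerGerm where
  toFun := derivFun
  map_add' := derivFun_add
  map_smul' c x := by
    simp only [RingHom.id_apply, Algebra.smul_def]
    rw [derivFun_mul, algebraMap_Qbar, derivFun_algebraMap, mul_zero, add_zero]
  map_one_eq_zero' := by
    have := derivFun_algebraMap 1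
    rwa [map_one] at this
  leibniz' x y := by
    simp only [smul_eq_mul]
    exact derivFun_mul x y

theorem deriv_mk {f : ℂ → ℂ} (hf : MeromorphicAt f 0) :
    MerGerm.deriv (mk f hf) = mk (_root_.deriv f) hf.deriv := rfl

theorem derivC_mk {f : ℂ → ℂ} (hf : MeromorphicAt f 0) :
    MerGerm.derivC (mk f hf) = mk (_root_.deriv f) hf.deriv := rfl

theorem order_deriv {f : ℂ → ℂ} (hf : MeromorphicAt f 0) (h0 : mk f hf ≠ 0)
    (h : (mk f hf).ord ≠ 0) :
    meromorphicOrderAt (_root_.deriv f) 0 = (((mk f hf).ord - 1 : ℤ) : WithTop ℤ) :=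
  meromorphicOrderAt_deriv_eq_sub_one (by exact_mod_cast h) (coe_ord_mk hf h0).symm

theorem isDiffVal : IsDiffVal (K := Qbar) MerGerm.ord MerGerm.deriv where
  map_mul _ _ ha hb := ord_mul ha hb
  map_add _ _ ha hb hab := ord_add ha hb hab
  map_const a ha := by
    rw [algebraMap_Qbar]
    exact ord_algebraMap (by simpa using ha)
  deriv_ne_zero y hy hw := by
    obtain ⟨f, hf, rfl⟩ := exists_rep y
    rw [deriv_mk, Ne, mk_eq_zero_iff, order_deriv hf hy hw]
    exact WithTop.coe_ne_top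
  map_deriv y hy hw := by
    obtain ⟨f, hf, rfl⟩ := exists_rep y
    rw [deriv_mk, ord_mk hf.deriv, order_deriv hf hy hw]
    rfl

end MerGerm

end Fermat.Agent.S24
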