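import Fermat.Agent.S24.Defs

/-!
# S24 : shared definitions for the analytic packages
-/

set_option autoImplicit false

namespace Fermat.Agent.S24

open UpperHalfPlane
open scoped MatrixGroups

attribute [local instance] algQbarComplex

/-- The functions `τ ↦ j(dτ)`, `d ∣ N`. -/
def funGens (N : ℕ) : Set (ℍ → ℂ) := {f | ∃ d : ℕ, d ∣ N ∧ f = jFunD d}

/-- The `ℚ̄`-algebra of functions on `ℍ` generated by the `j(dτ)`, `d ∣ N`
(`ℍ → ℂ` is a `ℚ̄`-algebra through `iota`). -/
noncomputable def funAlg (N : ℕ) : Subalgebra Qbar (ℍ → ℂ) := Algebra.adjoin Qbar (funGens N)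

theorem jFunD_mem_funAlg {N d : ℕ} (hd : d ∣ N) : jFunD d ∈ funAlg N :=
  Algebra.subset_adjoin ⟨d, hd, rfl⟩

/-- `j(dτ)` as an element of `funAlg N`. -/
noncomputable def jAlg (N d : ℕ) (hd : d ∣ N) : funAlg N := ⟨jFunD d, jFunD_mem_funAlg hd⟩

/-- The elliptic point `ρ = e^{2πi/3}`. -/
noncomputable def rho : ℍ :=
  ⟨-1 / 2 + (Real.sqrt 3 / 2 : ℝ) * Complex.I, by simp⟩

open ModularGroup in
/-- The permutation of `SL₂(ℤ)/Γ₀(N)` attached to the value `c` of `j` (generator of the stabiliser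
of a point above `c`). -/
noncomputable def permAt (N : ℕ) (c : Qbar) : Equiv.Perm (Cosets N) :=
  open Classical in
  if c = 0 then MulAction.toPerm (S * T : SL(2, ℤ))
  else if c = 1728 then MulAction.toPerm (S : SL(2, ℤ)) else 1

end Fermat.Agent.S24
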