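import Fermat.Agent.S24.AnDefs

/-!
# S24 / B4, algebra half

From an abstract relation `Rep x f` ("the Laurent series `x ∈ ℂ((q))` is the `q`-expansion of the
function `f : ℍ → ℂ`") which is compatible with `+`, `*`, constants and detects zero, and which
relates `j(q^d)` with `τ ↦ j(dτ)`, we construct the `q`-expansion homomorphism
`funAlg N → FF N` and prove the `ℂ/ℚ̄`-descent of linear independence.
-/

set_option autoImplicit false

namespace Fermat.Agent.S24

open UpperHalfPlane Function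
open scoped MatrixGroups

attribute [local instance] algQbarComplex

/-- Abstract properties of the relation "`x` is the `q`-expansion of `f`". -/
structure IsRepRel (Rep : LaurentSeries ℂ → (ℍ → ℂ) → Prop) : Prop where
  add : ∀ {x y f g}, Rep x f → Rep y g → Rep (x + y) (f + g)
  mul : ∀ {x y f g}, Rep x f → Rep y g → Rep (x * y) (f * g)
  const : ∀ c : ℂ, Rep (HahnSeries.C c) (fun _ => c)
  eq_zero_iff : ∀ {x f}, Rep x f → (x = 0 ↔ f = 0)

/-- coefficientwise `iota`. -/
noncomputable abbrev cIota : LaurentSeries Qbar →+* LaurentSeries ℂ :=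
  ModularCurve.coeffMap iota.toRingHom

theorem cIota_injective : Injective cIota := by
  intro x y h
  ext k
  have := congrArg (fun z => HahnSeries.coeff z k) h
  simp only [ModularCurve.coeffMap_coeff] at this
  exact iota.toRingHom.injective this

theorem cIota_algebraMap (r : Qbar) :
    cIota (algebraMap Qbar (LaurentSeries Qbar) r) = HahnSeries.C (iota r) := by
  rw [ModularCurve.algebraMap_laurentSeries_eq_single, ModularCurve.coeffMap_single]
  rfl

/-- The generators of the graph algebra. -/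
def graphGens (N : ℕ) : Set ((ℍ → ℂ) × LaurentSeries Qbar) :=
  {p | ∃ (d : ℕ) (_ : NeZero d), d ∣ N ∧ p = (jFunD d, jBarSeries d)}

/-- The graph of the `q`-expansion map, as a subalgebra of the product. -/
noncomputable def graphAlg (N : ℕ) : Subalgebra Qbar ((ℍ → ℂ) × LaurentSeries Qbar) :=
  Algebra.adjoin Qbar (graphGens N)

section

variable {N : ℕ} {Rep : LaurentSeries ℂ → (ℍ → ℂ) → Prop}

theorem rep_of_mem_graphAlg (h : IsRepRel Rep)
    (hgen : ∀ (d : ℕ) [NeZero d], d ∣ N → Rep (cIota (jBarSeries d)) (jFunD d))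
    {p : (ℍ → ℂ) × LaurentSeries Qbar} (hp : p ∈ graphAlg N) : Rep (cIota p.2) p.1 := by
  induction hp using Algebra.adjoin_induction with
  | mem x hx =>
    obtain ⟨d, hd0, hd, rfl⟩ := hx
    exact hgen d hd
  | algebraMap r =>
    have h1 : (algebraMap Qbar ((ℍ → ℂ) × LaurentSeries Qbar) r).2
        = algebraMap Qbar (LaurentSeries Qbar) r := rfl
    have h2 : (algebraMap Qbar ((ℍ → ℂ) × LaurentSeries Qbar) r).1 = fun _ => iota r := rfl
    rw [h1, h2, cIota_algebraMap]
    exact h.const _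
  | add x y _ _ hx hy =>
    simpa using h.add hx hy
  | mul x y _ _ hx hy =>
    simpa using h.mul hx hy


/-- first projection of the graph algebra. -/
noncomputable def graphFst (N : ℕ) : graphAlg N →ₐ[Qbar] (ℍ → ℂ) :=
  (AlgHom.fst Qbar (ℍ → ℂ) (LaurentSeries Qbar)).comp (graphAlg N).val

/-- second projection of the graph algebra. -/
noncomputable def graphSnd (N : ℕ) : graphAlg N →ₐ[Qbar] LaurentSeries Qbar :=
  (AlgHom.snd Qbar (ℍ → ℂ) (LaurentSeries Qbar)).comp (graphAlg N).val

theorem graphFst_injective (h : IsRepRel Rep)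
    (hgen : ∀ (d : ℕ) [NeZero d], d ∣ N → Rep (cIota (jBarSeries d)) (jFunD d)) :
    Injective (graphFst N) := by
  rw [injective_iff_map_eq_zero]
  rintro ⟨p, hp⟩ h0
  have h1 : p.1 = 0 := h0
  have h2 := (h.eq_zero_iff (rep_of_mem_graphAlg h hgen hp)).mpr h1
  have h3 : p.2 = 0 := cIota_injective (by rw [h2, map_zero])
  exact Subtype.ext (Prod.ext h1 h3)

theorem graphSnd_injective (h : IsRepRel Rep)
    (hgen : ∀ (d : ℕ) [NeZero d], d ∣ N → Rep (cIota (jBarSeries d)) (jFunD d)) :
    Injective (graphSnd N) := by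
  rw [injective_iff_map_eq_zero]
  rintro ⟨p, hp⟩ h0
  have h1 : p.2 = 0 := h0
  have h2 := (h.eq_zero_iff (rep_of_mem_graphAlg h hgen hp)).mp (by rw [h1, map_zero])
  exact Subtype.ext (Prod.ext h2 h1)

theorem range_graphFst (N : ℕ) [NeZero N] : (graphFst N).range = funAlg N := by
  rw [graphFst, AlgHom.range_comp, Subalgebra.range_val, graphAlg, AlgHom.map_adjoin, funAlg]
  congr 1
  ext f
  constructor
  · rintro ⟨p, ⟨d, hd0, hd, rfl⟩, rfl⟩
    exact ⟨d, hd, rfl⟩
  · rintro ⟨d, hd, rfl⟩
    have hd0 : NeZero d := ⟨fun h0 => NeZero.ne N (by simpa [h0] using hd)⟩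
    exact ⟨_, ⟨d, hd0, hd, rfl⟩, rfl⟩

/-- The generators `j(q^d)`, `d ∣ N`. -/
def serGens (N : ℕ) : Set (LaurentSeries Qbar) :=
  {x | ∃ (d : ℕ) (_ : NeZero d), d ∣ N ∧ x = jBarSeries d}

theorem range_graphSnd (N : ℕ) : (graphSnd N).range = Algebra.adjoin Qbar (serGens N) := by
  rw [graphSnd, AlgHom.range_comp, Subalgebra.range_val, graphAlg, AlgHom.map_adjoin]
  congr 1
  ext f
  constructor
  · rintro ⟨p, ⟨d, hd0, hd, rfl⟩, rfl⟩
    exact ⟨d, hd0, hd, rfl⟩
  · rintro ⟨d, hd0, hd, rfl⟩
    exact ⟨_, ⟨d, hd0, hd, rfl⟩, rfl⟩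

theorem coeffEmb_algebraMap (r : ℚ) :
    ModularCurve.coeffEmb Qbar (algebraMap ℚ (LaurentSeries ℚ) r)
      = algebraMap Qbar (LaurentSeries Qbar) (algebraMap ℚ Qbar r) := by
  rw [ModularCurve.algebraMap_laurentSeries_eq_single, ModularCurve.algebraMap_laurentSeries_eq_single,
    ModularCurve.coeffEmb, ModularCurve.coeffMap_single]

theorem modularFunctionFieldBar_eq (N : ℕ) :
    ModularCurve.modularFunctionFieldBar N = IntermediateField.adjoin Qbar (serGens N) := by
  apply le_antisymm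
  · rw [ModularCurve.modularFunctionFieldBar, ModularCurve.laurentBaseChange,
      IntermediateField.adjoin_le_iff]
    rintro _ ⟨x, hx, rfl⟩
    have hx' : x ∈ IntermediateField.adjoin ℚ (ModularCurve.divisorExpansions N) := hx
    show ModularCurve.coeffEmb Qbar x ∈ IntermediateField.adjoin Qbar (serGens N)
    induction hx' using IntermediateField.adjoin_induction with
    | mem y hy =>
      obtain ⟨d, hd0, hd, rfl⟩ := hy
      exact IntermediateField.subset_adjoin _ _ ⟨d, hd0, hd, rfl⟩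
    | algebraMap r =>
      rw [coeffEmb_algebraMap]
      exact IntermediateField.algebraMap_mem _ _
    | add y z _ _ hy hz => 
      rw [map_add]; exact add_mem (hy ‹_›) (hz ‹_›)
    | inv y _ hy => 
      rw [map_inv₀]; exact inv_mem (hy ‹_›)
    | mul y z _ _ hy hz => 
      rw [map_mul]; exact mul_mem (hy ‹_›) (hz ‹_›)
  · rw [IntermediateField.adjoin_le_iff]
    rintro _ ⟨d, hd0, hd, rfl⟩
    exact jBarSeries_mem hd


theorem graphSnd_mem (N : ℕ) (p : graphAlg N) :
    graphSnd N p ∈ ModularCurve.modularFunctionFieldBar N := by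
  rw [modularFunctionFieldBar_eq]
  have h1 : graphSnd N p ∈ (graphSnd N).range := ⟨p, rfl⟩
  rw [range_graphSnd] at h1
  exact IntermediateField.algebra_adjoin_le_adjoin _ _ h1

/-- second projection, with values in the function field. -/
noncomputable def graphSndFF (N : ℕ) : graphAlg N →ₐ[Qbar] FF N :=
  (graphSnd N).codRestrict (ModularCurve.modularFunctionFieldBar N).toSubalgebra (graphSnd_mem N)

theorem coe_graphSndFF (N : ℕ) (p : graphAlg N) :
    ((graphSndFF N p : FF N) : LaurentSeries Qbar) = (p : (ℍ → ℂ) × LaurentSeries Qbar).2 := rfl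

/-- The graph algebra is isomorphic to `funAlg N` through the first projection. -/
noncomputable def graphEquiv (N : ℕ) [NeZero N] (hinj : Injective (graphFst N)) :
    graphAlg N ≃ₐ[Qbar] funAlg N :=
  (AlgEquiv.ofInjective (graphFst N) hinj).trans (Subalgebra.equivOfEq _ _ (range_graphFst N))

theorem coe_graphEquiv (N : ℕ) [NeZero N] (hinj : Injective (graphFst N)) (p : graphAlg N) :
    ((graphEquiv N hinj p : funAlg N) : ℍ → ℂ) = (p : (ℍ → ℂ) × LaurentSeries Qbar).1 := rfl

/-- The `q`-expansion homomorphism. -/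
noncomputable def qExpHomOf (N : ℕ) [NeZero N] (hinj : Injective (graphFst N)) :
    funAlg N →ₐ[Qbar] FF N :=
  (graphSndFF N).comp (graphEquiv N hinj).symm.toAlgHom

theorem rep_qExpHomOf [NeZero N] (h : IsRepRel Rep)
    (hgen : ∀ (d : ℕ) [NeZero d], d ∣ N → Rep (cIota (jBarSeries d)) (jFunD d))
    (θ : funAlg N) :
    Rep (cIota ((qExpHomOf N (graphFst_injective h hgen) θ : FF N) : LaurentSeries Qbar))
      (θ : ℍ → ℂ) := by
  set hinj := graphFst_injective h hgen
  obtain ⟨p, rfl⟩ := (graphEquiv N hinj).surjective θ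
  have h1 : qExpHomOf N hinj (graphEquiv N hinj p) = graphSndFF N p := by
    simp [qExpHomOf]
  rw [h1, coe_graphSndFF, coe_graphEquiv]
  exact rep_of_mem_graphAlg h hgen p.2

theorem qExpHomOf_injective [NeZero N] (h : IsRepRel Rep)
    (hgen : ∀ (d : ℕ) [NeZero d], d ∣ N → Rep (cIota (jBarSeries d)) (jFunD d)) :
    Injective (qExpHomOf N (graphFst_injective h hgen)) := by
  have h2 : Injective (graphSndFF N) := by
    intro p p' hp
    apply graphSnd_injective h hgen
    exact congrArg Subtype.val hp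
  exact h2.comp (graphEquiv N _).symm.injective

theorem exists_qExpHom_of_rep (N : ℕ) [NeZero N] (Rep : LaurentSeries ℂ → (ℍ → ℂ) → Prop)
    (h : IsRepRel Rep)
    (hgen : ∀ (d : ℕ) [NeZero d], d ∣ N →
      Rep (ModularCurve.coeffMap iota.toRingHom (jBarSeries d)) (jFunD d)) :
    ∃ ρ : funAlg N →ₐ[Qbar] FF N, Function.Injective ρ ∧
      (∀ (d : ℕ) [NeZero d] (hd : d ∣ N), ρ (jAlg N d hd) = jBar N d hd) ∧
      (∀ f : FF N, ∃ a b : funAlg N, b ≠ 0 ∧ f * ρ b = ρ a) := by
  set hinj := graphFst_injective h hgen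
  have hsurj : ∀ x ∈ Algebra.adjoin Qbar (serGens N), ∃ a : funAlg N,
      ((qExpHomOf N hinj a : FF N) : LaurentSeries Qbar) = x := by
    intro x hx
    rw [← range_graphSnd] at hx
    obtain ⟨p, rfl⟩ := hx
    refine ⟨graphEquiv N hinj p, ?_⟩
    have h1 : qExpHomOf N hinj (graphEquiv N hinj p) = graphSndFF N p := by
      simp [qExpHomOf]
    rw [h1]
    rfl
  refine ⟨qExpHomOf N hinj, qExpHomOf_injective h hgen, ?_, ?_⟩
  · intro d _ hd
    have hp : ((jFunD d, jBarSeries d) : (ℍ → ℂ) × LaurentSeries Qbar) ∈ graphAlg N :=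
      Algebra.subset_adjoin ⟨d, inferInstance, hd, rfl⟩
    have h0 : jAlg N d hd = graphEquiv N hinj ⟨_, hp⟩ := rfl
    have h1 : qExpHomOf N hinj (graphEquiv N hinj ⟨_, hp⟩) = graphSndFF N ⟨_, hp⟩ := by
      simp [qExpHomOf]
    rw [h0, h1]
    rfl
  · rintro ⟨f, hf⟩
    have hf' := hf
    rw [modularFunctionFieldBar_eq, IntermediateField.mem_adjoin_iff_div] at hf'
    obtain ⟨r, hr, s, hs, rfl⟩ := hf'
    obtain ⟨a, ha⟩ := hsurj r hr
    obtain ⟨b, hb⟩ := hsurj s hs
    by_cases hs0 : s = 0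
    · refine ⟨0, 1, one_ne_zero, ?_⟩
      apply Subtype.ext
      simp [hs0]
    · refine ⟨a, b, ?_, ?_⟩
      · rintro rfl
        apply hs0
        rw [← hb]
        simp
      · apply Subtype.ext
        show r / s * ((qExpHomOf N hinj b : FF N) : LaurentSeries Qbar)
          = ((qExpHomOf N hinj a : FF N) : LaurentSeries Qbar)
        rw [ha, hb, div_mul_cancel₀ _ hs0]


theorem IsRepRel.sum (h : IsRepRel Rep) {κ : Type*} (s : Finset κ) (x : κ → LaurentSeries ℂ)
    (f : κ → (ℍ → ℂ)) (hx : ∀ i ∈ s, Rep (x i) (f i)) :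
    Rep (∑ i ∈ s, x i) (∑ i ∈ s, f i) := by
  classical
  induction s using Finset.induction_on with
  | empty =>
    have h0 := h.const 0
    rw [map_zero] at h0
    rw [Finset.sum_empty, Finset.sum_empty]
    exact h0
  | insert a s ha ih =>
    rw [Finset.sum_insert ha, Finset.sum_insert ha]
    exact h.add (hx a (Finset.mem_insert_self _ _))
      (ih fun i hi => hx i (Finset.mem_insert_of_mem hi))

theorem coeff_smul_FF (a : Qbar) (x : FF N) (m : ℤ) :
    ((a • x : FF N) : LaurentSeries Qbar).coeff m = a * (x : LaurentSeries Qbar).coeff m := by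
  rw [Algebra.smul_def]
  show (algebraMap Qbar (LaurentSeries Qbar) a * (x : LaurentSeries Qbar)).coeff m = _
  rw [ModularCurve.algebraMap_laurentSeries_eq_single, HahnSeries.coeff_single_mul, sub_zero]

theorem coeff_sum_FF {κ : Type*} (s : Finset κ) (x : κ → FF N) (m : ℤ) :
    ((∑ i ∈ s, x i : FF N) : LaurentSeries Qbar).coeff m
      = ∑ i ∈ s, (x i : LaurentSeries Qbar).coeff m := by
  have h9 := map_sum (ModularCurve.modularFunctionFieldBar N).val x s
  have h10 : ((∑ i ∈ s, x i : FF N) : LaurentSeries Qbar)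
      = ∑ i ∈ s, (x i : LaurentSeries Qbar) := h9
  rw [h10, HahnSeries.coeff_sum]

theorem linearIndependent_complex_of_rep (N : ℕ) [NeZero N]
    (Rep : LaurentSeries ℂ → (ℍ → ℂ) → Prop) (h : IsRepRel Rep)
    (hgen : ∀ (d : ℕ) [NeZero d], d ∣ N →
      Rep (ModularCurve.coeffMap iota.toRingHom (jBarSeries d)) (jFunD d))
    {κ : Type*} (θ : κ → funAlg N) (hθ : LinearIndependent Qbar θ) :
    LinearIndependent ℂ (fun i => ((θ i : funAlg N) : ℍ → ℂ)) := by
  classical
  set hinj := graphFst_injective h hgen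
  set ρ := qExpHomOf N hinj with hρ
  rw [linearIndependent_iff']
  intro s c hc i hi
  -- the relation on Laurent series
  have h1 : Rep (∑ i ∈ s, HahnSeries.C (c i) * cIota ((ρ (θ i) : FF N) : LaurentSeries Qbar))
      (∑ i ∈ s, (fun _ => c i) * ((θ i : funAlg N) : ℍ → ℂ)) :=
    h.sum s _ _ fun i _ => h.mul (h.const _) (rep_qExpHomOf h hgen (θ i))
  have h2 : (∑ i ∈ s, (fun _ => c i) * ((θ i : funAlg N) : ℍ → ℂ)) = 0 := by
    rw [← hc]
    refine Finset.sum_congr rfl fun i _ => ?_
    ext τ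
    simp
  have h3 := (h.eq_zero_iff h1).mpr h2
  -- coefficientwise
  have h4 : ∀ m : ℤ, ∑ i ∈ s, c i * iota (((ρ (θ i) : FF N) : LaurentSeries Qbar).coeff m) = 0 := by
    intro m
    have := congrArg (fun z => HahnSeries.coeff z m) h3
    simp only [HahnSeries.coeff_sum, HahnSeries.coeff_zero] at this
    rw [← this]
    refine Finset.sum_congr rfl fun i _ => ?_
    rw [HahnSeries.C_mul_eq_smul, HahnSeries.coeff_smul]
    rfl
  -- apply functionals
  rw [← Module.forall_dual_apply_eq_zero_iff Qbar (c i)]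
  intro lam
  have h5 : ∑ i ∈ s, lam (c i) • θ i = 0 := by
    apply qExpHomOf_injective h hgen
    rw [map_zero, map_sum]
    apply Subtype.ext
    ext m
    have h6 := congrArg lam (h4 m)
    rw [map_zero, map_sum] at h6
    rw [← hρ]
    simp only [map_smul]
    rw [coeff_sum_FF]
    simp only [coeff_smul_FF]
    rw [show (((0 : FF N) : LaurentSeries Qbar)).coeff m = 0 from rfl, ← h6]
    refine Finset.sum_congr rfl fun i _ => ?_
    have h8 : c i * iota (((ρ (θ i) : FF N) : LaurentSeries Qbar).coeff m)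
        = (((ρ (θ i) : FF N) : LaurentSeries Qbar).coeff m) • c i := by
      rw [Algebra.smul_def, mul_comm]
      rfl
    rw [h8, map_smul, smul_eq_mul, mul_comm]
  exact (linearIndependent_iff'.mp hθ) s (fun i => lam (c i)) h5 i hi

end

end Fermat.Agent.S24
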