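import Fermat.Agent.S24.AnDefs

/-!
# S24 / B2 : the `q`-expansions of `E₄` and `Δ` are the formal series of the prelude
-/

set_option autoImplicit false

namespace Fermat.Agent.S24

open UpperHalfPlane ModularForm Filter Function ModularGroup
open scoped MatrixGroups Manifold Topology

attribute [local instance] algQbarComplex

local notation "𝕢" => Periodic.qParam

/-! ## `E₄` -/

theorem qExpansion_E4_eq :
    qExpansion 1 (E₄ : ℍ → ℂ) = PowerSeries.map (Int.castRingHom ℂ) ModularCurve.eisenstein4 := by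
  ext m
  rw [EisensteinSeries.E_qExpansion_coeff _ ⟨2, rfl⟩]
  simp only [ModularCurve.eisenstein4, PowerSeries.coeff_map, PowerSeries.coeff_mk]
  split_ifs with h
  · simp
  · norm_num [show bernoulli 4 = -1 / 30 by decide +kernel, ArithmeticFunction.sigma_apply]

/-! ## Taylor series at `0` as formal power series, and `Δ` -/

/-- The Taylor series at `0` of a function `ℂ → ℂ`, as a formal power series. -/
noncomputable def tay (g : ℂ → ℂ) : PowerSeries ℂ :=
  .mk fun m ↦ (↑m.factorial)⁻¹ * iteratedDeriv m g 0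

theorem tay_coeff (g : ℂ → ℂ) (m : ℕ) :
    (tay g).coeff m = (↑m.factorial)⁻¹ * iteratedDeriv m g 0 := by
  simp [tay]

theorem qExpansion_eq_tay (h : ℝ) (f : ℍ → ℂ) : qExpansion h f = tay (cuspFunction h f) := rfl

theorem tay_congr {f g : ℂ → ℂ} (h : f =ᶠ[𝓝 0] g) : tay f = tay g := by
  ext m
  rw [tay_coeff, tay_coeff, h.iteratedDeriv_eq]

theorem tay_mul {f g : ℂ → ℂ} (hf : AnalyticAt ℂ f 0) (hg : AnalyticAt ℂ g 0) :
    tay (f * g) = tay f * tay g := by
  ext
  simp only [tay_coeff,
    iteratedDeriv_mul hf.contDiffAt hg.contDiffAt, Finset.mul_sum, PowerSeries.coeff_mul,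
    Finset.Nat.sum_antidiagonal_eq_sum_range_succ_mk, Nat.succ_eq_add_one]
  refine Finset.sum_congr rfl fun i hi ↦ ?_
  rw [Nat.cast_choose _ (by grind)]
  field_simp [Nat.factorial_ne_zero]

theorem tay_sub {f g : ℂ → ℂ} (hf : AnalyticAt ℂ f 0) (hg : AnalyticAt ℂ g 0) :
    tay (f - g) = tay f - tay g := by
  ext m
  simp [tay_coeff, iteratedDeriv_sub hf.contDiffAt hg.contDiffAt, mul_sub]

theorem tay_one : tay (1 : ℂ → ℂ) = 1 := by
  ext m
  have h2 : iteratedDeriv m (1 : ℂ → ℂ) 0 = if m = 0 then 1 else 0 := by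
    simpa [ite_apply] using! iteratedDeriv_const
  simp +contextual [tay_coeff, h2]

theorem tay_id : tay (id : ℂ → ℂ) = PowerSeries.X := by
  ext m
  rw [tay_coeff, PowerSeries.coeff_X]
  rcases m with _ | _ | m
  · simp
  · simp [iteratedDeriv_succ]
  · have : iteratedDeriv (m + 1 + 1) (id : ℂ → ℂ) = 0 := by
      rw [iteratedDeriv_succ', iteratedDeriv_succ']
      ext x
      simp
    simp [this]

theorem tay_pow {f : ℂ → ℂ} (hf : AnalyticAt ℂ f 0) (n : ℕ) : tay (f ^ n) = tay f ^ n := by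
  induction n with
  | zero => simpa using tay_one
  | succ n ih => rw [pow_succ, tay_mul (hf.pow n) hf, ih, pow_succ]

theorem tay_prod {ι : Type*} (s : Finset ι) (f : ι → ℂ → ℂ) (hf : ∀ i ∈ s, AnalyticAt ℂ (f i) 0) :
    tay (∏ i ∈ s, f i) = ∏ i ∈ s, tay (f i) := by
  classical
  induction s using Finset.induction_on with
  | empty => simpa using tay_one
  | insert a s ha ih =>
    rw [Finset.prod_insert ha, Finset.prod_insert ha, tay_mul (hf a (by simp)), ih]
    · exact fun i hi => hf i (by simp [hi])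
    · exact Finset.analyticAt_prod _ fun i hi => hf i (by simp [hi])

/-- Weierstrass: Taylor coefficients are continuous for locally uniform convergence. -/
theorem tendsto_tay_coeff {ι : Type*} {φ : Filter ι} {F : ι → ℂ → ℂ} {g : ℂ → ℂ} {U : Set ℂ}
    (hU : IsOpen U) (h0 : (0 : ℂ) ∈ U) (hF : TendstoLocallyUniformlyOn F g φ U)
    (hd : ∀ᶠ i in φ, DifferentiableOn ℂ (F i) U) (m : ℕ) :
    Tendsto (fun i => (tay (F i)).coeff m) φ (𝓝 ((tay g).coeff m)) := by
  have key : ∀ m : ℕ, TendstoLocallyUniformlyOn (fun i => iteratedDeriv m (F i))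
      (iteratedDeriv m g) φ U ∧ ∀ᶠ i in φ, DifferentiableOn ℂ (iteratedDeriv m (F i)) U := by
    intro m
    induction m with
    | zero => simpa using ⟨hF, hd⟩
    | succ m ih =>
      simp only [iteratedDeriv_succ]
      refine ⟨ih.1.deriv ih.2 hU, ?_⟩
      filter_upwards [ih.2] with i hi
      exact hi.deriv hU
  simp only [tay_coeff]
  exact ((key m).1.tendsto_at h0).const_mul _

theorem tay_one_sub_pow (n : ℕ) :
    tay (fun q : ℂ => 1 - q ^ n) = 1 - PowerSeries.X ^ n := by
  have h : (fun q : ℂ => 1 - q ^ n) = 1 - id ^ n := by ext q; simp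
  rw [h, tay_sub (f := 1) analyticAt_const (analyticAt_id.pow n), tay_one, tay_pow analyticAt_id,
    tay_id]

open scoped PowerSeries.WithPiTopology in
theorem tay_tprod_one_sub_pow :
    tay (fun q : ℂ => ∏' n : ℕ, (1 - q ^ (n + 1))) =
      PowerSeries.map (Int.castRingHom ℂ) ModularCurve.etaProd := by
  ext m
  have h1 := tendsto_tay_coeff Metric.isOpen_ball (Metric.mem_ball_self one_pos)
    multipliableLocallyUniformlyOn_one_sub_pow.hasProdLocallyUniformlyOn
    (.of_forall fun _ ↦ by simpa [Finset.prod_fn] using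
      DifferentiableOn.finsetProd (fun _ _ ↦ by fun_prop)) m
  have h2 : ∀ s : Finset ℕ, tay (fun q : ℂ => ∏ i ∈ s, (1 - q ^ (i + 1))) =
      PowerSeries.map (Int.castRingHom ℂ) (∏ i ∈ s, (1 - PowerSeries.X ^ (i + 1))) := by
    intro s
    have h : (fun q : ℂ => ∏ i ∈ s, (1 - q ^ (i + 1))) = ∏ i ∈ s, fun q : ℂ => 1 - q ^ (i + 1) := by
      ext q; simp
    rw [h, tay_prod _ _ (fun i _ => by fun_prop), map_prod]
    refine Finset.prod_congr rfl fun i _ => ?_
    rw [tay_one_sub_pow]
    simp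
  have h3 : Tendsto (fun s : Finset ℕ => PowerSeries.coeff m
      (∏ i ∈ s, (1 - PowerSeries.X ^ (i + 1)) : PowerSeries ℤ)) atTop
      (𝓝 (PowerSeries.coeff m ModularCurve.etaProd)) :=
    ((PowerSeries.WithPiTopology.continuous_coeff ℤ m).tendsto _).comp
      (PowerSeries.WithPiTopology.multipliable_one_sub_X_pow ℤ).hasProd
  have h4 := ((continuous_of_discreteTopology (f := fun k : ℤ => (k : ℂ))).tendsto _).comp h3
  refine tendsto_nhds_unique h1 ?_
  simp only [h2, PowerSeries.coeff_map]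
  exact h4

theorem qExpansion_discriminant_eq :
    qExpansion 1 discriminant =
      PowerSeries.X * PowerSeries.map (Int.castRingHom ℂ) ModularCurve.dedekindEtaUnit := by
  have hP : AnalyticAt ℂ (fun q : ℂ => ∏' n : ℕ, (1 - q ^ (n + 1))) 0 :=
    differentiableOn_tprod_one_sub_pow.analyticAt (Metric.ball_mem_nhds _ one_pos)
  have h : cuspFunction 1 discriminant =ᶠ[𝓝 0]
      (id * (fun q : ℂ => ∏' n : ℕ, (1 - q ^ (n + 1))) ^ 24) := by
    filter_upwards [Metric.ball_mem_nhds (0 : ℂ) one_pos] with q hq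
    rw [discriminant_cuspFunction_eqOn hq]
    simp [(multipliable_one_sub_pow (by simpa using hq)).tprod_pow 24]
  rw [qExpansion_eq_tay, tay_congr h, tay_mul analyticAt_id (hP.pow 24), tay_id, tay_pow hP,
    tay_tprod_one_sub_pow, ModularCurve.dedekindEtaUnit, map_pow]

end Fermat.Agent.S24
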