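import Fermat.Agent.S24.AnDefs

/-!
# S24 B4.1 : `Rep` calculus, Laurent series versus functions on the upper half plane
-/

set_option autoImplicit false

namespace Fermat.Agent.S24

open UpperHalfPlane ModularForm Filter Function ModularGroup
open scoped MatrixGroups Manifold Topology

attribute [local instance] algQbarComplex

local notation "𝕢" => Periodic.qParam

/-- holomorphic, `1`-periodic and bounded at `i∞`. -/
def Nice (g : ℍ → ℂ) : Prop := MDiff g ∧ Periodic (g ∘ ofComplex) 1 ∧ IsBoundedAtImInfty g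

/-- The Laurent series `x` is the `q`-expansion of the (meromorphic at `i∞`) function `f`. -/
def Rep (x : LaurentSeries ℂ) (f : ℍ → ℂ) : Prop :=
  ∃ g : ℍ → ℂ, Nice g ∧ (∀ τ, g τ ≠ 0) ∧ Nice (f * g) ∧
    x * HahnSeries.ofPowerSeries ℤ ℂ (qExpansion 1 g) = HahnSeries.ofPowerSeries ℤ ℂ (qExpansion 1 (f * g))

theorem Nice.mul {f g : ℍ → ℂ} (hf : Nice f) (hg : Nice g) : Nice (f * g) := by
  refine ⟨hf.1.mul hg.1, ?_, hf.2.2.mul hg.2.2⟩
  intro z
  have h1 := hf.2.1 z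
  have h2 := hg.2.1 z
  simp only [comp_apply, Pi.mul_apply] at h1 h2 ⊢
  rw [h1, h2]

theorem Nice.add {f g : ℍ → ℂ} (hf : Nice f) (hg : Nice g) : Nice (f + g) := by
  refine ⟨hf.1.add hg.1, ?_, hf.2.2.add hg.2.2⟩
  intro z
  have h1 := hf.2.1 z
  have h2 := hg.2.1 z
  simp only [comp_apply, Pi.add_apply] at h1 h2 ⊢
  rw [h1, h2]

theorem Nice.const (c : ℂ) : Nice (fun _ => c) :=
  ⟨mdifferentiable_const, fun _ => rfl, Filter.const_boundedAtFilter _ c⟩

theorem Nice.one : Nice (1 : ℍ → ℂ) := Nice.const 1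

theorem Nice.analyticAt {g : ℍ → ℂ} (hg : Nice g) : AnalyticAt ℂ (cuspFunction 1 g) 0 :=
  analyticAt_cuspFunction_zero one_pos hg.2.1 hg.1 hg.2.2

theorem Nice.qExpansion_mul {f g : ℍ → ℂ} (hf : Nice f) (hg : Nice g) :
    qExpansion 1 (f * g) = qExpansion 1 f * qExpansion 1 g :=
  UpperHalfPlane.qExpansion_mul hf.analyticAt hg.analyticAt

theorem Nice.qExpansion_add {f g : ℍ → ℂ} (hf : Nice f) (hg : Nice g) :
    qExpansion 1 (f + g) = qExpansion 1 f + qExpansion 1 g :=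
  UpperHalfPlane.qExpansion_add hf.analyticAt hg.analyticAt

theorem Nice.qExpansion_eq_zero_iff {g : ℍ → ℂ} (hg : Nice g) : qExpansion 1 g = 0 ↔ g = 0 :=
  UpperHalfPlane.qExpansion_eq_zero_iff one_pos hg.2.1 hg.1 hg.2.2

theorem Nice.qExpansion_const (c : ℂ) : qExpansion 1 (fun _ : ℍ => c) = PowerSeries.C c := by
  have h : (fun _ : ℍ => c) = c • (1 : ℍ → ℂ) := by
    ext τ; simp
  rw [h, UpperHalfPlane.qExpansion_smul Nice.one.analyticAt, qExpansion_one]
  ext n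
  simp [PowerSeries.coeff_C, PowerSeries.coeff_one]

theorem Rep.add {x y : LaurentSeries ℂ} {f g : ℍ → ℂ} (hx : Rep x f) (hy : Rep y g) :
    Rep (x + y) (f + g) := by
  obtain ⟨a, ha, ha0, hfa, hxa⟩ := hx
  obtain ⟨b, hb, hb0, hgb, hyb⟩ := hy
  have e : (f + g) * (a * b) = (f * a) * b + (g * b) * a := by ring
  refine ⟨a * b, ha.mul hb, fun τ => mul_ne_zero (ha0 τ) (hb0 τ), ?_, ?_⟩
  · rw [e]; exact (hfa.mul hb).add (hgb.mul ha)
  · rw [e, ((hfa.mul hb).qExpansion_add (hgb.mul ha)), hfa.qExpansion_mul hb,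
      hgb.qExpansion_mul ha, ha.qExpansion_mul hb, map_add, map_mul, map_mul, map_mul, ← hxa, ← hyb]
    ring

theorem Rep.mul {x y : LaurentSeries ℂ} {f g : ℍ → ℂ} (hx : Rep x f) (hy : Rep y g) :
    Rep (x * y) (f * g) := by
  obtain ⟨a, ha, ha0, hfa, hxa⟩ := hx
  obtain ⟨b, hb, hb0, hgb, hyb⟩ := hy
  have e : (f * g) * (a * b) = (f * a) * (g * b) := by ring
  refine ⟨a * b, ha.mul hb, fun τ => mul_ne_zero (ha0 τ) (hb0 τ), ?_, ?_⟩
  · rw [e]; exact hfa.mul hgb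
  · rw [e, hfa.qExpansion_mul hgb, ha.qExpansion_mul hb, map_mul, map_mul, ← hxa, ← hyb]
    ring

theorem Rep.const (c : ℂ) : Rep (HahnSeries.C c) (fun _ => c) := by
  refine ⟨1, Nice.one, fun τ => one_ne_zero, ?_, ?_⟩
  · rw [mul_one]; exact Nice.const c
  · rw [mul_one, qExpansion_one, map_one, mul_one, Nice.qExpansion_const, HahnSeries.ofPowerSeries_C]

theorem Rep.eq_zero_iff {x : LaurentSeries ℂ} {f : ℍ → ℂ} (hx : Rep x f) : x = 0 ↔ f = 0 := by
  obtain ⟨a, ha, ha0, hfa, hxa⟩ := hx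
  have hinj : Function.Injective (HahnSeries.ofPowerSeries ℤ ℂ) := HahnSeries.ofPowerSeries_injective
  have ha' : HahnSeries.ofPowerSeries ℤ ℂ (qExpansion 1 a) ≠ 0 := by
    intro h
    rw [← map_zero (HahnSeries.ofPowerSeries ℤ ℂ)] at h
    have h2 := ha.qExpansion_eq_zero_iff.1 (hinj h)
    exact ha0 UpperHalfPlane.I (by rw [h2]; rfl)
  constructor
  · intro h
    rw [h, zero_mul, ← map_zero (HahnSeries.ofPowerSeries ℤ ℂ)] at hxa
    have h2 := hfa.qExpansion_eq_zero_iff.1 (hinj hxa).symm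
    ext τ
    have h3 := congrFun h2 τ
    simp only [Pi.mul_apply, Pi.zero_apply, mul_eq_zero] at h3
    exact h3.resolve_right (ha0 τ)
  · intro h
    rw [h, zero_mul, qExpansion_zero, map_zero] at hxa
    exact (mul_eq_zero.1 hxa).resolve_right ha'

end Fermat.Agent.S24
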