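import Fermat.Agent.S24.Rep
import Fermat.Agent.Common.QExpDelta
import Fermat.Prelude.Thm_ModularCurve_coeffMap_qExpand

/-!
# S24 B4.2 : the generators `j(dτ)` are represented by the Laurent series `j(q^d)`
-/

set_option autoImplicit false

namespace Fermat.Agent.S24

open UpperHalfPlane ModularForm Filter Function ModularGroup
open scoped MatrixGroups Manifold Topology

attribute [local instance] algQbarComplex

local notation "𝕢" => Periodic.qParam

/-- `τ ↦ f (dτ)`. -/
noncomputable def dil (d : ℕ) (f : ℍ → ℂ) : ℍ → ℂ := fun τ => f (ofComplex ((d : ℂ) * (τ : ℂ)))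

theorem im_dil_pos (d : ℕ) [NeZero d] {z : ℂ} (hz : 0 < z.im) : 0 < ((d : ℂ) * z).im := by
  have hd : (0 : ℝ) < d := by exact_mod_cast Nat.pos_of_ne_zero (NeZero.ne d)
  simpa using mul_pos hd hz

theorem coe_ofComplex_dil (d : ℕ) [NeZero d] (τ : ℍ) :
    ((ofComplex ((d : ℂ) * (τ : ℂ)) : ℍ) : ℂ) = (d : ℂ) * τ := by
  rw [ofComplex_apply_of_im_pos (im_dil_pos d τ.im_pos)]

theorem dil_mdiff (d : ℕ) [NeZero d] {f : ℍ → ℂ} (hf : MDiff f) : MDiff (dil d f) := by
  rw [UpperHalfPlane.mdifferentiable_iff] at hf ⊢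
  have h1 : DifferentiableOn ℂ (fun z : ℂ => (f ∘ ofComplex) ((d : ℂ) * z)) {z | 0 < z.im} := by
    refine hf.comp (by fun_prop) ?_
    intro z hz
    exact im_dil_pos d hz
  refine h1.congr ?_
  intro z hz
  simp only [comp_apply, dil]
  rw [ofComplex_apply_of_im_pos hz]

theorem dil_periodic (d : ℕ) [NeZero d] {f : ℍ → ℂ} (hf : Periodic (f ∘ ofComplex) 1) :
    Periodic (dil d f ∘ ofComplex) 1 := by
  intro z
  simp only [comp_apply, dil]
  by_cases hz : 0 < z.im
  · have hz' : 0 < (z + 1).im := by simpa using hz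
    rw [ofComplex_apply_of_im_pos hz, ofComplex_apply_of_im_pos hz']
    have := (hf.nat_mul d) ((d : ℂ) * z)
    simp only [comp_apply, mul_one] at this
    rw [mul_add, mul_one]
    exact this
  · have hz' : (z + 1).im ≤ 0 := by simpa using not_lt.mp hz
    rw [ofComplex_apply_of_im_nonpos hz', ofComplex_apply_of_im_nonpos (not_lt.mp hz)]

theorem qParam_dil (d : ℕ) (z : ℂ) : 𝕢 1 ((d : ℂ) * z) = 𝕢 1 z ^ d := by
  simp only [Periodic.qParam]
  rw [← Complex.exp_nat_mul]
  congr 1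
  ring

/-- the coefficients of `f(dτ)`. -/
noncomputable def dilCoeff (d : ℕ) (a : ℕ → ℂ) : ℕ → ℂ := fun n => if d ∣ n then a (n / d) else 0

theorem dil_hasSum (d : ℕ) [NeZero d] {f : ℍ → ℂ} (hf : Nice f) (τ : ℍ) :
    HasSum (fun m : ℕ => dilCoeff d (fun n => (qExpansion 1 f).coeff n) m • 𝕢 1 τ ^ m)
      (dil d f τ) := by
  have hd : 0 < d := Nat.pos_of_ne_zero (NeZero.ne d)
  have h1 := hasSum_qExpansion one_pos hf.2.1 hf.1 hf.2.2 (ofComplex ((d : ℂ) * (τ : ℂ)))
  rw [coe_ofComplex_dil, qParam_dil] at h1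
  have hinj : Function.Injective (fun m : ℕ => d * m) := fun a b h => by
    simpa [hd.ne'] using h
  rw [← hinj.hasSum_iff]
  · have h2 : ((fun m : ℕ => dilCoeff d (fun n => (qExpansion 1 f).coeff n) m • 𝕢 1 τ ^ m) ∘
        fun m : ℕ => d * m) = fun m => (qExpansion 1 f).coeff m • (𝕢 1 (τ : ℂ) ^ d) ^ m := by
      funext m
      simp only [comp_apply, dilCoeff, dvd_mul_right, if_true, Nat.mul_div_cancel_left _ hd,
        pow_mul]
    rw [h2]
    exact h1
  · intro m hm
    have : ¬ d ∣ m := fun ⟨c, hc⟩ => hm ⟨c, hc.symm⟩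
    simp [dilCoeff, this]

theorem dil_nice (d : ℕ) [NeZero d] {f : ℍ → ℂ} (hf : Nice f) : Nice (dil d f) :=
  ⟨dil_mdiff d hf.1, dil_periodic d hf.2.1,
    isBoundedAtImInfty_of_hasSum_qExpansion one_pos (dil_hasSum d hf)⟩

theorem qExpansion_dil_coeff (d : ℕ) [NeZero d] {f : ℍ → ℂ} (hf : Nice f) (m : ℕ) :
    (qExpansion 1 (dil d f)).coeff m = if d ∣ m then (qExpansion 1 f).coeff (m / d) else 0 := by
  have hana := (dil_nice d hf).analyticAt
  have h1 := (hasFPowerSeriesOnBall_cuspFunction one_pos hana (dil_hasSum d hf)).hasFPowerSeriesAt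
  have h2 := hana.hasFPowerSeriesAt
  have h3 := congr_arg (FormalMultilinearSeries.coeff · m) (h1.eq_formalMultilinearSeries h2)
  simp only [FormalMultilinearSeries.coeff_ofScalars] at h3
  rw [qExpansion_coeff, mul_comm, ← div_eq_mul_inv, ← h3]
  rfl

theorem ofPowerSeries_qExpansion_dil (d : ℕ) [NeZero d] {f : ℍ → ℂ} (hf : Nice f) :
    HahnSeries.ofPowerSeries ℤ ℂ (qExpansion 1 (dil d f)) =
      ModularCurve.qExpand ℂ d (HahnSeries.ofPowerSeries ℤ ℂ (qExpansion 1 f)) := by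
  have hd : 0 < d := Nat.pos_of_ne_zero (NeZero.ne d)
  ext k
  by_cases hk : (d : ℤ) ∣ k
  · obtain ⟨c, rfl⟩ := hk
    rw [ModularCurve.qExpand_coeff_mul]
    rcases lt_or_ge c 0 with hc | hc
    · rw [ModularCurve.ofPowerSeries_coeff_of_neg _ hc, ModularCurve.ofPowerSeries_coeff_of_neg]
      exact mul_neg_of_pos_of_neg (by exact_mod_cast hd) hc
    · obtain ⟨n, rfl⟩ := Int.eq_ofNat_of_zero_le hc
      rw [HahnSeries.ofPowerSeries_apply_coeff, ← Nat.cast_mul, HahnSeries.ofPowerSeries_apply_coeff,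
        qExpansion_dil_coeff d hf, if_pos (dvd_mul_right _ _), Nat.mul_div_cancel_left _ hd]
  · rw [ModularCurve.qExpand_coeff_of_not_dvd _ _ hk]
    rcases lt_or_ge k 0 with hc | hc
    · rw [ModularCurve.ofPowerSeries_coeff_of_neg _ hc]
    · obtain ⟨n, rfl⟩ := Int.eq_ofNat_of_zero_le hc
      rw [HahnSeries.ofPowerSeries_apply_coeff, qExpansion_dil_coeff d hf, if_neg]
      intro h
      exact hk (by exact_mod_cast h)

theorem nice_levelOne {k : ℤ} (f : ModularForm 𝒮ℒ k) : Nice (f : ℍ → ℂ) :=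
  ⟨f.holo', SlashInvariantFormClass.periodic_comp_ofComplex f one_mem_strictPeriods_SL,
    ModularFormClass.bdd_at_infty f⟩

theorem nice_E4 : Nice (E₄ : ℍ → ℂ) := nice_levelOne E₄

theorem nice_discriminant : Nice discriminant :=
  ⟨CuspForm.discriminant.holo',
    SlashInvariantFormClass.periodic_comp_ofComplex CuspForm.discriminant one_mem_strictPeriods_SL,
    ModularFormClass.bdd_at_infty CuspForm.discriminant⟩

theorem coeffMap_ofPowerSeries {R S : Type*} [CommRing R] [CommRing S] (φ : R →+* S)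
    (f : PowerSeries R) :
    ModularCurve.coeffMap φ (HahnSeries.ofPowerSeries ℤ R f) =
      HahnSeries.ofPowerSeries ℤ S (f.map φ) := by
  ext k
  rw [ModularCurve.coeffMap_coeff]
  rcases lt_or_ge k 0 with hc | hc
  · rw [ModularCurve.ofPowerSeries_coeff_of_neg _ hc, ModularCurve.ofPowerSeries_coeff_of_neg _ hc,
      map_zero]
  · obtain ⟨n, rfl⟩ := Int.eq_ofNat_of_zero_le hc
    rw [HahnSeries.ofPowerSeries_apply_coeff, HahnSeries.ofPowerSeries_apply_coeff,
      PowerSeries.coeff_map]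

/-- the formal identity `j(q) * Δ(q) = E₄(q)³` over `ℂ`. -/
theorem jq_mul_discriminant :
    ModularCurve.coeffMap (iota : Qbar →+* ℂ) (ModularCurve.coeffEmb Qbar ModularCurve.jq) *
        HahnSeries.ofPowerSeries ℤ ℂ (qExpansion 1 discriminant) =
      HahnSeries.ofPowerSeries ℤ ℂ (qExpansion 1 ((E₄ : ℍ → ℂ) * ((E₄ : ℍ → ℂ) * (E₄ : ℍ → ℂ)))) := by
  rw [(nice_E4).qExpansion_mul (nice_E4.mul nice_E4), nice_E4.qExpansion_mul nice_E4,
    Fermat.Agent.Common.qExpansion_E4, Fermat.Agent.Common.qExpansion_discriminant,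
    ModularCurve.coeffEmb, ModularCurve.coeffMap_coeffMap, ModularCurve.jq, map_mul,
    ModularCurve.coeffMap_single, map_one, coeffMap_ofPowerSeries, ModularCurve.jNumQ]
  have hφ : (((iota : Qbar →+* ℂ).comp (algebraMap ℚ Qbar)).comp (Int.castRingHom ℚ)) =
      Int.castRingHom ℂ := RingHom.ext_int _ _
  have hψ : PowerSeries.map ((iota : Qbar →+* ℂ).comp (algebraMap ℚ Qbar))
      (PowerSeries.map (Int.castRingHom ℚ) ModularCurve.jNum) =
      PowerSeries.map (Int.castRingHom ℂ) ModularCurve.jNum := by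
    rw [← hφ]
    ext n
    simp only [PowerSeries.coeff_map, RingHom.comp_apply]
  rw [hψ, mul_assoc, ← map_mul, ← map_mul]
  have h1 : ModularCurve.jNum * (PowerSeries.X * ModularCurve.dedekindEtaUnit) =
      PowerSeries.X * (ModularCurve.eisenstein4 * (ModularCurve.eisenstein4 *
        ModularCurve.eisenstein4)) := by
    rw [ModularCurve.jNum]
    calc ModularCurve.eisenstein4 ^ 3 * ModularCurve.dedekindEtaUnitInv *
          (PowerSeries.X * ModularCurve.dedekindEtaUnit)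
        = PowerSeries.X * ModularCurve.eisenstein4 ^ 3 *
          (ModularCurve.dedekindEtaUnit * ModularCurve.dedekindEtaUnitInv) := by ring
      _ = _ := by rw [ModularCurve.dedekindEtaUnit_mul_inv]; ring
  rw [h1, map_mul, map_mul, PowerSeries.map_X, HahnSeries.ofPowerSeries_X, ← mul_assoc,
    HahnSeries.single_mul_single]
  simp

theorem rep_jFunD (d : ℕ) [NeZero d] :
    Rep (ModularCurve.coeffMap (iota : Qbar →+* ℂ) (jBarSeries d)) (jFunD d) := by
  have hE : Nice ((E₄ : ℍ → ℂ) * ((E₄ : ℍ → ℂ) * (E₄ : ℍ → ℂ))) := nice_E4.mul (nice_E4.mul nice_E4)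
  have hmul : jFunD d * dil d discriminant =
      dil d ((E₄ : ℍ → ℂ) * ((E₄ : ℍ → ℂ) * (E₄ : ℍ → ℂ))) := by
    funext τ
    simp only [Pi.mul_apply, jFunD, jFun, dil]
    rw [div_mul_cancel₀ _ (discriminant_ne_zero _)]
    ring
  refine ⟨dil d discriminant, dil_nice d nice_discriminant, fun τ => discriminant_ne_zero _, ?_, ?_⟩
  · rw [hmul]
    exact dil_nice d hE
  · rw [hmul, ofPowerSeries_qExpansion_dil d hE, ofPowerSeries_qExpansion_dil d nice_discriminant,
      ← jq_mul_discriminant, map_mul, jBarSeries, ModularCurve.coeffEmb,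
      ModularCurve.coeffMap_qExpand, ModularCurve.coeffMap_qExpand]

end Fermat.Agent.S24
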